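/-
Kummer functions on a model with two charts: the sheaf of `n`-th roots of `f`, and the lemma
turning compatible first order roots into a global root.
-/
import Mathlib

set_option autoImplicit false

noncomputable section

namespace Fermat.Agent.Models

variable {O F : Type} [CommRing O] [Field F] [Algebra O F]

/-- Closed under `n`-th roots in the ambient field. -/
def RootClosed (B : Subalgebra O F) (n : ℕ) : Prop := ∀ x : F, x ^ n ∈ B → x ∈ B

/-- Integrally closed subalgebras are closed under roots. -/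
theorem rootClosed_of_isIntegral {B : Subalgebra O F} {n : ℕ} (hn : 0 < n)
    (h : ∀ x : F, IsIntegral B x → x ∈ B) : RootClosed B n := fun x hx =>
  h x (IsIntegral.of_pow hn (isIntegral_algebraMap (R := B) (A := F) (x := (⟨x ^ n, hx⟩ : B))))

variable {B B' : Subalgebra O F} {n : ℕ}

/-- The sections of the sheaf of `n`-th roots of `f`. -/
def rootModule (hB : RootClosed B n) (hn : 0 < n) (f : F) : Submodule B F where
  carrier := {x | x ^ n / f ∈ B}
  zero_mem' := by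
    show (0 : F) ^ n / f ∈ B
    rw [zero_pow hn.ne', zero_div]
    exact zero_mem _
  add_mem' := by
    intro x y hx hy
    simp only [Set.mem_setOf_eq] at hx hy ⊢
    rw [add_pow, Finset.sum_div]
    refine Subalgebra.sum_mem _ fun a ha => ?_
    have ha' : a ≤ n := Nat.lt_succ_iff.mp (Finset.mem_range.mp ha)
    rw [mul_div_right_comm]
    refine mul_mem (hB _ ?_) (Subalgebra.natCast_mem B _)
    have e : (x ^ a * y ^ (n - a) / f) ^ n = (x ^ n / f) ^ a * (y ^ n / f) ^ (n - a) := by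
      rw [div_pow, mul_pow, div_pow, div_pow, div_mul_div_comm, ← pow_add,
        Nat.add_sub_cancel' ha', ← pow_mul, ← pow_mul, ← pow_mul, ← pow_mul, mul_comm a n,
        mul_comm (n - a) n]
    rw [e]
    exact mul_mem (pow_mem hx _) (pow_mem hy _)
  smul_mem' := by
    intro b x hx
    simp only [Set.mem_setOf_eq] at hx ⊢
    rw [Algebra.smul_def, mul_pow, mul_div_assoc]
    exact mul_mem (pow_mem b.2 _) hx

variable {hB : RootClosed B n} {hB' : RootClosed B' n} {hn : 0 < n}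

theorem mem_rootModule {f x : F} : x ∈ rootModule hB hn f ↔ x ^ n / f ∈ B := Iff.rfl

theorem mul_mem_rootModule {f g x y : F} (hx : x ∈ rootModule hB hn f)
    (hy : y ∈ rootModule hB hn g) : x * y ∈ rootModule hB hn (f * g) := by
  rw [mem_rootModule, mul_pow, ← div_mul_div_comm]
  exact mul_mem hx hy

theorem rootModule_one {x : F} : x ∈ rootModule hB hn 1 ↔ x ∈ B := by
  rw [mem_rootModule, div_one]
  exact ⟨fun h => hB x h, fun h => pow_mem h n⟩

theorem mul_mem_of_inv {f x y : F} (hf : f ≠ 0) (hx : x ∈ rootModule hB hn f)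
    (hy : y ∈ rootModule hB hn f⁻¹) : x * y ∈ B := by
  have := mul_mem_rootModule hx hy
  rwa [mul_inv_cancel₀ hf, rootModule_one] at this

theorem mul_left_mem {f x b : F} (hb : b ∈ B) (hx : x ∈ rootModule hB hn f) :
    b * x ∈ rootModule hB hn f :=
  (rootModule hB hn f).smul_mem ⟨b, hb⟩ hx

theorem rootModule_mono (h : B ≤ B') {f x : F} (hx : x ∈ rootModule hB hn f) :
    x ∈ rootModule hB' hn f := h hx

/-- The sheaf of roots is invertible on the chart. -/
def IsExtendable (hB : RootClosed B n) (hn : 0 < n) (f : F) : Prop :=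
  ∃ (k : ℕ) (x y : Fin k → F), (∀ a, x a ∈ rootModule hB hn f) ∧
    (∀ a, y a ∈ rootModule hB hn f⁻¹) ∧ ∑ a, x a * y a = 1

/-- Two charts, their overlap, and the constants. -/
structure Charts (O F : Type) [CommRing O] [Field F] [Algebra O F] (n : ℕ) where
  w : F
  w_ne : w ≠ 0
  B₀ : Subalgebra O F
  B₁ : Subalgebra O F
  B₀₁ : Subalgebra O F
  le₀ : B₀ ≤ B₀₁
  le₁ : B₁ ≤ B₀₁
  w_mem : w ∈ B₀
  w_inv_mem : w⁻¹ ∈ B₁
  loc₀ : ∀ b ∈ B₀₁, ∃ E : ℕ, w ^ E * b ∈ B₀
  loc₁ : ∀ b ∈ B₀₁, ∃ E : ℕ, w⁻¹ ^ E * b ∈ B₁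
  fg₀ : ∃ (k : ℕ) (g : Fin k → F), (∀ i, g i ∈ B₀) ∧ ∀ b ∈ B₀,
    ∃ P : Fin k → Polynomial O, b = ∑ i, Polynomial.aeval w (P i) * g i
  root₀ : RootClosed B₀ n
  root₁ : RootClosed B₁ n
  root₀₁ : RootClosed B₀₁ n
  constants : ∀ x ∈ B₀, x ∈ B₁ → ∃ c : O, algebraMap O F c = x

namespace Charts

variable {n : ℕ} (M : Charts O F n) (hn : 0 < n)

/-- Sections on the first chart, over the base. -/
def sec₀ (f : F) : Submodule O F := (rootModule M.root₀ hn f).restrictScalars O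
/-- Sections on the second chart, over the base. -/
def sec₁ (f : F) : Submodule O F := (rootModule M.root₁ hn f).restrictScalars O
/-- Sections on the overlap, over the base. -/
def sec₀₁ (f : F) : Submodule O F := (rootModule M.root₀₁ hn f).restrictScalars O

theorem sec₀_le (f : F) : M.sec₀ hn f ≤ M.sec₀₁ hn f := fun _ hx => M.le₀ hx
theorem sec₁_le (f : F) : M.sec₁ hn f ≤ M.sec₀₁ hn f := fun _ hx => M.le₁ hx

theorem pow_mem_B₁ {E E' : ℕ} (h : E ≤ E') {b : F} (hb : M.w⁻¹ ^ E * b ∈ M.B₁) :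
    M.w⁻¹ ^ E' * b ∈ M.B₁ := by
  obtain ⟨d, rfl⟩ := Nat.exists_eq_add_of_le h
  rw [pow_add, mul_comm (M.w⁻¹ ^ E), mul_assoc]
  exact mul_mem (pow_mem M.w_inv_mem d) hb

/-- The Cech cokernel is generated by finitely many sections. -/
theorem exists_cech_generators {f : F} (hf : f ≠ 0) (hext : IsExtendable M.root₀ hn f) :
    ∃ G : Submodule O F, G.FG ∧ G ≤ M.sec₀₁ hn f ∧
      M.sec₀₁ hn f ≤ M.sec₀ hn f ⊔ M.sec₁ hn f ⊔ G := by
  classical
  obtain ⟨k, x, y, hx, hy, hxy⟩ := hext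
  obtain ⟨l, g, hg, hgen⟩ := M.fg₀
  have hgx : ∀ i a, g i * x a ∈ M.sec₀ hn f := fun i a => mul_left_mem (hg i) (hx a)
  choose E hE using fun z : Fin l × Fin k =>
    M.loc₁ _ (M.sec₀_le hn f (hgx z.1 z.2) : (g z.1 * x z.2) ^ n / f ∈ M.B₀₁)
  let E₀ := Finset.univ.sup E
  let G : Submodule O F := Submodule.span O
    ↑((Finset.range E₀ ×ˢ (Finset.univ : Finset (Fin l × Fin k))).image
      fun t => M.w⁻¹ ^ t.1 * (g t.2.1 * x t.2.2))
  have hwinv : M.w⁻¹ ∈ M.B₀₁ := M.le₁ M.w_inv_mem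
  refine ⟨G, ⟨_, rfl⟩, ?_, ?_⟩
  · rw [Submodule.span_le]
    intro v hv
    obtain ⟨t, -, rfl⟩ := Finset.mem_image.mp (Finset.mem_coe.mp hv)
    exact mul_left_mem (hB := M.root₀₁) (hn := hn) (pow_mem hwinv _) (M.sec₀_le hn f (hgx _ _))
  intro z hz
  have hterm : ∀ (m : ℕ) (i : Fin l) (a : Fin k),
      M.w⁻¹ ^ m * (g i * x a) ∈ M.sec₀ hn f ⊔ M.sec₁ hn f ⊔ G := by
    intro m i a
    by_cases hm : m < E₀
    · exact Submodule.mem_sup_right (Submodule.subset_span (Finset.mem_coe.mpr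
        (Finset.mem_image.mpr ⟨(m, (i, a)),
          Finset.mem_product.mpr ⟨Finset.mem_range.mpr hm, Finset.mem_univ _⟩, rfl⟩)))
    · refine Submodule.mem_sup_left (Submodule.mem_sup_right ?_)
      show (M.w⁻¹ ^ m * (g i * x a)) ^ n / f ∈ M.B₁
      rw [mul_pow, mul_div_assoc, ← pow_mul]
      refine M.pow_mem_B₁ ?_ (hE (i, a))
      exact le_trans (le_trans (Finset.le_sup (f := E) (Finset.mem_univ (i, a))) (not_lt.mp hm))
        (Nat.le_mul_of_pos_right m hn)
  have hpow : ∀ (d e : ℕ) (i : Fin l) (a : Fin k),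
      M.w⁻¹ ^ e * (M.w ^ d * (g i * x a)) ∈ M.sec₀ hn f ⊔ M.sec₁ hn f ⊔ G := by
    intro d e i a
    rw [← mul_assoc, inv_pow]
    rcases le_or_gt e d with h | h
    · rw [mul_comm (M.w ^ e)⁻¹, ← pow_sub₀ M.w M.w_ne h]
      exact Submodule.mem_sup_left (Submodule.mem_sup_left
        (mul_left_mem (hB := M.root₀) (hn := hn) (pow_mem M.w_mem _) (hgx i a)))
    · obtain ⟨c, rfl⟩ := Nat.exists_eq_add_of_le h.le
      rw [show (M.w ^ (d + c))⁻¹ * M.w ^ d = M.w⁻¹ ^ c by
        rw [pow_add, mul_inv, mul_right_comm, inv_mul_cancel₀ (pow_ne_zero _ M.w_ne), one_mul,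
          inv_pow]]
      exact hterm c i a
  have hz' : z = ∑ a, z * y a * x a := by
    conv_lhs => rw [← mul_one z, ← hxy, Finset.mul_sum]
    exact Finset.sum_congr rfl fun a _ => by ring
  rw [hz']
  refine Submodule.sum_mem _ fun a _ => ?_
  obtain ⟨e, he⟩ := M.loc₀ _ (mul_mem_of_inv (hB := M.root₀₁) (hn := hn) hf hz
    (rootModule_mono M.le₀ (hy a)))
  obtain ⟨P, hP⟩ := hgen _ he
  have e1 : z * y a * x a = ∑ i, M.w⁻¹ ^ e * (Polynomial.aeval M.w (P i) * (g i * x a)) := by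
    rw [← Finset.mul_sum]
    simp only [← mul_assoc (Polynomial.aeval M.w (P _))]
    rw [← Finset.sum_mul, ← hP, ← mul_assoc, ← mul_assoc, ← mul_pow, inv_mul_cancel₀ M.w_ne,
      one_pow, one_mul]
  rw [e1]
  refine Submodule.sum_mem _ fun i _ => ?_
  rw [Polynomial.aeval_eq_sum_range, Finset.sum_mul, Finset.mul_sum]
  refine Submodule.sum_mem _ fun d _ => ?_
  rw [smul_mul_assoc, mul_smul_comm]
  exact Submodule.smul_mem _ _ (hpow d e i a)

variable [IsNoetherianRing O]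

/-- Torsion of the Cech cokernel is bounded. -/
theorem exists_cech_bound {f : F} (hf : f ≠ 0) (hext : IsExtendable M.root₀ hn f) (π : O) :
    ∃ c : ℕ, ∀ (k : ℕ) (x : F), x ∈ M.sec₀₁ hn f →
      π ^ k • x ∈ M.sec₀ hn f ⊔ M.sec₁ hn f → π ^ c • x ∈ M.sec₀ hn f ⊔ M.sec₁ hn f := by
  obtain ⟨G, hfg, -, hle⟩ := M.exists_cech_generators hn hf hext
  set U := M.sec₀ hn f ⊔ M.sec₁ hn f
  haveI : IsNoetherian O G := isNoetherian_of_fg_of_noetherian G hfg
  let T : ℕ →o Submodule O G :=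
    { toFun := fun k => U.comap ((π ^ k • (LinearMap.id : F →ₗ[O] F)).comp G.subtype)
      monotone' := fun k k' h v hv => by
        obtain ⟨d, rfl⟩ := Nat.exists_eq_add_of_le h
        show π ^ (k + d) • (v : F) ∈ U
        rw [pow_add, mul_comm, mul_smul]
        exact Submodule.smul_mem _ _ hv }
  obtain ⟨c, hc⟩ := monotone_stabilizes_iff_noetherian.mpr inferInstance T
  refine ⟨c, fun k x hx hk => ?_⟩
  obtain ⟨u, hu, g, hg, rfl⟩ := Submodule.mem_sup.mp (hle hx)
  rw [smul_add]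
  refine add_mem (U.smul_mem _ hu) ?_
  have h1 : (⟨g, hg⟩ : G) ∈ T k := by
    show π ^ k • g ∈ U
    have h2 := sub_mem hk (U.smul_mem (π ^ k) hu)
    rwa [smul_add, add_sub_cancel_left] at h2
  rcases le_or_gt k c with h | h
  · exact T.monotone' h h1
  · rw [← show T c = T k from hc k h.le] at h1
    exact h1

end Charts

end Fermat.Agent.Models
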