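/-
A two-dimensional regular local domain is factorial; roots in factorial rings.
-/
import Mathlib

set_option autoImplicit false

noncomputable section

namespace Fermat.Agent.Models

section UFD

variable {R : Type} [CommRing R] [IsDomain R] [IsNoetherianRing R] [IsLocalRing R]

open IsLocalRing

/-- Representation modulo the first parameter by a power of the second. -/
theorem exists_pow_mod {x y : R} (hm : maximalIdeal R = Ideal.span {x, y}) {a : R}
    (ha : a ∉ Ideal.span {x}) :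
    ∃ (k : ℕ) (c : R), IsUnit c ∧ a - y ^ k * c ∈ Ideal.span {x} := by
  classical
  by_contra hcon
  push Not at hcon
  set I : Ideal R := Ideal.span {x}
  have key : ∀ k : ℕ, ∃ c, a - y ^ k * c ∈ I := by
    intro k
    induction k with
    | zero => exact ⟨a, by simp⟩
    | succ k ih =>
      obtain ⟨c, hc⟩ := ih
      have hcu : c ∈ maximalIdeal R := fun hu => hcon k c hu hc
      rw [hm, Ideal.mem_span_pair] at hcu
      obtain ⟨u, v, huv⟩ := hcu
      refine ⟨v, ?_⟩
      have : a - y ^ (k + 1) * v = (a - y ^ k * c) + (y ^ k * u) * x := by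
        rw [← huv]; ring
      rw [this]
      exact add_mem hc (Ideal.mul_mem_left _ _ (Ideal.mem_span_singleton_self x))
  have hxm : x ∈ maximalIdeal R := hm ▸ Ideal.subset_span (by simp)
  have hy : y ∈ maximalIdeal R := hm ▸ Ideal.subset_span (by simp)
  have htop : I ≠ ⊤ := fun h => (maximalIdeal.isMaximal R).ne_top (top_le_iff.mp (h ▸ by
    rwa [Ideal.span_le, Set.singleton_subset_iff]))
  haveI : Nontrivial (R ⧸ I) := Ideal.Quotient.nontrivial_iff.mpr htop
  haveI : IsLocalRing (R ⧸ I) :=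
    IsLocalRing.of_surjective' (Ideal.Quotient.mk I) Ideal.Quotient.mk_surjective
  have h0 : Ideal.Quotient.mk I a ∈ ⨅ k : ℕ, Ideal.span {Ideal.Quotient.mk I y} ^ k := by
    refine Submodule.mem_iInf _ |>.mpr fun k => ?_
    obtain ⟨c, hc⟩ := key k
    rw [Ideal.span_singleton_pow, Ideal.mem_span_singleton]
    exact ⟨Ideal.Quotient.mk I c, by rw [← map_pow, ← map_mul, Ideal.Quotient.eq]; exact hc⟩
  rw [Ideal.iInf_pow_eq_bot_of_isLocalRing, Submodule.mem_bot,
    Ideal.Quotient.eq_zero_iff_mem] at h0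
  · exact ha h0
  · rw [Ne, Ideal.span_singleton_eq_top]
    intro hu
    obtain ⟨b, hb⟩ := hu.exists_right_inv
    obtain ⟨b, rfl⟩ := Ideal.Quotient.mk_surjective b
    rw [← map_mul, ← map_one (Ideal.Quotient.mk I), Ideal.Quotient.eq] at hb
    have h1 : y * b - 1 ∈ maximalIdeal R := (Ideal.span_le.mpr (by simpa using hxm)) hb
    have h2 := sub_mem (Ideal.mul_mem_right b _ hy) h1
    rw [sub_sub_cancel] at h2
    exact (maximalIdeal.isMaximal R).ne_top ((Ideal.eq_top_iff_one _).mpr h2)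

/-- The first of two parameters is prime. -/
theorem prime_of_two_generated {x y : R} (hm : maximalIdeal R = Ideal.span {x, y}) (hx : x ≠ 0)
    (P : Ideal R) [P.IsPrime] (hxP : x ∈ P) (hyP : y ∉ P) : Prime x := by
  refine ⟨hx, fun hu => (maximalIdeal.isMaximal R).ne_top
    (Ideal.eq_top_of_isUnit_mem _ (hm ▸ Ideal.subset_span (by simp)) hu), fun a b hab => ?_⟩
  by_contra hcon
  push Not at hcon
  rw [← Ideal.mem_span_singleton, ← Ideal.mem_span_singleton] at hcon
  obtain ⟨i, c, hc, hac⟩ := exists_pow_mod hm hcon.1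
  obtain ⟨j, d, hd, hbd⟩ := exists_pow_mod hm hcon.2
  rw [← Ideal.mem_span_singleton] at hab
  have h : y ^ (i + j) * (c * d) ∈ Ideal.span {x} := by
    have e : y ^ (i + j) * (c * d) = a * b - (a - y ^ i * c) * b - (y ^ i * c) * (b - y ^ j * d) := by
      ring
    rw [e]
    exact sub_mem (sub_mem hab (Ideal.mul_mem_right _ _ hac)) (Ideal.mul_mem_left _ _ hbd)
  have h' := (Ideal.span_le.mpr (by simpa using hxP) : Ideal.span {x} ≤ P) h
  rcases Ideal.IsPrime.mem_or_mem ‹_› h' with h1 | h1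
  · exact hyP (Ideal.IsPrime.mem_of_pow_mem ‹_› _ h1)
  · exact Ideal.IsPrime.ne_top ‹_› (Ideal.eq_top_of_isUnit_mem _ h1 (hc.mul hd))

/-- Two-dimensional regular local domains are factorial. -/
theorem ufm_of_two_generated {x y : R} (hm : maximalIdeal R = Ideal.span {x, y}) (hx : x ≠ 0)
    (P : Ideal R) [P.IsPrime] (hxP : x ∈ P) (hyP : y ∉ P) : UniqueFactorizationMonoid R := by
  classical
  have hxp := prime_of_two_generated hm hx P hxP hyP
  refine UniqueFactorizationMonoid.iff_exists_prime_mem_of_isPrime.mpr fun Q hQ0 hQ => ?_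
  by_cases hxQ : x ∈ Q
  · exact ⟨x, hxQ, hxp⟩
  have hnle : ∃ k : ℕ, ∃ q ∈ Q, ∃ c : R, IsUnit c ∧ q - y ^ k * c ∈ Ideal.span {x} := by
    by_contra hcon
    push Not at hcon
    refine hQ0 (Submodule.eq_bot_of_le_smul_of_le_jacobson_bot (Ideal.span {x}) Q
      (IsNoetherian.noetherian Q) (fun q hq => ?_) ?_)
    · by_cases hqx : q ∈ Ideal.span {x}
      · obtain ⟨r, rfl⟩ := Ideal.mem_span_singleton.mp hqx
        rw [smul_eq_mul]
        exact Ideal.mul_mem_mul (Ideal.mem_span_singleton_self x) ((hQ.mem_or_mem hq).resolve_left hxQ)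
      · obtain ⟨k, c, hc, h⟩ := exists_pow_mod hm hqx
        exact absurd h (hcon k q hq c hc)
    · rw [IsLocalRing.jacobson_eq_maximalIdeal ⊥ bot_ne_top, Ideal.span_le,
        Set.singleton_subset_iff, hm]
      exact Ideal.subset_span (by simp)
  obtain ⟨q, hqQ, c, hc, hqk⟩ := Nat.find_spec hnle
  have hle : Q ≤ Ideal.span {q} := by
    refine Submodule.le_of_le_smul_of_le_jacobson_bot (I := Ideal.span {x}) (IsNoetherian.noetherian Q)
      ?_ (fun a haQ => ?_)
    · rw [IsLocalRing.jacobson_eq_maximalIdeal ⊥ bot_ne_top, Ideal.span_le,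
        Set.singleton_subset_iff, hm]
      exact Ideal.subset_span (by simp)
    obtain ⟨r, hr⟩ : ∃ r, a - r * q ∈ Ideal.span {x} := by
      by_cases hax : a ∈ Ideal.span {x}
      · exact ⟨0, by simpa using hax⟩
      obtain ⟨j, d, hd, haj⟩ := exists_pow_mod hm hax
      obtain ⟨e, he⟩ := Nat.exists_eq_add_of_le (Nat.find_min' hnle ⟨a, haQ, d, hd, haj⟩)
      obtain ⟨ci, hci⟩ := hc.exists_right_inv
      refine ⟨y ^ e * d * ci, ?_⟩
      have e1 : a - y ^ e * d * ci * q = (a - y ^ j * d) - (y ^ e * d * ci) * (q - y ^ Nat.find hnle * c) := by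
        rw [he, pow_add]
        linear_combination (y ^ Nat.find hnle * y ^ e * d) * (-hci)
      rw [e1]
      exact sub_mem haj (Ideal.mul_mem_left _ _ hqk)
    obtain ⟨s, hs⟩ := Ideal.mem_span_singleton.mp hr
    have hsQ : s ∈ Q := ((hQ.mem_or_mem (hs ▸ sub_mem haQ (Ideal.mul_mem_left _ _ hqQ))).resolve_left hxQ)
    rw [Submodule.mem_sup]
    exact ⟨r * q, Ideal.mem_span_singleton.mpr (dvd_mul_left _ _), x * s,
      Ideal.mul_mem_mul (Ideal.mem_span_singleton_self x) hsQ, by rw [← hs]; ring⟩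
  refine ⟨q, hqQ, ?_⟩
  have heq : Q = Ideal.span {q} := le_antisymm hle (Ideal.span_le.mpr (by simpa using hqQ))
  refine (Ideal.span_singleton_prime ?_).mp (heq ▸ hQ)
  rintro rfl
  exact hQ0 (heq.trans (by simp))

end UFD

section Roots

variable {R : Type} [CommRing R] [IsDomain R] [UniqueFactorizationMonoid R]

/-- An element all of whose multiplicities are divisible by `n` is a unit times an `n`-th power. -/
theorem exists_unit_mul_pow {n : ℕ} (hn : 0 < n) (a : R) (ha : a ≠ 0)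
    (h : ∀ (p : R) (k : ℕ), Prime p → p ^ k ∣ a → ¬ p ^ (k + 1) ∣ a → n ∣ k) :
    ∃ (u : R) (g : R), IsUnit u ∧ g ≠ 0 ∧ a = u * g ^ n := by
  induction a using UniqueFactorizationMonoid.induction_on_coprime with
  | h0 => exact absurd rfl ha
  | @h1 x hx => exact ⟨x, 1, hx, one_ne_zero, by rw [one_pow, mul_one]⟩
  | @hpr p i hp =>
    obtain ⟨d, rfl⟩ : n ∣ i := h p i hp dvd_rfl fun h' =>
      absurd ((pow_dvd_pow_iff hp.ne_zero hp.not_isUnit).mp h') (by omega)
    exact ⟨1, p ^ d, isUnit_one, pow_ne_zero _ hp.ne_zero, by rw [one_mul, ← pow_mul, mul_comm]⟩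
  | @hcp x y hxy ihx ihy =>
    have hx0 := left_ne_zero_of_mul ha
    have hy0 := right_ne_zero_of_mul ha
    have aux : ∀ {x y : R}, IsRelPrime x y →
        (∀ (p : R) (k : ℕ), Prime p → p ^ k ∣ x * y → ¬ p ^ (k + 1) ∣ x * y → n ∣ k) →
        ∀ (p : R) (k : ℕ), Prime p → p ^ k ∣ x → ¬ p ^ (k + 1) ∣ x → n ∣ k := by
      intro x y hxy h p k hp h1 h2
      rcases Nat.eq_zero_or_pos k with rfl | hk
      · exact dvd_zero n
      refine h p k hp (h1.mul_right y) fun h3 => h2 ?_
      have hpy : ¬ p ∣ y := fun hpy => hp.not_isUnit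
        (hxy ((dvd_pow_self p hk.ne').trans h1) hpy)
      exact hp.pow_dvd_of_dvd_mul_right _ hpy h3
    obtain ⟨u, g, hu, hg, rfl⟩ := ihx hx0 (aux hxy h)
    obtain ⟨v, l, hv, hl, rfl⟩ := ihy hy0 (aux hxy.symm fun p k hp h1 h2 => h p k hp
      (mul_comm (u * g ^ n) y ▸ h1) (mul_comm (u * g ^ n) y ▸ h2))
    exact ⟨u * v, g * l, hu.mul hv, mul_ne_zero hg hl, by ring⟩

end Roots

end Fermat.Agent.Models
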