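/-
Extendability: the local criterion, regular points, and points `x y = γ ^ e`.
-/
import Fermat.Agent.Models.CoreBasic
import Fermat.Agent.Models.CoreUFD

set_option autoImplicit false

noncomputable section

namespace Fermat.Agent.Models

section Def

variable (R : Type) {F : Type} [CommRing R] [Field F] [Algebra R F]

/-- Near `Q`, the function `f` is a unit times an `n`-th power. -/
def HasRootAt (n : ℕ) (f : F) (Q : Ideal R) : Prop :=
  ∃ (h : F) (a b : R), a ∉ Q ∧ b ∉ Q ∧ algebraMap R F b * h ^ n = algebraMap R F a * f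

variable {R}

theorem HasRootAt.of_le {n : ℕ} {f : F} {Q Q' : Ideal R} (h : HasRootAt R n f Q) (hle : Q' ≤ Q) :
    HasRootAt R n f Q' := by
  obtain ⟨x, a, b, ha, hb, he⟩ := h
  exact ⟨x, a, b, fun h => ha (hle h), fun h => hb (hle h), he⟩

theorem HasRootAt.pow {n : ℕ} {f : F} {Q : Ideal R} [Q.IsPrime] (h : HasRootAt R n f Q) (d : ℕ) :
    HasRootAt R n (f ^ d) Q := by
  obtain ⟨x, a, b, ha, hb, he⟩ := h
  refine ⟨x ^ d, a ^ d, b ^ d, fun h => ha (Ideal.IsPrime.mem_of_pow_mem ‹_› _ h),
    fun h => hb (Ideal.IsPrime.mem_of_pow_mem ‹_› _ h), ?_⟩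
  rw [map_pow, map_pow, ← mul_pow, ← he, mul_pow, ← pow_mul, ← pow_mul, mul_comm d n]

end Def

section Criterion

variable {O F : Type} [CommRing O] [Field F] [Algebra O F]
variable {B : Subalgebra O F} {n : ℕ} {hB : RootClosed B n} {hn : 0 < n}

/-- Local roots at every maximal ideal make `f` extendable. -/
theorem isExtendable_of_forall {f : F} (hf : f ≠ 0)
    (h : ∀ m : Ideal B, m.IsMaximal → HasRootAt B n f m) : IsExtendable hB hn f := by
  classical
  let S : Set B := {z | ∃ x ∈ rootModule hB hn f, ∃ y ∈ rootModule hB hn f⁻¹, (z : F) = x * y}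
  have htop : Ideal.span S = ⊤ := by
    by_contra hne
    obtain ⟨m, hm, hle⟩ := Ideal.exists_le_maximal _ hne
    obtain ⟨x, a, b, ha, hb, he⟩ := h m hm
    change (b : F) * x ^ n = (a : F) * f at he
    have hx0 : x ≠ 0 := by
      rintro rfl
      rw [zero_pow hn.ne', mul_zero, eq_comm, mul_eq_zero] at he
      exact ha (by rw [show a = 0 from Subtype.ext (he.resolve_right hf)]; exact zero_mem _)
    obtain ⟨k, rfl⟩ : ∃ k, n = k + 1 := ⟨n - 1, (Nat.sub_add_cancel hn).symm⟩
    have hx : (b : F) * x ∈ rootModule hB hn f := by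
      rw [mem_rootModule, show ((b : F) * x) ^ (k + 1) / f = (b : F) ^ k * (a : F) by
        rw [div_eq_iff hf, mul_assoc, ← he]; ring]
      exact mul_mem (pow_mem b.2 k) a.2
    have hy : (a : F) * x⁻¹ ∈ rootModule hB hn f⁻¹ := by
      rw [mem_rootModule, show ((a : F) * x⁻¹) ^ (k + 1) / f⁻¹ = (a : F) ^ k * (b : F) by
        rw [mul_pow, inv_pow, div_inv_eq_mul, pow_succ (a : F) k]
        field_simp
        linear_combination -((a : F) ^ k) * he]
      exact mul_mem (pow_mem a.2 k) b.2
    have hab : a * b ∈ m := hle (Ideal.subset_span ⟨_, hx, _, hy, by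
      show (a : F) * b = _
      field_simp⟩)
    exact (hm.isPrime.mem_or_mem hab).elim ha hb
  obtain ⟨k, c, z, hsum⟩ := Submodule.mem_span_set'.mp ((Ideal.eq_top_iff_one _).mp htop)
  choose x hx y hy hz using fun i => (z i).2
  refine ⟨k, fun i => (c i : F) * x i, y, fun i => mul_left_mem (c i).2 (hx i), hy, ?_⟩
  have e := congrArg (fun w : B => (w : F)) hsum
  simp only [AddSubmonoidClass.coe_finset_sum, smul_eq_mul, MulMemClass.coe_mul,
    OneMemClass.coe_one, hz] at e
  rw [← e]
  exact Finset.sum_congr rfl fun i _ => by ring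

end Criterion

section Regular

variable {R : Type} [CommRing R] [IsDomain R] [IsNoetherianRing R] {F : Type} [Field F]
  [Algebra R F] [IsFractionRing R F]

open IsLocalRing

/-- At a regular point a function with roots along all curves through it has a root. -/
theorem hasRootAt_regular_local [IsLocalRing R] {n : ℕ} (hn : 0 < n) {x y : R}
    (hm : maximalIdeal R = Ideal.span {x, y}) (hx : x ≠ 0) (P : Ideal R) [P.IsPrime]
    (hxP : x ∈ P) (hyP : y ∉ P) {f : F} (hf : f ≠ 0)
    (hroots : ∀ Q : Ideal R, Q.IsPrime → Q ≠ ⊥ → Q ≠ maximalIdeal R → HasRootAt R n f Q) :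
    HasRootAt R n f (maximalIdeal R) := by
  haveI := ufm_of_two_generated hm hx P hxP hyP
  obtain ⟨a, b, hb, rfl⟩ := IsFractionRing.div_surjective (A := R) (K := F) f
  have hb0 : b ≠ 0 := nonZeroDivisors.ne_zero hb
  have hbF : algebraMap R F b ≠ 0 := (map_ne_zero_iff _ (IsFractionRing.injective R F)).mpr hb0
  have ha0 : a ≠ 0 := by
    rintro rfl
    simp at hf
  obtain ⟨k, rfl⟩ : ∃ k, n = k + 1 := ⟨n - 1, (Nat.sub_add_cancel hn).symm⟩
  obtain ⟨u, g, hu, -, hug⟩ := exists_unit_mul_pow hn (a * b ^ k)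
    (mul_ne_zero ha0 (pow_ne_zero _ hb0)) fun p e hp h1 h2 => by
      have hQ : (Ideal.span {p}).IsPrime := (Ideal.span_singleton_prime hp.ne_zero).mpr hp
      have hQm : Ideal.span {p} ≠ maximalIdeal R := by
        intro hpm
        have hPm : P ≤ Ideal.span {p} := hpm ▸ le_maximalIdeal Ideal.IsPrime.ne_top'
        have hyp : y ∈ Ideal.span {p} := hpm ▸ hm ▸ Ideal.subset_span (by simp)
        have hpP : p ∉ P := by
          intro hpP
          obtain ⟨r, hr⟩ := Ideal.mem_span_singleton.mp hyp
          exact hyP (hr ▸ Ideal.mul_mem_right r _ hpP)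
        have hP0 : P = ⊥ := by
          refine Submodule.eq_bot_of_le_smul_of_le_jacobson_bot (Ideal.span {p}) P
            (IsNoetherian.noetherian P) (fun z hz => ?_) ?_
          · obtain ⟨r, rfl⟩ := Ideal.mem_span_singleton.mp (hPm hz)
            rw [smul_eq_mul]
            exact Ideal.mul_mem_mul (Ideal.mem_span_singleton_self p)
              ((Ideal.IsPrime.mem_or_mem ‹_› hz).resolve_left hpP)
          · rw [jacobson_eq_maximalIdeal ⊥ bot_ne_top, hpm]
        exact hx (by simpa [hP0] using hxP)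
      obtain ⟨z, a', b', ha', hb', he⟩ := hroots _ hQ (by simpa using hp.ne_zero) hQm
      obtain ⟨c, d, hd, rfl⟩ := IsFractionRing.div_surjective (A := R) (K := F) z
      have hd0 : d ≠ 0 := nonZeroDivisors.ne_zero hd
      have hdF : algebraMap R F d ≠ 0 := (map_ne_zero_iff _ (IsFractionRing.injective R F)).mpr hd0
      have hkey : b' * (c * b) ^ (k + 1) = a' * (a * b ^ k) * d ^ (k + 1) := by
        refine IsFractionRing.injective R F ?_
        rw [div_pow] at he
        field_simp at he
        simp only [map_mul, map_pow]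
        linear_combination (algebraMap R F b) ^ k * he
      have hcb : c * b ≠ 0 := by
        intro h0
        rw [h0, zero_pow k.succ_ne_zero, mul_zero, eq_comm] at hkey
        have ha'0 : a' ≠ 0 := fun h => ha' (h ▸ zero_mem _)
        simp [ha0, hb0, hd0, ha'0] at hkey
      obtain ⟨i, c', hc', hci⟩ := WfDvdMonoid.max_power_factor hcb hp.irreducible
      obtain ⟨j, d', hd', hdj⟩ := WfDvdMonoid.max_power_factor hd0 hp.irreducible
      obtain ⟨m', hm'⟩ := h1
      have hm'p : ¬ p ∣ m' := fun h => h2 (by rw [hm', pow_succ]; exact mul_dvd_mul_left _ h)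
      rw [hci, hdj, hm', mul_pow, mul_pow, ← pow_mul, ← pow_mul] at hkey
      have hnot : ∀ {s t : R} (N : ℕ), ¬ p ∣ s → ¬ p ∣ t → ¬ p ∣ s * t ^ N := fun N hs ht h =>
        (hp.dvd_or_dvd h).elim hs fun h => ht (hp.dvd_of_dvd_pow h)
      have e1 : p ^ (i * (k + 1)) * (b' * c' ^ (k + 1)) =
          p ^ (e + j * (k + 1)) * (a' * m' * d' ^ (k + 1)) := by
        rw [pow_add]
        linear_combination hkey
      have hne1 : ¬ p ∣ b' * c' ^ (k + 1) :=
        hnot _ (fun h => hb' (Ideal.mem_span_singleton.mpr h)) hc'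
      have hne2 : ¬ p ∣ a' * m' * d' ^ (k + 1) := hnot _
        (fun h => (hp.dvd_or_dvd h).elim (fun h => ha' (Ideal.mem_span_singleton.mpr h)) hm'p) hd'
      have huniq : ∀ {s t : R} {A C : ℕ}, ¬ p ∣ s → p ^ A * s = p ^ C * t → C ≤ A := by
        intro s t A C hs h
        by_contra hlt
        obtain ⟨r, rfl⟩ := Nat.exists_eq_add_of_lt (not_le.mp hlt)
        rw [show A + r + 1 = A + (r + 1) by ring, pow_add, mul_assoc] at h
        exact hs ⟨p ^ r * t, by rw [mul_left_cancel₀ (pow_ne_zero _ hp.ne_zero) h]; ring⟩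
      have heq : e + j * (k + 1) = i * (k + 1) :=
        le_antisymm (huniq hne1 e1) (huniq hne2 e1.symm)
      exact (Nat.dvd_add_left (dvd_mul_left (k + 1) j)).mp (heq ▸ dvd_mul_left (k + 1) i)
  obtain ⟨u', hu'⟩ := hu
  refine ⟨algebraMap R F g / algebraMap R F b, 1, u,
    fun h => (maximalIdeal.isMaximal R).ne_top ((Ideal.eq_top_iff_one _).mpr h),
    fun h => (maximalIdeal.isMaximal R).ne_top (Ideal.eq_top_of_isUnit_mem _ h ⟨u', hu'⟩), ?_⟩
  have := congrArg (algebraMap R F) hug
  simp only [map_mul, map_pow] at this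
  rw [map_one, one_mul, div_pow, ← mul_div_assoc, ← this, pow_succ']
  field_simp

/-- Regular points of a Noetherian domain. -/
theorem hasRootAt_regular {n : ℕ} (hn : 0 < n) (m : Ideal R) [m.IsPrime] {x y : R}
    (hxm : x ∈ m) (hym : y ∈ m) (hgen : ∀ z ∈ m, ∃ s ∉ m, s * z ∈ Ideal.span {x, y})
    (hx : x ≠ 0) (P : Ideal R) [P.IsPrime] (hPm : P ≤ m) (hxP : x ∈ P) (hyP : y ∉ P)
    {f : F} (hf : f ≠ 0)
    (hroots : ∀ Q : Ideal R, Q.IsPrime → Q ≠ ⊥ → Q ≤ m → Q ≠ m → HasRootAt R n f Q) :
    HasRootAt R n f m := by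
  let L := Localization.AtPrime m
  haveI : IsNoetherianRing L := IsLocalization.isNoetherianRing m.primeCompl L inferInstance
  have hu : ∀ s : m.primeCompl, IsUnit (algebraMap R F s) := fun s =>
    isUnit_iff_ne_zero.mpr ((map_ne_zero_iff _ (IsFractionRing.injective R F)).mpr
      fun h => s.2 (h ▸ m.zero_mem))
  letI : Algebra L F := (IsLocalization.lift (M := m.primeCompl) hu).toAlgebra
  haveI : IsScalarTower R L F := IsScalarTower.of_algebraMap_eq fun r =>
    (IsLocalization.lift_eq hu r).symm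
  haveI : IsFractionRing L F :=
    IsFractionRing.isFractionRing_of_isDomain_of_isLocalization m.primeCompl L F
  have hmax : maximalIdeal L = Ideal.span {algebraMap R L x, algebraMap R L y} := by
    have h1 : maximalIdeal L = m.map (algebraMap R L) :=
      (Localization.AtPrime.map_eq_maximalIdeal).symm
    refine le_antisymm ?_ ?_
    · rw [h1, Ideal.map_le_iff_le_comap]
      intro z hz
      obtain ⟨s, hs, hsz⟩ := hgen z hz
      have h2 : algebraMap R L (s * z) ∈ Ideal.span {algebraMap R L x, algebraMap R L y} := by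
        have := Ideal.mem_map_of_mem (algebraMap R L) hsz
        rwa [Ideal.map_span, Set.image_pair] at this
      rw [map_mul] at h2
      exact ((Ideal.unit_mul_mem_iff_mem _ (IsLocalization.map_units L (⟨s, hs⟩ : m.primeCompl))).mp h2)
    · rw [h1, Ideal.span_le]
      rintro _ (rfl | rfl)
      · exact Ideal.mem_map_of_mem _ hxm
      · exact Ideal.mem_map_of_mem _ hym
  have hdisj : Disjoint (m.primeCompl : Set R) (P : Set R) :=
    Set.disjoint_left.mpr fun z hz hzP => hz (hPm hzP)
  haveI hP' : (P.map (algebraMap R L)).IsPrime :=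
    IsLocalization.isPrime_of_isPrime_disjoint m.primeCompl L P ‹_› hdisj
  have hinjL : Function.Injective (algebraMap R L) :=
    IsLocalization.injective L m.primeCompl_le_nonZeroDivisors
  obtain ⟨z, a, b, ha, hb, he⟩ :=
    hasRootAt_regular_local (R := L) (n := n) hn hmax ((map_ne_zero_iff _ hinjL).mpr hx)
      (P.map (algebraMap R L)) (Ideal.mem_map_of_mem _ hxP)
      (fun h => hyP ((IsLocalization.comap_map_of_isPrime_disjoint m.primeCompl L ‹_› hdisj).le
        (Ideal.mem_comap.mpr h))) hf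
      (fun Q hQ hQ0 hQm => by
        have hQle : Q.comap (algebraMap R L) ≤ m := fun r hr => by
          by_contra hrm
          exact hQ.ne_top (Ideal.eq_top_of_isUnit_mem _ hr
            (IsLocalization.map_units L (⟨r, hrm⟩ : m.primeCompl)))
        have hback : (Q.comap (algebraMap R L)).map (algebraMap R L) = Q :=
          IsLocalization.map_comap m.primeCompl L Q
        obtain ⟨z, a, b, ha, hb, he⟩ := hroots (Q.comap (algebraMap R L)) (hQ.comap _)
          (fun h => hQ0 (by rw [← hback, h, Ideal.map_bot]))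
          hQle (fun h => hQm (by rw [← hback, h]; exact Localization.AtPrime.map_eq_maximalIdeal))
        exact ⟨z, algebraMap R L a, algebraMap R L b, ha, hb, by
          rwa [← IsScalarTower.algebraMap_apply, ← IsScalarTower.algebraMap_apply]⟩)
  obtain ⟨a', s, rfl⟩ := IsLocalization.exists_mk'_eq m.primeCompl a
  obtain ⟨b', t, rfl⟩ := IsLocalization.exists_mk'_eq m.primeCompl b
  have hnm : ∀ (r : R) (u : m.primeCompl), IsLocalization.mk' L r u ∉ maximalIdeal L → r ∉ m := by
    intro r u h hr
    apply h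
    rw [← Localization.AtPrime.map_eq_maximalIdeal, IsLocalization.mk'_mem_map_algebraMap_iff m.primeCompl]
    exact ⟨1, one_mem _, by rwa [one_mul]⟩
  refine ⟨z, a' * t, b' * s, ‹m.IsPrime›.mul_notMem (hnm _ _ ha) t.2,
    ‹m.IsPrime›.mul_notMem (hnm _ _ hb) s.2, ?_⟩
  have hsL := IsLocalization.mk'_spec L a' s
  have htL := IsLocalization.mk'_spec L b' t
  apply_fun algebraMap L F at hsL htL
  rw [map_mul, ← IsScalarTower.algebraMap_apply, ← IsScalarTower.algebraMap_apply] at hsL htL
  rw [map_mul, map_mul, ← hsL, ← htL]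
  linear_combination (algebraMap R F t * algebraMap R F s) * he

end Regular

end Fermat.Agent.Models
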