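/-
Compatible first order roots of a Kummer function give a global root, up to a constant.
-/
import Fermat.Agent.Models.CoreBasic

set_option autoImplicit false

noncomputable section

namespace Fermat.Agent.Models

variable {O F : Type} [CommRing O] [Field F] [Algebra O F]
variable {B : Subalgebra O F} {n : ℕ} {hB : RootClosed B n} {hn : 0 < n}

theorem smul_mem_rootModule {f x : F} (a : O) (hx : x ∈ rootModule hB hn f) :
    a • x ∈ rootModule hB hn f :=
  ((rootModule hB hn f).restrictScalars O).smul_mem a hx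

theorem div_mem_rootModule {f z : F} (hf : f ≠ 0) (hz : z ∈ rootModule hB hn (f ^ (n + 1))) :
    z / f ∈ rootModule hB hn f := by
  rw [mem_rootModule] at hz ⊢
  rwa [div_pow, div_div, ← pow_succ]

theorem pow_mem_rootModule {f x : F} (hx : x ∈ rootModule hB hn f) :
    ∀ m, x ^ m ∈ rootModule hB hn (f ^ m)
  | 0 => by
    rw [pow_zero, pow_zero, rootModule_one]
    exact one_mem _
  | m + 1 => by
    rw [pow_succ, pow_succ]
    exact mul_mem_rootModule (pow_mem_rootModule hx m) hx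

/-- Second order expansion inside the sheaves of roots. -/
theorem exists_pow_expansion {f y e : F} (π : O) (j : ℕ) (hy : y ∈ rootModule hB hn f)
    (he : e ∈ rootModule hB hn f) :
    ∀ m : ℕ, ∃ R ∈ rootModule hB hn (f ^ (m + 1)),
      (y + π ^ j • e) ^ (m + 1) =
        y ^ (m + 1) + (m + 1 : ℕ) • (y ^ m * (π ^ j • e)) + π ^ (2 * j) • R
  | 0 => ⟨0, zero_mem _, by simp⟩
  | m + 1 => by
    obtain ⟨R, hR, hRe⟩ := exists_pow_expansion π j hy he m
    refine ⟨R * (y + π ^ j • e) + (m + 1 : ℕ) • (y ^ m * e * e), ?_, ?_⟩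
    · refine add_mem ?_ (nsmul_mem ?_ _)
      · rw [pow_succ f (m + 1)]
        exact mul_mem_rootModule hR (add_mem hy (smul_mem_rootModule _ he))
      · rw [pow_succ f (m + 1), pow_succ f m]
        exact mul_mem_rootModule (mul_mem_rootModule (pow_mem_rootModule hy m) he) he
    · rw [pow_succ (y + π ^ j • e) (m + 1), hRe]
      simp only [Algebra.smul_def, map_pow, nsmul_eq_mul, two_mul, pow_add, pow_one]
      push_cast
      ring

/-- Roots modulo `π` that agree modulo `π` agree as far as their defects vanish. -/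
theorem sub_mem_of_defect {f x y : F} (hf : f ≠ 0) (π ν : O) (hν : (n : O) * ν = 1) (k : ℕ)
    (hk : 0 < k) (hx : x ∈ rootModule hB hn f) (hy : y ∈ rootModule hB hn f)
    (hxu : ∃ a ∈ B, x ^ n / f = 1 + π ^ k • a) (hyu : ∃ a ∈ B, y ^ n / f = 1 + π ^ k • a)
    (h1 : ∃ e ∈ rootModule hB hn f, x - y = π • e) :
    ∃ e ∈ rootModule hB hn f, x - y = π ^ k • e := by
  suffices ∀ i, ∃ e ∈ rootModule hB hn f, x - y = π ^ (min k (i + 1)) • e by
    simpa [min_eq_left (Nat.le_succ k)] using this k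
  intro i
  induction i with
  | zero =>
    rw [show min k (0 + 1) = 1 by omega, pow_one]
    exact h1
  | succ i ih =>
    obtain ⟨e, he, hd⟩ := ih
    obtain ⟨a, ha, hau⟩ := hxu
    obtain ⟨b, hb, hbu⟩ := hyu
    set j := min k (i + 1)
    obtain ⟨m, rfl⟩ : ∃ m, n = m + 1 := ⟨n - 1, (Nat.sub_add_cancel hn).symm⟩
    obtain ⟨R, hR, hRe⟩ := exists_pow_expansion π j hy he m
    rw [← hd, add_sub_cancel] at hRe
    have hRy : R * y / f ∈ rootModule hB hn f := by
      refine div_mem_rootModule hf ?_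
      rw [pow_succ]
      exact mul_mem_rootModule hR hy
    set l := min k (i + 1 + 1)
    obtain ⟨r, hr⟩ : ∃ r, k = l + r := ⟨k - l, by omega⟩
    obtain ⟨s, hs⟩ : ∃ s, 2 * j = l + s := ⟨2 * j - l, by omega⟩
    refine ⟨(ν * π ^ r) • ((a - b) * y) - (ν * π ^ s) • (R * y / f) - π ^ r • (b * (x - y)),
      sub_mem (sub_mem (smul_mem_rootModule _ (mul_left_mem (sub_mem ha hb) hy))
        (smul_mem_rootModule _ hRy)) (smul_mem_rootModule _ (mul_left_mem hb (sub_mem hx hy))), ?_⟩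
    have hν' : algebraMap O F ((m + 1 : ℕ) : O) * algebraMap O F ν = 1 := by
      rw [← map_mul, hν, map_one]
    have e1 : x ^ (m + 1) = (1 + π ^ k • a) * f := by rw [← hau, div_mul_cancel₀ _ hf]
    have e2 : y ^ (m + 1) = (1 + π ^ k • b) * f := by rw [← hbu, div_mul_cancel₀ _ hf]
    simp only [Algebra.smul_def, map_pow, map_mul, map_natCast, nsmul_eq_mul] at hRe e1 e2 hν' ⊢
    set P := algebraMap O F π with hP
    set V := algebraMap O F ν
    have hd' : P ^ j * e = x - y := by rw [hd, Algebra.smul_def, map_pow]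
    have hkl : P ^ l * P ^ r = P ^ k := by rw [← pow_add, ← hr]
    have h2j : P ^ l * P ^ s = P ^ (2 * j) := by rw [← pow_add, ← hs]
    have key : P ^ k * (a - b) * f = ((m + 1 : ℕ) : F) * (y ^ m * (x - y)) + P ^ (2 * j) * R := by
      linear_combination hRe - e1 + e2
    refine mul_right_cancel₀ hf ?_
    have hQ : R * y / f * f = R * y := div_mul_cancel₀ _ hf
    linear_combination (-(V * (a - b) * y * f) + b * (x - y) * f) * hkl +
      V * (R * y / f * f) * h2j + V * P ^ (2 * j) * hQ - V * y * key -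
      (V * ((m + 1 : ℕ) : F) * (x - y)) * e2 -
      ((x - y) * f * (1 + P ^ k * b)) * hν'

variable (hB hn) in
/-- One step of improvement of a root. -/
theorem exists_improved_root {f s : F} (π ν : O) (hν : (n : O) * ν = 1) (k : ℕ) (hk : 0 < k)
    (hs : s ∈ rootModule hB hn f) (hsu : ∃ a ∈ B, s ^ n / f = 1 + π ^ k • a) :
    ∃ s' ∈ rootModule hB hn f, (∃ a ∈ B, s' ^ n / f = 1 + π ^ (k + 1) • a) ∧
      ∃ e ∈ rootModule hB hn f, s' - s = π • e := by
  obtain ⟨a, ha, hau⟩ := hsu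
  obtain ⟨r, rfl⟩ : ∃ r, k = r + 1 := ⟨k - 1, (Nat.sub_add_cancel hk).symm⟩
  set z : F := -((ν * π ^ (r + 1)) • a) with hz
  have hzB : z ∈ B := neg_mem (B.smul_mem ha _)
  have hexp : ∀ m : ℕ, ∃ Q ∈ B, (1 + z) ^ m = 1 + (m : F) * z + z ^ 2 * Q := by
    intro m
    induction m with
    | zero => exact ⟨0, zero_mem _, by simp⟩
    | succ m ih =>
      obtain ⟨Q, hQ, hQe⟩ := ih
      refine ⟨Q * (1 + z) + (m : F), add_mem (mul_mem hQ (add_mem (one_mem _) hzB))
        (Subalgebra.natCast_mem B m), ?_⟩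
      rw [pow_succ, hQe]
      push_cast
      ring
  obtain ⟨Q, hQ, hQe⟩ := hexp n
  refine ⟨(1 + z) * s, mul_left_mem (add_mem (one_mem _) hzB) hs,
    ⟨(π ^ r * ν ^ 2) • (a * a * Q * (1 + π ^ (r + 1) • a)) - π ^ r • (a * a), ?_, ?_⟩,
    ⟨-((ν * π ^ r) • (a * s)), neg_mem (smul_mem_rootModule _ (mul_left_mem ha hs)), ?_⟩⟩
  · exact sub_mem (B.smul_mem (mul_mem (mul_mem (mul_mem ha ha) hQ)
      (add_mem (one_mem _) (B.smul_mem ha _))) _) (B.smul_mem (mul_mem ha ha) _)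
  · rw [mul_pow, mul_div_assoc, hau, hQe, hz]
    have hν' : ((n : F)) * algebraMap O F ν = 1 := by
      rw [← map_natCast (algebraMap O F), ← map_mul, hν, map_one]
    simp only [Algebra.smul_def, map_pow, map_mul]
    linear_combination (-(algebraMap O F π ^ (r + 1)) * a *
      (1 + algebraMap O F π ^ (r + 1) * a)) * hν'
  · rw [hz]
    simp only [Algebra.smul_def, map_pow, map_mul]
    ring

variable (hB hn) in
/-- Iterated improvement of a root. -/
theorem exists_improved_root_pow {f s : F} (π ν : O) (hν : (n : O) * ν = 1)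
    (hs : s ∈ rootModule hB hn f) (hsu : ∃ a ∈ B, s ^ n / f = 1 + π • a) (k : ℕ) :
    ∃ s' ∈ rootModule hB hn f, (∃ a ∈ B, s' ^ n / f = 1 + π ^ (k + 1) • a) ∧
      ∃ e ∈ rootModule hB hn f, s' - s = π • e := by
  induction k with
  | zero => exact ⟨s, hs, by simpa using hsu, 0, zero_mem _, by simp⟩
  | succ k ih =>
    obtain ⟨t, ht, htu, e, he, hte⟩ := ih
    obtain ⟨t', ht', htu', e', he', hte'⟩ :=
      exists_improved_root hB hn π ν hν (k + 1) k.succ_pos ht htu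
    exact ⟨t', ht', htu', e' + e, add_mem he' he, by rw [smul_add, ← hte', ← hte]; abel⟩

namespace Charts

variable (M : Charts O F n) (hn) [IsNoetherianRing O]

/-- Roots modulo `π` on both charts agreeing on the overlap give a root up to a constant. -/
theorem exists_root {f : F} (hf : f ≠ 0) (hext : IsExtendable M.root₀ hn f) (π ν : O)
    (hν : (n : O) * ν = 1) (hπ0 : algebraMap O F π ≠ 0) (hπ : ¬ ∃ b ∈ M.B₀, π • b = 1)
    {s₀ s₁ : F} (h₀ : s₀ ∈ rootModule M.root₀ hn f) (h₁ : s₁ ∈ rootModule M.root₁ hn f)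
    (hu₀ : ∃ a ∈ M.B₀, s₀ ^ n / f = 1 + π • a) (hu₁ : ∃ a ∈ M.B₁, s₁ ^ n / f = 1 + π • a)
    (h01 : ∃ e ∈ rootModule M.root₀₁ hn f, s₀ - s₁ = π • e) :
    ∃ (c : O) (h : F), algebraMap O F c ≠ 0 ∧ h ≠ 0 ∧ h ^ n = algebraMap O F c * f := by
  obtain ⟨c, hc⟩ := M.exists_cech_bound hn hf hext π
  obtain ⟨t₀, ht₀, ⟨a₀, ha₀, hau₀⟩, e₀, he₀, hte₀⟩ :=
    exists_improved_root_pow M.root₀ hn π ν hν h₀ hu₀ c
  obtain ⟨t₁, ht₁, ⟨a₁, ha₁, hau₁⟩, e₁, he₁, hte₁⟩ :=
    exists_improved_root_pow M.root₁ hn π ν hν h₁ hu₁ c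
  obtain ⟨e, he, h01⟩ := h01
  obtain ⟨x, hx, hxd⟩ := sub_mem_of_defect (hB := M.root₀₁) (hn := hn) hf π ν hν (c + 1)
    c.succ_pos (M.sec₀_le hn f ht₀) (M.sec₁_le hn f ht₁)
    ⟨a₀, M.le₀ ha₀, hau₀⟩ ⟨a₁, M.le₁ ha₁, hau₁⟩
    ⟨e₀ + e - e₁, sub_mem (add_mem (M.sec₀_le hn f he₀) he) (M.sec₁_le hn f he₁), by
      rw [smul_sub, smul_add, ← hte₀, ← h01, ← hte₁]
      abel⟩
  have hU : π ^ (c + 1) • x ∈ M.sec₀ hn f ⊔ M.sec₁ hn f := by
    rw [← hxd]
    exact sub_mem (Submodule.mem_sup_left ht₀) (Submodule.mem_sup_right ht₁)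
  obtain ⟨b₀, hb₀, b₁, hb₁, hb⟩ := Submodule.mem_sup.mp (hc (c + 1) x hx hU)
  set P := algebraMap O F π
  have key : π ^ c • t₀ - π ^ (c + 1) • b₀ = π ^ c • t₁ + π ^ (c + 1) • b₁ := by
    rw [sub_eq_iff_eq_add, ← sub_eq_iff_eq_add', ← sub_sub]
    have : π ^ c • (t₀ - t₁) = π ^ (c + 1) • (b₀ + b₁) := by
      rw [hb, hxd, smul_smul, smul_smul, mul_comm]
    rw [smul_sub, smul_add] at this
    linear_combination this
  set h := π ^ c • t₀ - π ^ (c + 1) • b₀
  have hh₀ : h ∈ rootModule M.root₀ hn f :=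
    sub_mem (smul_mem_rootModule _ ht₀) (smul_mem_rootModule _ hb₀)
  have hh₁ : h ∈ rootModule M.root₁ hn f :=
    key ▸ add_mem (smul_mem_rootModule _ ht₁) (smul_mem_rootModule _ hb₁)
  have hne : h ≠ 0 := by
    intro h0
    have e1 : t₀ = π • b₀ := by
      have h2 : P ^ c * t₀ = P ^ c * (P * b₀) := by
        rw [← mul_assoc, ← pow_succ]
        simpa [h, Algebra.smul_def, P, sub_eq_zero] using h0
      rw [Algebra.smul_def]
      exact mul_left_cancel₀ (pow_ne_zero _ hπ0) h2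
    apply hπ
    refine ⟨π ^ (n - 1) • (b₀ ^ n / f) - π ^ c • a₀,
      sub_mem (M.B₀.smul_mem hb₀ _) (M.B₀.smul_mem ha₀ _), ?_⟩
    rw [e1] at hau₀
    simp only [Algebra.smul_def, map_pow, mul_pow, mul_div_assoc] at hau₀ ⊢
    rw [mul_sub, ← mul_assoc, ← pow_succ', Nat.sub_add_cancel hn, hau₀]
    ring
  obtain ⟨d, hd⟩ := M.constants _ hh₀ hh₁
  refine ⟨d, h, ?_, hne, ?_⟩
  · rw [hd]
    exact div_ne_zero (pow_ne_zero _ hne) hf
  · rw [hd, div_mul_cancel₀ _ hf]

end Charts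

end Fermat.Agent.Models
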