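/-
An automorphism trivial on the special fibre fixes the class of an extendable Kummer function.
-/
import Fermat.Agent.Models.CoreRoot

set_option autoImplicit false

noncomputable section

namespace Fermat.Agent.Models

variable {O F : Type} [CommRing O] [Field F] [Algebra O F]
variable {B : Subalgebra O F} {n : ℕ} {hB : RootClosed B n} {hn : 0 < n}

/-- `τ` preserves `B` and is the identity modulo `π`. -/
def TrivialMod (B : Subalgebra O F) (π : O) (τ : F →+* F) : Prop :=
  ∀ b ∈ B, ∃ e ∈ B, τ b - b = π • e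

theorem TrivialMod.map_mem {π : O} {τ : F →+* F} (h : TrivialMod B π τ) {b : F} (hb : b ∈ B) :
    τ b ∈ B := by
  obtain ⟨e, he, h⟩ := h b hb
  rw [← sub_add_cancel (τ b) b, h]
  exact add_mem (B.smul_mem he π) hb

theorem map_mem_rootModule {π : O} {τ : F →+* F} (hτ : TrivialMod B π τ) {f x : F}
    (hx : x ∈ rootModule hB hn f) : τ x ∈ rootModule hB hn (τ f) := by
  rw [mem_rootModule, ← map_pow, ← map_div₀]
  exact hτ.map_mem hx

/-- The class `τ f / f` has an explicit invertible sheaf of roots. -/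
theorem isExtendable_map_div {π : O} {τ : F →+* F} (hτ : TrivialMod B π τ) {f : F}
    (hext : IsExtendable hB hn f) : IsExtendable hB hn (τ f / f) := by
  obtain ⟨k, x, y, hx, hy, hxy⟩ := hext
  refine ⟨k * k, fun i => τ (x (finProdFinEquiv.symm i).1) * y (finProdFinEquiv.symm i).2,
    fun i => τ (y (finProdFinEquiv.symm i).1) * x (finProdFinEquiv.symm i).2,
    fun i => ?_, fun i => ?_, ?_⟩
  · rw [div_eq_mul_inv]
    exact mul_mem_rootModule (map_mem_rootModule hτ (hx _)) (hy _)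
  · rw [inv_div, div_eq_mul_inv, mul_comm f, ← map_inv₀]
    exact mul_mem_rootModule (map_mem_rootModule hτ (hy _)) (hx _)
  · rw [← finProdFinEquiv.sum_comp]
    simp only [Equiv.symm_apply_apply]
    rw [Fintype.sum_prod_type]
    calc ∑ a, ∑ b, τ (x a) * y b * (τ (y a) * x b)
        = ∑ a, τ (x a * y a) * ∑ b, x b * y b := by
          refine Finset.sum_congr rfl fun a _ => ?_
          rw [Finset.mul_sum, map_mul]
          exact Finset.sum_congr rfl fun b _ => by ring
      _ = 1 := by rw [hxy]; simp only [mul_one, ← map_sum, hxy, map_one]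

variable (hB hn) in
/-- The canonical root modulo `π` of `τ f / f` has defect zero. -/
theorem defect_canonical {π : O} {τ : F →+* F} (hτ : TrivialMod B π τ) {f : F} (hf : f ≠ 0) {k : ℕ}
    {x y : Fin k → F} (hx : ∀ a, x a ∈ rootModule hB hn f)
    (hy : ∀ a, y a ∈ rootModule hB hn f⁻¹) (hxy : ∑ a, x a * y a = 1) :
    (∑ a, τ (x a) * y a) ∈ rootModule hB hn (τ f / f) ∧
      ∃ e ∈ B, (∑ a, τ (x a) * y a) ^ n / (τ f / f) = 1 + π • e := by
  have hterm : ∀ a, τ (x a) * y a ∈ rootModule hB hn (τ f / f) := fun a => by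
    rw [div_eq_mul_inv]
    exact mul_mem_rootModule (map_mem_rootModule hτ (hx a)) (hy a)
  refine ⟨sum_mem fun a _ => hterm a, ?_⟩
  set s := ∑ a, τ (x a) * y a
  have key : ∀ m : ℕ, ∀ z ∈ rootModule hB hn (f⁻¹ ^ m), ∀ v ∈ rootModule hB hn (f ^ m),
      ∃ e ∈ B, s ^ m * τ z * v = z * v + π • e := by
    intro m
    induction m with
    | zero =>
      intro z hz v hv
      rw [pow_zero, rootModule_one] at hz hv
      obtain ⟨e, he, h⟩ := hτ z hz
      refine ⟨e * v, mul_mem he hv, ?_⟩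
      rw [← smul_mul_assoc, ← h, pow_zero]
      ring
    | succ m ih =>
      intro z hz v hv
      have hxz : ∀ a, x a * z ∈ rootModule hB hn (f⁻¹ ^ m) := fun a => by
        have := mul_mem_rootModule (hx a) hz
        rwa [pow_succ', ← mul_assoc, mul_inv_cancel₀ hf, one_mul] at this
      have hyv : ∀ a, y a * v ∈ rootModule hB hn (f ^ m) := fun a => by
        have := mul_mem_rootModule (hy a) hv
        rwa [pow_succ', ← mul_assoc, inv_mul_cancel₀ hf, one_mul] at this
      choose e he hee using fun a => ih _ (hxz a) _ (hyv a)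
      refine ⟨∑ a, e a, sum_mem fun a _ => he a, ?_⟩
      calc s ^ (m + 1) * τ z * v = ∑ a, s ^ m * τ (x a * z) * (y a * v) := by
            rw [pow_succ, Finset.mul_sum, Finset.sum_mul, Finset.sum_mul]
            exact Finset.sum_congr rfl fun a _ => by rw [map_mul]; ring
        _ = ∑ a, (x a * z * (y a * v) + π • e a) := Finset.sum_congr rfl fun a _ => hee a
        _ = z * v + π • ∑ a, e a := by
            rw [Finset.sum_add_distrib, Finset.smul_sum]
            congr 1
            calc ∑ a, x a * z * (y a * v) = ∑ a, z * v * (x a * y a) :=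
                  Finset.sum_congr rfl fun a _ => by ring
              _ = z * v := by rw [← Finset.mul_sum, hxy, mul_one]
  obtain ⟨e, he, hee⟩ := key n f⁻¹
    (by rw [mem_rootModule, div_self (pow_ne_zero _ (inv_ne_zero hf))]; exact one_mem _)
    f (by rw [mem_rootModule, div_self (pow_ne_zero _ hf)]; exact one_mem _)
  refine ⟨e, he, ?_⟩
  rw [inv_mul_cancel₀ hf, map_inv₀] at hee
  rw [← hee, div_div_eq_mul_div, div_eq_mul_inv]
  ring

variable (hB hn) in
/-- Canonical roots modulo `π` from two presentations agree modulo `π`. -/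
theorem canonical_congr {π : O} {τ : F →+* F} (hτ : TrivialMod B π τ) {f : F} (hf : f ≠ 0)
    {k k' : ℕ} {x y : Fin k → F} {x' y' : Fin k' → F} (hx : ∀ a, x a ∈ rootModule hB hn f)
    (hy : ∀ a, y a ∈ rootModule hB hn f⁻¹) (hxy : ∑ a, x a * y a = 1)
    (hx' : ∀ a, x' a ∈ rootModule hB hn f) (hy' : ∀ a, y' a ∈ rootModule hB hn f⁻¹)
    (hxy' : ∑ a, x' a * y' a = 1) :
    ∃ e ∈ rootModule hB hn (τ f / f),
      ∑ a, τ (x a) * y a - ∑ c, τ (x' c) * y' c = π • e := by
  have hB' : ∀ a c, x' c * y a ∈ B := fun a c => mul_mem_of_inv hf (hx' c) (hy a)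
  choose e he hee using fun a c => hτ _ (hB' a c)
  have hterm : ∀ a c, τ (x a) * y' c ∈ rootModule hB hn (τ f / f) := fun a c => by
    rw [div_eq_mul_inv]
    exact mul_mem_rootModule (map_mem_rootModule hτ (hx a)) (hy' c)
  refine ⟨-∑ a, ∑ c, e a c * (τ (x a) * y' c),
    neg_mem (sum_mem fun a _ => sum_mem fun c _ => mul_left_mem (he a c) (hterm a c)), ?_⟩
  have e1 : ∑ a, τ (x a) * y a = ∑ a, ∑ c, (x' c * y a) * (τ (x a) * y' c) := by
    refine Finset.sum_congr rfl fun a _ => ?_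
    conv_lhs => rw [← mul_one (τ (x a) * y a), ← hxy', Finset.mul_sum]
    exact Finset.sum_congr rfl fun c _ => by ring
  have e2 : ∑ c, τ (x' c) * y' c = ∑ a, ∑ c, τ (x' c * y a) * (τ (x a) * y' c) := by
    rw [Finset.sum_comm]
    refine Finset.sum_congr rfl fun c _ => ?_
    conv_lhs => rw [← mul_one (τ (x' c) * y' c), ← map_one τ, ← hxy, map_sum, Finset.mul_sum]
    exact Finset.sum_congr rfl fun a _ => by rw [map_mul, map_mul]; ring
  rw [e1, e2, smul_neg, Finset.smul_sum, ← Finset.sum_sub_distrib, ← Finset.sum_neg_distrib]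
  refine Finset.sum_congr rfl fun a _ => ?_
  rw [Finset.smul_sum, ← Finset.sum_sub_distrib, ← Finset.sum_neg_distrib]
  refine Finset.sum_congr rfl fun c _ => ?_
  rw [← smul_mul_assoc, ← hee]
  ring

namespace Charts

variable (M : Charts O F n) (hn) [IsNoetherianRing O]

omit [IsNoetherianRing O] in
/-- An automorphism fixing `w` and trivial modulo `π` on the first chart is so on the overlap. -/
theorem trivialMod_overlap (π : O) (τ : F →+* F) (hw : τ M.w = M.w)
    (h₀ : TrivialMod M.B₀ π τ) : TrivialMod M.B₀₁ π τ := by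
  intro b hb
  obtain ⟨E, hE⟩ := M.loc₀ b hb
  obtain ⟨e, he, hee⟩ := h₀ _ hE
  refine ⟨M.w⁻¹ ^ E * e, mul_mem (pow_mem (M.le₁ M.w_inv_mem) E) (M.le₀ he), ?_⟩
  rw [← mul_smul_comm, ← hee, map_mul, map_pow, hw, ← mul_sub, ← mul_assoc, ← mul_pow,
    inv_mul_cancel₀ M.w_ne, one_pow, one_mul]

/-- An automorphism trivial on the special fibre moves an extendable Kummer function by an `n`-th
power, up to a constant. -/
theorem exists_root_map_div {f : F} (hf : f ≠ 0) (h₀ : IsExtendable M.root₀ hn f)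
    (h₁ : IsExtendable M.root₁ hn f) (π ν : O) (hν : (n : O) * ν = 1)
    (hπ0 : algebraMap O F π ≠ 0) (hπ : ¬ ∃ b ∈ M.B₀, π • b = 1) (τ : F →+* F)
    (hτ₀ : TrivialMod M.B₀ π τ) (hτ₁ : TrivialMod M.B₁ π τ) (hτ₀₁ : TrivialMod M.B₀₁ π τ) :
    ∃ (c : O) (h : F), algebraMap O F c ≠ 0 ∧ h ≠ 0 ∧ h ^ n = algebraMap O F c * (τ f / f) := by
  obtain ⟨k, x, y, hx, hy, hxy⟩ := h₀
  obtain ⟨k', x', y', hx', hy', hxy'⟩ := h₁
  obtain ⟨hs₀, hu₀⟩ := defect_canonical M.root₀ hn hτ₀ hf hx hy hxy
  obtain ⟨hs₁, hu₁⟩ := defect_canonical M.root₁ hn hτ₁ hf hx' hy' hxy'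
  exact M.exists_root hn (div_ne_zero ((map_ne_zero τ).mpr hf) hf)
    (isExtendable_map_div hτ₀ ⟨k, x, y, hx, hy, hxy⟩) π ν hν hπ0 hπ hs₀ hs₁ hu₀ hu₁
    (canonical_congr M.root₀₁ hn hτ₀₁ hf (fun a => M.sec₀_le hn f (hx a))
      (fun a => M.sec₀_le hn f⁻¹ (hy a)) hxy (fun a => M.sec₁_le hn f (hx' a))
      (fun a => M.sec₁_le hn f⁻¹ (hy' a)) hxy')

end Charts

end Fermat.Agent.Models
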