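/-
Models, their special fibres, and their symmetries: hypotheses of the detection theorem.
-/
import Fermat.Agent.Models.CoreInvariant
import Fermat.Agent.Models.CoreExtend

set_option autoImplicit false

noncomputable section

namespace Fermat.Agent.Models

variable {O F : Type} [CommRing O] [IsDomain O] [IsDiscreteValuationRing O] [Field F] [Algebra O F]
  {ι : Type}

/-- A two-chart model, independent of the exponent. -/
structure Model (O F : Type) [CommRing O] [Field F] [Algebra O F] where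
  w : F
  w_ne : w ≠ 0
  B₀ : Subalgebra O F
  B₁ : Subalgebra O F
  B₀₁ : Subalgebra O F
  le₀ : B₀ ≤ B₀₁
  le₁ : B₁ ≤ B₀₁
  w_mem : w ∈ B₀
  w_inv_mem : w⁻¹ ∈ B₁
  loc₀ : ∀ b ∈ B₀₁, ∃ E : ℕ, w ^ E * b ∈ B₀
  loc₁ : ∀ b ∈ B₀₁, ∃ E : ℕ, w⁻¹ ^ E * b ∈ B₁
  fg₀ : ∃ (k : ℕ) (g : Fin k → F), (∀ i, g i ∈ B₀) ∧ ∀ b ∈ B₀,
    ∃ P : Fin k → Polynomial O, b = ∑ i, Polynomial.aeval w (P i) * g i
  closed₀ : ∀ x : F, IsIntegral B₀ x → x ∈ B₀
  closed₁ : ∀ x : F, IsIntegral B₁ x → x ∈ B₁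
  closed₀₁ : ∀ x : F, IsIntegral B₀₁ x → x ∈ B₀₁
  constants : ∀ x ∈ B₀, x ∈ B₁ → ∃ c : O, algebraMap O F c = x

/-- The two charts as exponent dependent `Charts`. -/
def Model.toCharts (M : Model O F) {n : ℕ} (hn : 0 < n) : Charts O F n where
  w := M.w
  w_ne := M.w_ne
  B₀ := M.B₀
  B₁ := M.B₁
  B₀₁ := M.B₀₁
  le₀ := M.le₀
  le₁ := M.le₁
  w_mem := M.w_mem
  w_inv_mem := M.w_inv_mem
  loc₀ := M.loc₀
  loc₁ := M.loc₁
  fg₀ := M.fg₀
  root₀ := rootClosed_of_isIntegral hn M.closed₀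
  root₁ := rootClosed_of_isIntegral hn M.closed₁
  root₀₁ := rootClosed_of_isIntegral hn M.closed₀₁
  constants := M.constants

/-- The special fibre of one chart: the components `P`. -/
structure ChartFibre (B : Subalgebra O F) (π : O) (P : ι → ValuationSubring F) : Prop where
  le : ∀ i, ∀ b ∈ B, b ∈ P i
  noetherian : IsNoetherianRing B
  reduced : ∀ b ∈ B, (∀ i, b ∈ (P i).nonunits) → ∃ e ∈ B, b = π • e
  maximal_above : ∀ (i : ι) (m : Ideal B), m.IsPrime →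
    (∀ b : B, (b : F) ∈ (P i).nonunits → b ∈ m) → (∃ b ∈ m, (b : F) ∉ (P i).nonunits) → m.IsMaximal
  residue : ∀ m : Ideal B, m.IsMaximal → algebraMap O B π ∈ m →
    ∀ b : B, ∃ c : O, b - algebraMap O B c ∈ m

/-- Components and the automorphisms fixing them pointwise. -/
structure Symmetry (M : Model O F) (π : O) (P : ι → ValuationSubring F) (G : Subgroup (RingAut F))
    (H : ι → Finset (RingAut F)) (d : ℕ) : Prop where
  injective : Function.Injective P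
  uniformizer : ∀ i, algebraMap O F π ∈ (P i).nonunits ∧
    ∀ x ∈ (P i).nonunits, x / algebraMap O F π ∈ P i
  fix_w : ∀ g ∈ G, g M.w = M.w
  map₀ : ∀ g ∈ G, ∀ b ∈ M.B₀, g b ∈ M.B₀
  map₁ : ∀ g ∈ G, ∀ b ∈ M.B₁, g b ∈ M.B₁
  const : ∀ g ∈ G, ∀ a : O, ∃ a' : O, g (algebraMap O F a) = algebraMap O F a' ∧
    a' - a ∈ IsLocalRing.maximalIdeal O
  perm : ∀ g ∈ G, ∀ i, ∃ j, ∀ x, g x ∈ P j ↔ x ∈ P i
  mem : ∀ i, ∀ h ∈ H i, h ∈ G
  card : ∀ i, (H i).card = d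
  fix : ∀ i, ∀ h ∈ H i, ∀ x ∈ P i, h x - x ∈ (P i).nonunits

end Fermat.Agent.Models
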