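/-
Residues in a valuation ring, constants.
-/
import Fermat.Agent.Models.CoreBasic

set_option autoImplicit false

noncomputable section

namespace Fermat.Agent.Models

open IsLocalRing

variable {F : Type} [Field F] (A : ValuationSubring F)

open Classical in
/-- Residue of an element of the field, zero outside the ring. -/
def rs (x : F) : ResidueField A := if h : x ∈ A then residue A ⟨x, h⟩ else 0

variable {A}

theorem rs_of_mem {x : F} (hx : x ∈ A) : rs A x = residue A ⟨x, hx⟩ := dif_pos hx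

theorem rs_add {x y : F} (hx : x ∈ A) (hy : y ∈ A) : rs A (x + y) = rs A x + rs A y := by
  rw [rs_of_mem hx, rs_of_mem hy, rs_of_mem (A.add_mem x y hx hy), ← map_add]
  rfl

theorem rs_sub {x y : F} (hx : x ∈ A) (hy : y ∈ A) : rs A (x - y) = rs A x - rs A y := by
  rw [rs_of_mem hx, rs_of_mem hy, rs_of_mem (sub_mem hx hy), ← map_sub]
  rfl

theorem rs_mul {x y : F} (hx : x ∈ A) (hy : y ∈ A) : rs A (x * y) = rs A x * rs A y := by
  rw [rs_of_mem hx, rs_of_mem hy, rs_of_mem (A.mul_mem x y hx hy), ← map_mul]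
  rfl

theorem rs_one : rs A (1 : F) = 1 := by
  rw [rs_of_mem A.one_mem]
  exact map_one (residue A)

theorem rs_zero : rs A (0 : F) = 0 := by
  rw [rs_of_mem A.zero_mem]
  exact map_zero (residue A)

theorem rs_pow {x : F} (hx : x ∈ A) : ∀ m : ℕ, rs A (x ^ m) = rs A x ^ m
  | 0 => by rw [pow_zero, pow_zero, rs_one]
  | m + 1 => by rw [pow_succ, pow_succ, rs_mul (pow_mem hx m) hx, rs_pow hx m]

theorem rs_sum {α : Type*} (s : Finset α) {x : α → F} (hx : ∀ a ∈ s, x a ∈ A) :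
    rs A (∑ a ∈ s, x a) = ∑ a ∈ s, rs A (x a) := by
  classical
  induction s using Finset.induction_on with
  | empty => simp [rs_zero]
  | insert a s ha ih =>
    rw [Finset.sum_insert ha, Finset.sum_insert ha,
      rs_add (hx a (Finset.mem_insert_self _ _))
        (sum_mem fun b hb => hx b (Finset.mem_insert_of_mem hb)),
      ih fun b hb => hx b (Finset.mem_insert_of_mem hb)]

theorem rs_eq_zero {x : F} (hx : x ∈ A) : rs A x = 0 ↔ x ∈ A.nonunits := by
  rw [rs_of_mem hx, residue_eq_zero_iff, ← A.coe_mem_nonunits_iff]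

theorem rs_eq_zero_of_nonunit {x : F} (hx : x ∈ A.nonunits) : rs A x = 0 :=
  (rs_eq_zero (A.nonunits_subset hx)).mpr hx

theorem rs_eq_iff {x y : F} (hx : x ∈ A) (hy : y ∈ A) : rs A x = rs A y ↔ x - y ∈ A.nonunits := by
  rw [← sub_eq_zero, ← rs_sub hx hy, rs_eq_zero (sub_mem hx hy)]

variable (A) in
/-- A unit of the valuation ring. -/
def IsU (x : F) : Prop := x ∈ A ∧ rs A x ≠ 0

theorem IsU.ne_zero {x : F} (h : IsU A x) : x ≠ 0 := by
  rintro rfl
  exact h.2 rs_zero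

theorem isU_iff {x : F} : IsU A x ↔ x ≠ 0 ∧ x ∈ A ∧ x⁻¹ ∈ A := by
  constructor
  · intro h
    have hne := h.ne_zero
    refine ⟨hne, h.1, by_contra fun hi => h.2 ((rs_eq_zero h.1).mpr ?_)⟩
    rw [A.mem_nonunits_iff_exists_mem_maximalIdeal]
    refine ⟨h.1, (mem_maximalIdeal _).mpr fun hu => hi ?_⟩
    obtain ⟨v, hv⟩ := hu
    have : ((v⁻¹ : Aˣ) : A) * (⟨x, h.1⟩ : A) = 1 := by rw [← hv]; exact v.inv_mul
    have hF := congrArg Subtype.val this
    push_cast at hF
    rw [← eq_inv_of_mul_eq_one_left hF]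
    exact Subtype.coe_prop _
  · rintro ⟨hne, hx, hi⟩
    refine ⟨hx, fun h0 => ?_⟩
    have h1 := rs_mul hx hi
    rw [mul_inv_cancel₀ hne, rs_one, h0, zero_mul] at h1
    exact one_ne_zero h1

theorem IsU.mul {x y : F} (hx : IsU A x) (hy : IsU A y) : IsU A (x * y) :=
  ⟨A.mul_mem _ _ hx.1 hy.1, by rw [rs_mul hx.1 hy.1]; exact mul_ne_zero hx.2 hy.2⟩

theorem IsU.inv {x : F} (hx : IsU A x) : IsU A x⁻¹ := by
  obtain ⟨h0, h1, h2⟩ := isU_iff.mp hx
  exact isU_iff.mpr ⟨inv_ne_zero h0, h2, by rwa [inv_inv]⟩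

theorem IsU.rs_inv {x : F} (hx : IsU A x) : rs A x⁻¹ = (rs A x)⁻¹ := by
  refine eq_inv_of_mul_eq_one_left ?_
  rw [← rs_mul hx.inv.1 hx.1, inv_mul_cancel₀ hx.ne_zero, rs_one]

theorem IsU.div {x y : F} (hx : IsU A x) (hy : IsU A y) : IsU A (x / y) := by
  rw [div_eq_mul_inv]; exact hx.mul hy.inv

theorem IsU.rs_div {x y : F} (hx : IsU A x) (hy : IsU A y) : rs A (x / y) = rs A x / rs A y := by
  rw [div_eq_mul_inv, rs_mul hx.1 hy.inv.1, hy.rs_inv, ← div_eq_mul_inv]

theorem isU_one : IsU A (1 : F) := ⟨A.one_mem, by rw [rs_one]; exact one_ne_zero⟩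

theorem IsU.pow {x : F} (hx : IsU A x) (m : ℕ) : IsU A (x ^ m) :=
  ⟨pow_mem hx.1 m, by rw [rs_pow hx.1]; exact pow_ne_zero _ hx.2⟩

theorem isU_prod {α : Type*} (s : Finset α) {x : α → F} (hx : ∀ a ∈ s, IsU A (x a)) :
    IsU A (∏ a ∈ s, x a) ∧ rs A (∏ a ∈ s, x a) = ∏ a ∈ s, rs A (x a) := by
  classical
  induction s using Finset.induction_on with
  | empty => exact ⟨isU_one, rs_one⟩
  | insert a s ha ih =>
    obtain ⟨h1, h2⟩ := ih fun b hb => hx b (Finset.mem_insert_of_mem hb)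
    have h0 := hx a (Finset.mem_insert_self _ _)
    rw [Finset.prod_insert ha, Finset.prod_insert ha, rs_mul h0.1 h1.1, h2]
    exact ⟨h0.mul h1, rfl⟩

theorem mem_of_pow_mem {x : F} {n : ℕ} (hn : 0 < n) (h : x ^ n ∈ A) : x ∈ A := by
  obtain ⟨y, hy⟩ := IsIntegrallyClosed.isIntegral_iff.mp
    (IsIntegral.of_pow hn (isIntegral_algebraMap (R := A) (A := F) (x := (⟨x ^ n, h⟩ : A))))
  rw [← hy]
  exact y.2

theorem isU_of_pow {x : F} {n : ℕ} (hn : 0 < n) (h : IsU A (x ^ n)) : IsU A x := by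
  obtain ⟨h0, h1, h2⟩ := isU_iff.mp h
  refine isU_iff.mpr ⟨fun e => h0 (by rw [e, zero_pow hn.ne']), mem_of_pow_mem hn h1,
    mem_of_pow_mem hn ?_⟩
  rwa [inv_pow]

/-- With a uniformiser, a power times an `n`-th power is a unit only for exponents divisible
by `n`. -/
theorem dvd_of_isU_zpow_mul {p : F} (hp0 : p ≠ 0) (hp : p ∈ A.nonunits)
    (hmax : ∀ x ∈ A.nonunits, x / p ∈ A) {n : ℕ} (hn : 0 < n) {m : ℤ} {y : F}
    (h : IsU A (p ^ m * y ^ n)) : (n : ℤ) ∣ m := by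
  have hpA := A.nonunits_subset hp
  obtain ⟨r, hr⟩ : ∃ r : ℕ, (r : ℤ) = m % n :=
    ⟨(m % n).toNat, Int.toNat_of_nonneg (Int.emod_nonneg _ (by omega))⟩
  have hrn : r < n := by
    have := Int.emod_lt_of_pos m (by omega : (0 : ℤ) < n)
    omega
  set y' := p ^ (m / n) * y
  have e : p ^ m * y ^ n = p ^ r * y' ^ n := by
    rw [mul_pow, ← zpow_natCast (p ^ (m / n)), ← zpow_mul, ← zpow_natCast p r, ← mul_assoc,
      ← zpow_add₀ hp0, hr]
    congr 2
    rw [mul_comm]
    exact (Int.emod_add_mul_ediv m n).symm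
  rw [e] at h
  rcases Nat.eq_zero_or_pos r with rfl | hr0
  · exact Int.dvd_of_emod_eq_zero hr.symm
  exfalso
  have hp' : rs A p = 0 := rs_eq_zero_of_nonunit hp
  by_cases hy : y' ∈ A
  · refine h.2 ?_
    rw [rs_mul (pow_mem hpA _) (pow_mem hy _), rs_pow hpA, hp', zero_pow hr0.ne', zero_mul]
  · have hy0 : y' ≠ 0 := fun e0 => hy (e0 ▸ A.zero_mem)
    have hyi : y'⁻¹ ∈ A.nonunits := by
      by_contra hni
      refine hy ?_
      have hi := (A.mem_or_inv_mem y').resolve_left hy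
      have := (isU_iff.mp (⟨hi, fun h0 => hni ((rs_eq_zero hi).mp h0)⟩ : IsU A y'⁻¹)).2.2
      rwa [inv_inv] at this
    set z := y'⁻¹ / p
    have hz : z ∈ A := hmax _ hyi
    have e2 : (p ^ r * y' ^ n)⁻¹ = p ^ (n - r) * z ^ n := by
      rw [div_pow, inv_pow, mul_inv, ← mul_div_assoc, mul_comm (p ^ r)⁻¹,
        pow_sub₀ p hp0 hrn.le]
      field_simp
    refine h.inv.2 ?_
    rw [e2, rs_mul (pow_mem hpA _) (pow_mem hz _), rs_pow hpA, hp', zero_pow (by omega), zero_mul]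

section Const

variable {O : Type} [CommRing O] [IsLocalRing O] [Algebra O F]

/-- The residue field of the base inside the residue field of `A`. -/
def constHom (hO : ∀ a : O, algebraMap O F a ∈ A)
    (hmax : ∀ a ∈ maximalIdeal O, algebraMap O F a ∈ A.nonunits) :
    ResidueField O →+* ResidueField A :=
  Ideal.Quotient.lift (maximalIdeal O)
    ((residue A).comp ((algebraMap O F).codRestrict A hO)) fun a ha => by
      have := rs_eq_zero_of_nonunit (hmax a ha)
      rwa [rs_of_mem (hO a)] at this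

theorem constHom_residue (hO : ∀ a : O, algebraMap O F a ∈ A)
    (hmax : ∀ a ∈ maximalIdeal O, algebraMap O F a ∈ A.nonunits) (a : O) :
    constHom hO hmax (residue O a) = rs A (algebraMap O F a) := by
  rw [rs_of_mem (hO a)]
  rfl

/-- An element with a nonzero constant power is constant. -/
theorem mem_range_of_pow {k K : Type*} [Field k] [IsAlgClosed k] [Field K] (φ : k →+* K)
    {N : ℕ} (hN : 0 < N) {α : K} {c : k} (hc : c ≠ 0) (h : α ^ N = φ c) :
    ∃ c' : k, c' ≠ 0 ∧ φ c' = α := by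
  classical
  obtain ⟨r, hr⟩ := IsAlgClosed.exists_pow_nat_eq c hN
  have hr0 : r ≠ 0 := fun e => hc (by rw [← hr, e, zero_pow hN.ne'])
  have hφr : φ r ≠ 0 := (map_ne_zero φ).mpr hr0
  have h1 : (α / φ r) ^ N = 1 := by
    rw [div_pow, h, ← map_pow, hr, div_self ((map_ne_zero φ).mpr hc)]
  set p : Polynomial k := Polynomial.X ^ N - 1
  have hp : p.Monic := by
    simpa [p] using Polynomial.monic_X_pow_sub_C (1 : k) hN.ne'
  have hmem : α / φ r ∈ (p.map φ).roots := by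
    rw [Polynomial.mem_roots ((hp.map φ).ne_zero)]
    simp [p, h1]
  rw [(IsAlgClosed.splits p).roots_map, Multiset.mem_map] at hmem
  obtain ⟨c', -, hc'⟩ := hmem
  refine ⟨c' * r, mul_ne_zero ?_ hr0, by rw [map_mul, hc', div_mul_cancel₀ _ hφr]⟩
  rintro rfl
  rw [map_zero] at hc'
  rw [← hc', zero_pow hN.ne'] at h1
  exact zero_ne_one h1

end Const

end Fermat.Agent.Models
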