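/-
Values at closed points of the special fibre.
-/
import Fermat.Agent.Models.DetectDefs
import Fermat.Agent.Models.DetectResidue

set_option autoImplicit false

noncomputable section

namespace Fermat.Agent.Models

open IsLocalRing

variable {O F : Type} [CommRing O] [IsDomain O] [IsDiscreteValuationRing O] [Field F] [Algebra O F]
  {ι : Type} {B : Subalgebra O F} {π : O} {P : ι → ValuationSubring F}

/-- The centre of a component on the chart. -/
def center (hf : ChartFibre B π P) (i : ι) : Ideal B :=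
  (maximalIdeal (P i)).comap
    ((B.val.toRingHom).codRestrict (P i) fun b => hf.le i b b.2)

variable {hf : ChartFibre B π P}

theorem mem_center {i : ι} {b : B} : b ∈ center hf i ↔ (b : F) ∈ (P i).nonunits := by
  unfold center
  rw [Ideal.mem_comap, ← (P i).coe_mem_nonunits_iff]
  exact Iff.rfl

instance center_isPrime (i : ι) : (center hf i).IsPrime := Ideal.IsPrime.comap _

theorem isU_of_notMem_center {i : ι} {b : B} (h : b ∉ center hf i) : IsU (P i) (b : F) :=
  ⟨hf.le i b b.2, fun h0 => h (mem_center.mpr ((rs_eq_zero (hf.le i b b.2)).mp h0))⟩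

theorem rs_of_mem_center {i : ι} {b : B} (h : b ∈ center hf i) : rs (P i) (b : F) = 0 :=
  rs_eq_zero_of_nonunit (mem_center.mp h)

/-- A closed point of the special fibre. -/
def IsPoint (π : O) (x : Ideal B) : Prop := x.IsMaximal ∧ algebraMap O B π ∈ x

variable {x : Ideal B}

theorem algebraMap_mem_point (hπ : Irreducible π) (hx : IsPoint π x) {a : O} :
    algebraMap O B a ∈ x ↔ a ∈ maximalIdeal O := by
  constructor
  · intro h
    by_contra hu
    exact hx.1.ne_top (Ideal.eq_top_of_isUnit_mem _ h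
      ((IsLocalRing.notMem_maximalIdeal.mp hu).map _))
  · intro h
    rw [hπ.maximalIdeal_eq, Ideal.mem_span_singleton] at h
    obtain ⟨c, rfl⟩ := h
    rw [map_mul]
    exact x.mul_mem_right _ hx.2

/-- The function `y` has value `c` at `x`. -/
def HasValue (x : Ideal B) (y : F) (c : ResidueField O) : Prop :=
  ∃ (a b : B) (c₀ : O), b ∉ x ∧ y * (b : F) = a ∧ residue O c₀ = c ∧
    a - algebraMap O B c₀ * b ∈ x

namespace HasValue

variable {y y' : F} {c c' : ResidueField O}

theorem algebraMap_const (hx : IsPoint π x) (a : O) :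
    HasValue x (algebraMap O F a) (residue O a) :=
  ⟨algebraMap O B a, 1, a, fun h => hx.1.ne_top ((Ideal.eq_top_iff_one _).mpr h),
    by rw [OneMemClass.coe_one, mul_one]; rfl, rfl, by simp⟩

theorem one (hx : IsPoint π x) : HasValue x (1 : F) (1 : ResidueField O) := by
  have := algebraMap_const (x := x) hx (1 : O)
  rwa [map_one, map_one] at this

theorem mul (hx : IsPoint π x) (h : HasValue x y c) (h' : HasValue x y' c') :
    HasValue x (y * y') (c * c') := by
  obtain ⟨a, b, c₀, hb, he, rfl, hm⟩ := h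
  obtain ⟨a', b', c₀', hb', he', rfl, hm'⟩ := h'
  refine ⟨a * a', b * b', c₀ * c₀', hx.1.isPrime.mul_notMem hb hb', ?_, map_mul _ _ _, ?_⟩
  · push_cast; rw [← he, ← he']; ring
  · have e : a * a' - algebraMap O B (c₀ * c₀') * (b * b') = (a - algebraMap O B c₀ * b) * a' +
        algebraMap O B c₀ * b * (a' - algebraMap O B c₀' * b') := by rw [map_mul]; ring
    rw [e]
    exact add_mem (x.mul_mem_right _ hm) (x.mul_mem_left _ hm')

theorem pow (hx : IsPoint π x) (h : HasValue x y c) : ∀ m : ℕ, HasValue x (y ^ m) (c ^ m)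
  | 0 => by rw [pow_zero, pow_zero]; exact one hx
  | m + 1 => by rw [pow_succ, pow_succ]; exact mul hx (pow hx h m) h

theorem prod (hx : IsPoint π x) {α : Type*} (s : Finset α) {z : α → F} {v : α → ResidueField O}
    (h : ∀ a ∈ s, HasValue x (z a) (v a)) : HasValue x (∏ a ∈ s, z a) (∏ a ∈ s, v a) := by
  induction s using Finset.cons_induction with
  | empty => simpa using one hx
  | cons a s ha ih =>
    rw [Finset.prod_cons, Finset.prod_cons]
    exact mul hx (h a (Finset.mem_cons_self a s)) (ih fun b hb => h b (Finset.mem_cons_of_mem hb))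

theorem notMem (hπ : Irreducible π) (hx : IsPoint π x) {a b : B} {c₀ : O} (hb : b ∉ x)
    (hm : a - algebraMap O B c₀ * b ∈ x) (hc : residue O c₀ ≠ 0) : a ∉ x := fun ha => by
  have h : algebraMap O B c₀ * b ∈ x := by simpa using sub_mem ha hm
  rcases hx.1.isPrime.mem_or_mem h with h | h
  · exact hc ((residue_eq_zero_iff _).mpr ((algebraMap_mem_point hπ hx).mp h))
  · exact hb h

theorem unique (hπ : Irreducible π) (hx : IsPoint π x) (h : HasValue x y c) (h' : HasValue x y c') :
    c = c' := by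
  obtain ⟨a, b, c₀, hb, he, rfl, hm⟩ := h
  obtain ⟨a', b', c₀', hb', he', rfl, hm'⟩ := h'
  have hab : a * b' = a' * b := Subtype.ext (by push_cast; rw [← he, ← he']; ring)
  have h : algebraMap O B (c₀ - c₀') * (b * b') ∈ x := by
    have e : algebraMap O B (c₀ - c₀') * (b * b') =
        (a' - algebraMap O B c₀' * b') * b - (a - algebraMap O B c₀ * b) * b' := by
      rw [map_sub]; linear_combination hab
    rw [e]
    exact sub_mem (x.mul_mem_right _ hm') (x.mul_mem_right _ hm)
  have := (hx.1.isPrime.mem_or_mem h).resolve_right (hx.1.isPrime.mul_notMem hb hb')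
  rwa [algebraMap_mem_point hπ hx, ← residue_eq_zero_iff, map_sub, sub_eq_zero] at this

theorem inv (hπ : Irreducible π) (hx : IsPoint π x) (h : HasValue x y c) (hc : c ≠ 0) :
    HasValue x y⁻¹ c⁻¹ := by
  obtain ⟨a, b, c₀, hb, he, rfl, hm⟩ := h
  have ha := notMem hπ hx hb hm hc
  obtain ⟨u, hu⟩ : IsUnit c₀ :=
    IsLocalRing.notMem_maximalIdeal.mp fun hu => hc ((residue_eq_zero_iff _).mpr hu)
  have huv : (↑u⁻¹ : O) * c₀ = 1 := by rw [← hu]; exact u.inv_mul
  refine ⟨b, a, ↑u⁻¹, ha, ?_, ?_, ?_⟩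
  · rcases eq_or_ne y 0 with rfl | hy
    · exact absurd (show a = 0 from Subtype.ext (by rw [← he, zero_mul]; rfl))
        fun h0 => ha (h0 ▸ zero_mem _)
    · rw [← he, inv_mul_cancel_left₀ hy]
  · exact eq_inv_of_mul_eq_one_left (by rw [← map_mul, huv, map_one])
  · have e : b - algebraMap O B ↑u⁻¹ * a = -(algebraMap O B ↑u⁻¹) * (a - algebraMap O B c₀ * b) := by
      have h1 : algebraMap O B ↑u⁻¹ * algebraMap O B c₀ = 1 := by rw [← map_mul, huv, map_one]
      linear_combination (-b) * h1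
    rw [e]
    exact x.mul_mem_left _ hm

theorem div (hπ : Irreducible π) (hx : IsPoint π x) (h : HasValue x y c) (h' : HasValue x y' c')
    (hc : c' ≠ 0) : HasValue x (y / y') (c / c') := by
  rw [div_eq_mul_inv, div_eq_mul_inv]; exact mul hx h (inv hπ hx h' hc)

theorem of_fraction (hπ : Irreducible π) (hf : ChartFibre B π P) (hx : IsPoint π x) {a b : B}
    (ha : a ∉ x) (hb : b ∉ x) : ∃ c : ResidueField O, c ≠ 0 ∧ HasValue x ((a : F) / b) c := by
  obtain ⟨a₀, ha₀⟩ := hf.residue x hx.1 hx.2 a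
  obtain ⟨b₀, hb₀⟩ := hf.residue x hx.1 hx.2 b
  have hne : ∀ {e : B} {e₀ : O}, e ∉ x → e - algebraMap O B e₀ ∈ x → residue O e₀ ≠ 0 := by
    intro e e₀ he hm h0
    have h1 := add_mem hm ((algebraMap_mem_point hπ hx).mpr ((residue_eq_zero_iff _).mp h0))
    exact he (by simpa using h1)
  have hbF : (b : F) ≠ 0 := fun h => hb (by rw [show b = 0 from Subtype.ext h]; exact zero_mem _)
  obtain ⟨u, hu⟩ : IsUnit b₀ :=
    IsLocalRing.notMem_maximalIdeal.mp fun h => hne hb hb₀ ((residue_eq_zero_iff _).mpr h)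
  have huv : (↑u⁻¹ : O) * b₀ = 1 := by rw [← hu]; exact u.inv_mul
  refine ⟨residue O (a₀ * ↑u⁻¹), ?_, a, b, _, hb, div_mul_cancel₀ _ hbF, rfl, ?_⟩
  · rw [map_mul]
    exact mul_ne_zero (hne ha ha₀) ((u⁻¹).isUnit.map (residue O)).ne_zero
  · have h1 : algebraMap O B ↑u⁻¹ * algebraMap O B b₀ = 1 := by rw [← map_mul, huv, map_one]
    have e : a - algebraMap O B (a₀ * ↑u⁻¹) * b = (a - algebraMap O B a₀) -
        algebraMap O B (a₀ * ↑u⁻¹) * (b - algebraMap O B b₀) := by
      rw [map_mul]; linear_combination (algebraMap O B a₀) * (-h1)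
    rw [e]
    exact sub_mem ha₀ (x.mul_mem_left _ hb₀)

theorem root (hπ : Irreducible π) (hf : ChartFibre B π P) {n : ℕ} (hB : RootClosed B n) (hn : 0 < n)
    (hx : IsPoint π x) (h : HasValue x (y ^ n) c) (hc : c ≠ 0) :
    ∃ c', c' ≠ 0 ∧ c' ^ n = c ∧ HasValue x y c' := by
  obtain ⟨a, b, c₀, hb, he, hres, hm⟩ := h
  obtain ⟨k, rfl⟩ : ∃ k, n = k + 1 := ⟨n - 1, (Nat.sub_add_cancel hn).symm⟩
  have hyb : y * (b : F) ∈ B := hB _ (by
    rw [mul_pow, pow_succ' (b : F), ← mul_assoc, he]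
    exact mul_mem a.2 (pow_mem b.2 _))
  obtain ⟨e₀, he₀⟩ : ∃ e₀ : B, (e₀ : F) = y * b := ⟨⟨_, hyb⟩, rfl⟩
  have hne : e₀ ∉ x := by
    intro h0
    have hpow : e₀ ^ (k + 1) = a * b ^ k := Subtype.ext (by
      push_cast; rw [he₀, mul_pow, pow_succ' (b : F), ← mul_assoc, he])
    have h1 : a * b ^ k ∈ x := hpow ▸ Ideal.pow_mem_of_mem x h0 (k + 1) k.succ_pos
    rcases hx.1.isPrime.mem_or_mem h1 with h1 | h1
    · exact notMem hπ hx hb hm (hres ▸ hc) h1
    · exact hb (hx.1.isPrime.mem_of_pow_mem k h1)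
  have hbF : (b : F) ≠ 0 := fun h => hb (by rw [show b = 0 from Subtype.ext h]; exact zero_mem _)
  obtain ⟨c', hc', hy⟩ := of_fraction hπ hf hx hne hb
  rw [he₀, mul_div_cancel_right₀ _ hbF] at hy
  exact ⟨c', hc', unique hπ hx (pow hx hy _) ⟨a, b, c₀, hb, he, hres, hm⟩, hy⟩

theorem isU (hπ : Irreducible π) (hx : IsPoint π x) (h : HasValue x y c) (hc : c ≠ 0) {i : ι}
    (hi : center hf i ≤ x) : IsU (P i) y := by
  obtain ⟨a, b, c₀, hb, he, rfl, hm⟩ := h
  have hbU := isU_of_notMem_center (hf := hf) fun h => hb (hi h)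
  have : y = (a : F) / b := by rw [← he, mul_div_cancel_right₀ _ hbU.ne_zero]
  rw [this]
  exact (isU_of_notMem_center fun h => notMem hπ hx hb hm hc (hi h)).div hbU

theorem congr (hπ : Irreducible π) (hx : IsPoint π x) (h : HasValue x y c) (h' : HasValue x y' c')
    (hc : c ≠ 0) (hc' : c' ≠ 0) {i : ι} (hi : center hf i ≤ x) (he : rs (P i) y = rs (P i) y') :
    c = c' := by
  obtain ⟨a, b, c₀, hb, e, rfl, hm⟩ := h
  obtain ⟨a', b', c₀', hb', e', rfl, hm'⟩ := h'
  have hU : IsU (P i) y := isU (hf := hf) hπ hx ⟨a, b, c₀, hb, e, rfl, hm⟩ hc hi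
  have hU' : IsU (P i) y' := isU (hf := hf) hπ hx ⟨a', b', c₀', hb', e', rfl, hm'⟩ hc' hi
  have hab : a * b' - a' * b ∈ center hf i := by
    rw [mem_center]
    push_cast
    have h1 : (a : F) * b' = y * (b * b') := by rw [← e]; ring
    have h2 : (a' : F) * b = y' * (b * b') := by rw [← e']; ring
    have hbb := (P i).mul_mem _ _ (hf.le i b b.2) (hf.le i b' b'.2)
    rw [h1, h2, ← rs_eq_iff ((P i).mul_mem _ _ hU.1 hbb) ((P i).mul_mem _ _ hU'.1 hbb),
      rs_mul hU.1 hbb, rs_mul hU'.1 hbb, he]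
  have h : algebraMap O B (c₀ - c₀') * (b * b') ∈ x := by
    have e2 : algebraMap O B (c₀ - c₀') * (b * b') = (a' - algebraMap O B c₀' * b') * b -
        (a - algebraMap O B c₀ * b) * b' + (a * b' - a' * b) := by
      rw [map_sub]; ring
    rw [e2]
    exact add_mem (sub_mem (x.mul_mem_right _ hm') (x.mul_mem_right _ hm)) (hi hab)
  have := (hx.1.isPrime.mem_or_mem h).resolve_right (hx.1.isPrime.mul_notMem hb hb')
  rwa [algebraMap_mem_point hπ hx, ← residue_eq_zero_iff, map_sub, sub_eq_zero] at this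

end HasValue

/-- A local root at a point gives a unit of the local ring. -/
theorem exists_local_root {n : ℕ} (hn : 0 < n) (hπ : Irreducible π) (hf : ChartFibre B π P)
    (hx : IsPoint π x) {f : F} (hf0 : f ≠ 0) (h : HasRootAt B n f x) :
    ∃ s : F, s ≠ 0 ∧ ∃ c : ResidueField O, c ≠ 0 ∧ HasValue x (f / s ^ n) c := by
  obtain ⟨s, a, b, ha, hb, he⟩ := h
  change (b : F) * s ^ n = (a : F) * f at he
  have haF : (a : F) ≠ 0 := fun h => ha (by rw [show a = 0 from Subtype.ext h]; exact zero_mem _)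
  have hbF : (b : F) ≠ 0 := fun h => hb (by rw [show b = 0 from Subtype.ext h]; exact zero_mem _)
  have hs : s ≠ 0 := by
    rintro rfl
    rw [zero_pow hn.ne', mul_zero, eq_comm] at he
    exact mul_ne_zero haF hf0 he
  obtain ⟨c, hc, hv⟩ := HasValue.of_fraction hπ hf hx hb ha
  refine ⟨s, hs, c, hc, ?_⟩
  have : f / s ^ n = (b : F) / a := by
    rw [div_eq_div_iff (pow_ne_zero _ hs) haF]; linear_combination -he
  rwa [this]

end Fermat.Agent.Models
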