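/-
Targets on components and their values on branches.
-/
import Fermat.Agent.Models.DetectPoint

set_option autoImplicit false

noncomputable section

namespace Fermat.Agent.Models

open IsLocalRing

variable {O F : Type} [CommRing O] [IsDomain O] [IsDiscreteValuationRing O] [Field F] [Algebra O F]
  {ι : Type} {B : Subalgebra O F} {π : O} {P : ι → ValuationSubring F}
  {G : Subgroup (RingAut F)}

/-- The chart is stable and constants are moved inside their residue classes. -/
structure Stable (B : Subalgebra O F) (G : Subgroup (RingAut F)) : Prop where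
  map : ∀ g ∈ G, ∀ b ∈ B, g b ∈ B
  const : ∀ g ∈ G, ∀ a : O, ∃ a' : O, g (algebraMap O F a) = algebraMap O F a' ∧
    a' - a ∈ maximalIdeal O

variable {hf : ChartFibre B π P}

/-- An element of the group as an endomorphism of the chart. -/
def restr (hst : Stable B G) (g : G) : B →+* B :=
  (((g : RingAut F) : F →+* F).comp B.val.toRingHom).codRestrict B fun b => hst.map g g.2 b b.2

theorem restr_apply (hst : Stable B G) (g : G) (b : B) :
    ((restr hst g b : B) : F) = (g : RingAut F) (b : F) := rfl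

/-- The action on ideals of the chart. -/
def actPt (hst : Stable B G) (g : G) (x : Ideal B) : Ideal B := x.comap (restr hst g⁻¹)

theorem restr_restr (hst : Stable B G) (g h : G) (b : B) :
    restr hst g (restr hst h b) = restr hst (g * h) b := rfl

theorem restr_one (hst : Stable B G) (b : B) : restr hst 1 b = b := rfl

theorem mem_actPt {hst : Stable B G} {g : G} {x : Ideal B} {b : B} :
    b ∈ actPt hst g x ↔ restr hst g⁻¹ b ∈ x := Iff.rfl

theorem restr_mem_actPt {hst : Stable B G} {g : G} {x : Ideal B} {b : B} :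
    restr hst g b ∈ actPt hst g x ↔ b ∈ x := by
  rw [mem_actPt, restr_restr, inv_mul_cancel, restr_one]

theorem actPt_mul (hst : Stable B G) (g h : G) (x : Ideal B) :
    actPt hst (g * h) x = actPt hst g (actPt hst h x) := by
  ext b
  rw [mem_actPt, mem_actPt, mem_actPt, restr_restr, mul_inv_rev]

theorem actPt_one (hst : Stable B G) (x : Ideal B) : actPt hst 1 x = x := by
  ext b
  rw [mem_actPt, inv_one, restr_one]

theorem restr_const (hst : Stable B G) (g : G) (a : O) :
    ∃ a' : O, restr hst g (algebraMap O B a) = algebraMap O B a' ∧ a' - a ∈ maximalIdeal O := by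
  obtain ⟨a', h1, h2⟩ := hst.const g g.2 a
  exact ⟨a', Subtype.ext h1, h2⟩

theorem isPoint_actPt (hπ : Irreducible π) (hst : Stable B G) (g : G) {x : Ideal B}
    (hx : IsPoint π x) : IsPoint π (actPt hst g x) := by
  refine ⟨?_, ?_⟩
  · haveI := hx.1
    refine Ideal.comap_isMaximal_of_surjective _ fun b => ⟨restr hst g b, ?_⟩
    rw [restr_restr, inv_mul_cancel, restr_one]
  · rw [mem_actPt]
    obtain ⟨a', h1, h2⟩ := restr_const hst g⁻¹ π
    rw [h1, algebraMap_mem_point hπ hx]
    have := add_mem h2 (show π ∈ maximalIdeal O from hπ.maximalIdeal_eq ▸ Ideal.mem_span_singleton_self π)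
    rwa [sub_add_cancel] at this

theorem HasValue.map (hπ : Irreducible π) (hst : Stable B G) (g : G) {x : Ideal B}
    (hx : IsPoint π x) {y : F} {c : ResidueField O} (h : HasValue x y c) :
    HasValue (actPt hst g x) ((g : RingAut F) y) c := by
  obtain ⟨a, b, c₀, hb, he, rfl, hm⟩ := h
  obtain ⟨a', h1, h2⟩ := restr_const hst g c₀
  refine ⟨restr hst g a, restr hst g b, a', fun h => hb (restr_mem_actPt.mp h), ?_, ?_, ?_⟩
  · rw [restr_apply, restr_apply, ← map_mul, he]
  · rw [← sub_eq_zero, ← map_sub, residue_eq_zero_iff]; exact h2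
  · rw [← h1, ← map_mul, ← map_sub]
    exact restr_mem_actPt.mpr hm

section Perm

variable {g : G} {i j : ι} (hij : ∀ x, (g : RingAut F) x ∈ P j ↔ x ∈ P i)
include hij

theorem nonunits_map {x : F} : (g : RingAut F) x ∈ (P j).nonunits ↔ x ∈ (P i).nonunits := by
  rcases eq_or_ne x 0 with rfl | hx
  · have h0 : ∀ A : ValuationSubring F, (0 : F) ∈ A.nonunits := fun A =>
      (rs_eq_zero A.zero_mem).mp rs_zero
    rw [map_zero]
    exact iff_of_true (h0 _) (h0 _)
  have hgx : (g : RingAut F) x ≠ 0 := (map_ne_zero _).mpr hx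
  have hU : IsU (P j) ((g : RingAut F) x) ↔ IsU (P i) x := by
    rw [isU_iff, isU_iff, ← map_inv₀, hij, hij]
    simp [hx, hgx]
  have key : ∀ (A : ValuationSubring F) (z : F), z ∈ A.nonunits ↔ z ∈ A ∧ ¬ IsU A z := fun A z =>
    ⟨fun h => ⟨A.nonunits_subset h, fun hu => hu.2 (rs_eq_zero_of_nonunit h)⟩,
      fun ⟨h1, h2⟩ => (rs_eq_zero h1).mp (by_contra fun h0 => h2 ⟨h1, h0⟩)⟩
  rw [key, key, hij, hU]

theorem rs_map_eq {y z : F} (hy : y ∈ P i) (hz : z ∈ P i) (h : rs (P i) y = rs (P i) z) :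
    rs (P j) ((g : RingAut F) y) = rs (P j) ((g : RingAut F) z) := by
  rw [rs_eq_iff ((hij y).mpr hy) ((hij z).mpr hz), ← map_sub, nonunits_map hij]
  exact (rs_eq_iff hy hz).mp h

theorem center_le_actPt (hst : Stable B G) {x : Ideal B} (hx : center hf i ≤ x) :
    center hf j ≤ actPt hst g x := by
  intro b hb
  rw [mem_actPt]
  refine hx (mem_center.mpr ?_)
  rw [← nonunits_map hij, restr_apply]
  show (g : RingAut F) (((g⁻¹ : G) : RingAut F) (b : F)) ∈ _
  rw [← RingAut.mul_apply, ← Subgroup.coe_mul, mul_inv_cancel]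
  exact mem_center.mp hb

end Perm

theorem rs_fix {h : RingAut F} {i : ι} (hfix : ∀ x ∈ P i, h x - x ∈ (P i).nonunits) {z : F}
    (hz : z ∈ P i) : h z ∈ P i ∧ rs (P i) (h z) = rs (P i) z := by
  have h1 := hfix z hz
  have h2 : h z ∈ P i := by
    have h3 : h z - z + z ∈ P i := (P i).add_mem _ _ ((P i).nonunits_subset h1) hz
    rwa [sub_add_cancel] at h3
  exact ⟨h2, (rs_eq_iff h2 hz).mpr h1⟩

theorem actPt_eq_self (hst : Stable B G) {h : G} {i : ι}
    (hfix : ∀ x ∈ P i, (h : RingAut F) x - x ∈ (P i).nonunits) {x : Ideal B}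
    (hx : center hf i ≤ x) : actPt hst h x = x := by
  have key : ∀ b : B, restr hst h b - b ∈ x := fun b => hx (mem_center.mpr (by
    push_cast; rw [restr_apply]; exact hfix _ (hf.le i b b.2)))
  ext b
  rw [mem_actPt]
  have h1 := key (restr hst h⁻¹ b)
  rw [restr_restr, mul_inv_cancel, restr_one] at h1
  exact ⟨fun hb => by simpa using add_mem h1 hb, fun hb => by simpa using sub_mem hb h1⟩

/-- The value of a target on a branch. -/
def BranchValue (P : ι → ValuationSubring F) (x : Ideal B) (i : ι) (z : F)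
    (c : ResidueField O) : Prop :=
  c ≠ 0 ∧ ∃ y : F, HasValue x y c ∧ IsU (P i) z ∧ rs (P i) y = rs (P i) z

namespace BranchValue

variable {x : Ideal B} {i : ι} {z z' : F} {c c' : ResidueField O}

theorem isU (h : BranchValue P x i z c) : IsU (P i) z := by
  obtain ⟨-, y, -, h, -⟩ := h; exact h

theorem unique (hπ : Irreducible π) (hx : IsPoint π x) (hi : center hf i ≤ x)
    (h : BranchValue P x i z c) (h' : BranchValue P x i z c') : c = c' := by
  obtain ⟨hc, y, hy, -, he⟩ := h
  obtain ⟨hc', y', hy', -, he'⟩ := h'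
  exact hy.congr hπ hx hy' hc hc' hi (he.trans he'.symm)

theorem mul (hπ : Irreducible π) (hx : IsPoint π x) (hi : center hf i ≤ x)
    (h : BranchValue P x i z c) (h' : BranchValue P x i z' c') :
    BranchValue P x i (z * z') (c * c') := by
  obtain ⟨hc, y, hy, hz, he⟩ := h
  obtain ⟨hc', y', hy', hz', he'⟩ := h'
  refine ⟨mul_ne_zero hc hc', y * y', hy.mul hx hy', hz.mul hz', ?_⟩
  rw [rs_mul (hy.isU hπ hx hc hi).1 (hy'.isU hπ hx hc' hi).1, rs_mul hz.1 hz'.1, he, he']

theorem of_hasValue (hπ : Irreducible π) (hx : IsPoint π x) (hi : center hf i ≤ x) {y : F}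
    (h : HasValue x y c) (hc : c ≠ 0) : BranchValue P x i y c :=
  ⟨hc, y, h, h.isU hπ hx hc hi, rfl⟩

theorem congr_rs (h : BranchValue P x i z c) (hz : IsU (P i) z')
    (he : rs (P i) z = rs (P i) z') : BranchValue P x i z' c := by
  obtain ⟨hc, y, hy, -, he'⟩ := h
  exact ⟨hc, y, hy, hz, he'.trans he⟩

theorem pow (hπ : Irreducible π) (hx : IsPoint π x) (hi : center hf i ≤ x)
    (h : BranchValue P x i z c) : ∀ m : ℕ, BranchValue P x i (z ^ m) (c ^ m)
  | 0 => by
    rw [pow_zero, pow_zero]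
    exact of_hasValue hπ hx hi (HasValue.one hx) one_ne_zero
  | m + 1 => by rw [pow_succ, pow_succ]; exact mul hπ hx hi (pow hπ hx hi h m) h

theorem prod (hπ : Irreducible π) (hx : IsPoint π x) (hi : center hf i ≤ x) {α : Type*}
    (s : Finset α) {w : α → F} {v : α → ResidueField O}
    (h : ∀ a ∈ s, BranchValue P x i (w a) (v a)) :
    BranchValue P x i (∏ a ∈ s, w a) (∏ a ∈ s, v a) := by
  induction s using Finset.cons_induction with
  | empty => simpa using of_hasValue hπ hx hi (HasValue.one hx) one_ne_zero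
  | cons a s ha ih =>
    rw [Finset.prod_cons, Finset.prod_cons]
    exact mul hπ hx hi (h a (Finset.mem_cons_self a s)) (ih fun b hb => h b (Finset.mem_cons_of_mem hb))

theorem map (hπ : Irreducible π) (hst : Stable B G) (hx : IsPoint π x) (hi : center hf i ≤ x)
    {g : G} {j : ι} (hij : ∀ x, (g : RingAut F) x ∈ P j ↔ x ∈ P i)
    (h : BranchValue P x i z c) : BranchValue P (actPt hst g x) j ((g : RingAut F) z) c := by
  obtain ⟨hc, y, hy, hz, he⟩ := h
  have hz' : IsU (P j) ((g : RingAut F) z) := by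
    refine ⟨(hij z).mpr hz.1, fun h0 => hz.2 ?_⟩
    rw [rs_eq_zero ((hij z).mpr hz.1), nonunits_map hij] at h0
    exact rs_eq_zero_of_nonunit h0
  exact ⟨hc, _, hy.map hπ hst g hx, hz', rs_map_eq hij (hy.isU hπ hx hc hi).1 hz.1 he⟩

end BranchValue

section Norm

variable {n : ℕ}

/-- A function whose value is a constant times an `n`-th power is so with a unit constant. -/
theorem exists_unit_const (hn : 0 < n) (hπ : Irreducible π) (hinj : Function.Injective (algebraMap O F))
    {i : ι} (hu : algebraMap O F π ∈ (P i).nonunits ∧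
      ∀ x ∈ (P i).nonunits, x / algebraMap O F π ∈ P i)
    (hmem : ∀ a : O, algebraMap O F a ∈ P i) {Y : F}
    {a b : O} {k : F} (ha : a ≠ 0) (hb : b ≠ 0) {S : F} (hS : IsU (P i) (Y / S ^ n))
    (he : algebraMap O F b * Y = algebraMap O F a * k ^ n) :
    ∃ (u : O) (k' : F), IsUnit u ∧ Y = algebraMap O F u * k' ^ n := by
  obtain ⟨ra, ua, rfl⟩ := IsDiscreteValuationRing.eq_unit_mul_pow_irreducible ha hπ
  obtain ⟨rb, ub, rfl⟩ := IsDiscreteValuationRing.eq_unit_mul_pow_irreducible hb hπ
  set p := algebraMap O F π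
  have hp0 : p ≠ 0 := (map_ne_zero_iff _ hinj).mpr hπ.ne_zero
  set u : O := ↑(ua * ub⁻¹) with hu'
  have hub : algebraMap O F (ub : O) ≠ 0 := (map_ne_zero_iff _ hinj).mpr ub.ne_zero
  have hY : Y = algebraMap O F u * (p ^ ((ra : ℤ) - rb) * k ^ n) := by
    have h1 : algebraMap O F (ub : O) * algebraMap O F (↑ub⁻¹ : O) = 1 := by
      rw [← map_mul, Units.mul_inv, map_one]
    simp only [map_mul, map_pow] at he
    rw [hu', Units.val_mul, map_mul, zpow_sub₀ hp0, zpow_natCast, zpow_natCast]
    field_simp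
    linear_combination algebraMap O F (↑ub⁻¹ : O) * he - Y * p ^ rb * h1
  have hU : IsU (P i) (algebraMap O F u) := by
    refine isU_iff.mpr ⟨(map_ne_zero_iff _ hinj).mpr (Units.ne_zero _), hmem _, ?_⟩
    have : algebraMap O F u * algebraMap O F (↑(ua * ub⁻¹)⁻¹ : O) = 1 := by
      rw [hu', ← map_mul, Units.mul_inv, map_one]
    rw [inv_eq_of_mul_eq_one_right this]
    exact hmem _
  have hq : IsU (P i) (p ^ ((ra : ℤ) - rb) * (k / S) ^ n) := by
    have := hS.div hU
    rwa [hY, mul_div_assoc, mul_div_cancel_left₀ _ hU.ne_zero, mul_div_assoc, ← div_pow] at this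
  obtain ⟨j, hj⟩ := dvd_of_isU_zpow_mul hp0 hu.1 hu.2 hn hq
  refine ⟨u, p ^ j * k, Units.isUnit _, ?_⟩
  rw [hY, hj, mul_pow, ← zpow_natCast (p ^ j), ← zpow_mul, mul_comm (n : ℤ) j]

end Norm

end Fermat.Agent.Models
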