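/-
Finiteness of the crossing points of a special fibre.
-/
import Fermat.Agent.Models.DetectBranch

set_option autoImplicit false

noncomputable section

namespace Fermat.Agent.Models

open IsLocalRing

variable {O F : Type} [CommRing O] [IsDomain O] [IsDiscreteValuationRing O] [Field F] [Algebra O F]
  {ι : Type} {B : Subalgebra O F} {π : O} {P : ι → ValuationSubring F}

theorem pi_mem_center (hf : ChartFibre B π P) (hu : ∀ i, algebraMap O F π ∈ (P i).nonunits) (i : ι) :
    algebraMap O B π ∈ center hf i := mem_center.mpr (hu i)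

theorem exists_point_over (hf : ChartFibre B π P) (hu : ∀ i, algebraMap O F π ∈ (P i).nonunits)
    (i : ι) : ∃ x : Ideal B, IsPoint π x ∧ center hf i ≤ x := by
  obtain ⟨x, hx, hle⟩ := Ideal.exists_le_maximal (center hf i) (center_isPrime i).ne_top
  exact ⟨x, ⟨hx, hle (pi_mem_center hf hu i)⟩, hle⟩

theorem isMaximal_of_lt (hf : ChartFibre B π P) {i : ι} {m : Ideal B} [hm : m.IsPrime]
    (h : center hf i < m) : m.IsMaximal := by
  obtain ⟨b, hbm, hb⟩ := SetLike.exists_of_lt h
  exact hf.maximal_above i m hm (fun c hc => h.le (mem_center.mpr hc))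
    ⟨b, hbm, fun hn => hb (mem_center.mpr hn)⟩

theorem not_le_of_ne (hf : ChartFibre B π P) {i j : ι} (hmax : ¬ (center hf i).IsMaximal)
    (hne : center hf j ≠ center hf i) : ¬ center hf j ≤ center hf i := fun h =>
  hmax (isMaximal_of_lt hf (lt_of_le_of_ne h hne))

/-- A finite stable set of points outside which only one component passes. -/
theorem exists_pointSet [Fintype ι] (hπ : Irreducible π) (hf : ChartFibre B π P)
    (hu : ∀ i, algebraMap O F π ∈ (P i).nonunits) {G : Subgroup (RingAut F)} [Finite G]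
    (hst : Stable B G) :
    ∃ X : Finset (Ideal B), (∀ x ∈ X, IsPoint π x) ∧ (∀ g : G, ∀ x ∈ X, actPt hst g x ∈ X) ∧
      (∀ i, ∃ x ∈ X, center hf i ≤ x) ∧
      ∀ x, IsPoint π x → x ∉ X → ∀ i j, center hf i ≤ x → center hf j ≤ x →
        center hf i = center hf j ∧ ¬ (center hf i).IsMaximal := by
  classical
  haveI := hf.noetherian
  haveI := Fintype.ofFinite G
  choose x₀ hx₀ hx₀le using exists_point_over hf hu
  let S : ι × ι → Finset (Ideal B) := fun p =>
    ((Ideal.finite_minimalPrimes_of_isNoetherianRing B (center hf p.1 ⊔ center hf p.2)).toFinset).filter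
      (fun m => m.IsMaximal)
  let X₀ : Finset (Ideal B) := Finset.univ.image x₀ ∪ Finset.univ.biUnion S
  have hX₀ : ∀ x ∈ X₀, IsPoint π x := by
    intro x hx
    rcases Finset.mem_union.mp hx with h | h
    · obtain ⟨i, -, rfl⟩ := Finset.mem_image.mp h
      exact hx₀ i
    · obtain ⟨p, -, hp⟩ := Finset.mem_biUnion.mp h
      obtain ⟨h1, h2⟩ := Finset.mem_filter.mp hp
      rw [Set.Finite.mem_toFinset] at h1
      exact ⟨h2, h1.1.2 (Ideal.mem_sup_left (pi_mem_center hf hu _))⟩
  refine ⟨(Finset.univ : Finset G).biUnion fun g => X₀.image (actPt hst g), ?_, ?_, ?_, ?_⟩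
  · intro x hx
    obtain ⟨g, -, h⟩ := Finset.mem_biUnion.mp hx
    obtain ⟨y, hy, rfl⟩ := Finset.mem_image.mp h
    exact isPoint_actPt hπ hst g (hX₀ y hy)
  · intro g x hx
    obtain ⟨h, -, hh⟩ := Finset.mem_biUnion.mp hx
    obtain ⟨y, hy, rfl⟩ := Finset.mem_image.mp hh
    exact Finset.mem_biUnion.mpr ⟨g * h, Finset.mem_univ _,
      Finset.mem_image.mpr ⟨y, hy, actPt_mul hst g h y⟩⟩
  · intro i
    refine ⟨x₀ i, Finset.mem_biUnion.mpr ⟨1, Finset.mem_univ _, Finset.mem_image.mpr
      ⟨x₀ i, Finset.mem_union_left _ (Finset.mem_image_of_mem _ (Finset.mem_univ i)), actPt_one hst _⟩⟩,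
      hx₀le i⟩
  · intro x hx hxX i j hi hj
    have hnot : x ∉ X₀ := fun h =>
      hxX (Finset.mem_biUnion.mpr ⟨1, Finset.mem_univ _, Finset.mem_image.mpr ⟨x, h, actPt_one hst x⟩⟩)
    have hmax : ∀ l, center hf l ≤ x → ¬ (center hf l).IsMaximal := fun l hl hm => by
      refine hnot (Finset.mem_union_left _ (Finset.mem_image.mpr ⟨l, Finset.mem_univ _, ?_⟩))
      exact (hm.eq_of_le (hx₀ l).1.ne_top (hx₀le l)).symm.trans (hm.eq_of_le hx.1.ne_top hl)
    refine ⟨by_contra fun hne => ?_, hmax i hi⟩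
    haveI := hx.1.isPrime
    obtain ⟨m, hm, hmx⟩ := Ideal.exists_minimalPrimes_le (sup_le hi hj)
    haveI := hm.1.1
    have hlt : center hf i < m := lt_of_le_of_ne (le_trans le_sup_left hm.1.2) fun h =>
      not_le_of_ne hf (hmax i hi) (Ne.symm hne) (h ▸ le_trans le_sup_right hm.1.2)
    have hmm := isMaximal_of_lt hf hlt
    refine hnot (Finset.mem_union_right _ (Finset.mem_biUnion.mpr ⟨(i, j), Finset.mem_univ _,
      Finset.mem_filter.mpr ⟨?_, ?_⟩⟩))
    · rw [Set.Finite.mem_toFinset, ← hmm.eq_of_le hx.1.ne_top hmx]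
      exact hm
    · exact hx.1

end Fermat.Agent.Models
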