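/-
Gluing compatible residues on a chart, after a power of the residue characteristic.
-/
import Fermat.Agent.Models.DetectFinite

set_option autoImplicit false

noncomputable section

namespace Fermat.Agent.Models

open IsLocalRing

variable {O F : Type} [CommRing O] [IsDomain O] [IsDiscreteValuationRing O] [Field F] [Algebra O F]
  {ι : Type} [Fintype ι] {B : Subalgebra O F} {π : O} {P : ι → ValuationSubring F}

open Classical in
/-- The product of the other centres. -/
def otherCenters (hf : ChartFibre B π P) (i : ι) : Ideal B :=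
  ∏ j ∈ Finset.univ.filter (fun j => center hf j ≠ center hf i), center hf j

theorem otherCenters_le (hf : ChartFibre B π P) {i j : ι} (h : center hf j ≠ center hf i) :
    otherCenters hf i ≤ center hf j := by
  classical
  exact Ideal.le_of_dvd (Finset.dvd_prod_of_mem _ (Finset.mem_filter.mpr ⟨Finset.mem_univ j, h⟩))

/-- A uniform exponent putting high powers into the sum with the other centres. -/
theorem exists_conductor_exponent (hf : ChartFibre B π P) :
    ∃ L : ℕ, ∀ (x : Ideal B) (i : ι), x.IsMaximal → center hf i ≤ x → ¬ (center hf i).IsMaximal →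
      ∃ b ∉ x, ∀ m ∈ x, b * m ^ L ∈ center hf i ⊔ otherCenters hf i := by
  classical
  haveI := hf.noetherian
  choose L hL using fun i => Ideal.exists_radical_pow_le_of_fg (center hf i ⊔ otherCenters hf i)
    (IsNoetherian.noetherian _)
  refine ⟨Finset.univ.sup L, fun x i hx hix hmax => ?_⟩
  set I := center hf i ⊔ otherCenters hf i
  obtain ⟨d, hd⟩ := Nat.exists_eq_add_of_le (Finset.le_sup (f := L) (Finset.mem_univ i))
  by_cases hI : I ≤ x
  swap
  · obtain ⟨b, hbI, hbx⟩ := SetLike.not_le_iff_exists.mp hI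
    exact ⟨b, hbx, fun m _ => I.mul_mem_right _ hbI⟩
  have hK : ¬ otherCenters hf i ≤ center hf i := fun h => by
    obtain ⟨j, hj, hle⟩ := (center_isPrime (hf := hf) i).prod_le.mp h
    exact not_le_of_ne hf hmax (Finset.mem_filter.mp hj).2 hle
  have hminmax : ∀ p ∈ I.minimalPrimes, p.IsMaximal := fun p hp => by
    haveI := hp.1.1
    refine isMaximal_of_lt hf (lt_of_le_of_ne (le_trans le_sup_left hp.1.2) fun h => hK ?_)
    exact h ▸ le_trans le_sup_right hp.1.2
  set S := (Ideal.finite_minimalPrimes_of_isNoetherianRing B I).toFinset.filter (fun p => p ≠ x)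
  have hS : ¬ (∏ p ∈ S, p) ≤ x := fun h => by
    obtain ⟨p, hp, hle⟩ := hx.isPrime.prod_le.mp h
    obtain ⟨hp1, hp2⟩ := Finset.mem_filter.mp hp
    exact hp2 ((hminmax p (by simpa using hp1)).eq_of_le hx.ne_top hle)
  obtain ⟨b, hbS, hbx⟩ := SetLike.not_le_iff_exists.mp hS
  refine ⟨b ^ L i, fun h => hbx (hx.isPrime.mem_of_pow_mem _ h), fun m hm => ?_⟩
  have hrad : b * m ∈ I.radical := by
    rw [← Ideal.sInf_minimalPrimes, Ideal.mem_sInf]
    intro p hp
    by_cases hpx : p = x
    · exact hpx ▸ Ideal.mul_mem_left _ _ hm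
    · exact Ideal.mul_mem_right _ _ (Ideal.le_of_dvd
        (Finset.dvd_prod_of_mem (fun p => p) (Finset.mem_filter.mpr ⟨by simpa using hp, hpx⟩)) hbS)
  have h1 : (b * m) ^ L i ∈ I := hL i (Ideal.pow_mem_pow hrad (L i))
  rw [hd, pow_add, ← mul_assoc, ← mul_pow]
  exact I.mul_mem_right _ h1

/-- Elements with one value at a point have, after a power, a common lift at the point. -/
theorem exists_local_lift (hπ : Irreducible π) (hf : ChartFibre B π P) {q : ℕ} (hq : q.Prime)
    (hqU : ∀ i, (q : F) ∈ (P i).nonunits) {L N : ℕ}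
    (hL : ∀ (x : Ideal B) (i : ι), x.IsMaximal → center hf i ≤ x → ¬ (center hf i).IsMaximal →
      ∃ b ∉ x, ∀ m ∈ x, b * m ^ L ∈ center hf i ⊔ otherCenters hf i) (hLN : L ≤ q ^ N)
    {x : Ideal B} (hx : IsPoint π x) {y : ι → F} {c : ResidueField O}
    (hy : ∀ i, center hf i ≤ x → HasValue x (y i) c)
    (hsame : ∀ i j, center hf i ≤ x → center hf i = center hf j → ¬ (center hf i).IsMaximal →
      rs (P i) (y j) = rs (P i) (y i)) :
    ∃ r b : B, b ∉ x ∧ ∀ i, center hf i ≤ x →
      y i ∈ P i ∧ rs (P i) (r : F) = rs (P i) (y i ^ q ^ N) * rs (P i) (b : F) := by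
  classical
  set Q := q ^ N
  have hQ : 0 < Q := pow_pos hq.pos N
  set Ix := Finset.univ.filter fun i => center hf i ≤ x with hIxdef
  have hIx : ∀ {i}, i ∈ Ix ↔ center hf i ≤ x := by simp [hIxdef]
  obtain ⟨c₀, rfl⟩ := IsLocalRing.residue_surjective c
  choose a b cc hb hab hcc hm using hy
  let bT : ι → B := fun i => if h : center hf i ≤ x then b i h else 1
  let aT : ι → B := fun i => if h : center hf i ≤ x then a i h else 0
  set W := ∏ i ∈ Ix, bT i with hW
  let V : ι → B := fun i => aT i * ∏ j ∈ Ix.erase i, bT j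
  have hbT : ∀ i ∈ Ix, bT i ∉ x := fun i hi => by
    simp only [bT, dif_pos (hIx.mp hi)]; exact hb i _
  have hWx : W ∉ x := fun h => by
    obtain ⟨i, hi, h⟩ := hx.1.isPrime.prod_mem_iff.mp h
    exact hbT i hi h
  have hVW : ∀ i ∈ Ix, y i * (W : F) = (V i : F) := fun i hi => by
    rw [hW, ← Finset.mul_prod_erase Ix bT hi]
    simp only [V, aT, bT, dif_pos (hIx.mp hi)]
    push_cast
    rw [← hab i (hIx.mp hi), mul_assoc]
  let m : ι → B := fun i => V i - algebraMap O B c₀ * W
  have hmx : ∀ i ∈ Ix, m i ∈ x := fun i hi => by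
    have h1 : algebraMap O B (cc i (hIx.mp hi) - c₀) ∈ x := by
      rw [algebraMap_mem_point hπ hx, ← residue_eq_zero_iff, map_sub, hcc, sub_self]
    have e : m i = (aT i - algebraMap O B (cc i (hIx.mp hi)) * bT i) * ∏ j ∈ Ix.erase i, bT j +
        algebraMap O B (cc i (hIx.mp hi) - c₀) * W := by
      simp only [m, V]
      rw [hW, ← Finset.mul_prod_erase Ix bT hi, map_sub]; ring
    rw [e]
    refine add_mem (x.mul_mem_right _ ?_) (x.mul_mem_right _ h1)
    simp only [aT, bT, dif_pos (hIx.mp hi)]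
    exact hm i _
  set S := (Ix.filter fun i => ¬ (center hf i).IsMaximal).image (center hf) with hS
  have hrep : ∀ p ∈ S, ∃ i, i ∈ Ix ∧ ¬ (center hf i).IsMaximal ∧ center hf i = p := fun p hp => by
    obtain ⟨i, hi, rfl⟩ := Finset.mem_image.mp hp
    exact ⟨i, (Finset.mem_filter.mp hi).1, (Finset.mem_filter.mp hi).2, rfl⟩
  choose rep hrep1 hrep2 hrep3 using hrep
  have hk : ∀ p (hp : p ∈ S), ∃ β k : B, β ∉ x ∧ k ∈ otherCenters hf (rep p hp) ∧
      β * m (rep p hp) ^ Q - k ∈ p := fun p hp => by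
    obtain ⟨β, hβ, hβm⟩ := hL x (rep p hp) hx.1 (hIx.mp (hrep1 p hp)) (hrep2 p hp)
    have h1 : β * m (rep p hp) ^ Q ∈ center hf (rep p hp) ⊔ otherCenters hf (rep p hp) := by
      obtain ⟨d, hd⟩ := Nat.exists_eq_add_of_le hLN
      rw [show Q = L + d from hd, pow_add, ← mul_assoc]
      exact Ideal.mul_mem_right _ _ (hβm _ (hmx _ (hrep1 p hp)))
    obtain ⟨u, hu, k, hk, huk⟩ := Submodule.mem_sup.mp h1
    exact ⟨β, k, hβ, hk, by rw [← huk, add_sub_cancel_right, ← hrep3 p hp]; exact hu⟩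
  choose β k hβ hkK hkp using hk
  let β' : Ideal B → B := fun p => if h : p ∈ S then β p h else 1
  let k' : Ideal B → B := fun p => if h : p ∈ S then k p h else 0
  set βs := ∏ p ∈ S, β' p with hβs
  set e := ∑ p ∈ S, k' p * ∏ p' ∈ S.erase p, β' p' with he
  have hβsx : βs ∉ x := fun h => by
    obtain ⟨p, hp, h⟩ := hx.1.isPrime.prod_mem_iff.mp h
    simp only [β', dif_pos hp] at h
    exact hβ p hp h
  refine ⟨βs * (algebraMap O B c₀ * W) ^ Q + e, βs * W ^ Q,
    hx.1.isPrime.mul_notMem hβsx fun h => hWx (hx.1.isPrime.mem_of_pow_mem _ h), fun i hi => ?_⟩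
  have hiI := hIx.mpr hi
  have hWU : IsU (P i) (W : F) := isU_of_notMem_center (hf := hf) fun h => hWx (hi h)
  have hyi : y i ∈ P i := by
    have : y i = (V i : F) * (W : F)⁻¹ := by
      rw [← hVW i hiI, mul_inv_cancel_right₀ hWU.ne_zero]
    rw [this]
    exact (P i).mul_mem _ _ (hf.le i _ (V i).2) hWU.inv.1
  refine ⟨hyi, ?_⟩
  have hmem : ∀ z : B, (z : F) ∈ P i := fun z => hf.le i z z.2
  haveI : CharP (ResidueField (P i)) q := by
    refine (CharP.charP_iff_prime_eq_zero hq).mpr ?_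
    have h1 := rs_eq_zero_of_nonunit (hqU i)
    rw [rs_of_mem ((P i).nonunits_subset (hqU i))] at h1
    rw [← h1, ← map_natCast (residue (P i))]
    rfl
  haveI : Fact q.Prime := ⟨hq⟩
  let φ : B →+* ResidueField (P i) :=
    (residue (P i)).comp (B.val.toRingHom.codRestrict (P i) fun b => hmem b)
  have hφ : ∀ z : B, rs (P i) (z : F) = φ z := fun z => rs_of_mem (hmem z)
  have hφ0 : ∀ {z : B}, z ∈ center hf i → φ z = 0 := fun {z} hz => by
    rw [← hφ]; exact rs_of_mem_center hz
  have hcore : φ e = φ βs * φ (m i) ^ Q := by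
    by_cases hmaxi : (center hf i).IsMaximal
    · have hxi : center hf i = x := hmaxi.eq_of_le hx.1.ne_top hi
      rw [hφ0 (hxi ▸ hmx i hiI : m i ∈ center hf i), zero_pow hQ.ne', mul_zero]
      refine hφ0 (hxi ▸ Ideal.sum_mem x fun p hp => x.mul_mem_right _ ?_)
      simp only [k', dif_pos hp]
      have h1 := x.mul_mem_left (β p hp) (Ideal.pow_mem_of_mem x (hmx _ (hrep1 p hp)) Q hQ)
      have h2 : β p hp * m (rep p hp) ^ Q - k p hp ∈ x :=
        (show p ≤ x by rw [← hrep3 p hp]; exact hIx.mp (hrep1 p hp)) (hkp p hp)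
      simpa using sub_mem h1 h2
    · have hpS : center hf i ∈ S :=
        Finset.mem_image_of_mem _ (Finset.mem_filter.mpr ⟨hiI, hmaxi⟩)
      rw [he, map_sum, Finset.sum_eq_single_of_mem _ hpS]
      · rw [hβs, ← Finset.mul_prod_erase S β' hpS, map_mul, map_mul]
        simp only [β', k', dif_pos hpS]
        have h1 := hφ0 (hkp _ hpS)
        rw [map_sub, map_mul, map_pow, sub_eq_zero] at h1
        have hj := hrep3 _ hpS
        have hj' := hrep1 _ hpS
        have h2 : φ (m (rep _ hpS)) = φ (m i) := by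
          set j := rep _ hpS
          simp only [m, map_sub]
          congr 1
          rw [← hφ, ← hφ, ← hVW i hiI, ← hVW j hj']
          have hyj : y j ∈ P i := by
            have : y j = (V j : F) * (W : F)⁻¹ := by
              rw [← hVW j hj', mul_inv_cancel_right₀ hWU.ne_zero]
            rw [this]
            exact (P i).mul_mem _ _ (hmem _) hWU.inv.1
          rw [rs_mul hyj hWU.1, rs_mul hyi hWU.1, hsame i j hi hj.symm hmaxi]
        rw [← h1, h2]; ring
      · intro p hp hne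
        rw [map_mul]
        simp only [k', dif_pos hp]
        rw [hφ0 (otherCenters_le hf (by rw [hrep3 p hp]; exact Ne.symm hne) (hkK p hp)), zero_mul]
  rw [rs_pow hyi]
  have hV : rs (P i) (y i) * φ W = φ (V i) := by
    rw [← hφ, ← hφ, ← rs_mul hyi hWU.1, hVW i hiI]
  rw [hφ, hφ, map_add, map_mul, map_mul, map_pow, map_pow, hcore,
    show φ (m i) = φ (V i) - φ (algebraMap O B c₀ * W) from map_sub φ _ _,
    sub_pow_char_pow, ← hV]
  ring

/-- Local solutions glue to a root modulo `π` with the prescribed residues. -/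
theorem exists_glued_root {n : ℕ} (hB : RootClosed B n) (hn : 0 < n) (hf : ChartFibre B π P)
    (hu : ∀ i, algebraMap O F π ∈ (P i).nonunits) {f : F} {T : ι → F}
    (hT : ∀ i, IsU (P i) (T i ^ n / f) ∧ rs (P i) (T i ^ n / f) = 1)
    (hloc : ∀ x : Ideal B, IsPoint π x → ∃ r ∈ rootModule hB hn f, ∃ b : B, b ∉ x ∧
      ∀ i, center hf i ≤ x → rs (P i) (r / T i) = rs (P i) (b : F)) :
    ∃ s ∈ rootModule hB hn f, (∀ i, s / T i ∈ P i ∧ rs (P i) (s / T i) = 1) ∧
      ∃ a ∈ B, s ^ n / f = 1 + π • a := by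
  classical
  have hT0 : ∀ i, T i ^ n / f ≠ 0 := fun i => (hT i).1.ne_zero
  have hpow : ∀ (i : ι) (r : F), (r / T i) ^ n = (r ^ n / f) / (T i ^ n / f) := fun i r => by
    have hf0 : f ≠ 0 := fun h => hT0 i (by rw [h, div_zero])
    rw [div_pow, div_div_div_cancel_right₀ hf0]
  have hmem : ∀ (i : ι) (r : F), r ∈ rootModule hB hn f → r / T i ∈ P i := fun i r hr => by
    refine mem_of_pow_mem hn ?_
    rw [hpow, div_eq_mul_inv]
    exact (P i).mul_mem _ _ (hf.le i _ hr) (hT i).1.inv.1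
  let J : Ideal B :=
    { carrier := {b | ∃ r ∈ rootModule hB hn f, ∀ i, rs (P i) (r / T i) = rs (P i) (b : F)}
      zero_mem' := ⟨0, zero_mem _, fun i => by rw [zero_div]; rfl⟩
      add_mem' := by
        rintro b b' ⟨r, hr, h⟩ ⟨r', hr', h'⟩
        refine ⟨r + r', add_mem hr hr', fun i => ?_⟩
        rw [add_div, rs_add (hmem i r hr) (hmem i r' hr'), h i, h' i,
          ← rs_add (hf.le i b b.2) (hf.le i b' b'.2)]
        rfl
      smul_mem' := by
        rintro a b ⟨r, hr, h⟩
        refine ⟨(a : F) * r, mul_left_mem a.2 hr, fun i => ?_⟩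
        rw [mul_div_assoc, rs_mul (hf.le i a a.2) (hmem i r hr), h i,
          ← rs_mul (hf.le i a a.2) (hf.le i b b.2)]
        rfl }
  have htop : J = ⊤ := by
    by_contra hne
    obtain ⟨x, hx, hle⟩ := Ideal.exists_le_maximal _ hne
    have hπJ : algebraMap O B π ∈ J := ⟨0, zero_mem _, fun i => by
      rw [zero_div, rs_zero]; exact (rs_eq_zero_of_nonunit (hu i)).symm⟩
    obtain ⟨r, hr, b, hb, hrb⟩ := hloc x ⟨hx, hle hπJ⟩
    set S := Finset.univ.filter (fun i => ¬ center hf i ≤ x)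
    have hS : ¬ (∏ i ∈ S, center hf i) ≤ x := fun h => by
      obtain ⟨i, hi, h⟩ := hx.isPrime.prod_le.mp h
      exact (Finset.mem_filter.mp hi).2 h
    obtain ⟨z, hz, hzx⟩ := SetLike.not_le_iff_exists.mp hS
    refine hx.isPrime.mul_notMem hzx hb (hle ⟨(z : F) * r, mul_left_mem z.2 hr, fun i => ?_⟩)
    rw [mul_div_assoc, rs_mul (hf.le i z z.2) (hmem i r hr), MulMemClass.coe_mul,
      rs_mul (hf.le i z z.2) (hf.le i b b.2)]
    by_cases hi : center hf i ≤ x
    · rw [hrb i hi]
    · rw [rs_of_mem_center (hf := hf) (Ideal.le_of_dvd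
        (Finset.dvd_prod_of_mem _ (Finset.mem_filter.mpr ⟨Finset.mem_univ i, hi⟩)) hz),
        zero_mul, zero_mul]
  obtain ⟨s, hs, h⟩ := (Ideal.eq_top_iff_one _).mp htop
  have h1 : ∀ i, rs (P i) (s / T i) = 1 := fun i => (h i).trans rs_one
  refine ⟨s, hs, fun i => ⟨hmem i s hs, h1 i⟩, ?_⟩
  obtain ⟨e, he, hee⟩ := hf.reduced (s ^ n / f - 1) (sub_mem hs (one_mem _)) fun i => by
    rw [← rs_eq_iff (hf.le i _ hs) (P i).one_mem, rs_one,
      show s ^ n / f = (s / T i) ^ n * (T i ^ n / f) by rw [hpow, div_mul_cancel₀ _ (hT0 i)],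
      rs_mul (pow_mem (hmem i s hs) _) (hT i).1.1, rs_pow (hmem i s hs), h1, (hT i).2, one_pow,
      one_mul]
  exact ⟨e, he, by rw [← hee, add_sub_cancel]⟩

end Fermat.Agent.Models
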