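/-
The branch obstruction is killed by an equivariant integral matrix.
-/
import Mathlib

set_option autoImplicit false

noncomputable section

namespace Fermat.Agent.Models

open LinearMap

variable {Br X ι G : Type} [Fintype Br] [DecidableEq Br] [Fintype X] [Fintype ι] [Group G] [Fintype G]

theorem prod_zpow_eq {α K : Type} [CommGroup K] (a : K) (s : Finset α) (f : α → ℤ) :
    ∏ c ∈ s, a ^ f c = a ^ ∑ c ∈ s, f c := by
  induction s using Finset.cons_induction with
  | empty => simp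
  | cons b s hb ih => rw [Finset.prod_cons, Finset.sum_cons, ih, zpow_add]

/-- An equivariant integral matrix killing functions of points and of components, congruent to
a multiple of the identity modulo such functions. -/
theorem exists_branch_matrix (pt : Br → X) (comp : Br → ι) (σ : G →* Equiv.Perm Br)
    (hpt : ∀ g b b', pt b = pt b' → pt (σ g b) = pt (σ g b'))
    (hcomp : ∀ g b b', comp b = comp b' → comp (σ g b) = comp (σ g b')) :
    ∃ D : ℕ, 0 < D ∧ ∃ (E : Br → Br → ℤ) (U : X → Br → ℤ) (W : ι → Br → ℤ),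
      (∀ g b c, E (σ g b) (σ g c) = E b c) ∧
      (∀ b (φ : X → ℤ), ∑ c, E b c * φ (pt c) = 0) ∧
      (∀ b (ψ : ι → ℤ), ∑ c, E b c * ψ (comp c) = 0) ∧
      ∀ b, ∃ (A : Br → ℤ) (B : Br → ℤ), (∀ c, A c = U (pt b) c) ∧ (∀ c, B c = W (comp b) c) ∧
        ∀ c, (if b = c then (D : ℤ) else 0) = E b c + A c + B c := by
  classical
  let Φ : ((X → ℚ) × (ι → ℚ)) →ₗ[ℚ] (Br → ℚ) :=
    (LinearMap.funLeft ℚ ℚ pt).coprod (LinearMap.funLeft ℚ ℚ comp)
  obtain ⟨p, hp⟩ := LinearMap.exists_extend (p := range Φ) LinearMap.id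
  obtain ⟨s, hs⟩ := Φ.rangeRestrict.exists_rightInverse_of_surjective Φ.range_rangeRestrict
  let ψ := s.comp p
  have hψ : ∀ u, Φ (ψ (Φ u)) = Φ u := fun u => by
    have h1 : p (Φ u) = ⟨Φ u, LinearMap.mem_range_self Φ u⟩ :=
      LinearMap.congr_fun hp ⟨Φ u, LinearMap.mem_range_self Φ u⟩
    have h2 := LinearMap.congr_fun hs (p (Φ u))
    show Φ (s (p (Φ u))) = Φ u
    exact (congrArg Subtype.val h2).trans (congrArg Subtype.val h1)
  have hlin : ∀ {γ : Type} (L : (Br → ℚ) →ₗ[ℚ] (γ → ℚ)) (v : Br → ℚ) (a : γ),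
      L v a = ∑ c, v c * L (Pi.single c 1) a := by
    intro γ L v a
    conv_lhs => rw [pi_eq_sum_univ' v]
    rw [map_sum, Finset.sum_apply]
    refine Finset.sum_congr rfl fun c _ => ?_
    rw [map_smul, Pi.smul_apply, smul_eq_mul]
  set M₁ : X → Br → ℚ := fun x c => (ψ (Pi.single c 1)).1 x
  set M₂ : ι → Br → ℚ := fun i c => (ψ (Pi.single c 1)).2 i
  obtain ⟨⟨D₀, hD₀⟩, hint⟩ := IsLocalization.exist_integer_multiples_of_finite (nonZeroDivisors ℤ)
    (S := ℚ) (Sum.elim (fun t : X × Br => M₁ t.1 t.2) (fun t : ι × Br => M₂ t.1 t.2))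
  choose m hm using hint
  simp only [zsmul_eq_mul, eq_intCast, algebraMap_int_eq] at hm
  set D₁ : ℕ := D₀.natAbs
  have hD₁ : 0 < D₁ := Int.natAbs_pos.mpr (nonZeroDivisors.ne_zero hD₀)
  set sg : ℤ := D₀.sign
  have hsg : (sg : ℚ) * (D₀ : ℚ) = (D₁ : ℚ) := by
    rw [← Int.cast_mul, Int.sign_mul_self_eq_natAbs, Int.cast_natCast]
  set U₀ : X → Br → ℤ := fun x c => sg * m (Sum.inl (x, c))
  set W₀ : ι → Br → ℤ := fun i c => sg * m (Sum.inr (i, c))
  set P₀ : Br → Br → ℤ := fun b c =>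
    (if b = c then (D₁ : ℤ) else 0) - U₀ (pt b) c - W₀ (comp b) c
  have hU₀ : ∀ x c, (U₀ x c : ℚ) = D₁ * M₁ x c := fun x c => by
    simp only [U₀]; push_cast
    rw [hm (Sum.inl (x, c)), ← mul_assoc, hsg]; rfl
  have hW₀ : ∀ i c, (W₀ i c : ℚ) = D₁ * M₂ i c := fun i c => by
    simp only [W₀]; push_cast
    rw [hm (Sum.inr (i, c)), ← mul_assoc, hsg]; rfl
  have hkill : ∀ (u : (X → ℚ) × (ι → ℚ)) (b : Br), ∑ c, (P₀ b c : ℚ) * Φ u c = 0 := by
    intro u b
    have h := congrFun (hψ u) b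
    have h1 : (ψ (Φ u)).1 (pt b) = ∑ c, Φ u c * M₁ (pt b) c :=
      hlin ((LinearMap.fst ℚ _ _).comp ψ) (Φ u) (pt b)
    have h2 : (ψ (Φ u)).2 (comp b) = ∑ c, Φ u c * M₂ (comp b) c :=
      hlin ((LinearMap.snd ℚ _ _).comp ψ) (Φ u) (comp b)
    have h3 : Φ (ψ (Φ u)) b = (ψ (Φ u)).1 (pt b) + (ψ (Φ u)).2 (comp b) := rfl
    have e : ∀ c, (P₀ b c : ℚ) * Φ u c = (if b = c then (D₁ : ℚ) * Φ u c else 0) -
        (D₁ : ℚ) * (Φ u c * M₁ (pt b) c) - (D₁ : ℚ) * (Φ u c * M₂ (comp b) c) := fun c => by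
      simp only [P₀]; push_cast
      rw [hU₀, hW₀]
      split_ifs <;> push_cast <;> ring
    simp only [e]
    rw [Finset.sum_sub_distrib, Finset.sum_sub_distrib, Finset.sum_ite_eq, if_pos (Finset.mem_univ b),
      ← Finset.mul_sum, ← Finset.mul_sum, ← h1, ← h2, ← h, h3]
    ring
  have hkpt : ∀ b (φ : X → ℤ), ∑ c, P₀ b c * φ (pt c) = 0 := by
    intro b φ
    refine Int.cast_injective (α := ℚ) ?_
    have := hkill (fun x => (φ x : ℚ), 0) b
    simpa [Φ] using this
  have hkcomp : ∀ b (ψ' : ι → ℤ), ∑ c, P₀ b c * ψ' (comp c) = 0 := by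
    intro b φ
    refine Int.cast_injective (α := ℚ) ?_
    have := hkill (0, fun i => (φ i : ℚ)) b
    simpa [Φ] using this
  -- the average
  let rX : G → X → X := fun g x => if h : ∃ b, pt b = x then pt (σ g h.choose) else x
  let rI : G → ι → ι := fun g i => if h : ∃ b, comp b = i then comp (σ g h.choose) else i
  have hrX : ∀ g b, rX g (pt b) = pt (σ g b) := fun g b => by
    have h : ∃ b', pt b' = pt b := ⟨b, rfl⟩
    simp only [rX, dif_pos h]
    exact hpt g _ _ h.choose_spec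
  have hrI : ∀ g b, rI g (comp b) = comp (σ g b) := fun g b => by
    have h : ∃ b', comp b' = comp b := ⟨b, rfl⟩
    simp only [rI, dif_pos h]
    exact hcomp g _ _ h.choose_spec
  have hσσ : ∀ g h b, σ g (σ h b) = σ (g * h) b := fun g h b => by
    rw [map_mul]; rfl
  refine ⟨Fintype.card G * D₁, Nat.mul_pos Fintype.card_pos hD₁,
    fun b c => ∑ g, P₀ (σ g b) (σ g c), fun x c => ∑ g, U₀ (rX g x) (σ g c),
    fun i c => ∑ g, W₀ (rI g i) (σ g c), ?_, ?_, ?_, ?_⟩
  · intro g b c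
    simp only [hσσ]
    exact Equiv.sum_comp (Equiv.mulRight g) fun h => P₀ (σ h b) (σ h c)
  · intro b φ
    simp only [Finset.sum_mul]
    rw [Finset.sum_comm]
    refine Finset.sum_eq_zero fun g _ => ?_
    have := hkpt (σ g b) (fun x => φ (rX g⁻¹ x))
    simp only [hrX] at this
    rw [← Equiv.sum_comp (σ g)] at this
    refine Eq.trans (Finset.sum_congr rfl fun c _ => ?_) this
    rw [hσσ, inv_mul_cancel, map_one]; rfl
  · intro b φ
    simp only [Finset.sum_mul]
    rw [Finset.sum_comm]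
    refine Finset.sum_eq_zero fun g _ => ?_
    have := hkcomp (σ g b) (fun x => φ (rI g⁻¹ x))
    simp only [hrI] at this
    rw [← Equiv.sum_comp (σ g)] at this
    refine Eq.trans (Finset.sum_congr rfl fun c _ => ?_) this
    rw [hσσ, inv_mul_cancel, map_one]; rfl
  · intro b
    refine ⟨_, _, fun c => rfl, fun c => rfl, fun c => ?_⟩
    simp only [hrX, hrI, ← Finset.sum_add_distrib]
    have : ∀ g, P₀ (σ g b) (σ g c) + U₀ (pt (σ g b)) (σ g c) + W₀ (comp (σ g b)) (σ g c) =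
        if b = c then (D₁ : ℤ) else 0 := fun g => by
      simp only [P₀, EmbeddingLike.apply_eq_iff_eq]; ring
    simp only [this, Finset.sum_const, Finset.card_univ, nsmul_eq_mul]
    split_ifs <;> push_cast <;> ring

/-- Equivariant data whose norms are trivial have, after a power, trivial obstruction. -/
theorem exists_obstruction_exponent (pt : Br → X) (comp : Br → ι) (σ : G →* Equiv.Perm Br)
    (hpt : ∀ g b b', pt b = pt b' → pt (σ g b) = pt (σ g b'))
    (hcomp : ∀ g b b', comp b = comp b' → comp (σ g b) = comp (σ g b'))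
    (Hs : Br → Finset G) {d : ℕ} (hd : ∀ b, (Hs b).card = d)
    (hfix : ∀ b, ∀ h ∈ Hs b, σ h b = b) :
    ∃ D : ℕ, 0 < D ∧ ∀ (K : Type) [CommGroup K] (β : G → Br → K) (β₁ : Br → K),
      (∀ g, ∃ (φ : X → K) (ψ : ι → K), ∀ b, β g (σ g b) = β₁ b * φ (pt b) * ψ (comp b)) →
      (∀ b, ∃ (φ : X → K) (ψ : ι → K), ∀ c, ∏ h ∈ Hs b, β h c = φ (pt c) * ψ (comp c)) →
      ∃ (φ : X → K) (ψ : ι → K), ∀ b, β₁ b ^ (D * d) = φ (pt b) * ψ (comp b) := by
  classical
  obtain ⟨D, hD, E, U, W, hE, hEpt, hEcomp, hEDD⟩ := exists_branch_matrix pt comp σ hpt hcomp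
  refine ⟨D, hD, fun K _ β β₁ hequiv hnorm => ?_⟩
  have hmul : ∀ (f f' : Br → K) (e : Br → ℤ),
      ∏ c, (f c * f' c) ^ e c = (∏ c, f c ^ e c) * ∏ c, f' c ^ e c := fun f f' e => by
    simp only [mul_zpow, Finset.prod_mul_distrib]
  have hkill : ∀ (b : Br) (φ : X → K) (ψ : ι → K), ∏ c, (φ (pt c) * ψ (comp c)) ^ E b c = 1 := by
    intro b φ ψ
    rw [hmul, ← Finset.prod_fiberwise (Finset.univ : Finset Br) pt,
      ← Finset.prod_fiberwise (Finset.univ : Finset Br) comp]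
    have h1 : ∀ x, ∏ c ∈ Finset.univ.filter (fun c => pt c = x), φ (pt c) ^ E b c = 1 := fun x => by
      rw [Finset.prod_congr rfl (g := fun c => φ x ^ E b c)
        (fun c hc => by rw [(Finset.mem_filter.mp hc).2])]
      have h0 : ∑ c ∈ Finset.univ.filter (fun c => pt c = x), E b c = 0 := by
        have := hEpt b (fun y => if y = x then 1 else 0)
        simpa [Finset.sum_filter] using this
      rw [prod_zpow_eq, h0, zpow_zero]
    have h2 : ∀ i, ∏ c ∈ Finset.univ.filter (fun c => comp c = i), ψ (comp c) ^ E b c = 1 := fun i => by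
      rw [Finset.prod_congr rfl (g := fun c => ψ i ^ E b c)
        (fun c hc => by rw [(Finset.mem_filter.mp hc).2])]
      have h0 : ∑ c ∈ Finset.univ.filter (fun c => comp c = i), E b c = 0 := by
        have := hEcomp b (fun y => if y = i then 1 else 0)
        simpa [Finset.sum_filter] using this
      rw [prod_zpow_eq, h0, zpow_zero]
    simp only [h1, h2, Finset.prod_const_one, mul_one]
  -- the projection
  set Eb : Br → K := fun b => ∏ c, β₁ c ^ E b c
  have hEb : ∀ b, Eb b ^ d = 1 := by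
    intro b
    have h1 : ∀ h ∈ Hs b, ∏ c, β h c ^ E b c = Eb b := by
      intro h hh
      obtain ⟨φ, ψ, hb⟩ := hequiv h
      rw [← Equiv.prod_comp (σ h)]
      have : ∀ c, β h (σ h c) ^ E b (σ h c) = β₁ c ^ E b c * (φ (pt c) * ψ (comp c)) ^ E b c := fun c => by
        rw [hb c, mul_assoc, mul_zpow]
        conv_lhs => rw [← hfix b h hh, hE]
      simp only [this, Finset.prod_mul_distrib, hkill, mul_one]
      rfl
    obtain ⟨φ, ψ, hb⟩ := hnorm b
    calc Eb b ^ d = ∏ h ∈ Hs b, ∏ c, β h c ^ E b c := by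
          rw [Finset.prod_congr rfl h1, Finset.prod_const, hd b]
      _ = ∏ c, (φ (pt c) * ψ (comp c)) ^ E b c := by
          rw [Finset.prod_comm]
          exact Finset.prod_congr rfl fun c _ => by rw [Finset.prod_zpow, hb c]
      _ = 1 := hkill b φ ψ
  refine ⟨fun x => (∏ c, β₁ c ^ U x c) ^ d, fun i => (∏ c, β₁ c ^ W i c) ^ d, fun b => ?_⟩
  obtain ⟨A, B, hA, hB, h⟩ := hEDD b
  have e : β₁ b ^ D = Eb b * (∏ c, β₁ c ^ U (pt b) c) * ∏ c, β₁ c ^ W (comp b) c := by
    simp only [Eb, ← Finset.prod_mul_distrib, ← zpow_add]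
    rw [Finset.prod_congr rfl (g := fun c => β₁ c ^ (if b = c then (D : ℤ) else 0))
      (fun c _ => by rw [h c, hA, hB])]
    rw [Finset.prod_eq_single b]
    · simp
    · intro c _ hc; simp [Ne.symm hc]
    · simp
  rw [pow_mul, e, mul_pow, mul_pow, hEb, one_mul]

end Fermat.Agent.Models
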