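/-
Targets, norms, and comparison of values on one chart.
-/
import Fermat.Agent.Models.DetectFinite

set_option autoImplicit false

noncomputable section

namespace Fermat.Agent.Models

open IsLocalRing

variable {O F : Type} [CommRing O] [IsDomain O] [IsDiscreteValuationRing O] [Field F] [Algebra O F]
  {ι : Type} {B : Subalgebra O F} {π : O} {P : ι → ValuationSubring F}
  {G : Subgroup (RingAut F)} {hf : ChartFibre B π P}

/-- Constants lie in every component. -/
theorem algebraMap_mem_component (hf : ChartFibre B π P) (i : ι) (a : O) : algebraMap O F a ∈ P i :=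
  hf.le i _ (B.algebraMap_mem a)

variable [IsAlgClosed (ResidueField O)]

/-- An element with constant `n`-th power residue has a constant residue. -/
theorem exists_const (hπ : Irreducible π) (hu : ∀ i, algebraMap O F π ∈ (P i).nonunits)
    (hmem : ∀ (i : ι) (a : O), algebraMap O F a ∈ P i) {n : ℕ} (hn : 0 < n) {i : ι} {z : F}
    (hz : IsU (P i) z) {u : O} (hu' : IsUnit u)
    (he : rs (P i) (z ^ n) = rs (P i) (algebraMap O F u)) :
    ∃ c₀ : O, IsUnit c₀ ∧ rs (P i) z = rs (P i) (algebraMap O F c₀) ∧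
      residue O c₀ ^ n = residue O u := by
  have hmax : ∀ a ∈ maximalIdeal O, algebraMap O F a ∈ (P i).nonunits := fun a ha => by
    rw [hπ.maximalIdeal_eq, Ideal.mem_span_singleton] at ha
    obtain ⟨c, rfl⟩ := ha
    rw [map_mul]
    refine (rs_eq_zero ((P i).mul_mem _ _ (hmem i π) (hmem i c))).mp ?_
    rw [rs_mul (hmem i π) (hmem i c), rs_eq_zero_of_nonunit (hu i), zero_mul]
  set φ := constHom (hmem i) hmax
  rw [rs_pow hz.1, ← constHom_residue (hmem i) hmax u] at he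
  obtain ⟨c, hc, hφ⟩ := mem_range_of_pow φ hn (hu'.map (residue O)).ne_zero he
  obtain ⟨c₀, rfl⟩ := IsLocalRing.residue_surjective c
  refine ⟨c₀, IsLocalRing.notMem_maximalIdeal.mp fun h => hc ((residue_eq_zero_iff _).mpr h), ?_, ?_⟩
  · rw [← hφ, constHom_residue]
  · apply φ.injective
    rw [map_pow, hφ, he]

theorem isU_algebraMap (hmem : ∀ (i : ι) (a : O), algebraMap O F a ∈ P i) (i : ι) {u : O}
    (hu : IsUnit u) : IsU (P i) (algebraMap O F u) := by
  obtain ⟨v, rfl⟩ := hu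
  have : algebraMap O F (v : O) * algebraMap O F (↑v⁻¹ : O) = 1 := by
    rw [← map_mul, Units.mul_inv, map_one]
  exact isU_iff.mpr ⟨left_ne_zero_of_mul_eq_one this, hmem i _,
    (inv_eq_of_mul_eq_one_right this) ▸ hmem i _⟩

theorem branchValue_algebraMap (hπ : Irreducible π) {x : Ideal B} (hx : IsPoint π x) {i : ι}
    (hi : center hf i ≤ x) {a : O} (ha : IsUnit a) :
    BranchValue P x i (algebraMap O F a) (residue O a) :=
  BranchValue.of_hasValue hπ hx hi (HasValue.algebraMap_const hx a) (ha.map (residue O)).ne_zero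

/-- The rewriting of a norm as a unit constant times an `n`-th power. -/
theorem exists_norm_form (hπ : Irreducible π) (hinj : Function.Injective (algebraMap O F))
    (hf : ChartFibre B π P) {n : ℕ} (hn : 0 < n)
    (hu : ∀ i, algebraMap O F π ∈ (P i).nonunits ∧
      ∀ x ∈ (P i).nonunits, x / algebraMap O F π ∈ P i)
    {f : F} (hf0 : f ≠ 0) (hroots : ∀ m : Ideal B, m.IsMaximal → HasRootAt B n f m)
    {i : ι} (Hs : Finset (RingAut F)) (hfix : ∀ h ∈ Hs, ∀ x ∈ P i, h x - x ∈ (P i).nonunits)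
    {a b : O} {k : F} (ha : a ≠ 0) (hb : b ≠ 0)
    (he : algebraMap O F b * ∏ h ∈ Hs, h f = algebraMap O F a * k ^ n) :
    ∃ (u : O) (k' : F), IsUnit u ∧ k' ≠ 0 ∧ ∏ h ∈ Hs, h f = algebraMap O F u * k' ^ n := by
  obtain ⟨x, hx, hix⟩ := exists_point_over hf (fun i => (hu i).1) i
  obtain ⟨s, hs, c, hc, hv⟩ := exists_local_root hn hπ hf hx hf0 (hroots x hx.1)
  have hS : IsU (P i) ((∏ h ∈ Hs, h f) / (∏ h ∈ Hs, h s) ^ n) := by
    rw [← Finset.prod_pow, ← Finset.prod_div_distrib]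
    refine (isU_prod _ fun h hh => ?_).1
    rw [← map_pow, ← map_div₀]
    have hU := hv.isU hπ hx hc hix
    obtain ⟨h1, h2⟩ := rs_fix (hfix h hh) hU.1
    exact ⟨h1, by rw [h2]; exact hU.2⟩
  obtain ⟨u, k', hu', hk⟩ := exists_unit_const hn hπ hinj (hu i) (algebraMap_mem_component hf i)
    ha hb hS he
  refine ⟨u, k', hu', fun h0 => ?_, hk⟩
  rw [h0, zero_pow hn.ne', mul_zero] at hk
  exact Finset.prod_ne_zero_iff.mpr (fun h _ => (map_ne_zero h).mpr hf0) hk

/-- Targets exist. -/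
theorem exists_target (hπ : Irreducible π) (hinj : Function.Injective (algebraMap O F))
    (hf : ChartFibre B π P) {n : ℕ} (hn : 0 < n)
    (hu : ∀ i, algebraMap O F π ∈ (P i).nonunits ∧
      ∀ x ∈ (P i).nonunits, x / algebraMap O F π ∈ P i)
    {f : F} (hf0 : f ≠ 0) (hroots : ∀ m : Ideal B, m.IsMaximal → HasRootAt B n f m)
    {i : ι} (Hs : Finset (RingAut F)) (hfix : ∀ h ∈ Hs, ∀ x ∈ P i, h x - x ∈ (P i).nonunits)
    {u : O} {k' : F} (hu' : IsUnit u) (he : ∏ h ∈ Hs, h f = algebraMap O F u * k' ^ n) :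
    ∃ T : F, IsU (P i) (T ^ n / f ^ Hs.card) ∧ rs (P i) (T ^ n / f ^ Hs.card) = 1 := by
  obtain ⟨x, hx, hix⟩ := exists_point_over hf (fun i => (hu i).1) i
  obtain ⟨s, hs, c, hc, hv⟩ := exists_local_root hn hπ hf hx hf0 (hroots x hx.1)
  set e := f / s ^ n with hedef
  have hU := hv.isU hπ hx hc hix
  have hmem := algebraMap_mem_component hf
  obtain ⟨hP, hPr⟩ := isU_prod (A := P i) Hs (x := fun h => h e) fun h hh =>
    ⟨(rs_fix (hfix h hh) hU.1).1, by rw [(rs_fix (hfix h hh) hU.1).2]; exact hU.2⟩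
  have hprs : rs (P i) (∏ h ∈ Hs, h e) = rs (P i) (e ^ Hs.card) := by
    rw [hPr, rs_pow hU.1, ← Finset.prod_const]
    exact Finset.prod_congr rfl fun h hh => (rs_fix (hfix h hh) hU.1).2
  obtain ⟨r, hr⟩ := IsAlgClosed.exists_pow_nat_eq (residue O u) hn
  obtain ⟨r₀, rfl⟩ := IsLocalRing.residue_surjective r
  have hr0 : IsUnit r₀ := IsLocalRing.notMem_maximalIdeal.mp fun h =>
    (hu'.map (residue O)).ne_zero (by rw [← hr, (residue_eq_zero_iff _).mpr h, zero_pow hn.ne'])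
  have hrU := isU_algebraMap hmem i hr0
  have huU := isU_algebraMap hmem i hu'
  have hres : rs (P i) (algebraMap O F (r₀ ^ n)) = rs (P i) (algebraMap O F u) := by
    rw [rs_eq_iff (hmem i _) (hmem i _), ← map_sub]
    have h1 : r₀ ^ n - u ∈ maximalIdeal O := by
      rw [← residue_eq_zero_iff, map_sub, map_pow, hr, sub_self]
    rw [hπ.maximalIdeal_eq, Ideal.mem_span_singleton] at h1
    obtain ⟨d, hd⟩ := h1
    rw [hd, map_mul]
    refine (rs_eq_zero ((P i).mul_mem _ _ (hmem i π) (hmem i d))).mp ?_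
    rw [rs_mul (hmem i π) (hmem i d), rs_eq_zero_of_nonunit (hu i).1, zero_mul]
  have hS0 : ∏ h ∈ Hs, h s ≠ 0 := Finset.prod_ne_zero_iff.mpr fun h _ => (map_ne_zero h).mpr hs
  refine ⟨algebraMap O F r₀ * k' * (s ^ Hs.card / ∏ h ∈ Hs, h s), ?_⟩
  have key : (algebraMap O F r₀ * k' * (s ^ Hs.card / ∏ h ∈ Hs, h s)) ^ n / f ^ Hs.card =
      algebraMap O F (r₀ ^ n) / algebraMap O F u * ((∏ h ∈ Hs, h e) / e ^ Hs.card) := by
    have he2 : ∏ h ∈ Hs, h e = algebraMap O F u * k' ^ n / (∏ h ∈ Hs, h s) ^ n := by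
      rw [← he, ← Finset.prod_pow, ← Finset.prod_div_distrib]
      exact Finset.prod_congr rfl fun h _ => by rw [hedef, map_div₀, map_pow]
    have huF := huU.ne_zero
    have hsd : (s ^ n) ^ Hs.card ≠ 0 := pow_ne_zero _ (pow_ne_zero _ hs)
    rw [he2, hedef, map_pow, mul_pow, mul_pow, div_pow, div_pow, ← pow_mul s Hs.card,
      mul_comm Hs.card n, pow_mul]
    field_simp
  have h1 := hrU.pow n
  rw [← map_pow] at h1
  have h2 := h1.div huU
  have h3 := hP.div (hU.pow Hs.card)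
  rw [key]
  refine ⟨h2.mul h3, ?_⟩
  rw [rs_mul h2.1 h3.1, h1.rs_div huU, hP.rs_div (hU.pow _), hres, hprs, div_self huU.2,
    div_self (hU.pow _).2, one_mul]

/-- Targets have values on branches. -/
theorem exists_branchValue (hπ : Irreducible π) (hst : Stable B G) (hf : ChartFibre B π P) {n : ℕ}
    (hB : RootClosed B n) (hn : 0 < n) (hu : ∀ i, algebraMap O F π ∈ (P i).nonunits)
    {f : F} {i : ι} (Hs : Finset (RingAut F)) (hG : ∀ h ∈ Hs, h ∈ G)
    (hfix : ∀ h ∈ Hs, ∀ x ∈ P i, h x - x ∈ (P i).nonunits)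
    {u : O} {k' : F} (hu' : IsUnit u) (he : ∏ h ∈ Hs, h f = algebraMap O F u * k' ^ n) {T : F}
    (hT : IsU (P i) (T ^ n / f ^ Hs.card) ∧ rs (P i) (T ^ n / f ^ Hs.card) = 1)
    {x : Ideal B} (hx : IsPoint π x) (hi : center hf i ≤ x) {s : F} {c : ResidueField O}
    (hc : c ≠ 0) (hv : HasValue x (f / s ^ n) c) :
    ∃ c', BranchValue P x i (T / s ^ Hs.card) c' := by
  set e := f / s ^ n with hedef
  have hmem := algebraMap_mem_component hf
  have hU := hv.isU hπ hx hc hi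
  have huU := isU_algebraMap hmem i hu'
  have hvh : ∀ h ∈ Hs, HasValue x (h e) c := fun h hh => by
    have h1 := hv.map hπ hst ⟨h, hG h hh⟩ hx
    rwa [actPt_eq_self hst (h := ⟨h, hG h hh⟩) (hfix h hh) hi] at h1
  have hprod := HasValue.prod hx Hs (v := fun _ => c) hvh
  rw [Finset.prod_const] at hprod
  have hpc : c ^ Hs.card ≠ 0 := pow_ne_zero _ hc
  have hy : (k' / ∏ h ∈ Hs, h s) ^ n = (∏ h ∈ Hs, h e) / algebraMap O F u := by
    have : ∏ h ∈ Hs, h e = algebraMap O F u * (k' / ∏ h ∈ Hs, h s) ^ n := by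
      rw [div_pow, ← mul_div_assoc, ← he, ← Finset.prod_pow, ← Finset.prod_div_distrib]
      exact Finset.prod_congr rfl fun h _ => by rw [hedef, map_div₀, map_pow]
    rw [this, mul_div_cancel_left₀ _ huU.ne_zero]
  set y := k' / ∏ h ∈ Hs, h s
  have hyv := hprod.div hπ hx (HasValue.algebraMap_const hx u) (hu'.map (residue O)).ne_zero
  rw [← hy] at hyv
  obtain ⟨cy, hcy, -, hyval⟩ :=
    hyv.root hπ hf hB hn hx (div_ne_zero hpc (hu'.map (residue O)).ne_zero)
  have hyU := hyval.isU hπ hx hcy hi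
  set z := T / s ^ Hs.card
  have hzn : z ^ n = T ^ n / f ^ Hs.card * e ^ Hs.card := by
    rcases eq_or_ne f 0 with h0 | h0
    · exact absurd (by rw [hedef, h0, zero_div]) hU.ne_zero
    simp only [z]
    rw [hedef, div_pow, div_pow, ← pow_mul, ← pow_mul, mul_comm n Hs.card]
    field_simp
  have hznU : IsU (P i) (z ^ n) := hzn ▸ hT.1.mul (hU.pow _)
  have hzU := isU_of_pow hn hznU
  have hPrs : rs (P i) (∏ h ∈ Hs, h e) = rs (P i) e ^ Hs.card := by
    rw [(isU_prod (A := P i) Hs fun h hh => ⟨(rs_fix (hfix h hh) hU.1).1,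
      by rw [(rs_fix (hfix h hh) hU.1).2]; exact hU.2⟩).2, ← Finset.prod_const]
    exact Finset.prod_congr rfl fun h hh => (rs_fix (hfix h hh) hU.1).2
  have hratio : rs (P i) ((z / y) ^ n) = rs (P i) (algebraMap O F u) := by
    rw [div_pow, hznU.rs_div (hyU.pow n), hzn, rs_mul hT.1.1 (hU.pow _).1, hT.2, one_mul,
      rs_pow hU.1, hy, IsU.rs_div (⟨?_, ?_⟩) huU, hPrs, div_div_cancel₀ (pow_ne_zero _ hU.2)]
    · exact (hprod.isU hπ hx hpc hi).1
    · exact (hprod.isU hπ hx hpc hi).2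
  obtain ⟨c₀, hc₀, hrs, -⟩ := exists_const hπ hu hmem hn (hzU.div hyU) hu' hratio
  refine ⟨_, ((branchValue_algebraMap (hf := hf) hπ hx hi hc₀).mul hπ hx hi
    (BranchValue.of_hasValue hπ hx hi hyval hcy)).congr_rs hzU ?_⟩
  rw [rs_mul (hmem i _) hyU.1, ← hrs, hzU.rs_div hyU, div_mul_cancel₀ _ hyU.2]

/-- A fraction with denominator outside the centre. -/
def IsFrac (hf : ChartFibre B π P) (i : ι) (y : F) : Prop :=
  ∃ a b : B, b ∉ center hf i ∧ y * (b : F) = a

omit [IsAlgClosed (ResidueField O)] in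
theorem HasValue.isFrac {x : Ideal B} {y : F} {c : ResidueField O} (h : HasValue x y c) {i : ι}
    (hi : center hf i ≤ x) : IsFrac hf i y := by
  obtain ⟨a, b, -, hb, he, -⟩ := h
  exact ⟨a, b, fun h => hb (hi h), he⟩

omit [IsAlgClosed (ResidueField O)] in
theorem IsFrac.mul {i : ι} {y y' : F} (h : IsFrac hf i y) (h' : IsFrac hf i y') :
    IsFrac hf i (y * y') := by
  obtain ⟨a, b, hb, he⟩ := h
  obtain ⟨a', b', hb', he'⟩ := h'
  refine ⟨a * a', b * b', (center_isPrime i).mul_notMem hb hb', ?_⟩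
  push_cast; rw [← he, ← he']; ring

omit [IsAlgClosed (ResidueField O)] in
theorem IsFrac.pow {i : ι} {y : F} (h : IsFrac hf i y) : ∀ m : ℕ, IsFrac hf i (y ^ m)
  | 0 => ⟨1, 1, fun h => (center_isPrime i).ne_top ((Ideal.eq_top_iff_one _).mpr h), by simp⟩
  | m + 1 => by rw [pow_succ]; exact (IsFrac.pow h m).mul h

omit [IsAlgClosed (ResidueField O)] in
theorem IsFrac.inv {i : ι} {y : F} (h : IsFrac hf i y) (hU : IsU (P i) y) : IsFrac hf i y⁻¹ := by
  obtain ⟨a, b, hb, he⟩ := h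
  refine ⟨b, a, fun ha => ?_, by rw [← he, inv_mul_cancel_left₀ hU.ne_zero]⟩
  have := rs_of_mem_center ha
  rw [← he, rs_mul hU.1 (hf.le i b b.2)] at this
  exact (mul_ne_zero hU.2 (isU_of_notMem_center hb).2) this

omit [IsAlgClosed (ResidueField O)] in
theorem IsFrac.root {i : ι} {y : F} {n : ℕ} (hB : RootClosed B n) (hn : 0 < n)
    (h : IsFrac hf i (y ^ n)) : IsFrac hf i y := by
  obtain ⟨a, b, hb, he⟩ := h
  obtain ⟨k, rfl⟩ : ∃ k, n = k + 1 := ⟨n - 1, (Nat.sub_add_cancel hn).symm⟩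
  refine ⟨⟨y * b, hB _ ?_⟩, b, hb, rfl⟩
  rw [mul_pow, pow_succ' (b : F), ← mul_assoc, he]
  exact mul_mem a.2 (pow_mem b.2 _)

omit [IsAlgClosed (ResidueField O)] in
/-- Residue equalities of fractions depend only on the centre. -/
theorem IsFrac.rs_congr {i j : ι} (hij : center hf i = center hf j) {y y' : F}
    (h : IsFrac hf i y) (h' : IsFrac hf i y') (hy : y ∈ P i) (hy' : y' ∈ P i)
    (he : rs (P i) y = rs (P i) y') : rs (P j) y = rs (P j) y' := by
  obtain ⟨a, b, hb, e⟩ := h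
  obtain ⟨a', b', hb', e'⟩ := h'
  have hbb := (center_isPrime (hf := hf) i).mul_notMem hb hb'
  have hdiff : a * b' - a' * b ∈ center hf i := by
    rw [mem_center]
    push_cast
    have h1 : (a : F) * b' = y * (b * b' : B) := by push_cast; rw [← e]; ring
    have h2 : (a' : F) * b = y' * (b * b' : B) := by push_cast; rw [← e']; ring
    have hm := hf.le i _ (b * b').2
    rw [h1, h2, ← rs_eq_iff ((P i).mul_mem _ _ hy hm) ((P i).mul_mem _ _ hy' hm), rs_mul hy hm,
      rs_mul hy' hm, he]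
  have hbU : IsU (P j) ((b * b' : B) : F) := isU_of_notMem_center (hf := hf) (hij ▸ hbb)
  have hy2 : ∀ {y : F} {a b : B}, b ∉ center hf i → y * (b : F) = a → y ∈ P j := fun {y a b} hb e => by
    have hU : IsU (P j) (b : F) := isU_of_notMem_center (hf := hf) (hij ▸ hb)
    rw [show y = (a : F) * (b : F)⁻¹ by rw [← e, mul_inv_cancel_right₀ hU.ne_zero]]
    exact (P j).mul_mem _ _ (hf.le j a a.2) hU.inv.1
  refine mul_right_cancel₀ hbU.2 ?_
  rw [← rs_mul (hy2 hb e) hbU.1, ← rs_mul (hy2 hb' e') hbU.1]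
  have h3 := rs_of_mem_center (hij ▸ hdiff : a * b' - a' * b ∈ center hf j)
  push_cast at h3 ⊢
  rw [rs_sub ((P j).mul_mem _ _ (hf.le j a a.2) (hf.le j b' b'.2))
    ((P j).mul_mem _ _ (hf.le j a' a'.2) (hf.le j b b.2)), sub_eq_zero] at h3
  rw [show y * ((b : F) * b') = (a : F) * b' by rw [← e]; ring,
    show y' * ((b : F) * b') = (a' : F) * b by rw [← e']; ring]
  exact h3

/-- Over one centre, equal values at a point force equal residues. -/
theorem rs_eq_of_value_eq (hπ : Irreducible π) (hf : ChartFibre B π P) {n : ℕ} (hn : 0 < n)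
    (hu : ∀ i, algebraMap O F π ∈ (P i).nonunits) {x : Ideal B} (hx : IsPoint π x) {i : ι}
    (hi : center hf i ≤ x) {y y' : F} {c : ResidueField O} (hc : c ≠ 0) (hy : HasValue x y c)
    (hy' : HasValue x y' c) (he : rs (P i) (y ^ n) = rs (P i) (y' ^ n)) :
    rs (P i) y = rs (P i) y' := by
  have hyU := hy.isU hπ hx hc hi
  have hy'U := hy'.isU hπ hx hc hi
  obtain ⟨c₀, hc₀, hrs, -⟩ := exists_const hπ hu (algebraMap_mem_component hf) hn (hyU.div hy'U)
    (isUnit_one (M := O)) (by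
      rw [div_pow, (hyU.pow n).rs_div (hy'U.pow n), he, div_self (hy'U.pow n).2, map_one, rs_one])
  have hq := hy.div hπ hx hy' hc
  rw [div_self hc] at hq
  have h1 : residue O c₀ = 1 :=
    ((HasValue.algebraMap_const hx c₀).congr hπ hx hq (hc₀.map (residue O)).ne_zero one_ne_zero hi
      hrs.symm).symm ▸ rfl
  have hmem := algebraMap_mem_component hf
  have h2 : rs (P i) (algebraMap O F c₀) = 1 := by
    rw [← rs_one (A := P i), rs_eq_iff (hmem i _) (P i).one_mem, ← map_one (algebraMap O F), ← map_sub]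
    have h3 : c₀ - 1 ∈ maximalIdeal O := by
      rw [← residue_eq_zero_iff, map_sub, map_one, h1, sub_self]
    rw [hπ.maximalIdeal_eq, Ideal.mem_span_singleton] at h3
    obtain ⟨d, hd⟩ := h3
    rw [hd, map_mul]
    refine (rs_eq_zero ((P i).mul_mem _ _ (hmem i π) (hmem i d))).mp ?_
    rw [rs_mul (hmem i π) (hmem i d), rs_eq_zero_of_nonunit (hu i), zero_mul]
  rw [hyU.rs_div hy'U, h2, div_eq_one_iff_eq hy'U.2] at hrs
  exact hrs

end Fermat.Agent.Models
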