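/-
Detection: a function whose norms along the automorphisms of every component are powers is,
after a bounded exponent, a power.
-/
import Fermat.Agent.Models.DetectTarget
import Fermat.Agent.Models.DetectGlue
import Fermat.Agent.Models.DetectLinear

set_option autoImplicit false

noncomputable section

namespace Fermat.Agent.Models

open IsLocalRing

variable {O F : Type} [CommRing O] [IsDomain O] [IsDiscreteValuationRing O] [Field F] [Algebra O F]
  {ι : Type} [Fintype ι]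

/-- The hypotheses of the detection theorem on one function. -/
structure Detectable (Bc : Bool → Subalgebra O F) (H : ι → Finset (RingAut F)) (n : ℕ) (f : F) :
    Prop where
  ne_zero : f ≠ 0
  roots : ∀ (t : Bool) (m : Ideal (Bc t)), m.IsMaximal → HasRootAt (Bc t) n f m
  norm : ∀ i, ∃ (a b : O) (k : F), a ≠ 0 ∧ b ≠ 0 ∧
    algebraMap O F b * ∏ h ∈ H i, h f = algebraMap O F a * k ^ n

theorem hasRootAt_map {π : O} (hπ : Irreducible π) {B : Subalgebra O F} {G : Subgroup (RingAut F)}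
    (hst : Stable B G) (g : G) {n : ℕ} {f : F}
    (h : ∀ m : Ideal B, m.IsMaximal → HasRootAt B n f m) (m : Ideal B) (hm : m.IsMaximal) :
    HasRootAt B n ((g : RingAut F) f) m := by
  have hm' : (actPt hst g⁻¹ m).IsMaximal := by
    refine Ideal.comap_isMaximal_of_surjective _ fun b => ⟨restr hst g⁻¹ b, ?_⟩
    rw [restr_restr, inv_mul_cancel, restr_one]
  obtain ⟨s, a, b, ha, hb, he⟩ := h _ hm'
  change (b : F) * s ^ n = (a : F) * f at he
  have key : ∀ c : B, c ∉ actPt hst g⁻¹ m → restr hst g c ∉ m := fun c hc h => by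
    refine hc ?_
    rwa [mem_actPt, inv_inv]
  refine ⟨(g : RingAut F) s, restr hst g a, restr hst g b, key a ha, key b hb, ?_⟩
  show (restr hst g b : F) * _ = (restr hst g a : F) * _
  rw [restr_apply, restr_apply, ← map_pow, ← map_mul, ← map_mul, he]

section Main

variable {π : O} {P : ι → ValuationSubring F} [IsAlgClosed (ResidueField O)]

/-- Detection on two charts at once: roots modulo `π` with common residues. -/
theorem exists_compatible_roots (hπ : Irreducible π) (hinj : Function.Injective (algebraMap O F))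
    (q : ℕ) (hq : q.Prime) (hqπ : (q : O) ∈ maximalIdeal O) (Bc : Bool → Subalgebra O F)
    (hcl : ∀ t, ∀ x : F, IsIntegral (Bc t) x → x ∈ Bc t) (hf : ∀ t, ChartFibre (Bc t) π P)
    {G : Subgroup (RingAut F)} [Finite G] (hst : ∀ t, Stable (Bc t) G)
    (hu : ∀ i, algebraMap O F π ∈ (P i).nonunits ∧
      ∀ x ∈ (P i).nonunits, x / algebraMap O F π ∈ P i)
    (hperm : ∀ g ∈ G, ∀ i, ∃ j, ∀ x, g x ∈ P j ↔ x ∈ P i) (hPinj : Function.Injective P)
    (H : ι → Finset (RingAut F)) {d : ℕ} (hd : 0 < d) (hHG : ∀ i, ∀ h ∈ H i, h ∈ G)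
    (hcard : ∀ i, (H i).card = d) (hfix : ∀ i, ∀ h ∈ H i, ∀ x ∈ P i, h x - x ∈ (P i).nonunits) :
    ∃ D : ℕ, 0 < D ∧ ∀ (n : ℕ) (hn : 0 < n), IsUnit (n : O) → ∀ f : F,
      (∀ g ∈ G, Detectable Bc H n (g f)) →
      ∃ T : ι → F, (∀ i, IsU (P i) (T i ^ n / f ^ D)) ∧
        ∀ t, ∃ s ∈ rootModule (rootClosed_of_isIntegral hn (hcl t)) hn (f ^ D),
          (∀ i, s / T i ∈ P i ∧ rs (P i) (s / T i) = 1) ∧
          ∃ a ∈ Bc t, s ^ n / f ^ D = 1 + π • a := by
  classical
  haveI := Fintype.ofFinite G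
  have hu₁ : ∀ i, algebraMap O F π ∈ (P i).nonunits := fun i => (hu i).1
  have hmem : ∀ (i : ι) (a : O), algebraMap O F a ∈ P i := algebraMap_mem_component (hf false)
  choose X hXp hXg hXc hXout using fun t => exists_pointSet hπ (hf t) hu₁ (hst t)
  choose Lc hLc using fun t => exists_conductor_exponent (hf t)
  -- the action on components
  choose σι hσι using fun (g : G) => hperm g g.2
  have hσmul : ∀ g g' : G, ∀ i, σι (g * g') i = σι g (σι g' i) := fun g g' i => by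
    refine hPinj (SetLike.ext fun x => ?_)
    obtain ⟨y, rfl⟩ := (((g * g' : G) : RingAut F)).surjective x
    rw [hσι (g * g') i]
    show y ∈ P i ↔ (g : RingAut F) ((g' : RingAut F) y) ∈ _
    rw [hσι g, hσι g']
  have hσone : ∀ i, σι 1 i = i := fun i => hPinj (SetLike.ext fun x => (hσι 1 i x))
  have hσfix : ∀ (h : G) (i : ι), (h : RingAut F) ∈ H i → σι h i = i := fun h i hh => by
    refine hPinj (SetLike.ext fun x => ?_)
    obtain ⟨y, rfl⟩ := ((h : RingAut F)).surjective x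
    rw [hσι h i]
    refine ⟨fun hy => (rs_fix (hfix i _ hh) hy).1, fun hy => by_contra fun hn => ?_⟩
    have hy0 : y ≠ 0 := fun e => hn (e ▸ (P i).zero_mem)
    have hi := ((P i).mem_or_inv_mem y).resolve_left hn
    obtain ⟨h1, h2⟩ := rs_fix (hfix i _ hh) hi
    have h3 : rs (P i) y⁻¹ = 0 := by
      by_contra h0
      exact hn (by simpa using (isU_iff.mp (⟨hi, h0⟩ : IsU (P i) y⁻¹)).2.2)
    have h4 := rs_mul hy h1
    rw [h2, h3, mul_zero, map_inv₀, mul_inv_cancel₀ ((map_ne_zero _).mpr hy0), rs_one] at h4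
    exact one_ne_zero h4
  -- points and branches
  let Pt : Type := Σ t : Bool, {x : Ideal (Bc t) // x ∈ X t}
  haveI : Fintype Pt := inferInstance
  let Br : Type := {b : Pt × ι // center (hf b.1.1) b.2 ≤ b.1.2.1}
  let actP : G → Pt → Pt := fun g p => ⟨p.1, actPt (hst p.1) g p.2.1, hXg p.1 g _ p.2.2⟩
  let actB : G → Br → Br := fun g b => ⟨(actP g b.1.1, σι g b.1.2),
    center_le_actPt (hσι g b.1.2) (hst _) b.2⟩
  have hactB : ∀ g g' b, actB (g * g') b = actB g (actB g' b) := fun g g' b => by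
    refine Subtype.ext (Prod.ext ?_ (hσmul g g' _))
    show (⟨_, _, _⟩ : Pt) = ⟨_, _, _⟩
    simp only [actP, actPt_mul]
    rfl
  have hactB1 : ∀ b, actB 1 b = b := fun b => by
    refine Subtype.ext (Prod.ext ?_ (hσone _))
    show (⟨_, _, _⟩ : Pt) = _
    simp only [actPt_one]
    rfl
  let σ : G →* Equiv.Perm Br :=
    { toFun := fun g => ⟨actB g, actB g⁻¹, fun b => by rw [← hactB, inv_mul_cancel, hactB1],
        fun b => by rw [← hactB, mul_inv_cancel, hactB1]⟩
      map_one' := Equiv.ext hactB1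
      map_mul' := fun g g' => Equiv.ext (hactB g g') }
  let Hs : Br → Finset G := fun b =>
    (H b.1.2).attach.map (⟨fun h => ⟨h.1, hHG _ _ h.2⟩, fun _ _ e => Subtype.ext (congrArg (fun g : G => (g : RingAut F)) e)⟩ :
      {h // h ∈ H b.1.2} ↪ G)
  have hHsmem : ∀ b (h : G), h ∈ Hs b → (h : RingAut F) ∈ H b.1.2 := fun b h hh => by
    obtain ⟨a, -, rfl⟩ := Finset.mem_map.mp hh
    exact a.2
  have hHsprod : ∀ (b : Br) (F' : RingAut F → F),
      ∏ h ∈ Hs b, F' (h : RingAut F) = ∏ h ∈ H b.1.2, F' h := fun b F' => by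
    simp only [Hs, Finset.prod_map, Function.Embedding.coeFn_mk]
    exact Finset.prod_attach (H b.1.2) F'
  obtain ⟨DE, hDE, hobs⟩ := exists_obstruction_exponent (fun b : Br => b.1.1) (fun b : Br => b.1.2) σ
    (fun g b b' h => by
      show actP g b.1.1 = actP g b'.1.1
      rw [h])
    (fun g b b' h => by
      show σι g b.1.2 = σι g b'.1.2
      rw [h])
    Hs (d := d) (fun b => by simp only [Hs, Finset.card_map, Finset.card_attach, hcard])
    (fun b h hh => by
      refine Subtype.ext (Prod.ext ?_ (hσfix h _ (hHsmem b h hh)))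
      show (⟨_, _, _⟩ : Pt) = _
      simp only [actPt_eq_self (hst _) (hfix _ _ (hHsmem b h hh)) b.2]
      rfl)
  set M := DE * d
  set L := Finset.univ.sup Lc
  have hQL : L ≤ q ^ L := (Nat.lt_pow_self hq.one_lt).le
  refine ⟨d * M * q ^ L, Nat.mul_pos (Nat.mul_pos hd (Nat.mul_pos hDE hd)) (pow_pos hq.pos L),
    fun n hn hnO f hdet => ?_⟩
  have hB : ∀ t, RootClosed (Bc t) n := fun t => rootClosed_of_isIntegral hn (hcl t)
  -- norms, targets, roots, values
  have hnf : ∀ (g : G) (i : ι), ∃ (u : O) (k : F), IsUnit u ∧ k ≠ 0 ∧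
      ∏ h ∈ H i, h ((g : RingAut F) f) = algebraMap O F u * k ^ n := fun g i => by
    obtain ⟨a, b, k, ha, hb, he⟩ := (hdet g g.2).norm i
    exact exists_norm_form hπ hinj (hf false) hn hu (hdet g g.2).ne_zero ((hdet g g.2).roots false)
      (H i) (hfix i) ha hb he
  choose u k huO hk0 hnorm using hnf
  choose T hT using fun (g : G) (i : ι) => exists_target hπ hinj (hf false) hn hu
    (hdet g g.2).ne_zero ((hdet g g.2).roots false) (H i) (hfix i) (huO g i) (hnorm g i)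
  simp only [hcard] at hT
  choose s hs0 ev hev0 hev using fun (g : G) (t : Bool) (x : {x : Ideal (Bc t) // IsPoint π x}) =>
    exists_local_root hn hπ (hf t) x.2 (hdet g g.2).ne_zero ((hdet g g.2).roots t x.1 x.2.1)
  have hval : ∀ (g : G) (t : Bool) (x : {x : Ideal (Bc t) // IsPoint π x}) (i : ι),
      center (hf t) i ≤ x.1 → ∃ c, BranchValue P x.1 i (T g i / s g t x ^ d) c := fun g t x i hi => by
    have := exists_branchValue hπ (hst t) (hf t) (hB t) hn hu₁ (H i) (hHG i) (hfix i) (huO g i)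
      (hnorm g i) (T := T g i) (by rw [hcard]; exact hT g i) x.2 hi (hev0 g t x) (hev g t x)
    rwa [hcard] at this
  choose βv hβv using hval
  let pp : ∀ p : Pt, {x : Ideal (Bc p.1) // IsPoint π x} := fun p => ⟨p.2.1, hXp p.1 _ p.2.2⟩
  let β : G → Br → (ResidueField O)ˣ := fun g b =>
    Units.mk0 (βv g b.1.1.1 (pp b.1.1) b.1.2 b.2) (hβv g b.1.1.1 (pp b.1.1) b.1.2 b.2).1
  -- a constant comparison on components
  have hconst : ∀ (i : ι) (z : F) (v : O), IsUnit v → IsU (P i) z →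
      rs (P i) (z ^ n) = rs (P i) (algebraMap O F v) → ∃ c : (ResidueField O)ˣ,
      ∀ (t : Bool) (x : Ideal (Bc t)), IsPoint π x → center (hf t) i ≤ x →
        BranchValue P x i z c := by
    intro i z v hv hz he
    obtain ⟨c₀, hc₀, hrs, -⟩ := exists_const hπ hu₁ hmem hn hz hv he
    exact ⟨Units.mk0 _ (hc₀.map (residue O)).ne_zero, fun t x hx hi =>
      (branchValue_algebraMap (hf := hf t) hπ hx hi hc₀).congr_rs hz hrs.symm⟩
  obtain ⟨φ, ψ, hφψ⟩ := hobs (ResidueField O)ˣ β (β 1) (fun g => by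
    have hψ : ∀ j, ∃ c : (ResidueField O)ˣ, ∀ (t : Bool) (x : Ideal (Bc t)), IsPoint π x →
        center (hf t) j ≤ x → BranchValue P x j
          (T g j / (g : RingAut F) (T 1 (σι g⁻¹ j))) c := by
      intro j
      set i := σι g⁻¹ j with hi
      have hij : σι g i = j := by rw [hi, ← hσmul, mul_inv_cancel, hσone]
      have hperm' : ∀ x, (g : RingAut F) x ∈ P j ↔ x ∈ P i := fun x => by rw [← hij]; exact hσι g i x
      set T' := (g : RingAut F) (T 1 i)
      have h1 : IsU (P j) (T' ^ n / ((g : RingAut F) f) ^ d) ∧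
          rs (P j) (T' ^ n / ((g : RingAut F) f) ^ d) = 1 := by
        obtain ⟨h1, h2⟩ := hT 1 i
        have e : T' ^ n / ((g : RingAut F) f) ^ d =
            (g : RingAut F) (T 1 i ^ n / (((1 : G) : RingAut F) f) ^ d) := by
          rw [map_div₀, map_pow, map_pow]; rfl
        have h3 := rs_map_eq hperm' h1.1 (P i).one_mem (by rw [h2, rs_one])
        rw [map_one, rs_one] at h3
        rw [e]
        exact ⟨⟨(hperm' _).mpr h1.1, by rw [h3]; exact one_ne_zero⟩, h3⟩
      obtain ⟨h2, h3⟩ := hT g j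
      have hfd : ((g : RingAut F) f) ^ d ≠ 0 := pow_ne_zero _ (hdet g g.2).ne_zero
      have he : (T g j / T') ^ n =
          (T g j ^ n / ((g : RingAut F) f) ^ d) / (T' ^ n / ((g : RingAut F) f) ^ d) := by
        rw [div_pow, div_div_div_cancel_right₀ hfd]
      refine hconst j _ 1 isUnit_one (isU_of_pow hn (he ▸ h2.div h1.1)) ?_
      rw [he, h2.rs_div h1.1, h3, h1.2, div_one, map_one, rs_one]
    choose ψ hψ using hψ
    have hφ : ∀ p : Pt, ∃ c : (ResidueField O)ˣ, HasValue p.2.1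
        ((g : RingAut F) (s 1 p.1 (pp (actP g⁻¹ p))) / s g p.1 (pp p)) c := by
      intro p
      set p' := actP g⁻¹ p
      have hp : actPt (hst p.1) g p'.2.1 = p.2.1 := by
        show actPt (hst p.1) g (actPt (hst p.1) g⁻¹ p.2.1) = _
        rw [← actPt_mul, mul_inv_cancel, actPt_one]
      have h1 := (hev 1 p.1 (pp p')).map hπ (hst p.1) g (pp p').2
      rw [show actPt (hst p.1) g (pp p').1 = p.2.1 from hp, map_div₀, map_pow] at h1
      have h2 := (hev g p.1 (pp p)).div hπ (pp p).2 h1 (hev0 1 p.1 (pp p'))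
      have hgf : (g : RingAut F) f ≠ 0 := (hdet g g.2).ne_zero
      have hne : (g : RingAut F) (s 1 p.1 (pp p')) ≠ 0 := (map_ne_zero _).mpr (hs0 _ _ _)
      have e : ((g : RingAut F) f / s g p.1 (pp p) ^ n) /
          ((g : RingAut F) (((1 : G) : RingAut F) f) / (g : RingAut F) (s 1 p.1 (pp p')) ^ n) =
          ((g : RingAut F) (s 1 p.1 (pp p')) / s g p.1 (pp p)) ^ n := by
        rw [show ((1 : G) : RingAut F) f = f from rfl, div_pow]
        field_simp
      rw [e] at h2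
      obtain ⟨c, hc, -, hv⟩ := h2.root hπ (hf p.1) (hB p.1) hn (pp p).2
        (div_ne_zero (hev0 _ _ _) (hev0 _ _ _))
      exact ⟨Units.mk0 c hc, hv⟩
    choose φ hφ using hφ
    refine ⟨fun p => φ (actP g p) ^ d, fun i => ψ (σι g i), fun b => ?_⟩
    obtain ⟨⟨⟨t, x, hxX⟩, i⟩, hb⟩ := b
    set p : Pt := ⟨t, x, hxX⟩
    have hx := hXp t x hxX
    have hgx := isPoint_actPt hπ (hst t) g hx
    have hgi : center (hf t) (σι g i) ≤ actPt (hst t) g x := center_le_actPt (hσι g i) (hst t) hb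
    have h1 := (hβv 1 t ⟨x, hx⟩ i hb).map hπ (hst t) hx hb (hσι g i)
    have h2 := hψ (σι g i) t _ hgx hgi
    rw [show σι g⁻¹ (σι g i) = i by rw [← hσmul, inv_mul_cancel, hσone]] at h2
    have h3 := hφ (actP g p)
    have hpp : pp (actP g⁻¹ (actP g p)) = ⟨x, hx⟩ := by
      refine Subtype.ext ?_
      show actPt (hst t) g⁻¹ (actPt (hst t) g x) = x
      rw [← actPt_mul, inv_mul_cancel, actPt_one]
    have h4 : BranchValue P (actPt (hst t) g x) (σι g i)
        (T g (σι g i) / s g t ⟨_, hgx⟩ ^ d)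
        (βv 1 t ⟨x, hx⟩ i hb * ψ (σι g i) * ((φ (actP g p) : ResidueField O) ^ d)) := by
      have h3' : HasValue (actPt (hst t) g x)
          ((g : RingAut F) (s 1 t ⟨x, hx⟩) / s g t ⟨_, hgx⟩) (φ (actP g p) : ResidueField O) :=
        hpp ▸ h3
      have h5 := BranchValue.of_hasValue (hf := hf t) hπ hgx hgi (h3'.pow hgx d)
        (pow_ne_zero _ (φ (actP g p)).ne_zero)
      have h6 := (h1.mul hπ hgx hgi h2).mul hπ hgx hgi h5
      have hg1 : (g : RingAut F) (T 1 i) ≠ 0 := fun h0 => h2.isU.ne_zero (by rw [h0, div_zero])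
      have hgs : (g : RingAut F) (s 1 t ⟨x, hx⟩) ≠ 0 := (map_ne_zero _).mpr (hs0 _ _ _)
      have e : (g : RingAut F) (T 1 i / s 1 t ⟨x, hx⟩ ^ d) *
          (T g (σι g i) / (g : RingAut F) (T 1 i)) *
          ((g : RingAut F) (s 1 t ⟨x, hx⟩) / s g t ⟨_, hgx⟩) ^ d =
          T g (σι g i) / s g t ⟨_, hgx⟩ ^ d := by
        rw [map_div₀, map_pow, div_pow]
        field_simp
      rwa [e] at h6
    refine Units.ext ?_
    have h7 := (hβv g t ⟨_, hgx⟩ (σι g i) hgi).unique hπ hgx hgi h4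
    show βv g t ⟨_, hgx⟩ (σι g i) hgi = _
    rw [h7]
    simp only [Units.val_mul, Units.val_pow_eq_pow_val, β, Units.val_mk0]
    ring) (fun b₀ => by
    set i₀ := b₀.1.2
    set k' := k 1 i₀
    have hu' : IsUnit (u 1 i₀) := huO 1 i₀
    have hF : ∏ h ∈ Hs b₀, (h : RingAut F) f = algebraMap O F (u 1 i₀) * k' ^ n :=
      (hHsprod b₀ (fun h => h f)).trans (hnorm 1 i₀)
    have hUu : ∀ i, IsU (P i) (algebraMap O F (u 1 i₀)) := fun i => isU_algebraMap hmem i hu'
    have huF : algebraMap O F (u 1 i₀) ≠ 0 := (map_ne_zero_iff _ hinj).mpr hu'.ne_zero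
    have hψ : ∀ i, ∃ c : (ResidueField O)ˣ, ∀ (t : Bool) (x : Ideal (Bc t)), IsPoint π x →
        center (hf t) i ≤ x → BranchValue P x i ((∏ h ∈ Hs b₀, T h i) / k' ^ d) c := by
      intro i
      obtain ⟨hU, hr⟩ := isU_prod (A := P i) (Hs b₀)
        (x := fun h => T h i ^ n / ((h : RingAut F) f) ^ d) fun h _ => (hT h i).1
      rw [Finset.prod_congr rfl fun h _ => (hT h i).2, Finset.prod_const_one] at hr
      have he : ((∏ h ∈ Hs b₀, T h i) / k' ^ d) ^ n =
          (∏ h ∈ Hs b₀, T h i ^ n / ((h : RingAut F) f) ^ d) * algebraMap O F (u 1 i₀) ^ d := by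
        rw [Finset.prod_div_distrib, Finset.prod_pow, Finset.prod_pow, hF, div_pow, mul_pow,
          ← pow_mul, ← pow_mul, mul_comm d n]
        have := pow_ne_zero (n * d) (hk0 1 i₀)
        field_simp
      refine hconst i _ (u 1 i₀ ^ d) (hu'.pow d) (isU_of_pow hn (he ▸ hU.mul ((hUu i).pow d))) ?_
      rw [he, rs_mul hU.1 ((hUu i).pow d).1, hr, one_mul, map_pow]
    choose ψ hψ using hψ
    have hφ : ∀ p : Pt, ∃ c : (ResidueField O)ˣ, HasValue p.2.1
        (k' / ∏ h ∈ Hs b₀, s h p.1 (pp p)) c := by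
      intro p
      have h1 := (HasValue.prod (pp p).2 (Hs b₀) fun h _ => hev h p.1 (pp p)).div hπ (pp p).2
        (HasValue.algebraMap_const (pp p).2 (u 1 i₀)) (hu'.map (residue O)).ne_zero
      rw [Finset.prod_div_distrib, Finset.prod_pow, hF, mul_div_assoc,
        mul_div_cancel_left₀ _ huF, ← div_pow] at h1
      obtain ⟨c, hc, -, hv⟩ := h1.root hπ (hf p.1) (hB p.1) hn (pp p).2
        (div_ne_zero (Finset.prod_ne_zero_iff.mpr fun h _ => hev0 _ _ _)
          (hu'.map (residue O)).ne_zero)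
      exact ⟨Units.mk0 c hc, hv⟩
    choose φ hφ using hφ
    refine ⟨fun p => φ p ^ d, ψ, fun b => ?_⟩
    obtain ⟨⟨⟨t, x, hxX⟩, i⟩, hb⟩ := b
    have hx := hXp t x hxX
    refine Units.ext ?_
    simp only [β, Units.coe_prod, Units.val_mul, Units.val_pow_eq_pow_val, Units.val_mk0]
    have h1 := BranchValue.prod (hf := hf t) hπ hx hb (Hs b₀) fun h _ => hβv h t ⟨x, hx⟩ i hb
    have h2 := (BranchValue.of_hasValue (hf := hf t) hπ hx hb ((hφ ⟨t, x, hxX⟩).pow hx d)
      (pow_ne_zero _ (φ ⟨t, x, hxX⟩).ne_zero)).mul hπ hx hb (hψ i t x hx hb)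
    have e : (k' / ∏ h ∈ Hs b₀, s h t ⟨x, hx⟩) ^ d * ((∏ h ∈ Hs b₀, T h i) / k' ^ d) =
        ∏ h ∈ Hs b₀, T h i / s h t ⟨x, hx⟩ ^ d := by
      rw [Finset.prod_div_distrib, Finset.prod_pow, div_pow]
      have := pow_ne_zero d (hk0 1 i₀)
      have := Finset.prod_ne_zero_iff.mpr fun h (_ : h ∈ Hs b₀) => hs0 h t ⟨x, hx⟩
      field_simp
      rw [mul_div_cancel_left₀]
      exact pow_ne_zero _ (hk0 1 i₀)
    refine h1.unique hπ hx hb ?_
    rwa [show k' / ∏ h ∈ Hs b₀, s h (⟨t, x, hxX⟩ : Pt).1 (pp ⟨t, x, hxX⟩) =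
      k' / ∏ h ∈ Hs b₀, s h t ⟨x, hx⟩ from rfl, e] at h2)
  -- the corrected targets for `f ^ (d * M)`
  have hf0 : f ≠ 0 := (hdet 1 G.one_mem).ne_zero
  have hr : ∀ i, ∃ c₀ : O, IsUnit c₀ ∧ residue O c₀ ^ n = 1 ∧
      ∃ r : (ResidueField O)ˣ, r ^ n = ψ i ^ n ∧ (residue O c₀) = (ψ i : ResidueField O) / r ∧
        ∀ j, ψ i ^ n = ψ j ^ n → r = Units.mk0
          (Classical.choose (IsAlgClosed.exists_pow_nat_eq (((ψ j) ^ n : (ResidueField O)ˣ) : ResidueField O) hn))
          (by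
            intro h0
            have := Classical.choose_spec (IsAlgClosed.exists_pow_nat_eq
              (((ψ j) ^ n : (ResidueField O)ˣ) : ResidueField O) hn)
            rw [h0, zero_pow hn.ne'] at this
            exact ((ψ j) ^ n).ne_zero this.symm) := by
    intro i
    set r0 := Classical.choose (IsAlgClosed.exists_pow_nat_eq
      (((ψ i) ^ n : (ResidueField O)ˣ) : ResidueField O) hn)
    have hr0 : r0 ^ n = (((ψ i) ^ n : (ResidueField O)ˣ) : ResidueField O) :=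
      Classical.choose_spec (IsAlgClosed.exists_pow_nat_eq
        (((ψ i) ^ n : (ResidueField O)ˣ) : ResidueField O) hn)
    have hne : r0 ≠ 0 := fun h0 => ((ψ i) ^ n).ne_zero (by rw [← hr0, h0, zero_pow hn.ne'])
    obtain ⟨c₀, hc₀⟩ := IsLocalRing.residue_surjective ((ψ i : ResidueField O) / r0)
    refine ⟨c₀, IsLocalRing.notMem_maximalIdeal.mp fun h => ?_, ?_, Units.mk0 r0 hne,
      Units.ext (by simpa using hr0), hc₀, fun j hj => Units.ext ?_⟩
    · rw [(residue_eq_zero_iff _).mpr h] at hc₀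
      exact div_ne_zero (ψ i).ne_zero hne hc₀.symm
    · rw [hc₀, div_pow, hr0, Units.val_pow_eq_pow_val, div_self (pow_ne_zero _ (ψ i).ne_zero)]
    · simp only [Units.val_mk0, r0]
      congr 1
      rw [hj]
  choose cO hcO hcOn r hrn hcOv hrind using hr
  let T' : ι → F := fun i => T 1 i ^ M / algebraMap O F (cO i)
  have hcU : ∀ i, IsU (P i) (algebraMap O F (cO i)) := fun i => isU_algebraMap hmem i (hcO i)
  have hcn : ∀ i, rs (P i) (algebraMap O F (cO i) ^ n) = 1 := fun i => by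
    rw [← map_pow, ← rs_one (A := P i), rs_eq_iff (hmem i _) (P i).one_mem,
      ← map_one (algebraMap O F), ← map_sub]
    have h : cO i ^ n - 1 ∈ maximalIdeal O := by
      rw [← residue_eq_zero_iff, map_sub, map_pow, map_one, hcOn, sub_self]
    rw [hπ.maximalIdeal_eq, Ideal.mem_span_singleton] at h
    obtain ⟨e, he⟩ := h
    rw [he, map_mul]
    refine (rs_eq_zero ((P i).mul_mem _ _ (hmem i π) (hmem i e))).mp ?_
    rw [rs_mul (hmem i π) (hmem i e), rs_eq_zero_of_nonunit (hu₁ i), zero_mul]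
  have hT' : ∀ i, IsU (P i) (T' i ^ n / f ^ (d * M)) ∧ rs (P i) (T' i ^ n / f ^ (d * M)) = 1 := by
    intro i
    obtain ⟨h1, h2⟩ := hT 1 i
    rw [show ((1 : G) : RingAut F) f = f from rfl] at h1 h2
    have e : T' i ^ n / f ^ (d * M) = (T 1 i ^ n / f ^ d) ^ M / algebraMap O F (cO i) ^ n := by
      simp only [T', div_pow, ← pow_mul]
      rw [mul_comm M n, div_right_comm]
    rw [e]
    exact ⟨(h1.pow M).div ((hcU i).pow n),
      by rw [(h1.pow M).rs_div ((hcU i).pow n), rs_pow h1.1, h2, one_pow, hcn, div_one]⟩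
  -- values of the corrected targets at every point
  let z : ∀ (t : Bool) (x : {x : Ideal (Bc t) // IsPoint π x}) (i : ι), F :=
    fun t x i => T' i / (s 1 t x ^ d) ^ M
  have hzval : ∀ (t : Bool) (x : {x : Ideal (Bc t) // IsPoint π x}) (i : ι) (hi : center (hf t) i ≤ x.1),
      BranchValue P x.1 i (z t x i) (βv 1 t x i hi ^ M / residue O (cO i)) := by
    intro t x i hi
    have h1 := (hβv 1 t x i hi).pow hπ x.2 hi M
    have hne : residue O (cO i) ≠ 0 := ((hcO i).map (residue O)).ne_zero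
    have h2 := BranchValue.of_hasValue (hf := hf t) hπ x.2 hi
      ((HasValue.algebraMap_const x.2 (cO i)).inv hπ x.2 hne) (inv_ne_zero hne)
    have h3 := h1.mul hπ x.2 hi h2
    rw [← div_eq_mul_inv, ← div_eq_mul_inv, div_pow, div_right_comm] at h3
    exact h3
  have hkey : ∀ (t : Bool) (x : {x : Ideal (Bc t) // IsPoint π x}) (i j : ι)
      (hi : center (hf t) i ≤ x.1) (hj : center (hf t) j ≤ x.1), x.1 ∈ X t →
      βv 1 t x i hi ^ M / residue O (cO i) = βv 1 t x j hj ^ M / residue O (cO j) := by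
    intro t x i j hi hj hxX
    set p : Pt := ⟨t, x.1, hxX⟩
    have hb : ∀ l (hl : center (hf t) l ≤ x.1),
        βv 1 t x l hl ^ M = (φ p : ResidueField O) * ψ l := fun l hl => by
      have := congrArg Units.val (hφψ ⟨(p, l), hl⟩)
      simpa [β] using this
    have hn' : ∀ l (hl : center (hf t) l ≤ x.1), βv 1 t x l hl ^ n = ev 1 t x ^ d := fun l hl => by
      have h1 := (hβv 1 t x l hl).pow hπ x.2 hl n
      have h2 := BranchValue.of_hasValue (hf := hf t) hπ x.2 hl ((hev 1 t x).pow x.2 d)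
        (pow_ne_zero _ (hev0 1 t x))
      obtain ⟨hU, hr⟩ := hT 1 l
      have hfx := (hev 1 t x).isU hπ x.2 (hev0 1 t x) hl
      have hf1 : ((1 : G) : RingAut F) f ≠ 0 := hf0
      have e : (T 1 l / s 1 t x ^ d) ^ n = T 1 l ^ n / (((1 : G) : RingAut F) f) ^ d *
          ((((1 : G) : RingAut F) f) / s 1 t x ^ n) ^ d := by
        rw [div_pow, div_pow, ← pow_mul, ← pow_mul, mul_comm n d]
        field_simp
      refine h1.unique hπ x.2 hl (h2.congr_rs h1.isU ?_)
      rw [e, rs_mul hU.1 (hfx.pow d).1, hr, one_mul]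
    have hij : ψ i ^ n = ψ j ^ n := Units.ext (by
      have h : ∀ l (hl : center (hf t) l ≤ x.1),
          (φ p : ResidueField O) ^ n * (ψ l : ResidueField O) ^ n = (ev 1 t x ^ d) ^ M := fun l hl => by
        rw [← mul_pow, ← hb l hl, ← pow_mul, mul_comm M n, pow_mul, hn' l hl]
      push_cast
      exact mul_left_cancel₀ (pow_ne_zero _ (φ p).ne_zero) ((h i hi).trans (h j hj).symm))
    have hrij : r i = r j := (hrind i j hij).trans (hrind j j rfl).symm
    have hv : ∀ l (hl : center (hf t) l ≤ x.1),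
        βv 1 t x l hl ^ M / residue O (cO l) = (φ p : ResidueField O) * r l := fun l hl => by
      rw [hb l hl, hcOv l]
      have := (ψ l).ne_zero
      have := (r l).ne_zero
      field_simp
    rw [hv i hi, hv j hj, hrij]
  -- compare residues over one centre
  have hf1 : ((1 : G) : RingAut F) f = f := rfl
  have hyv : ∀ (t : Bool) (x : {x : Ideal (Bc t) // IsPoint π x}) (i : ι) (hi : center (hf t) i ≤ x.1),
      ∃ y : F, HasValue x.1 y (βv 1 t x i hi ^ M / residue O (cO i)) ∧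
        IsU (P i) (z t x i) ∧ rs (P i) y = rs (P i) (z t x i) := fun t x i hi => (hzval t x i hi).2
  choose y hy hzU hyz using hyv
  have hne : ∀ (t : Bool) (x : {x : Ideal (Bc t) // IsPoint π x}) (i : ι) (hi : center (hf t) i ≤ x.1),
      βv 1 t x i hi ^ M / residue O (cO i) ≠ 0 := fun t x i hi => (hzval t x i hi).1
  have hyU : ∀ (t : Bool) (x : {x : Ideal (Bc t) // IsPoint π x}) (i l : ι) (hi : center (hf t) i ≤ x.1),
      center (hf t) l ≤ x.1 → IsU (P l) (y t x i hi) := fun t x i l hi hl =>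
    (hy t x i hi).isU hπ x.2 (hne t x i hi) hl
  have hsame : ∀ (t : Bool) (x : {x : Ideal (Bc t) // IsPoint π x}) (i j : ι)
      (hi : center (hf t) i ≤ x.1) (hj : center (hf t) j ≤ x.1),
      center (hf t) i = center (hf t) j → rs (P i) (y t x j hj) = rs (P i) (y t x i hi) := by
    intro t x i j hi hj hij
    obtain ⟨x₀, hx₀X, hix₀⟩ := hXc t i
    set x₀' : {x : Ideal (Bc t) // IsPoint π x} := ⟨x₀, hXp t x₀ hx₀X⟩
    have hjx₀ : center (hf t) j ≤ x₀ := hij ▸ hix₀
    set w := (s 1 t x₀' / s 1 t x) ^ (d * M) with hw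
    have hwU : ∀ l, center (hf t) l ≤ x.1 → center (hf t) l ≤ x₀ →
        IsFrac (hf t) l w ∧ IsU (P l) w := by
      intro l hl hl0
      have e1 := hev 1 t x
      have e0 := hev 1 t x₀'
      have U0 := e0.isU hπ x₀'.2 (hev0 1 t x₀') hl0
      have e : (((1 : G) : RingAut F) f / s 1 t x ^ n) * (((1 : G) : RingAut F) f / s 1 t x₀' ^ n)⁻¹ =
          (s 1 t x₀' / s 1 t x) ^ n := by
        rw [hf1, inv_div, div_pow]
        field_simp
      have hU := (e1.isU hπ x.2 (hev0 1 t x) hl).mul U0.inv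
      have hF := (e1.isFrac hl).mul ((e0.isFrac hl0).inv U0)
      rw [e] at hU hF
      exact ⟨(hF.root (hB t) hn).pow _, (isU_of_pow hn hU).pow _⟩
    have hzw : ∀ l, z t x l = z t x₀' l * w := fun l => by
      simp only [z, hw, div_pow, ← pow_mul]
      field_simp [hs0 1 t x, hs0 1 t x₀']
    have hloc : ∀ l (hl : center (hf t) l ≤ x.1) (hl0 : center (hf t) l ≤ x₀),
        rs (P l) (y t x l hl) = rs (P l) (y t x₀' l hl0 * w) := fun l hl hl0 => by
      rw [hyz, hzw, rs_mul (hzU t x₀' l hl0).1 (hwU l hl hl0).2.1,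
        rs_mul (hyU t x₀' l l hl0 hl0).1 (hwU l hl hl0).2.1, hyz]
    have h0 : rs (P i) (y t x₀' j hjx₀) = rs (P i) (y t x₀' i hix₀) := by
      have hc := hkey t x₀' j i hjx₀ hix₀ hx₀X
      refine rs_eq_of_value_eq hπ (hf t) hn hu₁ x₀'.2 hix₀ (hne t x₀' i hix₀)
        (hc ▸ hy t x₀' j hjx₀) (hy t x₀' i hix₀) ?_
      have hpw : ∀ l (hl0 : center (hf t) l ≤ x₀), rs (P l) (y t x₀' l hl0 ^ n) =
          rs (P l) ((((1 : G) : RingAut F) f / s 1 t x₀' ^ n) ^ (d * M)) := fun l hl0 => by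
        have hU := (hev 1 t x₀').isU hπ x₀'.2 (hev0 1 t x₀') hl0
        have e : z t x₀' l ^ n = T' l ^ n / f ^ (d * M) *
            ((((1 : G) : RingAut F) f / s 1 t x₀' ^ n) ^ (d * M)) := by
          simp only [z, hf1, div_pow, ← pow_mul]
          rw [show d * M * n = n * (d * M) by ring]
          field_simp
        rw [rs_pow (hyU t x₀' l l hl0 hl0).1, hyz, ← rs_pow (hzU t x₀' l hl0).1, e,
          rs_mul (hT' l).1.1 (hU.pow _).1, (hT' l).2, one_mul]
      rw [hpw i hix₀]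
      exact IsFrac.rs_congr hij.symm (((hy t x₀' j hjx₀).pow x₀'.2 n).isFrac hjx₀)
        (((hev 1 t x₀').pow x₀'.2 _).isFrac hjx₀) (pow_mem (hyU t x₀' j j hjx₀ hjx₀).1 _)
        (((hev 1 t x₀').isU hπ x₀'.2 (hev0 1 t x₀') hjx₀).pow _).1 (hpw j hjx₀)
    have hFj : IsFrac (hf t) j (y t x₀' j hjx₀ * w) :=
      ((hy t x₀' j hjx₀).isFrac hjx₀).mul (hwU j hj hjx₀).1
    rw [IsFrac.rs_congr hij.symm ((hy t x j hj).isFrac hj) hFj (hyU t x j j hj hj).1
        ((hyU t x₀' j j hjx₀ hjx₀).mul (hwU j hj hjx₀).2).1 (hloc j hj hjx₀),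
      rs_mul (hyU t x₀' j i hjx₀ hix₀).1 (hwU i hi hix₀).2.1, h0,
      ← rs_mul (hyU t x₀' i i hix₀ hix₀).1 (hwU i hi hix₀).2.1, ← hloc i hi hix₀]
  -- equal values everywhere
  have heq : ∀ (t : Bool) (x : {x : Ideal (Bc t) // IsPoint π x}) (i j : ι)
      (hi : center (hf t) i ≤ x.1) (hj : center (hf t) j ≤ x.1),
      βv 1 t x i hi ^ M / residue O (cO i) = βv 1 t x j hj ^ M / residue O (cO j) := by
    intro t x i j hi hj
    by_cases hxX : x.1 ∈ X t
    · exact hkey t x i j hi hj hxX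
    · exact (hy t x i hi).congr hπ x.2 (hy t x j hj) (hne t x i hi) (hne t x j hj) hi
        (hsame t x i j hi hj (hXout t x.1 x.2 hxX i j hi hj).1).symm
  -- glue after a power of the residue characteristic
  set Q := q ^ L with hQdef
  have hQ : 0 < Q := pow_pos hq.pos L
  refine ⟨fun i => T' i ^ Q, fun i => ?_, fun t => ?_⟩
  · have := (hT' i).1.pow Q
    rwa [div_pow, ← pow_mul, ← pow_mul f, mul_comm n Q, pow_mul] at this
  refine exists_glued_root (hB t) hn (hf t) hu₁ (fun i => ?_) fun x hx => ?_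
  · have h := (hT' i).1.pow Q
    have h' := rs_pow (hT' i).1.1 Q
    rw [(hT' i).2, one_pow] at h'
    rw [div_pow, ← pow_mul, ← pow_mul f, mul_comm n Q, pow_mul] at h h'
    exact ⟨h, h'⟩
  set x' : {x : Ideal (Bc t) // IsPoint π x} := ⟨x, hx⟩
  have hqU : ∀ i, (q : F) ∈ (P i).nonunits := fun i => by
    rw [hπ.maximalIdeal_eq, Ideal.mem_span_singleton] at hqπ
    obtain ⟨e, he⟩ := hqπ
    rw [← map_natCast (algebraMap O F), he, map_mul]
    refine (rs_eq_zero ((P i).mul_mem _ _ (hmem i π) (hmem i e))).mp ?_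
    rw [rs_mul (hmem i π) (hmem i e), rs_eq_zero_of_nonunit (hu₁ i), zero_mul]
  obtain ⟨a₀, b₀, c₁, hb₀, he₀, hc₁, hm₀⟩ := (hev 1 t x').pow hx (d * M)
  have ha₀ : a₀ ∉ x := HasValue.notMem hπ hx hb₀ hm₀ (hc₁ ▸ pow_ne_zero _ (hev0 1 t x'))
  set S := (s 1 t x' ^ d) ^ M with hS
  have hS0 : S ≠ 0 := pow_ne_zero _ (pow_ne_zero _ (hs0 1 t x'))
  have hroot : (a₀ : F) * S ∈ rootModule (hB t) hn (f ^ (d * M)) := by
    rw [mem_rootModule]
    obtain ⟨m, rfl⟩ : ∃ m, n = m + 1 := ⟨n - 1, (Nat.sub_add_cancel hn).symm⟩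
    have e : ((a₀ : F) * S) ^ (m + 1) / f ^ (d * M) = (a₀ : F) ^ m * b₀ := by
      rw [div_eq_iff (pow_ne_zero _ hf0), mul_pow, pow_succ (a₀ : F) m, ← he₀, hf1, hS, div_pow,
        ← pow_mul, ← pow_mul, ← pow_mul, show d * (M * (m + 1)) = (m + 1) * (d * M) by ring]
      field_simp [hs0 1 t x']
    rw [e]
    exact mul_mem (pow_mem a₀.2 m) b₀.2
  let Y : ι → F := fun i => if h : center (hf t) i ≤ x then y t x' i h else 1
  obtain ⟨c, hc⟩ : ∃ c : ResidueField O, ∀ i (h : center (hf t) i ≤ x),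
      βv 1 t x' i h ^ M / residue O (cO i) = c := by
    by_cases hex : ∃ i, center (hf t) i ≤ x
    · obtain ⟨i, hi⟩ := hex
      exact ⟨_, fun j hj => heq t x' j i hj hi⟩
    · exact ⟨0, fun i h => absurd ⟨i, h⟩ hex⟩
  obtain ⟨rr, bb, hbb, hrr⟩ := exists_local_lift hπ (hf t) hq hqU (L := Lc t) (N := L) (hLc t)
    ((Finset.le_sup (Finset.mem_univ t)).trans hQL) hx (y := Y) (c := c)
    (fun i hi => by simp only [Y, dif_pos hi]; rw [← hc i hi]; exact hy t x' i hi)
    (fun i j hi hij _ => by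
      have hj : center (hf t) j ≤ x := hij ▸ hi
      simp only [Y, dif_pos hi, dif_pos hj]
      exact hsame t x' i j hi hj hij)
  refine ⟨((a₀ : F) * S) ^ Q * (rr : F), ?_, a₀ ^ Q * bb, hx.1.isPrime.mul_notMem
    (fun h => ha₀ (hx.1.isPrime.mem_of_pow_mem _ h)) hbb, fun i hi => ?_⟩
  · rw [pow_mul f (d * M) Q, mul_comm _ (rr : F)]
    exact mul_left_mem rr.2 (pow_mem_rootModule hroot Q)
  obtain ⟨hYi, hYr⟩ := hrr i hi
  simp only [Y, dif_pos hi] at hYi hYr
  have hzi := hzU t x' i hi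
  have hA := (hf t).le i a₀ a₀.2
  have hR := (hf t).le i rr rr.2
  have e : ((a₀ : F) * S) ^ Q * (rr : F) / T' i ^ Q = (a₀ : F) ^ Q * (rr : F) * (z t x' i ^ Q)⁻¹ := by
    show _ = (a₀ : F) ^ Q * (rr : F) * ((T' i / S) ^ Q)⁻¹
    generalize T' i = Ti
    rw [div_pow, inv_div, mul_pow]
    ring
  push_cast
  rw [e, rs_mul ((P i).mul_mem _ _ (pow_mem hA _) hR) (hzi.pow Q).inv.1, (hzi.pow Q).rs_inv,
    rs_pow hzi.1, ← hyz t x' i hi, rs_mul (pow_mem hA _) hR, hYr, rs_pow hYi,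
    rs_mul (pow_mem hA _) ((hf t).le i bb bb.2)]
  field_simp [(hyU t x' i i hi hi).2]
  rw [hQdef]
  ring

variable [Nonempty ι]

/-- A function whose norms along every component are powers is, after a bounded exponent, a
constant times a power. -/
theorem exists_exponent_root (M : Model O F) (π : O) (hπ : Irreducible π)
    (hinj : Function.Injective (algebraMap O F)) (q : ℕ) (hq : q.Prime)
    (hqπ : (q : O) ∈ IsLocalRing.maximalIdeal O)
    (P : ι → ValuationSubring F) (hf₀ : ChartFibre M.B₀ π P) (hf₁ : ChartFibre M.B₁ π P)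
    (G : Subgroup (RingAut F)) [Finite G] (H : ι → Finset (RingAut F)) {d : ℕ} (hd : 0 < d)
    (hS : Symmetry M π P G H d) :
    ∃ D : ℕ, 0 < D ∧ ∀ (n : ℕ), 0 < n → IsUnit (n : O) → ∀ f : F, f ≠ 0 →
      (∀ m : Ideal M.B₀, m.IsMaximal → HasRootAt M.B₀ n f m) →
      (∀ m : Ideal M.B₁, m.IsMaximal → HasRootAt M.B₁ n f m) →
      (∀ g ∈ G, ∀ i, ∃ (a b : O) (k : F), a ≠ 0 ∧ b ≠ 0 ∧
        algebraMap O F b * ∏ h ∈ H i, h (g f) = algebraMap O F a * k ^ n) →
      ∃ (c : O) (h : F), algebraMap O F c ≠ 0 ∧ h ≠ 0 ∧ h ^ n = algebraMap O F c * f ^ D := by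
  classical
  let Bc : Bool → Subalgebra O F := fun t => bif t then M.B₁ else M.B₀
  have hst : ∀ t, Stable (Bc t) G := fun t => by
    cases t
    · exact ⟨hS.map₀, hS.const⟩
    · exact ⟨hS.map₁, hS.const⟩
  have hfc : ∀ t, ChartFibre (Bc t) π P := fun t => by
    cases t
    · exact hf₀
    · exact hf₁
  have hcl : ∀ t, ∀ x : F, IsIntegral (Bc t) x → x ∈ Bc t := fun t => by
    cases t
    · exact M.closed₀
    · exact M.closed₁
  obtain ⟨D, hD, key⟩ := exists_compatible_roots hπ hinj q hq hqπ Bc hcl hfc hst hS.uniformizer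
    hS.perm hS.injective H hd hS.mem hS.card hS.fix
  refine ⟨D, hD, fun n hn hnO f hf0 h₀ h₁ hN => ?_⟩
  have hroots : ∀ (t : Bool) (m : Ideal (Bc t)), m.IsMaximal → HasRootAt (Bc t) n f m := fun t => by
    cases t
    · exact h₀
    · exact h₁
  obtain ⟨T, hT, hroot⟩ := key n hn hnO f fun g hg =>
    ⟨(map_ne_zero g).mpr hf0, fun t => hasRootAt_map hπ (hst t) ⟨g, hg⟩ (hroots t), hN g hg⟩
  obtain ⟨s₀, hs₀, hsT₀, hu₀⟩ := hroot false
  obtain ⟨s₁, hs₁, hsT₁, hu₁⟩ := hroot true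
  have hfD : f ^ D ≠ 0 := pow_ne_zero _ hf0
  let C := M.toCharts hn
  have hext : IsExtendable C.root₀ hn (f ^ D) :=
    isExtendable_of_forall hfD fun m hm => @HasRootAt.pow _ _ _ _ _ n f m hm.isPrime (h₀ m hm) D
  have hs01 : ∃ e ∈ rootModule C.root₀₁ hn (f ^ D), s₀ - s₁ = π • e := by
    obtain ⟨k, x, y, hx, hy, hxy⟩ := hext
    have hd' : s₀ - s₁ ∈ rootModule C.root₀₁ hn (f ^ D) :=
      sub_mem (C.sec₀_le hn _ hs₀) (C.sec₁_le hn _ hs₁)
    have hpart : ∀ a, ∃ b ∈ M.B₀₁, (s₀ - s₁) * y a = π • b := fun a => by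
      have hm : (s₀ - s₁) * y a ∈ M.B₀₁ :=
        mul_mem_of_inv (hB := C.root₀₁) (hn := hn) hfD hd'
          (rootModule_mono (hB' := C.root₀₁) C.le₀ (hy a))
      obtain ⟨E, hE⟩ := M.loc₀ _ hm
      obtain ⟨e, he, hee⟩ := hf₀.reduced _ hE fun i => by
        have hTi := hT i
        have hyT : y a * T i ∈ P i := by
          refine mem_of_pow_mem hn ?_
          have h1 : (y a * T i) ^ n = (y a ^ n / (f ^ D)⁻¹) * (T i ^ n / f ^ D) := by
            rw [mul_pow, div_inv_eq_mul]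
            field_simp
          rw [h1]
          exact (P i).mul_mem _ _ (hf₀.le i _ (hy a)) hTi.1
        have hT0 : T i ≠ 0 := fun h => hTi.ne_zero (by rw [h, zero_pow hn.ne', zero_div])
        have hw := hf₀.le i _ M.w_mem
        have h2 : M.w ^ E * ((s₀ - s₁) * y a) = (M.w ^ E * (y a * T i)) * (s₀ / T i - s₁ / T i) := by
          field_simp
        rw [h2]
        have hm1 := (P i).mul_mem _ _ (pow_mem hw E) hyT
        have hm2 : s₀ / T i - s₁ / T i ∈ P i := sub_mem (hsT₀ i).1 (hsT₁ i).1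
        refine (rs_eq_zero ((P i).mul_mem _ _ hm1 hm2)).mp ?_
        rw [rs_mul hm1 hm2, rs_sub (hsT₀ i).1 (hsT₁ i).1, (hsT₀ i).2, (hsT₁ i).2, sub_self, mul_zero]
      refine ⟨M.w⁻¹ ^ E * e, mul_mem (pow_mem (M.le₁ M.w_inv_mem) E) (M.le₀ he), ?_⟩
      rw [← mul_smul_comm, ← hee, ← mul_assoc, ← mul_pow, inv_mul_cancel₀ M.w_ne, one_pow, one_mul]
    choose b hb hbe using hpart
    refine ⟨∑ a, b a * x a, sum_mem fun a _ => mul_left_mem (hb a) (C.sec₀_le hn _ (hx a)), ?_⟩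
    calc s₀ - s₁ = ∑ a, (s₀ - s₁) * y a * x a := by
          conv_lhs => rw [← mul_one (s₀ - s₁), ← hxy, Finset.mul_sum]
          exact Finset.sum_congr rfl fun a _ => by ring
      _ = π • ∑ a, b a * x a := by
          rw [Finset.smul_sum]
          exact Finset.sum_congr rfl fun a _ => by rw [hbe a, smul_mul_assoc]
  obtain ⟨ν, hν⟩ := hnO.exists_right_inv
  have hπ0 : algebraMap O F π ≠ 0 := (map_ne_zero_iff _ hinj).mpr hπ.ne_zero
  refine C.exists_root hn hfD hext π ν hν hπ0 ?_ hs₀ hs₁ hu₀ hu₁ hs01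
  rintro ⟨b, hb, hbe⟩
  obtain ⟨i⟩ := ‹Nonempty ι›
  have h1 := congrArg (rs (P i)) hbe
  rw [Algebra.smul_def, rs_mul (algebraMap_mem_component hf₀ i π) (hf₀.le i b hb),
    rs_eq_zero_of_nonunit (hS.uniformizer i).1, zero_mul, rs_one] at h1
  exact zero_ne_one h1

end Main

end Fermat.Agent.Models
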