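/-
A function which is a power on every component: the quotient of its Frobenius conjugate by its
power is a global power, up to a bounded exponent.
-/
import Fermat.Agent.Models.DetectGlue
import Fermat.Agent.Models.DetectTarget
import Fermat.Agent.Models.CoreRoot

set_option autoImplicit false

noncomputable section

namespace Fermat.Agent.Models

open IsLocalRing

variable {O F : Type} [CommRing O] [IsDomain O] [IsDiscreteValuationRing O] [Field F] [Algebra O F]
  {ι : Type} {π : O} {P : ι → ValuationSubring F}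

/-- Every branch is normal: residues with a regular power are regular. -/
def BranchNormal {B : Subalgebra O F} (hf : ChartFibre B π P) : Prop :=
  ∀ (x : Ideal B), IsPoint π x → ∀ i, center hf i ≤ x → ∀ (z : F) (n : ℕ), 0 < n → IsU (P i) z →
    ∀ a₀ b₀ : B, b₀ ∉ x → rs (P i) (z ^ n) * rs (P i) (b₀ : F) = rs (P i) (a₀ : F) →
      ∃ a b : B, b ∉ x ∧ rs (P i) z * rs (P i) (b : F) = rs (P i) (a : F)

/-- A semilinear automorphism inducing the `Q`-th power on constants, fixing every component. -/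
structure FrobData (O : Type) {F : Type} [CommRing O] [IsLocalRing O] [Field F] [Algebra O F]
    (P : ι → ValuationSubring F) (s : F ≃+* F) (Q : ℕ) : Prop where
  pos : 0 < Q
  const : ∀ a : O, ∃ a' : O, s (algebraMap O F a) = algebraMap O F a' ∧
    residue O a' = residue O a ^ Q
  perm : ∀ i x, s x ∈ P i ↔ x ∈ P i

variable {s : F ≃+* F} {Q : ℕ}

theorem FrobData.isU_iff' (hs : FrobData O P s Q) (i : ι) {x : F} :
    IsU (P i) (s x) ↔ IsU (P i) x := by
  rw [isU_iff, isU_iff, ← map_inv₀, hs.perm, hs.perm]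
  simp

theorem FrobData.nonunits_iff (hs : FrobData O P s Q) (i : ι) {x : F} :
    s x ∈ (P i).nonunits ↔ x ∈ (P i).nonunits := by
  have key : ∀ z, z ∈ (P i).nonunits ↔ z ∈ P i ∧ ¬ IsU (P i) z := fun z => by
    refine ⟨fun h => ⟨(P i).nonunits_subset h, fun hu => hu.2 (rs_eq_zero_of_nonunit h)⟩,
      fun ⟨h1, h2⟩ => (rs_eq_zero h1).mp (not_not.mp fun hne => h2 ⟨h1, hne⟩)⟩
  rw [key, key, hs.perm, hs.isU_iff']

theorem FrobData.rs_map (hs : FrobData O P s Q) (i : ι) {x y : F} (hx : x ∈ P i) (hy : y ∈ P i)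
    (h : rs (P i) x = rs (P i) y) : rs (P i) (s x) = rs (P i) (s y) := by
  rw [rs_eq_iff ((hs.perm i x).mpr hx) ((hs.perm i y).mpr hy), ← map_sub, hs.nonunits_iff]
  exact (rs_eq_iff hx hy).mp h

section Chart

variable {B : Subalgebra O F} (hsB : ∀ b ∈ B, s b ∈ B)

/-- The automorphism on a chart. -/
def frobRestr : B →+* B :=
  ((s : F →+* F).comp B.val.toRingHom).codRestrict B fun b => hsB b b.2

theorem coe_frobRestr (b : B) : ((frobRestr hsB b : B) : F) = s (b : F) := rfl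

theorem isPoint_comap_frob (hπ : Irreducible π) (hs : FrobData O P s Q)
    (hsB' : ∀ b ∈ B, s.symm b ∈ B) {x : Ideal B} (hx : IsPoint π x) :
    IsPoint π (x.comap (frobRestr hsB)) := by
  refine ⟨?_, ?_⟩
  · haveI := hx.1
    exact Ideal.comap_isMaximal_of_surjective _ fun b =>
      ⟨⟨s.symm b, hsB' _ b.2⟩, Subtype.ext (s.apply_symm_apply (b : F))⟩
  · obtain ⟨a', h1, h2⟩ := hs.const π
    have hπm : residue O π = 0 :=
      (residue_eq_zero_iff _).mpr (hπ.maximalIdeal_eq ▸ Ideal.mem_span_singleton_self π)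
    rw [hπm, zero_pow hs.pos.ne', residue_eq_zero_iff] at h2
    rw [Ideal.mem_comap, show frobRestr hsB (algebraMap O B π) = algebraMap O B a' from
      Subtype.ext h1]
    exact (algebraMap_mem_point hπ hx).mpr h2

theorem HasValue.frob (hs : FrobData O P s Q) {x : Ideal B} {y : F} {c : ResidueField O}
    (h : HasValue (x.comap (frobRestr hsB)) y c) : HasValue x (s y) (c ^ Q) := by
  obtain ⟨a, b, c₀, hb, he, rfl, hm⟩ := h
  obtain ⟨a', h1, h2⟩ := hs.const c₀
  refine ⟨frobRestr hsB a, frobRestr hsB b, a', hb, ?_, h2, ?_⟩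
  · rw [coe_frobRestr, coe_frobRestr, ← map_mul, he]
  · rw [Ideal.mem_comap, map_sub, map_mul, show frobRestr hsB (algebraMap O B c₀) =
      algebraMap O B a' from Subtype.ext h1] at hm
    exact hm

theorem center_le_comap_frob (hs : FrobData O P s Q) (hf : ChartFibre B π P) {x : Ideal B} {i : ι}
    (hi : center hf i ≤ x) : center hf i ≤ x.comap (frobRestr hsB) := fun b hb => by
  refine Ideal.mem_comap.mpr (hi (mem_center.mpr ?_))
  rw [coe_frobRestr, hs.nonunits_iff]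
  exact mem_center.mp hb

variable (hf : ChartFibre B π P)

/-- The value at a point of a root of a function on a branch. -/
theorem exists_branch_value (hπ : Irreducible π) (hN : BranchNormal hf) {n : ℕ} (hn : 0 < n)
    {x : Ideal B} (hx : IsPoint π x) {i : ι} (hi : center hf i ≤ x) {f T r : F}
    (hT : IsU (P i) (T ^ n / f) ∧ rs (P i) (T ^ n / f) = 1) {c : ResidueField O} (hc : c ≠ 0)
    (hv : HasValue x (f / r ^ n) c) : ∃ c', BranchValue P x i (T / r) c' := by
  obtain ⟨hTU, hTr⟩ := hT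
  have hyU := hv.isU hπ hx hc hi (hf := hf)
  have hf0 : f ≠ 0 := fun h => hTU.ne_zero (by rw [h, div_zero])
  have hz : (T / r) ^ n = T ^ n / f * (f / r ^ n) := by
    rw [div_pow, div_mul_div_cancel₀ hf0]
  have hzU : IsU (P i) (T / r) := isU_of_pow hn (hz ▸ hTU.mul hyU)
  obtain ⟨a₀, b₀, c₀, hb₀, he₀, hc₀, hm₀⟩ := hv
  have hrel : rs (P i) ((T / r) ^ n) * rs (P i) (b₀ : F) = rs (P i) (a₀ : F) := by
    rw [hz, rs_mul hTU.1 hyU.1, hTr, one_mul, ← rs_mul hyU.1 (hf.le i _ b₀.2), he₀]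
  obtain ⟨a, b, hb, hab⟩ := hN x hx i hi (T / r) n hn hzU a₀ b₀ hb₀ hrel
  have ha₀ : a₀ ∉ x := HasValue.notMem hπ hx hb₀ hm₀ (hc₀ ▸ hc)
  have hbU := isU_of_notMem_center (hf := hf) fun h => hb (hi h)
  have ha : a ∉ x := fun ha => by
    have h1 : rs (P i) ((a ^ n * b₀ : B) : F) = rs (P i) ((a₀ * b ^ n : B) : F) := by
      push_cast
      rw [rs_mul (pow_mem (hf.le i _ a.2) n) (hf.le i _ b₀.2), rs_pow (hf.le i _ a.2),
        rs_mul (hf.le i _ a₀.2) (pow_mem (hf.le i _ b.2) n), rs_pow (hf.le i _ b.2), ← hab, ← hrel,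
        rs_pow hzU.1]
      ring
    have h2 : a₀ * b ^ n - a ^ n * b₀ ∈ x := hi (mem_center.mpr (by
      push_cast at h1 ⊢
      exact (rs_eq_iff ((P i).mul_mem _ _ (hf.le i _ a₀.2) (pow_mem (hf.le i _ b.2) n))
        ((P i).mul_mem _ _ (pow_mem (hf.le i _ a.2) n) (hf.le i _ b₀.2))).mp h1.symm))
    have h3 : a₀ * b ^ n ∈ x := by
      simpa using add_mem h2 (x.mul_mem_right b₀ (Ideal.pow_mem_of_mem x ha n hn))
    exact (hx.1.isPrime.mem_or_mem h3).elim ha₀ fun h => hb (hx.1.isPrime.mem_of_pow_mem n h)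
  obtain ⟨c', hc', hv'⟩ := HasValue.of_fraction hπ hf hx ha hb
  refine ⟨c', hc', _, hv', hzU, ?_⟩
  rw [div_eq_mul_inv, rs_mul (hf.le i _ a.2) hbU.inv.1, hbU.rs_inv, ← hab, mul_assoc,
    mul_inv_cancel₀ hbU.2, mul_one]

end Chart

variable [Fintype ι] [Nonempty ι]

set_option maxHeartbeats 1000000 in
/-- On a model with normal branches, whose crossing points are fixed: the conjugate of a function
divided by its `Q`-th power is a power up to a constant and a bounded exponent. -/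
theorem exists_frob_root (M : Model O F) (hπ : Irreducible π)
    (hinj : Function.Injective (algebraMap O F)) (q : ℕ) (hq : q.Prime)
    (hqπ : (q : O) ∈ maximalIdeal O) (hf₀ : ChartFibre M.B₀ π P) (hf₁ : ChartFibre M.B₁ π P)
    (hu : ∀ i, algebraMap O F π ∈ (P i).nonunits)
    (hN₀ : BranchNormal hf₀) (hN₁ : BranchNormal hf₁)
    (hc₀ : Function.Injective (center hf₀)) (hc₁ : Function.Injective (center hf₁))
    (hs : FrobData O P s Q) (hs₀ : ∀ b ∈ M.B₀, s b ∈ M.B₀) (hs₀' : ∀ b ∈ M.B₀, s.symm b ∈ M.B₀)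
    (hs₁ : ∀ b ∈ M.B₁, s b ∈ M.B₁) (hs₁' : ∀ b ∈ M.B₁, s.symm b ∈ M.B₁)
    (hX₀ : ∀ x i j, IsPoint π x → center hf₀ i ≤ x → center hf₀ j ≤ x → i ≠ j →
      x.comap (frobRestr hs₀) = x)
    (hX₁ : ∀ x i j, IsPoint π x → center hf₁ i ≤ x → center hf₁ j ≤ x → i ≠ j →
      x.comap (frobRestr hs₁) = x) :
    ∃ D : ℕ, 0 < D ∧ ∀ (n : ℕ), 0 < n → IsUnit (n : O) → ∀ f : F, f ≠ 0 →
      (∀ m : Ideal M.B₀, m.IsMaximal → HasRootAt M.B₀ n f m) →
      (∀ m : Ideal M.B₁, m.IsMaximal → HasRootAt M.B₁ n f m) →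
      (∀ i, ∃ T : F, IsU (P i) (T ^ n / f) ∧ rs (P i) (T ^ n / f) = 1) →
      ∃ (c : O) (h : F), algebraMap O F c ≠ 0 ∧ h ≠ 0 ∧
        h ^ n = algebraMap O F c * (s f / f ^ Q) ^ D := by
  classical
  let Bc : Bool → Subalgebra O F := fun t => bif t then M.B₁ else M.B₀
  have hf : ∀ t, ChartFibre (Bc t) π P := fun t => by cases t <;> assumption
  have hcl : ∀ t, ∀ x : F, IsIntegral (Bc t) x → x ∈ Bc t := fun t => by
    cases t
    · exact M.closed₀
    · exact M.closed₁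
  have hsB : ∀ t, ∀ b ∈ Bc t, s b ∈ Bc t := fun t => by cases t <;> assumption
  have hsB' : ∀ t, ∀ b ∈ Bc t, s.symm b ∈ Bc t := fun t => by cases t <;> assumption
  have hN : ∀ t, BranchNormal (hf t) := fun t => by cases t <;> assumption
  have hcinj : ∀ t, Function.Injective (center (hf t)) := fun t => by cases t <;> assumption
  have hX : ∀ t x i j, IsPoint π x → center (hf t) i ≤ x → center (hf t) j ≤ x → i ≠ j →
      x.comap (frobRestr (hsB t)) = x := fun t => by cases t <;> assumption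
  have hmem : ∀ (i : ι) (a : O), algebraMap O F a ∈ P i := algebraMap_mem_component (hf false)
  choose Lc hLc using fun t => exists_conductor_exponent (hf t)
  set L := Finset.univ.sup Lc
  refine ⟨q ^ L, pow_pos hq.pos L, fun n hn hnO f hf0 h₀ h₁ hT => ?_⟩
  choose T hT using hT
  have hroots : ∀ (t : Bool) (m : Ideal (Bc t)), m.IsMaximal → HasRootAt (Bc t) n f m := fun t => by
    cases t <;> assumption
  have hB : ∀ t, RootClosed (Bc t) n := fun t => rootClosed_of_isIntegral hn (hcl t)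
  set g := s f / f ^ Q with hg
  have hsf : s f ≠ 0 := (map_ne_zero s).mpr hf0
  have hfQ : f ^ Q ≠ 0 := pow_ne_zero _ hf0
  have hg0 : g ≠ 0 := div_ne_zero hsf hfQ
  -- targets
  let T' : ι → F := fun i => s (T i) / T i ^ Q
  have hT' : ∀ i, IsU (P i) (T' i ^ n / g) ∧ rs (P i) (T' i ^ n / g) = 1 := fun i => by
    obtain ⟨h1, h2⟩ := hT i
    have e : T' i ^ n / g = s (T i ^ n / f) / (T i ^ n / f) ^ Q := by
      simp only [T', hg, map_div₀, map_pow, div_pow, ← pow_mul, mul_comm Q n]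
      field_simp
    have hsU : IsU (P i) (s (T i ^ n / f)) := (hs.isU_iff' i).mpr h1
    have hsr : rs (P i) (s (T i ^ n / f)) = 1 := by
      rw [hs.rs_map i h1.1 (P i).one_mem (by rw [h2, rs_one]), map_one, rs_one]
    exact e ▸ ⟨hsU.div (h1.pow Q),
      by rw [hsU.rs_div (h1.pow Q), hsr, rs_pow h1.1, h2, one_pow, div_one]⟩
  -- local roots and values
  choose r hr0 ev hev0 hev using fun (t : Bool) (x : {x : Ideal (Bc t) // IsPoint π x}) =>
    exists_local_root hn hπ (hf t) x.2 hf0 (hroots t x.1 x.2.1)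
  let pre : ∀ t, {x : Ideal (Bc t) // IsPoint π x} → {x : Ideal (Bc t) // IsPoint π x} :=
    fun t x => ⟨_, isPoint_comap_frob (hsB t) hπ hs (hsB' t) x.2⟩
  choose cv hcv using fun (t : Bool) (x : {x : Ideal (Bc t) // IsPoint π x}) (i : ι)
      (hi : center (hf t) i ≤ x.1) =>
    exists_branch_value (hf t) hπ (hN t) hn x.2 hi (hT i) (hev0 t x) (hev t x)
  choose y hy hzU hyz using fun t x i hi => (hcv t x i hi).2
  have hcv0 : ∀ t x i hi, cv t x i hi ≠ 0 := fun t x i hi => (hcv t x i hi).1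
  refine (?_ : ∃ (c : O) (h : F), algebraMap O F c ≠ 0 ∧ h ≠ 0 ∧
    h ^ n = algebraMap O F c * g ^ (q ^ L))
  set QL := q ^ L with hQL
  have hQL0 : 0 < QL := pow_pos hq.pos L
  have hT'' : ∀ i, IsU (P i) ((T' i ^ QL) ^ n / g ^ QL) ∧
      rs (P i) ((T' i ^ QL) ^ n / g ^ QL) = 1 := fun i => by
    have h := (hT' i).1.pow QL
    have h' := rs_pow (hT' i).1.1 QL
    rw [(hT' i).2, one_pow] at h'
    rw [div_pow, ← pow_mul, mul_comm n QL, pow_mul] at h h'
    exact ⟨h, h'⟩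
  have hqU : ∀ i, (q : F) ∈ (P i).nonunits := fun i => by
    rw [hπ.maximalIdeal_eq, Ideal.mem_span_singleton] at hqπ
    obtain ⟨e, he⟩ := hqπ
    rw [← map_natCast (algebraMap O F), he, map_mul]
    refine (rs_eq_zero ((P i).mul_mem _ _ (hmem i π) (hmem i e))).mp ?_
    rw [rs_mul (hmem i π) (hmem i e), rs_eq_zero_of_nonunit (hu i), zero_mul]
  -- the glued roots
  have hroot : ∀ t, ∃ s₀ ∈ rootModule (hB t) hn (g ^ QL),
      (∀ i, s₀ / T' i ^ QL ∈ P i ∧ rs (P i) (s₀ / T' i ^ QL) = 1) ∧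
        ∃ a ∈ Bc t, s₀ ^ n / g ^ QL = 1 + π • a := by
    intro t
    refine exists_glued_root (hB t) hn (hf t) hu hT'' fun x hx => ?_
    set x' : {x : Ideal (Bc t) // IsPoint π x} := ⟨x, hx⟩
    set x'' := pre t x'
    have hpre : ∀ i, center (hf t) i ≤ x → center (hf t) i ≤ x''.1 := fun i hi =>
      center_le_comap_frob (hsB t) hs (hf t) hi
    -- the new local root
    set S := s (r t x'') / r t x' ^ Q with hS
    have hS0 : S ≠ 0 := div_ne_zero ((map_ne_zero s).mpr (hr0 t x'')) (pow_ne_zero _ (hr0 t x'))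
    have hgv : HasValue x (g / S ^ n) (ev t x'' ^ Q / ev t x' ^ Q) := by
      have h1 := (HasValue.frob (hsB t) hs (hev t x'')).div hπ hx ((hev t x').pow hx Q)
        (pow_ne_zero _ (hev0 t x'))
      have e : g / S ^ n = s (f / r t x'' ^ n) / (f / r t x' ^ n) ^ Q := by
        simp only [hg, hS, map_div₀, map_pow, div_pow, ← pow_mul, mul_comm Q n]
        field_simp
      rwa [e]
    have hgv0 : ev t x'' ^ Q / ev t x' ^ Q ≠ 0 :=
      div_ne_zero (pow_ne_zero _ (hev0 t x'')) (pow_ne_zero _ (hev0 t x'))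
    obtain ⟨a₀, b₀, c₁, hb₀, he₀, hc₁, hm₀⟩ := hgv
    have ha₀ : a₀ ∉ x := HasValue.notMem hπ hx hb₀ hm₀ (hc₁ ▸ hgv0)
    have hroot₁ : (a₀ : F) * S ∈ rootModule (hB t) hn g := by
      rw [mem_rootModule]
      obtain ⟨m, rfl⟩ : ∃ m, n = m + 1 := ⟨n - 1, (Nat.sub_add_cancel hn).symm⟩
      have e : ((a₀ : F) * S) ^ (m + 1) / g = (a₀ : F) ^ m * b₀ := by
        rw [div_eq_iff hg0, mul_pow, pow_succ (a₀ : F) m, ← he₀]
        field_simp
      rw [e]
      exact mul_mem (pow_mem a₀.2 m) b₀.2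
    -- values on branches
    let Y : ι → F := fun i =>
      if h : center (hf t) i ≤ x then s (y t x'' i (hpre i h)) / y t x' i h ^ Q else 1
    have hYval : ∀ i (h : center (hf t) i ≤ x), HasValue x (Y i)
        (cv t x'' i (hpre i h) ^ Q / cv t x' i h ^ Q) := fun i h => by
      simp only [Y, dif_pos h]
      exact (HasValue.frob (hsB t) hs (hy t x'' i (hpre i h))).div hπ hx ((hy t x' i h).pow hx Q)
        (pow_ne_zero _ (hcv0 t x' i h))
    have hzY : ∀ i (h : center (hf t) i ≤ x), IsU (P i) (T' i / S) ∧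
        rs (P i) (Y i) = rs (P i) (T' i / S) := fun i h => by
      simp only [Y, dif_pos h]
      have hz1 := hzU t x'' i (hpre i h)
      have hz2 := hzU t x' i h
      have hy1 : IsU (P i) (y t x'' i (hpre i h)) :=
        (hy t x'' i (hpre i h)).isU hπ x''.2 (hcv0 t x'' i (hpre i h)) (hpre i h)
      have hy2 : IsU (P i) (y t x' i h) := (hy t x' i h).isU hπ x'.2 (hcv0 t x' i h) h
      have e : T' i / S = s (T i / r t x'') / (T i / r t x') ^ Q := by
        simp only [T', hS, map_div₀, div_pow]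
        field_simp
      have hsz : IsU (P i) (s (T i / r t x'')) := (hs.isU_iff' i).mpr hz1
      have hsy : IsU (P i) (s (y t x'' i (hpre i h))) := (hs.isU_iff' i).mpr hy1
      refine ⟨e ▸ hsz.div (hz2.pow Q), ?_⟩
      rw [e, hsy.rs_div (hy2.pow Q), hsz.rs_div (hz2.pow Q), rs_pow hy2.1, rs_pow hz2.1,
        hyz t x' i h, hs.rs_map i hy1.1 hz1.1 (hyz t x'' i (hpre i h))]
    obtain ⟨c, hc⟩ : ∃ c : ResidueField O, ∀ i (h : center (hf t) i ≤ x),
        cv t x'' i (hpre i h) ^ Q / cv t x' i h ^ Q = c := by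
      by_cases hex : ∃ i j, center (hf t) i ≤ x ∧ center (hf t) j ≤ x ∧ i ≠ j
      · obtain ⟨i, j, hi, hj, hij⟩ := hex
        refine ⟨1, fun l hl => ?_⟩
        have hxx : x'' = x' := Subtype.ext (hX t x i j hx hi hj hij)
        have hcong : cv t x'' l (hpre l hl) = cv t x' l hl := by congr 1
        rw [hcong, div_self (pow_ne_zero _ (hcv0 t x' l hl))]
      · by_cases hone : ∃ i, center (hf t) i ≤ x
        · obtain ⟨i, hi⟩ := hone
          refine ⟨cv t x'' i (hpre i hi) ^ Q / cv t x' i hi ^ Q, fun l hl => ?_⟩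
          obtain rfl : l = i := by
            by_contra hne
            exact hex ⟨l, i, hl, hi, hne⟩
          rfl
        · exact ⟨0, fun i h => absurd ⟨i, h⟩ hone⟩
    obtain ⟨rr, bb, hbb, hrr⟩ := exists_local_lift hπ (hf t) hq hqU (L := Lc t) (N := L) (hLc t)
      ((Finset.le_sup (Finset.mem_univ t)).trans (Nat.lt_pow_self hq.one_lt).le) hx (y := Y) (c := c)
      (fun i hi => hc i hi ▸ hYval i hi)
      (fun i j _ hij _ => by rw [hcinj t hij])
    refine ⟨((a₀ : F) * S) ^ QL * (rr : F), ?_, a₀ ^ QL * bb, hx.1.isPrime.mul_notMem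
      (fun h => ha₀ (hx.1.isPrime.mem_of_pow_mem _ h)) hbb, fun i hi => ?_⟩
    · rw [mul_comm _ (rr : F)]
      exact mul_left_mem rr.2 (pow_mem_rootModule hroot₁ QL)
    obtain ⟨hYi, hYr⟩ := hrr i hi
    obtain ⟨hzi, hYz⟩ := hzY i hi
    have hA := (hf t).le i a₀ a₀.2
    have hR := (hf t).le i rr rr.2
    have hY0 : rs (P i) (Y i) ≠ 0 := hYz ▸ hzi.2
    have e : ((a₀ : F) * S) ^ QL * (rr : F) / T' i ^ QL =
        (a₀ : F) ^ QL * (rr : F) * ((T' i / S) ^ QL)⁻¹ := by
      generalize T' i = Ti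
      rw [div_pow, inv_div, mul_pow]; ring
    push_cast
    rw [e, rs_mul ((P i).mul_mem _ _ (pow_mem hA _) hR) (hzi.pow QL).inv.1, (hzi.pow QL).rs_inv,
      rs_pow hzi.1, ← hYz, rs_mul (pow_mem hA _) hR, hYr, ← hQL, rs_pow hYi,
      rs_mul (pow_mem hA _) ((hf t).le i bb bb.2)]
    field_simp
  obtain ⟨s₀, hs₀', hsT₀, hu₀⟩ := hroot false
  obtain ⟨s₁, hs₁', hsT₁, hu₁⟩ := hroot true
  have hgD : g ^ QL ≠ 0 := pow_ne_zero _ hg0
  let C := M.toCharts hn
  have hrootg : ∀ m : Ideal M.B₀, m.IsMaximal → HasRootAt M.B₀ n g m := fun m hm => by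
    haveI := hm
    haveI : (m.comap (frobRestr hs₀)).IsMaximal :=
      Ideal.comap_isMaximal_of_surjective _ fun b =>
        ⟨⟨s.symm b, hsB' false _ b.2⟩, Subtype.ext (s.apply_symm_apply (b : F))⟩
    obtain ⟨u, a, b, ha, hb, he⟩ := h₀ (m.comap (frobRestr hs₀)) inferInstance
    obtain ⟨v, a', b', ha', hb', he'⟩ := @HasRootAt.pow _ _ _ _ _ n f m hm.isPrime (h₀ m hm) Q
    change (b : F) * u ^ n = (a : F) * f at he
    change (b' : F) * v ^ n = (a' : F) * f ^ Q at he'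
    have hv : v ≠ 0 := fun h0 => by
      rw [h0, zero_pow hn.ne', mul_zero, eq_comm, mul_eq_zero] at he'
      exact ha' (by rw [show a' = 0 from Subtype.ext (he'.resolve_right hfQ)]; exact zero_mem _)
    refine ⟨s u / v, frobRestr hs₀ a * b', frobRestr hs₀ b * a', hm.isPrime.mul_notMem ha hb',
      hm.isPrime.mul_notMem hb ha', ?_⟩
    show ((frobRestr hs₀ b : M.B₀) : F) * (a' : F) * (s u / v) ^ n =
      ((frobRestr hs₀ a : M.B₀) : F) * (b' : F) * (s f / f ^ Q)
    have he2 : s (b : F) * s u ^ n = s (a : F) * s f := by rw [← map_pow, ← map_mul, he, map_mul]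
    rw [coe_frobRestr, coe_frobRestr, div_pow, mul_div_assoc', mul_div_assoc',
      div_eq_div_iff (pow_ne_zero _ hv) hfQ]
    linear_combination ((a' : F) * f ^ Q) * he2 - (s (a : F) * s f) * he'
  have hext : IsExtendable C.root₀ hn (g ^ QL) :=
    isExtendable_of_forall hgD fun m hm =>
      @HasRootAt.pow _ _ _ _ _ n g m hm.isPrime (hrootg m hm) QL
  have hs01 : ∃ e ∈ rootModule C.root₀₁ hn (g ^ QL), s₀ - s₁ = π • e := by
    obtain ⟨k, x, y, hx, hy, hxy⟩ := hext
    have hd' : s₀ - s₁ ∈ rootModule C.root₀₁ hn (g ^ QL) :=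
      sub_mem (C.sec₀_le hn _ hs₀') (C.sec₁_le hn _ hs₁')
    have hpart : ∀ a, ∃ b ∈ M.B₀₁, (s₀ - s₁) * y a = π • b := fun a => by
      have hm : (s₀ - s₁) * y a ∈ M.B₀₁ :=
        mul_mem_of_inv (hB := C.root₀₁) (hn := hn) hgD hd'
          (rootModule_mono (hB' := C.root₀₁) C.le₀ (hy a))
      obtain ⟨E, hE⟩ := M.loc₀ _ hm
      obtain ⟨e, he, hee⟩ := hf₀.reduced _ hE fun i => by
        have hTi := hT'' i
        have hyT : y a * T' i ^ QL ∈ P i := by
          refine mem_of_pow_mem hn ?_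
          have h1 : (y a * T' i ^ QL) ^ n =
              (y a ^ n / (g ^ QL)⁻¹) * ((T' i ^ QL) ^ n / g ^ QL) := by
            rw [mul_pow, div_inv_eq_mul]
            field_simp
          rw [h1]
          exact (P i).mul_mem _ _ (hf₀.le i _ (hy a)) hTi.1.1
        have hT0 : T' i ^ QL ≠ 0 := fun h => hTi.1.ne_zero (by rw [h, zero_pow hn.ne', zero_div])
        have hw := hf₀.le i _ M.w_mem
        have h2 : M.w ^ E * ((s₀ - s₁) * y a) =
            (M.w ^ E * (y a * T' i ^ QL)) * (s₀ / T' i ^ QL - s₁ / T' i ^ QL) := by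
          field_simp
        rw [h2]
        have hm1 := (P i).mul_mem _ _ (pow_mem hw E) hyT
        have hm2 : s₀ / T' i ^ QL - s₁ / T' i ^ QL ∈ P i := sub_mem (hsT₀ i).1 (hsT₁ i).1
        refine (rs_eq_zero ((P i).mul_mem _ _ hm1 hm2)).mp ?_
        rw [rs_mul hm1 hm2, rs_sub (hsT₀ i).1 (hsT₁ i).1, (hsT₀ i).2, (hsT₁ i).2, sub_self,
          mul_zero]
      refine ⟨M.w⁻¹ ^ E * e, mul_mem (pow_mem (M.le₁ M.w_inv_mem) E) (M.le₀ he), ?_⟩
      rw [← mul_smul_comm, ← hee, ← mul_assoc, ← mul_pow, inv_mul_cancel₀ M.w_ne, one_pow, one_mul]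
    choose b hb hbe using hpart
    refine ⟨∑ a, b a * x a, sum_mem fun a _ => mul_left_mem (hb a) (C.sec₀_le hn _ (hx a)), ?_⟩
    calc s₀ - s₁ = ∑ a, (s₀ - s₁) * y a * x a := by
          conv_lhs => rw [← mul_one (s₀ - s₁), ← hxy, Finset.mul_sum]
          exact Finset.sum_congr rfl fun a _ => by ring
      _ = π • ∑ a, b a * x a := by
          rw [Finset.smul_sum]
          exact Finset.sum_congr rfl fun a _ => by rw [hbe a, smul_mul_assoc]
  obtain ⟨ν, hν⟩ := hnO.exists_right_inv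
  have hπ0 : algebraMap O F π ≠ 0 := (map_ne_zero_iff _ hinj).mpr hπ.ne_zero
  refine C.exists_root hn hgD hext π ν hν hπ0 ?_ hs₀' hs₁' hu₀ hu₁ hs01
  rintro ⟨b, hb, hbe⟩
  obtain ⟨i⟩ := ‹Nonempty ι›
  have h1 := congrArg (rs (P i)) hbe
  rw [Algebra.smul_def, rs_mul (hmem i π) (hf₀.le i b hb), rs_eq_zero_of_nonunit (hu i), zero_mul,
    rs_one] at h1
  exact zero_ne_one h1

end Fermat.Agent.Models
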