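/-
Totally ramified base change of a chart with reduced special fibre: normality, automorphisms,
maximal ideals above the closed point.
-/
import Fermat.Agent.Models.CoreInvariant
import Fermat.Agent.Models.CoreExtend

set_option autoImplicit false

noncomputable section

namespace Fermat.Agent.Models

variable {O O' F F' : Type} [CommRing O] [CommRing O'] [Field F] [Field F'] [Algebra O F]
  [Algebra O O'] [Algebra O' F'] [Algebra F F'] [Algebra O F'] [IsScalarTower O F F']
  [IsScalarTower O O' F']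

/-- A totally ramified extension of the base, and the extension of the function field by it. -/
structure TotRam (O O' F F' : Type) [CommRing O] [CommRing O'] [Field F] [Field F'] [Algebra O F]
    [Algebra O O'] [Algebra O' F'] [Algebra F F'] where
  π : O
  ϖ : O'
  e : ℕ
  e_pos : 0 < e
  unit : O'ˣ
  pow_eq : ϖ ^ e = algebraMap O O' π * unit
  π_ne : algebraMap O F π ≠ 0
  valuation : ∀ a : O, algebraMap O F a ≠ 0 → ∃ (k : ℕ) (v : Oˣ), a = (v : O) * π ^ k
  rep : ∀ a : O', ∃ c : Fin e → O, a = ∑ i, algebraMap O O' (c i) * ϖ ^ (i : ℕ)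
  integral : IsIntegral O ϖ
  adjoin_eq : Algebra.adjoin F {algebraMap O' F' ϖ} = ⊤
  finrank_eq : Module.finrank F F' = e

namespace TotRam

variable (X : TotRam O O' F F')

/-- The image of the uniformiser. -/
def gen : F' := algebraMap O' F' X.ϖ

include X in
theorem base_eq (c : O) :
    algebraMap O' F' (algebraMap O O' c) = algebraMap F F' (algebraMap O F c) := by
  rw [← IsScalarTower.algebraMap_apply O O' F', IsScalarTower.algebraMap_apply O F F']

theorem gen_pow_e : X.gen ^ X.e =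
    algebraMap F F' (algebraMap O F X.π) * algebraMap O' F' (X.unit : O') := by
  rw [gen, ← map_pow, X.pow_eq, map_mul, X.base_eq]

theorem gen_ne : X.gen ≠ 0 := fun h => by
  have := X.gen_pow_e
  rw [h, zero_pow X.e_pos.ne', eq_comm, mul_eq_zero] at this
  rcases this with h1 | h1
  · exact X.π_ne ((map_eq_zero _).mp h1)
  · exact (X.unit.isUnit.map (algebraMap O' F')).ne_zero h1

variable (B : Subalgebra O F)

/-- Combinations of powers of the uniformiser with coefficients in `B`. -/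
def spanPow : AddSubmonoid F' where
  carrier := {z | ∃ b : Fin X.e → F, (∀ i, b i ∈ B) ∧
    z = ∑ i, algebraMap F F' (b i) * X.gen ^ (i : ℕ)}
  zero_mem' := ⟨0, fun _ => B.zero_mem, by simp⟩
  add_mem' := by
    rintro _ _ ⟨b, hb, rfl⟩ ⟨c, hc, rfl⟩
    exact ⟨b + c, fun i => B.add_mem (hb i) (hc i), by
      simp [add_mul, Finset.sum_add_distrib]⟩

theorem mul_base_mem {b : F} (hb : b ∈ B) (a : O') :
    algebraMap F F' b * algebraMap O' F' a ∈ X.spanPow B := by
  obtain ⟨c, rfl⟩ := X.rep a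
  refine ⟨fun i => b * algebraMap O F (c i), fun i => mul_mem hb (B.algebraMap_mem _), ?_⟩
  rw [map_sum, Finset.mul_sum]
  refine Finset.sum_congr rfl fun i _ => ?_
  rw [map_mul, map_mul, map_pow, X.base_eq, mul_assoc]
  rfl

/-- The chart over the extension. -/
def extend : Subalgebra O' F' where
  carrier := X.spanPow B
  zero_mem' := (X.spanPow B).zero_mem
  one_mem' := by
    have := X.mul_base_mem B B.one_mem 1
    rwa [map_one, map_one, one_mul] at this
  add_mem' := (X.spanPow B).add_mem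
  mul_mem' := by
    rintro _ _ ⟨b, hb, rfl⟩ ⟨c, hc, rfl⟩
    rw [Finset.sum_mul]
    refine AddSubmonoid.sum_mem _ fun i _ => ?_
    rw [Finset.mul_sum]
    refine AddSubmonoid.sum_mem _ fun j _ => ?_
    rw [mul_mul_mul_comm, ← map_mul, ← pow_add, gen, ← map_pow]
    exact X.mul_base_mem B (mul_mem (hb i) (hc j)) _
  algebraMap_mem' a := by
    have := X.mul_base_mem B B.one_mem a
    rwa [map_one, one_mul] at this

theorem mem_extend {z : F'} : z ∈ X.extend B ↔ ∃ b : Fin X.e → F, (∀ i, b i ∈ B) ∧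
    z = ∑ i, algebraMap F F' (b i) * X.gen ^ (i : ℕ) := Iff.rfl

theorem map_mem_extend {b : F} (hb : b ∈ B) : algebraMap F F' b ∈ X.extend B := by
  have := X.mul_base_mem B hb 1
  rwa [map_one, mul_one] at this

theorem gen_mem_extend : X.gen ∈ X.extend B := (X.extend B).algebraMap_mem X.ϖ

theorem extend_mono {B B' : Subalgebra O F} (h : B ≤ B') : X.extend B ≤ X.extend B' :=
  fun _ ⟨b, hb, hz⟩ => ⟨b, fun i => h (hb i), hz⟩

/-- Every element is a base element plus a multiple of the uniformiser. -/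
theorem exists_sub_eq {z : F'} (hz : z ∈ X.extend B) :
    ∃ b ∈ B, ∃ r ∈ X.extend B, z = algebraMap F F' b + X.gen * r := by
  obtain ⟨c, hc, rfl⟩ := hz
  refine ⟨c ⟨0, X.e_pos⟩, hc _, ∑ i ∈ Finset.univ.erase (⟨0, X.e_pos⟩ : Fin X.e),
    algebraMap F F' (c i) * X.gen ^ ((i : ℕ) - 1), Subalgebra.sum_mem _ fun i _ =>
      mul_mem (X.map_mem_extend B (hc i)) (pow_mem (X.gen_mem_extend B) _), ?_⟩
  rw [← Finset.add_sum_erase _ _ (Finset.mem_univ (⟨0, X.e_pos⟩ : Fin X.e)), pow_zero, mul_one,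
    Finset.mul_sum]
  congr 1
  refine Finset.sum_congr rfl fun i hi => ?_
  have : (i : ℕ) ≠ 0 := fun h => (Finset.mem_erase.mp hi).1 (Fin.ext h)
  rw [mul_left_comm, ← pow_succ', Nat.sub_add_cancel (Nat.pos_of_ne_zero this)]

/-- The special fibre is reduced. -/
def Reduced : Prop := ∀ b ∈ B, ∀ k : ℕ, (∃ c ∈ B, b ^ k = algebraMap O F X.π * c) →
  ∃ c ∈ B, b = algebraMap O F X.π * c

theorem gen_mul_unit_inv :
    algebraMap F F' (algebraMap O F X.π) =
      X.gen ^ X.e * algebraMap O' F' ((X.unit⁻¹ : O'ˣ) : O') := by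
  rw [X.gen_pow_e, mul_assoc, ← map_mul, Units.mul_inv, map_one, mul_one]

variable {B}

theorem isIntegral_extend {z : F'} (hz : z ∈ X.extend B) : IsIntegral B z := by
  obtain ⟨b, hb, rfl⟩ := hz
  have hg : IsIntegral O X.gen := X.integral.map (IsScalarTower.toAlgHom O O' F')
  exact IsIntegral.sum _ fun i _ =>
    (isIntegral_algebraMap (R := B) (A := F') (x := (⟨b i, hb i⟩ : B))).mul
      ((hg.tower_top (A := B)).pow _)

/-- An element whose multiple by the uniformiser lies in the chart lies in it, if integral. -/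
theorem mem_of_gen_mul_mem (hB : ∀ x : F, IsIntegral B x → x ∈ B) (hred : X.Reduced B) {z : F'}
    (hz : IsIntegral B z) (h : X.gen * z ∈ X.extend B) : z ∈ X.extend B := by
  obtain ⟨b, hb, r, hr, hbr⟩ := X.exists_sub_eq B h
  have hw : IsIntegral B (z - r) := hz.sub (X.isIntegral_extend hr)
  have hb' : algebraMap F F' b = X.gen * (z - r) := by rw [mul_sub, hbr]; ring
  have hu : IsIntegral B (algebraMap O' F' (X.unit : O')) :=
    X.isIntegral_extend ((X.extend B).algebraMap_mem _)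
  have hdiv : algebraMap F F' (b ^ X.e / algebraMap O F X.π) =
      algebraMap O' F' (X.unit : O') * (z - r) ^ X.e := by
    rw [map_div₀, map_pow, hb', mul_pow, X.gen_pow_e]
    field_simp [X.π_ne]
  have hint : IsIntegral B (b ^ X.e / algebraMap O F X.π) :=
    (isIntegral_algHom_iff (IsScalarTower.toAlgHom B F F') (algebraMap F F').injective).mp
      (by rw [IsScalarTower.coe_toAlgHom', hdiv]; exact hu.mul (hw.pow _))
  obtain ⟨c, hc, hbc⟩ := hred b hb X.e ⟨_, hB _ hint, by field_simp [X.π_ne]⟩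
  obtain ⟨d, hd⟩ : ∃ d, X.e = d + 1 := ⟨X.e - 1, (Nat.sub_add_cancel X.e_pos).symm⟩
  have hz' : z = r + X.gen ^ d * algebraMap O' F' ((X.unit⁻¹ : O'ˣ) : O') * algebraMap F F' c := by
    refine mul_left_cancel₀ X.gen_ne ?_
    rw [hbr, hbc, map_mul, X.gen_mul_unit_inv, hd]
    ring
  rw [hz']
  exact add_mem hr (mul_mem (mul_mem (pow_mem (X.gen_mem_extend B) _)
    ((X.extend B).algebraMap_mem _)) (X.map_mem_extend B hc))

theorem isIntegral_of_isIntegral_extend {z : F'} (hz : IsIntegral (X.extend B) z) :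
    IsIntegral B z := by
  let S : Subalgebra B F' :=
    { (X.extend B).toSubsemiring with
      algebraMap_mem' := fun b => X.map_mem_extend B b.2 }
  haveI : Algebra.IsIntegral B S := ⟨fun x =>
    (isIntegral_algHom_iff S.val Subtype.val_injective).mp (X.isIntegral_extend x.2)⟩
  have hz' : IsIntegral S z := hz
  exact isIntegral_trans z hz'

/-- The chart over the extension is integrally closed. -/
theorem mem_extend_of_isIntegral [CharZero F] [IsDomain O] [IsFractionRing B F]
    (hinj : Function.Injective (algebraMap O F))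
    (hB : ∀ x : F, IsIntegral B x → x ∈ B) (hred : X.Reduced B) {z : F'}
    (hz : IsIntegral (X.extend B) z) : z ∈ X.extend B := by
  have hzB := X.isIntegral_of_isIntegral_extend hz
  haveI : IsIntegrallyClosed B := (isIntegrallyClosed_iff F).mpr fun {x} hx =>
    ⟨⟨x, hB x hx⟩, rfl⟩
  have hgI : IsIntegral F X.gen :=
    (X.integral.map (IsScalarTower.toAlgHom O O' F')).tower_top
  haveI : FiniteDimensional F F' := FiniteDimensional.of_finrank_pos (by
    rw [X.finrank_eq]; exact X.e_pos)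
  let pb : PowerBasis F F' := PowerBasis.ofAdjoinEqTop hgI X.adjoin_eq
  have hgen : pb.gen = X.gen := PowerBasis.ofAdjoinEqTop_gen hgI X.adjoin_eq
  have hgB : IsIntegral B pb.gen := by
    rw [hgen]; exact X.isIntegral_extend (X.gen_mem_extend B)
  set d := Algebra.discr F pb.basis
  have hd0 : d ≠ 0 := Algebra.discr_not_zero_of_basis F pb.basis
  have hmem : algebraMap F F' d * z ∈ X.extend B := by
    rw [← Algebra.smul_def]
    have h1 := Algebra.discr_mul_isIntegral_mem_adjoin F hgB hzB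
    let S : Subalgebra B F' :=
      { (X.extend B).toSubsemiring with
        algebraMap_mem' := fun b => X.map_mem_extend B b.2 }
    exact (Algebra.adjoin_le (Set.singleton_subset_iff.mpr
      (show pb.gen ∈ S by rw [hgen]; exact X.gen_mem_extend B)) : _ ≤ S) h1
  have hdO : IsIntegral O d := Algebra.discr_isIntegral F fun i => by
    rw [pb.basis_eq_pow, hgen]
    exact ((X.integral.map (IsScalarTower.toAlgHom O O' F')).pow _)
  let d' : B := ⟨d, hB d (hdO.tower_top)⟩
  have hd' : d' ≠ 0 := fun h => hd0 (congrArg Subtype.val h)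
  have halg : IsIntegral O d' :=
    (isIntegral_algHom_iff B.val Subtype.val_injective).mp hdO
  obtain ⟨c, hc0, hdc⟩ := halg.isAlgebraic.exists_nonzero_dvd (mem_nonZeroDivisors_of_ne_zero hd')
  obtain ⟨r, hr⟩ := hdc
  obtain ⟨k, v, hkv⟩ := X.valuation c fun h => hc0 (hinj (by rw [h, map_zero]))
  have hπk : X.gen ^ (X.e * k) * z ∈ X.extend B := by
    have hr' : algebraMap O F c = d * (r : F) := congrArg Subtype.val hr
    have e1 : algebraMap F F' (algebraMap O F c) * z ∈ X.extend B := by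
      rw [hr', map_mul, mul_right_comm]
      exact mul_mem hmem (X.map_mem_extend B r.2)
    have e2 := mul_mem ((X.extend B).algebraMap_mem
      (algebraMap O O' ((v⁻¹ : Oˣ) : O) * (X.unit : O') ^ k)) e1
    rw [hkv] at e2
    convert e2 using 1
    rw [map_mul (algebraMap O F), map_mul (algebraMap F F'), map_mul, X.base_eq, map_pow,
      map_pow, map_pow, pow_mul, X.gen_pow_e, mul_pow]
    have hv : algebraMap F F' (algebraMap O F ((v⁻¹ : Oˣ) : O)) *
        algebraMap F F' (algebraMap O F (v : O)) = 1 := by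
      rw [← map_mul, ← map_mul, Units.inv_mul, map_one, map_one]
    linear_combination (-(algebraMap F F' (algebraMap O F X.π) ^ k *
      algebraMap O' F' (X.unit : O') ^ k * z)) * hv
  generalize X.e * k = m at hπk
  induction m with
  | zero => simpa using hπk
  | succ m ih =>
    refine ih (X.mem_of_gen_mul_mem hB hred ?_ (by rwa [← mul_assoc, ← pow_succ']))
    exact ((X.isIntegral_extend (X.gen_mem_extend B)).pow m).mul hzB

variable (B) in
/-- Automorphisms fixing the chart and trivial on the residue field are trivial modulo the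
uniformiser. -/
theorem trivialMod_extend {τ : F' →+* F'} (hfix : ∀ b ∈ B, τ (algebraMap F F' b) = algebraMap F F' b)
    (hres : ∀ a : O', ∃ a' : O', τ (algebraMap O' F' a) - algebraMap O' F' a =
      algebraMap O' F' (X.ϖ * a')) :
    TrivialMod (X.extend B) X.ϖ τ := by
  rintro _ ⟨b, hb, rfl⟩
  choose a ha using fun i : Fin X.e => hres (X.ϖ ^ (i : ℕ))
  refine ⟨∑ i, algebraMap F F' (b i) * algebraMap O' F' (a i), Subalgebra.sum_mem _ fun i _ =>
    mul_mem (X.map_mem_extend B (hb i)) ((X.extend B).algebraMap_mem _), ?_⟩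
  rw [map_sum, ← Finset.sum_sub_distrib, Finset.smul_sum]
  refine Finset.sum_congr rfl fun i _ => ?_
  rw [map_mul, hfix _ (hb i), ← mul_sub, Algebra.smul_def, gen, ← map_pow, ha i, map_mul]
  ring

/-- The powers of the uniformiser are independent over the function field. -/
theorem linearIndependent : LinearIndependent F fun i : Fin X.e => X.gen ^ (i : ℕ) := by
  haveI : FiniteDimensional F F' := FiniteDimensional.of_finrank_pos (by
    rw [X.finrank_eq]; exact X.e_pos)
  let pb := PowerBasis.ofAdjoinEqTop (IsIntegral.of_finite F X.gen) X.adjoin_eq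
  have hgen : pb.gen = X.gen := PowerBasis.ofAdjoinEqTop_gen _ X.adjoin_eq
  have hdim : pb.dim = X.e := by rw [← pb.finrank, X.finrank_eq]
  have := pb.basis.linearIndependent.comp (Fin.cast hdim.symm) (Fin.cast_injective _)
  simpa [Function.comp_def, hgen] using this

theorem coord_unique {b c : Fin X.e → F}
    (h : ∑ i, algebraMap F F' (b i) * X.gen ^ (i : ℕ) =
      ∑ i, algebraMap F F' (c i) * X.gen ^ (i : ℕ)) : b = c := by
  funext i
  refine sub_eq_zero.mp (Fintype.linearIndependent_iff.mp X.linearIndependent (fun i => b i - c i)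
    ?_ i)
  simp only [Algebra.smul_def, map_sub, sub_mul, Finset.sum_sub_distrib, h, sub_self]

/-- Only constants are regular on both charts. -/
theorem constants_extend {B₀ B₁ : Subalgebra O F}
    (hc : ∀ x ∈ B₀, x ∈ B₁ → ∃ c : O, algebraMap O F c = x) {z : F'} (h₀ : z ∈ X.extend B₀)
    (h₁ : z ∈ X.extend B₁) : ∃ c : O', algebraMap O' F' c = z := by
  obtain ⟨b, hb, rfl⟩ := h₀
  obtain ⟨b', hb', he⟩ := h₁
  have := X.coord_unique he
  subst this
  choose c hc using fun i => hc (b i) (hb i) (hb' i)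
  refine ⟨∑ i, algebraMap O O' (c i) * X.ϖ ^ (i : ℕ), ?_⟩
  simp only [map_sum, map_mul, map_pow, X.base_eq, hc]
  rfl

/-- Denominators in the coordinate are cleared. -/
theorem loc_extend {B₀ B₀₁ : Subalgebra O F} {w : F} (hw : w ∈ B₀)
    (hloc : ∀ b ∈ B₀₁, ∃ E : ℕ, w ^ E * b ∈ B₀) {z : F'} (hz : z ∈ X.extend B₀₁) :
    ∃ E : ℕ, algebraMap F F' w ^ E * z ∈ X.extend B₀ := by
  classical
  obtain ⟨b, hb, rfl⟩ := hz
  choose E hE using fun i => hloc (b i) (hb i)
  refine ⟨Finset.univ.sup E, fun i => w ^ Finset.univ.sup E * b i, fun i => ?_, ?_⟩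
  · show w ^ Finset.univ.sup E * b i ∈ B₀
    obtain ⟨d, hd⟩ := Nat.exists_eq_add_of_le (Finset.le_sup (f := E) (Finset.mem_univ i))
    rw [hd, pow_add, mul_comm (w ^ E i), mul_assoc]
    exact mul_mem (pow_mem hw _) (hE i)
  · rw [Finset.mul_sum]
    simp only [map_mul, map_pow, mul_assoc]

/-- Finite generation over polynomials in the coordinate. -/
theorem fg_extend {B₀ : Subalgebra O F} {w : F}
    (hfg : ∃ (k : ℕ) (g : Fin k → F), (∀ i, g i ∈ B₀) ∧ ∀ b ∈ B₀,
      ∃ P : Fin k → Polynomial O, b = ∑ i, Polynomial.aeval w (P i) * g i) :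
    ∃ (k : ℕ) (g : Fin k → F'), (∀ i, g i ∈ X.extend B₀) ∧ ∀ z ∈ X.extend B₀,
      ∃ P : Fin k → Polynomial O', z = ∑ i, Polynomial.aeval (algebraMap F F' w) (P i) * g i := by
  obtain ⟨k, g, hg, hgen⟩ := hfg
  refine ⟨k * X.e, fun t => algebraMap F F' (g (finProdFinEquiv.symm t).1) *
    X.gen ^ ((finProdFinEquiv.symm t).2 : ℕ), fun t =>
      mul_mem (X.map_mem_extend B₀ (hg _)) (pow_mem (X.gen_mem_extend B₀) _), ?_⟩
  rintro _ ⟨b, hb, rfl⟩
  choose P hP using fun i => hgen (b i) (hb i)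
  refine ⟨fun t => (P (finProdFinEquiv.symm t).2 (finProdFinEquiv.symm t).1).map
    (algebraMap O O'), ?_⟩
  rw [← finProdFinEquiv.sum_comp, Fintype.sum_prod_type, Finset.sum_comm]
  refine Finset.sum_congr rfl fun i _ => ?_
  simp only [Equiv.symm_apply_apply, Polynomial.aeval_map_algebraMap,
    Polynomial.aeval_algebraMap_apply]
  rw [hP i, map_sum, Finset.sum_mul]
  refine Finset.sum_congr rfl fun j _ => ?_
  rw [map_mul, mul_assoc]

/-- Reducedness passes to the overlap. -/
theorem reduced_of_loc {B₀ B₀₁ : Subalgebra O F} {w : F} (hw0 : w ≠ 0) (hle : B₀ ≤ B₀₁)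
    (hw' : w⁻¹ ∈ B₀₁) (hw : w ∈ B₀) (hloc : ∀ b ∈ B₀₁, ∃ E : ℕ, w ^ E * b ∈ B₀)
    (hred : X.Reduced B₀) : X.Reduced B₀₁ := by
  rintro b hb k ⟨c, hc, hbc⟩
  obtain ⟨E, hE⟩ := hloc b hb
  obtain ⟨E', hE'⟩ := hloc c hc
  have hmem : w ^ (E + E') * b ∈ B₀ := by
    rw [pow_add, mul_comm (w ^ E), mul_assoc]
    exact mul_mem (pow_mem hw _) hE
  have hc' : ∃ d ∈ B₀, (w ^ (E + E') * b) ^ (k + 1) = algebraMap O F X.π * d := by
    refine ⟨(w ^ E * b) * (w ^ E' * c) * w ^ ((E + E') * k),
      mul_mem (mul_mem hE hE') (pow_mem hw _), ?_⟩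
    rw [pow_succ', mul_pow (w ^ (E + E')) b k, ← pow_mul, hbc]
    ring
  obtain ⟨d, hd, hbd⟩ := hred _ hmem (k + 1) hc'
  refine ⟨w⁻¹ ^ (E + E') * d, mul_mem (pow_mem hw' _) (hle hd), ?_⟩
  rw [mul_left_comm, ← hbd, ← mul_assoc, ← mul_pow, inv_mul_cancel₀ hw0, one_pow, one_mul]

/-- The charts over the extension. -/
def charts [CharZero F] [IsDomain O] (hinj : Function.Injective (algebraMap O F)) {n : ℕ}
    (hn : 0 < n) (M : Charts O F n) [IsFractionRing M.B₀ F] [IsFractionRing M.B₁ F]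
    [IsFractionRing M.B₀₁ F]
    (h₀ : ∀ x : F, IsIntegral M.B₀ x → x ∈ M.B₀) (h₁ : ∀ x : F, IsIntegral M.B₁ x → x ∈ M.B₁)
    (h₀₁ : ∀ x : F, IsIntegral M.B₀₁ x → x ∈ M.B₀₁) (hr₀ : X.Reduced M.B₀) (hr₁ : X.Reduced M.B₁) :
    Charts O' F' n where
  w := algebraMap F F' M.w
  w_ne := (map_ne_zero _).mpr M.w_ne
  B₀ := X.extend M.B₀
  B₁ := X.extend M.B₁
  B₀₁ := X.extend M.B₀₁
  le₀ := X.extend_mono M.le₀
  le₁ := X.extend_mono M.le₁
  w_mem := X.map_mem_extend _ M.w_mem
  w_inv_mem := by rw [← map_inv₀]; exact X.map_mem_extend _ M.w_inv_mem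
  loc₀ _ hz := X.loc_extend M.w_mem M.loc₀ hz
  loc₁ _ hz := by rw [← map_inv₀]; exact X.loc_extend M.w_inv_mem M.loc₁ hz
  fg₀ := X.fg_extend M.fg₀
  root₀ := rootClosed_of_isIntegral hn fun _ hz => X.mem_extend_of_isIntegral hinj h₀ hr₀ hz
  root₁ := rootClosed_of_isIntegral hn fun _ hz => X.mem_extend_of_isIntegral hinj h₁ hr₁ hz
  root₀₁ := rootClosed_of_isIntegral hn fun _ hz => X.mem_extend_of_isIntegral hinj h₀₁
    (X.reduced_of_loc M.w_ne M.le₀ (M.le₁ M.w_inv_mem) M.w_mem M.loc₀ hr₀) hz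
  constants _ h₀' h₁' := X.constants_extend M.constants h₀' h₁'

/-- The uniformiser lies in every ideal containing the old one. -/
theorem gen_mem_of_pi {B : Subalgebra O F} (m : Ideal (X.extend B)) [m.IsPrime]
    (h : (⟨_, X.map_mem_extend B (B.algebraMap_mem X.π)⟩ : X.extend B) ∈ m) :
    (⟨X.gen, X.gen_mem_extend B⟩ : X.extend B) ∈ m := by
  refine Ideal.IsPrime.mem_of_pow_mem ‹_› X.e ?_
  rw [show (⟨X.gen, X.gen_mem_extend B⟩ : X.extend B) ^ X.e =
    ⟨_, X.map_mem_extend B (B.algebraMap_mem X.π)⟩ *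
      ⟨_, (X.extend B).algebraMap_mem (X.unit : O')⟩ from Subtype.ext X.gen_pow_e]
  exact m.mul_mem_right _ h

/-- Local generators above the closed point. -/
theorem maximal_gen {B : Subalgebra O F} (m : Ideal (X.extend B)) [m.IsPrime]
    (hπ : (⟨_, X.map_mem_extend B (B.algebraMap_mem X.π)⟩ : X.extend B) ∈ m) (x y : B)
    (hgen : ∀ z : B, (⟨_, X.map_mem_extend B z.2⟩ : X.extend B) ∈ m →
      ∃ s : B, (⟨_, X.map_mem_extend B s.2⟩ : X.extend B) ∉ m ∧
        s * z ∈ Ideal.span {x, y, algebraMap O B X.π}) :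
    ∀ z ∈ m, ∃ s ∉ m, s * z ∈ Ideal.span ({⟨_, X.map_mem_extend B x.2⟩,
      ⟨_, X.map_mem_extend B y.2⟩, ⟨X.gen, X.gen_mem_extend B⟩} : Set (X.extend B)) := by
  let ι : B →+* X.extend B :=
    ((algebraMap F F').comp B.val.toRingHom).codRestrict (X.extend B).toSubsemiring
      fun b => X.map_mem_extend B b.2
  intro z hz
  obtain ⟨b, hb, r, hr, hbr⟩ := X.exists_sub_eq B z.2
  have hz' : z = ι ⟨b, hb⟩ + ⟨X.gen, X.gen_mem_extend B⟩ * ⟨r, hr⟩ := Subtype.ext hbr
  have hbm : ι ⟨b, hb⟩ ∈ m := by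
    rw [hz'] at hz
    exact (add_mem_cancel_right (m.mul_mem_right _ (X.gen_mem_of_pi m hπ))).mp hz
  obtain ⟨s, hs, hsz⟩ := hgen ⟨b, hb⟩ hbm
  refine ⟨ι s, hs, ?_⟩
  have h1 : ι (s * ⟨b, hb⟩) ∈ Ideal.span ({ι x, ι y, ⟨X.gen, X.gen_mem_extend B⟩} :
      Set (X.extend B)) := by
    have h2 := Ideal.mem_map_of_mem ι hsz
    rw [Ideal.map_span] at h2
    refine (Ideal.span_le.mpr ?_) h2
    rintro _ ⟨v, rfl | rfl | rfl, rfl⟩
    · exact Ideal.subset_span (by simp)
    · exact Ideal.subset_span (by simp)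
    · have : ι (algebraMap O B X.π) = ⟨X.gen, X.gen_mem_extend B⟩ ^ X.e *
          ⟨_, (X.extend B).algebraMap_mem ((X.unit⁻¹ : O'ˣ) : O')⟩ :=
        Subtype.ext X.gen_mul_unit_inv
      rw [this]
      exact Ideal.mul_mem_right _ _ (Ideal.pow_mem_of_mem _ (Ideal.subset_span (by simp)) _ X.e_pos)
  rw [hz', mul_add, ← map_mul]
  refine add_mem h1 ?_
  rw [mul_left_comm]
  exact Ideal.mul_mem_right _ _ (Ideal.subset_span (by simp))

end TotRam

end Fermat.Agent.Models
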