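/-
The regular cover `u ^ e = x` of a node `x y = γ ^ e` has degree exactly `e`.
-/
import Fermat.Agent.Models.CoreExtend

set_option autoImplicit false

noncomputable section

namespace Fermat.Agent.Models

open IsLocalRing

variable {R : Type} [CommRing R] [IsDomain R] [IsNoetherianRing R] [IsLocalRing R]
  {F : Type} [Field F] [Algebra R F] [IsFractionRing R F]
  {E : Type} [Field E] [Algebra F E] [Algebra R E] [IsScalarTower R F E]

/-- The data of a node and its cover. -/
structure NodeCover (R F E : Type) [CommRing R] [IsLocalRing R] [Field F] [Field E] [Algebra F E]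
    [Algebra R E] where
  x : R
  y : R
  γ : R
  e : ℕ
  u : E
  v : E
  e_pos : 0 < e
  hm : maximalIdeal R = Ideal.span {x, y, γ}
  hxy : x * y = γ ^ e
  x_ne : x ≠ 0
  u_pow : u ^ e = algebraMap R E x
  v_pow : v ^ e = algebraMap R E y
  u_mul_v : u * v = algebraMap R E γ
  adjoin_u : Algebra.adjoin F {u} = ⊤
  exists_P : ∃ P : Ideal R, P.IsPrime ∧ x ∈ P ∧ y ∉ P
  exists_P' : ∃ P : Ideal R, P.IsPrime ∧ y ∈ P ∧ x ∉ P

namespace NodeCover

variable (C : NodeCover R F E)

/-- The regular ring of the cover. -/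
def ring : Subalgebra R E := Algebra.adjoin R {C.u, C.v}

/-- `u` in the cover. -/
def u' : C.ring := ⟨C.u, Algebra.subset_adjoin (by simp)⟩
/-- `v` in the cover. -/
def v' : C.ring := ⟨C.v, Algebra.subset_adjoin (by simp)⟩

theorem u'_pow : C.u' ^ C.e = algebraMap R C.ring C.x := Subtype.ext C.u_pow
theorem v'_pow : C.v' ^ C.e = algebraMap R C.ring C.y := Subtype.ext C.v_pow
theorem u'_mul_v' : C.u' * C.v' = algebraMap R C.ring C.γ := Subtype.ext C.u_mul_v

include C in
theorem injective_E : Function.Injective (algebraMap R E) := by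
  rw [IsScalarTower.algebraMap_eq R F E]
  exact (algebraMap F E).injective.comp (IsFractionRing.injective R F)

theorem injective_ring : Function.Injective (algebraMap R C.ring) := fun _ _ h =>
  C.injective_E (congrArg Subtype.val h)

theorem y_ne : C.y ≠ 0 := by
  obtain ⟨P, hP, -, hy⟩ := C.exists_P
  exact fun h => hy (h ▸ P.zero_mem)

theorem γ_ne : C.γ ≠ 0 := fun h =>
  mul_ne_zero C.x_ne C.y_ne (by rw [C.hxy, h, zero_pow C.e_pos.ne'])

theorem u'_ne : C.u' ≠ 0 := fun h => by
  have := C.u'_pow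
  rw [h, zero_pow C.e_pos.ne', eq_comm, map_eq_zero_iff _ C.injective_ring] at this
  exact C.x_ne this

theorem v'_ne : C.v' ≠ 0 := fun h => by
  have := C.v'_pow
  rw [h, zero_pow C.e_pos.ne', eq_comm, map_eq_zero_iff _ C.injective_ring] at this
  exact C.y_ne this

theorem isIntegral_gen : ∀ z ∈ ({C.u, C.v} : Set E), IsIntegral R z := by
  rintro z (rfl | rfl)
  · exact IsIntegral.of_pow C.e_pos (C.u_pow ▸ isIntegral_algebraMap)
  · exact IsIntegral.of_pow C.e_pos (C.v_pow ▸ isIntegral_algebraMap)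

instance isIntegral_ring : Algebra.IsIntegral R C.ring := Algebra.IsIntegral.adjoin C.isIntegral_gen

instance isNoetherian_ring : IsNoetherianRing C.ring :=
  haveI : Module.Finite R C.ring :=
    Module.Finite.iff_fg.mpr (fg_adjoin_of_finite (Set.toFinite _) C.isIntegral_gen)
  Algebra.FiniteType.isNoetherianRing R C.ring

/-- Every element is a constant modulo `(u, v)`. -/
theorem exists_rep (z : C.ring) :
    ∃ r : R, z - algebraMap R C.ring r ∈ Ideal.span {C.u', C.v'} := by
  obtain ⟨z, hz⟩ := z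
  induction hz using Algebra.adjoin_induction with
  | mem z hz =>
    refine ⟨0, ?_⟩
    rw [map_zero, sub_zero]
    rcases hz with rfl | rfl
    · exact Ideal.subset_span (by simp [u'])
    · exact Ideal.subset_span (by simp [v'])
  | algebraMap r => exact ⟨r, by
      rw [show (⟨algebraMap R E r, _⟩ : C.ring) = algebraMap R C.ring r from rfl, sub_self]
      exact zero_mem _⟩
  | add a b ha hb iha ihb =>
    obtain ⟨r, hr⟩ := iha
    obtain ⟨s, hs⟩ := ihb
    refine ⟨r + s, ?_⟩
    rw [map_add, show (⟨a + b, _⟩ : C.ring) = ⟨a, ha⟩ + ⟨b, hb⟩ from rfl, add_sub_add_comm]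
    exact add_mem hr hs
  | mul a b ha hb iha ihb =>
    obtain ⟨r, hr⟩ := iha
    obtain ⟨s, hs⟩ := ihb
    refine ⟨r * s, ?_⟩
    rw [map_mul, show (⟨a * b, _⟩ : C.ring) = ⟨a, ha⟩ * ⟨b, hb⟩ from rfl,
      show (⟨a, ha⟩ : C.ring) * ⟨b, hb⟩ - algebraMap R C.ring r * algebraMap R C.ring s =
        (⟨a, ha⟩ - algebraMap R C.ring r) * ⟨b, hb⟩ +
          algebraMap R C.ring r * (⟨b, hb⟩ - algebraMap R C.ring s) by ring]
    exact add_mem (Ideal.mul_mem_right _ _ hr) (Ideal.mul_mem_left _ _ hs)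

theorem map_mem_span {r : R} (hr : r ∈ maximalIdeal R) :
    algebraMap R C.ring r ∈ Ideal.span {C.u', C.v'} := by
  rw [C.hm] at hr
  have := Ideal.mem_map_of_mem (algebraMap R C.ring) hr
  rw [Ideal.map_span] at this
  refine (Ideal.span_le.mpr ?_) this
  rintro _ ⟨z, rfl | rfl | rfl, rfl⟩
  · rw [← C.u'_pow]; exact Ideal.pow_mem_of_mem _ (Ideal.subset_span (by simp)) _ C.e_pos
  · rw [← C.v'_pow]; exact Ideal.pow_mem_of_mem _ (Ideal.subset_span (by simp)) _ C.e_pos
  · rw [← C.u'_mul_v']; exact Ideal.mul_mem_right _ _ (Ideal.subset_span (by simp))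

theorem comap_isMaximal {M : Ideal C.ring} (hM : M.IsMaximal) :
    M.comap (algebraMap R C.ring) = maximalIdeal R :=
  IsLocalRing.eq_maximalIdeal (Ideal.isMaximal_comap_of_isIntegral_of_isMaximal M)

theorem isMaximal_eq {M : Ideal C.ring} (hM : M.IsMaximal) : M = Ideal.span {C.u', C.v'} := by
  have hin : Ideal.span {C.u', C.v'} ≤ M := by
    rw [Ideal.span_le]
    rintro _ (rfl | rfl)
    · refine hM.isPrime.mem_of_pow_mem C.e ?_
      rw [C.u'_pow, ← Ideal.mem_comap, C.comap_isMaximal hM, C.hm]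
      exact Ideal.subset_span (by simp)
    · refine hM.isPrime.mem_of_pow_mem C.e ?_
      rw [C.v'_pow, ← Ideal.mem_comap, C.comap_isMaximal hM, C.hm]
      exact Ideal.subset_span (by simp)
  refine le_antisymm (fun z hz => ?_) hin
  obtain ⟨r, hr⟩ := C.exists_rep z
  have : algebraMap R C.ring r ∈ M := by
    have := sub_mem hz (hin hr)
    rwa [sub_sub_cancel] at this
  rw [← Ideal.mem_comap, C.comap_isMaximal hM] at this
  have := add_mem hr (C.map_mem_span this)
  rwa [sub_add_cancel] at this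

instance isLocalRing_ring : IsLocalRing C.ring :=
  haveI : Nontrivial C.ring := ⟨⟨0, 1, fun h => zero_ne_one (congrArg Subtype.val h)⟩⟩
  let h := Ideal.exists_maximal C.ring
  IsLocalRing.of_unique_max_ideal ⟨h.choose, h.choose_spec, fun _ hN =>
    (C.isMaximal_eq hN).trans (C.isMaximal_eq h.choose_spec).symm⟩

theorem maximalIdeal_eq : maximalIdeal C.ring = Ideal.span {C.u', C.v'} :=
  C.isMaximal_eq (maximalIdeal.isMaximal C.ring)

instance faithfulSMul_ring : FaithfulSMul C.ring E :=
  (faithfulSMul_iff_algebraMap_injective C.ring E).mpr Subtype.val_injective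

instance isFractionRing_ring : IsFractionRing C.ring E := by
  refine IsFractionRing.of_field C.ring E fun z => ?_
  have hz : z ∈ Algebra.adjoin F {C.u} := C.adjoin_u ▸ Algebra.mem_top
  rw [Algebra.adjoin_singleton_eq_range_aeval] at hz
  obtain ⟨Pz, rfl⟩ := hz
  obtain ⟨b, hb, hb'⟩ := IsLocalization.integerNormalization_spec (nonZeroDivisors R) Pz
  refine ⟨Polynomial.aeval C.u' (IsLocalization.integerNormalization (nonZeroDivisors R) Pz),
    algebraMap R C.ring b, ?_⟩
  have hbE : algebraMap C.ring E (algebraMap R C.ring b) ≠ 0 := fun h =>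
    nonZeroDivisors.ne_zero hb ((map_eq_zero_iff _ C.injective_E).mp h)
  rw [eq_div_iff hbE]
  have hA : algebraMap C.ring E (Polynomial.aeval C.u'
      (IsLocalization.integerNormalization (nonZeroDivisors R) Pz)) =
      Polynomial.aeval C.u ((IsLocalization.integerNormalization (nonZeroDivisors R) Pz).map
        (algebraMap R F)) := by
    rw [Polynomial.aeval_map_algebraMap]
    exact (Polynomial.aeval_algHom_apply C.ring.val C.u' _).symm
  rw [hA, hb', Algebra.smul_def, IsScalarTower.algebraMap_apply R F (Polynomial F),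
    Polynomial.algebraMap_eq, map_mul, Polynomial.aeval_C, mul_comm]
  congr 1
  exact IsScalarTower.algebraMap_apply R F E b

theorem exists_P_over : ∃ P : Ideal C.ring, P.IsPrime ∧ C.u' ∈ P ∧ C.v' ∉ P := by
  obtain ⟨P, hP, hx, hy⟩ := C.exists_P
  obtain ⟨P', -, hP', hP'c⟩ := Ideal.exists_ideal_over_prime_of_isIntegral (S := C.ring) P ⊥
    (by rw [← RingHom.ker_eq_comap_bot,
      (RingHom.injective_iff_ker_eq_bot _).mp C.injective_ring]; exact bot_le)
  exact ⟨P', hP', hP'.mem_of_pow_mem C.e (by rw [C.u'_pow, ← Ideal.mem_comap, hP'c]; exact hx),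
    fun h => hy (by rw [← hP'c, Ideal.mem_comap, ← C.v'_pow]; exact P'.pow_mem_of_mem h _ C.e_pos)⟩

theorem exists_P'_over : ∃ P : Ideal C.ring, P.IsPrime ∧ C.v' ∈ P ∧ C.u' ∉ P := by
  obtain ⟨P, hP, hy, hx⟩ := C.exists_P'
  obtain ⟨P', -, hP', hP'c⟩ := Ideal.exists_ideal_over_prime_of_isIntegral (S := C.ring) P ⊥
    (by rw [← RingHom.ker_eq_comap_bot,
      (RingHom.injective_iff_ker_eq_bot _).mp C.injective_ring]; exact bot_le)
  exact ⟨P', hP', hP'.mem_of_pow_mem C.e (by rw [C.v'_pow, ← Ideal.mem_comap, hP'c]; exact hy),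
    fun h => hx (by rw [← hP'c, Ideal.mem_comap, ← C.u'_pow]; exact P'.pow_mem_of_mem h _ C.e_pos)⟩

theorem prime_u' : Prime C.u' := by
  obtain ⟨P, hP, hu, hv⟩ := C.exists_P_over
  exact prime_of_two_generated C.maximalIdeal_eq C.u'_ne P hu hv

theorem prime_v' : Prime C.v' := by
  obtain ⟨P, hP, hv, hu⟩ := C.exists_P'_over
  exact prime_of_two_generated (by rw [C.maximalIdeal_eq, Set.pair_comm]) C.v'_ne P hv hu

theorem ufm_ring : UniqueFactorizationMonoid C.ring := by
  obtain ⟨P, hP, hu, hv⟩ := C.exists_P_over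
  exact ufm_of_two_generated C.maximalIdeal_eq C.u'_ne P hu hv

theorem not_dvd_v' : ¬ C.u' ∣ C.v' := by
  obtain ⟨P, hP, hu, hv⟩ := C.exists_P_over
  rintro ⟨r, hr⟩
  exact hv (hr ▸ Ideal.mul_mem_right r _ hu)

theorem u'_dvd_map_x : C.u' ∣ algebraMap R C.ring C.x := C.u'_pow ▸ dvd_pow_self _ C.e_pos.ne'

/-- An element of `R` divisible by `u` in the cover, times `y`, is divisible by `γ`. -/
theorem dvd_of_u'_dvd {c : R} (h : C.u' ∣ algebraMap R C.ring c) : C.γ ∣ C.y * c := by
  set P : Ideal R := (Ideal.span {C.u'}).comap (algebraMap R C.ring)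
  haveI hP : P.IsPrime :=
    ((Ideal.span_singleton_prime C.u'_ne).mpr C.prime_u').comap _
  have hxP : C.x ∈ P := Ideal.mem_span_singleton.mpr C.u'_dvd_map_x
  have hγP : C.γ ∈ P := Ideal.mem_span_singleton.mpr (C.u'_mul_v' ▸ dvd_mul_right _ _)
  have hyP : C.y ∉ P := fun h => C.not_dvd_v'
    (C.prime_u'.dvd_of_dvd_pow (C.v'_pow ▸ Ideal.mem_span_singleton.mp h))
  have hle : P ≤ Ideal.span {C.x, C.γ} := by
    refine Submodule.le_of_le_smul_of_le_jacobson_bot (I := maximalIdeal R)
      (IsNoetherian.noetherian P) (IsLocalRing.jacobson_eq_maximalIdeal ⊥ bot_ne_top).ge ?_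
    intro z hz
    have hzm : z ∈ Ideal.span {C.x, C.y, C.γ} := C.hm ▸ le_maximalIdeal hP.ne_top hz
    obtain ⟨a, z₁, hz₁, rfl⟩ := Ideal.mem_span_insert.mp hzm
    obtain ⟨b, d, hbd⟩ := Ideal.mem_span_pair.mp hz₁
    have h2 : C.y * b ∈ P := by
      have := sub_mem (sub_mem hz (P.mul_mem_left a hxP)) (P.mul_mem_left d hγP)
      convert this using 1
      rw [← hbd]
      ring
    have hb : b ∈ P := (hP.mem_or_mem h2).resolve_left hyP
    refine Submodule.mem_sup.mpr ⟨a * C.x + d * C.γ,
      add_mem (Ideal.mul_mem_left _ _ (Ideal.subset_span (by simp)))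
        (Ideal.mul_mem_left _ _ (Ideal.subset_span (by simp))), C.y * b,
      Submodule.smul_mem_smul (C.hm ▸ Ideal.subset_span (by simp)) hb, ?_⟩
    rw [← hbd]
    ring
  obtain ⟨a, d, hcd⟩ := Ideal.mem_span_pair.mp (hle (Ideal.mem_span_singleton.mpr h : c ∈ P))
  refine ⟨a * C.γ ^ (C.e - 1) + C.y * d, ?_⟩
  have := pow_succ' C.γ (C.e - 1)
  rw [Nat.sub_add_cancel C.e_pos] at this
  rw [← hcd]
  linear_combination a * C.hxy + a * this

/-- An element of `R` prime to `u` is a power of `y` times something prime to `(u, v)`-constants. -/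
theorem exists_u'_residue {c : R} (h : ¬ C.u' ∣ algebraMap R C.ring c) :
    ∃ (k : ℕ) (b : R), IsUnit b ∧
      C.u' ∣ algebraMap R C.ring c - C.v' ^ (C.e * k) * algebraMap R C.ring b := by
  classical
  by_contra hcon
  push Not at hcon
  have key : ∀ k, ∃ b, C.u' ∣ algebraMap R C.ring c - C.v' ^ (C.e * k) * algebraMap R C.ring b := by
    intro k
    induction k with
    | zero => exact ⟨c, by simp⟩
    | succ k ih =>
      obtain ⟨b, hb⟩ := ih
      have hbm : b ∈ maximalIdeal R := fun hu => hcon k b hu hb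
      rw [C.hm] at hbm
      obtain ⟨α, z₁, hz₁, rfl⟩ := Ideal.mem_span_insert.mp hbm
      obtain ⟨β, δ, hbd⟩ := Ideal.mem_span_pair.mp hz₁
      refine ⟨β, ?_⟩
      have hu1 : C.u' ∣ algebraMap R C.ring (α * C.x) := by
        rw [map_mul]; exact C.u'_dvd_map_x.mul_left _
      have hu2 : C.u' ∣ algebraMap R C.ring (δ * C.γ) := by
        rw [map_mul, ← C.u'_mul_v']; exact (dvd_mul_right _ _).mul_left _
      have := dvd_add hb (dvd_add (hu1.mul_left (C.v' ^ (C.e * k))) (hu2.mul_left (C.v' ^ (C.e * k))))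
      convert this using 1
      rw [← hbd, mul_add, pow_add, mul_one, C.v'_pow]
      simp only [map_add, map_mul]
      ring
  set I : Ideal C.ring := Ideal.span {C.u'}
  haveI : I.IsPrime := (Ideal.span_singleton_prime C.u'_ne).mpr C.prime_u'
  haveI : IsLocalRing (C.ring ⧸ I) :=
    IsLocalRing.of_surjective' (Ideal.Quotient.mk I) Ideal.Quotient.mk_surjective
  have h0 : Ideal.Quotient.mk I (algebraMap R C.ring c) ∈
      ⨅ k : ℕ, Ideal.span {Ideal.Quotient.mk I C.v'} ^ k := by
    refine Submodule.mem_iInf _ |>.mpr fun k => ?_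
    obtain ⟨b, hb⟩ := key k
    rw [Ideal.span_singleton_pow, Ideal.mem_span_singleton]
    refine (pow_dvd_pow _ (Nat.le_mul_of_pos_left k C.e_pos)).trans
      ⟨Ideal.Quotient.mk I (algebraMap R C.ring b), ?_⟩
    rw [← map_pow, ← map_mul, Ideal.Quotient.eq]
    exact Ideal.mem_span_singleton.mpr hb
  rw [Ideal.iInf_pow_eq_bot_of_isLocalRing, Submodule.mem_bot,
    Ideal.Quotient.eq_zero_iff_mem, Ideal.mem_span_singleton] at h0
  · exact h h0
  · intro htop
    rw [Ideal.span_singleton_eq_top] at htop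
    obtain ⟨b, hb⟩ := htop.exists_right_inv
    obtain ⟨b, rfl⟩ := Ideal.Quotient.mk_surjective b
    rw [← map_mul, ← map_one (Ideal.Quotient.mk I), Ideal.Quotient.eq] at hb
    have h1 : C.v' * b - 1 ∈ maximalIdeal C.ring :=
      (Ideal.span_le.mpr (Set.singleton_subset_iff.mpr (show C.u' ∈ maximalIdeal C.ring from
        C.maximalIdeal_eq ▸ Ideal.subset_span (by simp)))) hb
    have h2 := sub_mem (Ideal.mul_mem_right b _
      (show C.v' ∈ maximalIdeal C.ring from C.maximalIdeal_eq ▸ Ideal.subset_span (by simp))) h1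
    rw [sub_sub_cancel] at h2
    exact (maximalIdeal.isMaximal C.ring).ne_top ((Ideal.eq_top_iff_one _).mpr h2)

theorem isUnit_map {b : R} (hb : IsUnit b) : IsUnit (algebraMap R C.ring b) := hb.map _

theorem not_relation (m : ℕ) : ∀ c : Fin C.e → R,
    (∃ i, ¬ C.u' ^ m ∣ algebraMap R C.ring (c i)) →
    ∑ i, algebraMap R C.ring (c i) * C.v' ^ (i : ℕ) ≠ 0 := by
  classical
  induction m with
  | zero => intro c hc; obtain ⟨i, hi⟩ := hc; exact absurd (by simp) hi
  | succ m ih =>
    intro c hc hsum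
    by_cases hall : ∀ i, C.u' ∣ algebraMap R C.ring (c i)
    · choose c' hc' using fun i => C.dvd_of_u'_dvd (hall i)
      refine ih c' ?_ ?_
      · obtain ⟨i, hi⟩ := hc
        refine ⟨i, fun hd => hi ?_⟩
        obtain ⟨r, hr⟩ := hd
        have h1 : C.u' ^ (m + 1) ∣ algebraMap R C.ring C.y * algebraMap R C.ring (c i) := by
          rw [← map_mul, hc' i, map_mul, hr, ← C.u'_mul_v']
          exact ⟨C.v' * r, by ring⟩
        refine C.prime_u'.pow_dvd_of_dvd_mul_left (m + 1) (fun h => C.not_dvd_v' ?_) h1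
        exact C.prime_u'.dvd_of_dvd_pow (C.v'_pow ▸ h)
      · refine (mul_eq_zero.mp (?_ : algebraMap R C.ring C.γ * _ = 0)).resolve_left
          ((map_ne_zero_iff _ C.injective_ring).mpr C.γ_ne)
        have e1 : algebraMap R C.ring C.γ * ∑ i, algebraMap R C.ring (c' i) * C.v' ^ (i : ℕ) =
            algebraMap R C.ring C.y * ∑ i, algebraMap R C.ring (c i) * C.v' ^ (i : ℕ) := by
          rw [Finset.mul_sum, Finset.mul_sum]
          refine Finset.sum_congr rfl fun i _ => ?_
          rw [← mul_assoc, ← mul_assoc, ← map_mul, ← map_mul, hc' i]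
        rw [e1, hsum, mul_zero]
    · push Not at hall
      let S := Finset.univ.filter fun i => ¬ C.u' ∣ algebraMap R C.ring (c i)
      choose k b hb hkb using fun i : {i // ¬ C.u' ∣ algebraMap R C.ring (c i)} =>
        C.exists_u'_residue i.2
      let ex : Fin C.e → ℕ := fun i =>
        if h : ¬ C.u' ∣ algebraMap R C.ring (c i) then C.e * k ⟨i, h⟩ + i else 0
      have hS : S.Nonempty := hall.imp fun i hi => Finset.mem_filter.mpr ⟨Finset.mem_univ _, hi⟩
      obtain ⟨i₀, hi₀, hmin⟩ := Finset.exists_min_image S ex hS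
      have hi₀' : ¬ C.u' ∣ algebraMap R C.ring (c i₀) := (Finset.mem_filter.mp hi₀).2
      set K := ex i₀
      set I : Ideal C.ring := Ideal.span {C.u'}
      haveI : I.IsPrime := (Ideal.span_singleton_prime C.u'_ne).mpr C.prime_u'
      let π := Ideal.Quotient.mk I
      have hsum' := congrArg π hsum
      rw [map_zero, map_sum] at hsum'
      have hterm : ∀ i, i ≠ i₀ →
          π C.v' ^ (K + 1) ∣ π (algebraMap R C.ring (c i) * C.v' ^ (i : ℕ)) := by
        intro i hi
        by_cases hd : C.u' ∣ algebraMap R C.ring (c i)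
        · rw [show π (algebraMap R C.ring (c i) * C.v' ^ (i : ℕ)) = 0 from
            Ideal.Quotient.eq_zero_iff_mem.mpr (Ideal.mul_mem_right _ _ (Ideal.mem_span_singleton.mpr hd))]
          exact dvd_zero _
        · have hK : K + 1 ≤ ex i := by
            refine lt_of_le_of_ne (hmin i (Finset.mem_filter.mpr ⟨Finset.mem_univ _, hd⟩)) fun he => hi ?_
            simp only [K, ex, dif_pos hi₀', dif_pos hd] at he
            have := congrArg (· % C.e) he
            simp only [Nat.mul_add_mod, Nat.mod_eq_of_lt i₀.2, Nat.mod_eq_of_lt i.2] at this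
            exact Fin.ext this.symm
          refine (pow_dvd_pow _ hK).trans ⟨π (algebraMap R C.ring (b ⟨i, hd⟩)), ?_⟩
          simp only [ex, dif_pos hd]
          rw [map_mul, Ideal.Quotient.eq.mpr (Ideal.mem_span_singleton.mpr (hkb ⟨i, hd⟩)),
            map_mul, map_pow, map_pow, pow_add]
          ring
      have h1 : π C.v' ^ (K + 1) ∣ π (algebraMap R C.ring (c i₀) * C.v' ^ (i₀ : ℕ)) := by
        rw [← Finset.add_sum_erase _ _ (Finset.mem_univ i₀)] at hsum'
        rw [eq_neg_of_add_eq_zero_left hsum']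
        obtain ⟨r, hr⟩ := Finset.dvd_sum (s := Finset.univ.erase i₀)
          (f := fun i => π (algebraMap R C.ring (c i) * C.v' ^ (i : ℕ)))
          fun i hi => hterm i (Finset.ne_of_mem_erase hi)
        exact ⟨-r, by rw [hr]; ring⟩
      have hK0 : K = C.e * k ⟨i₀, hi₀'⟩ + i₀ := dif_pos hi₀'
      rw [map_mul, Ideal.Quotient.eq.mpr (Ideal.mem_span_singleton.mpr (hkb ⟨i₀, hi₀'⟩)), map_mul,
        map_pow, map_pow, mul_right_comm, ← pow_add, ← hK0, pow_succ] at h1
      obtain ⟨r, hr⟩ := h1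
      have hv0 : π C.v' ≠ 0 := fun h =>
        C.not_dvd_v' (Ideal.mem_span_singleton.mp (Ideal.Quotient.eq_zero_iff_mem.mp h))
      rw [mul_assoc] at hr
      have hr' := mul_left_cancel₀ (pow_ne_zero K hv0) hr
      have hunit : IsUnit (π C.v') := by
        have := ((C.isUnit_map (hb ⟨i₀, hi₀'⟩)).map π)
        rw [hr'] at this
        exact (IsUnit.mul_iff.mp this).1
      obtain ⟨s, hs⟩ := hunit.exists_right_inv
      obtain ⟨s, rfl⟩ := Ideal.Quotient.mk_surjective s
      rw [← map_mul, ← map_one π, Ideal.Quotient.eq] at hs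
      have h2 : C.v' * s - 1 ∈ maximalIdeal C.ring :=
        (Ideal.span_le.mpr (Set.singleton_subset_iff.mpr (show C.u' ∈ maximalIdeal C.ring from
          C.maximalIdeal_eq ▸ Ideal.subset_span (by simp)))) hs
      have h3 := sub_mem (Ideal.mul_mem_right s _
        (show C.v' ∈ maximalIdeal C.ring from C.maximalIdeal_eq ▸ Ideal.subset_span (by simp))) h2
      rw [sub_sub_cancel] at h3
      exact (maximalIdeal.isMaximal C.ring).ne_top ((Ideal.eq_top_iff_one _).mpr h3)

include C in
/-- The cover has degree exactly `e`. -/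
theorem finrank_eq : Module.finrank F E = C.e := by
  have huI : IsIntegral F C.u :=
    IsIntegral.of_pow C.e_pos (by
      rw [C.u_pow, IsScalarTower.algebraMap_apply R F E]; exact isIntegral_algebraMap)
  haveI : FiniteDimensional F E := by
    have := huI.fg_adjoin_singleton
    rw [C.adjoin_u] at this
    exact ⟨this⟩
  refine le_antisymm ?_ ?_
  · have hdvd : minpoly F C.u ∣ Polynomial.X ^ C.e - Polynomial.C (algebraMap R F C.x) :=
      minpoly.dvd F C.u (by simp [C.u_pow, ← IsScalarTower.algebraMap_apply R F E C.x])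
    have h1 : (minpoly F C.u).natDegree ≤ C.e :=
      (Polynomial.natDegree_le_of_dvd hdvd (Polynomial.X_pow_sub_C_ne_zero C.e_pos _)).trans_eq
        Polynomial.natDegree_X_pow_sub_C
    refine le_trans (le_of_eq ?_) h1
    rw [← Algebra.adjoin.powerBasis_dim huI, ← PowerBasis.finrank, C.adjoin_u]
    exact (Subalgebra.topEquiv (R := F) (A := E)).toLinearEquiv.finrank_eq.symm
  · suffices h : LinearIndependent F fun i : Fin C.e => C.v ^ (i : ℕ) by
      simpa using h.fintype_card_le_finrank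
    refine (LinearIndependent.iff_fractionRing R F).mp ?_
    rw [Fintype.linearIndependent_iff]
    intro c hc
    by_contra hne
    push Not at hne
    obtain ⟨i, hi⟩ := hne
    haveI := C.ufm_ring
    obtain ⟨m, hm⟩ : ∃ m, ¬ C.u' ^ m ∣ algebraMap R C.ring (c i) := by
      obtain ⟨k, r, hr, hkr⟩ := WfDvdMonoid.max_power_factor
        ((map_ne_zero_iff _ C.injective_ring).mpr hi) C.prime_u'.irreducible
      exact ⟨k + 1, fun h => hr ((mul_dvd_mul_iff_left (pow_ne_zero k C.u'_ne)).mp (by
        rw [← pow_succ, ← hkr]; exact h))⟩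
    refine C.not_relation m c ⟨i, hm⟩ (Subtype.ext ?_)
    simp only [Algebra.smul_def] at hc
    simpa [NodeCover.v'] using hc

end NodeCover

end Fermat.Agent.Models
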