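/-
Exact local structure of a Kummer function at a node `x y = γ ^ e`: a unit times monomials in
`x`, `γ` times an `n`-th power.
-/
import Fermat.Agent.Models.CoreNodeCover

set_option autoImplicit false

noncomputable section

namespace Fermat.Agent.Models

open IsLocalRing

/-- A root along `(p)` forces the multiplicity to be divisible by `n`. -/
theorem dvd_multiplicity_of_root {S : Type} [CommRing S] [IsDomain S] [UniqueFactorizationMonoid S]
    {K : Type} [Field K] [Algebra S K] [IsFractionRing S K] {n k : ℕ} (hn : 0 < n) {p A m : S}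
    (hp : Prime p) (hA : A = p ^ k * m) (hm : ¬ p ∣ m) {z : K} {a b : S} (ha : ¬ p ∣ a)
    (hb : ¬ p ∣ b) (h : algebraMap S K b * z ^ n = algebraMap S K (a * A)) : n ∣ k := by
  obtain ⟨c, d, hd, rfl⟩ := IsFractionRing.div_surjective (A := S) (K := K) z
  have hd0 : d ≠ 0 := nonZeroDivisors.ne_zero hd
  have hdK : algebraMap S K d ≠ 0 := (map_ne_zero_iff _ (IsFractionRing.injective S K)).mpr hd0
  have hkey : b * c ^ n = a * A * d ^ n := by
    refine IsFractionRing.injective S K ?_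
    rw [div_pow, ← mul_div_assoc, div_eq_iff (pow_ne_zero _ hdK)] at h
    simp only [map_mul, map_pow] at h ⊢
    linear_combination h
  have hc0 : c ≠ 0 := by
    intro h0
    rw [h0, zero_pow hn.ne', mul_zero, eq_comm] at hkey
    rcases mul_eq_zero.mp hkey with h1 | h1
    · rcases mul_eq_zero.mp h1 with h2 | h2
      · exact ha (h2 ▸ dvd_zero p)
      · rw [hA, mul_eq_zero] at h2
        exact h2.elim (fun h => pow_ne_zero k hp.ne_zero h) fun h => hm (h ▸ dvd_zero p)
    · exact pow_ne_zero n hd0 h1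
  obtain ⟨i, c', hc', hci⟩ := WfDvdMonoid.max_power_factor hc0 hp.irreducible
  obtain ⟨j, d', hd', hdj⟩ := WfDvdMonoid.max_power_factor hd0 hp.irreducible
  rw [hci, hdj, hA, mul_pow, mul_pow, ← pow_mul, ← pow_mul] at hkey
  have hnot : ∀ {s t : S} (N : ℕ), ¬ p ∣ s → ¬ p ∣ t → ¬ p ∣ s * t ^ N := fun N hs ht h =>
    (hp.dvd_or_dvd h).elim hs fun h => ht (hp.dvd_of_dvd_pow h)
  have e1 : p ^ (i * n) * (b * c' ^ n) = p ^ (k + j * n) * (a * m * d' ^ n) := by
    rw [pow_add]
    linear_combination hkey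
  have hne1 : ¬ p ∣ b * c' ^ n := hnot _ hb hc'
  have hne2 : ¬ p ∣ a * m * d' ^ n := hnot _ (fun h => (hp.dvd_or_dvd h).elim ha hm) hd'
  have huniq : ∀ {s t : S} {A C : ℕ}, ¬ p ∣ s → p ^ A * s = p ^ C * t → C ≤ A := by
    intro s t A C hs h
    by_contra hlt
    obtain ⟨r, rfl⟩ := Nat.exists_eq_add_of_lt (not_le.mp hlt)
    rw [show A + r + 1 = A + (r + 1) by ring, pow_add, mul_assoc] at h
    exact hs ⟨p ^ r * t, by rw [mul_left_cancel₀ (pow_ne_zero _ hp.ne_zero) h]; ring⟩
  have heq : k + j * n = i * n := le_antisymm (huniq hne1 e1) (huniq hne2 e1.symm)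
  exact (Nat.dvd_add_left (dvd_mul_left n j)).mp (heq ▸ dvd_mul_left n i)

/-- An extension generated by an `m`-th root has degree at most `m`. -/
theorem finrank_le_of_pow {K L : Type} [Field K] [Field L] [Algebra K L] {u : L} {c : K} {m : ℕ}
    (hm : 0 < m) (hu : u ^ m = algebraMap K L c) (hadj : Algebra.adjoin K {u} = ⊤) :
    Module.finrank K L ≤ m := by
  have huI : IsIntegral K u := IsIntegral.of_pow hm (hu ▸ isIntegral_algebraMap)
  have hdvd : minpoly K u ∣ Polynomial.X ^ m - Polynomial.C c := minpoly.dvd K u (by simp [hu])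
  have h1 : (minpoly K u).natDegree ≤ m :=
    (Polynomial.natDegree_le_of_dvd hdvd (Polynomial.X_pow_sub_C_ne_zero hm _)).trans_eq
      Polynomial.natDegree_X_pow_sub_C
  refine le_trans (le_of_eq ?_) h1
  rw [← Algebra.adjoin.powerBasis_dim huI, ← PowerBasis.finrank, hadj]
  exact (Subalgebra.topEquiv (R := K) (A := L)).toLinearEquiv.finrank_eq.symm

/-- Integral with integral inverse. -/
def IsIntUnit (R : Type) {L : Type} [CommRing R] [Field L] [Algebra R L] (z : L) : Prop :=
  z ≠ 0 ∧ IsIntegral R z ∧ IsIntegral R z⁻¹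

namespace IsIntUnit

variable {R L : Type} [CommRing R] [Field L] [Algebra R L] {z w : L}

theorem mul (hz : IsIntUnit R z) (hw : IsIntUnit R w) : IsIntUnit R (z * w) :=
  ⟨mul_ne_zero hz.1 hw.1, hz.2.1.mul hw.2.1, mul_inv z w ▸ hz.2.2.mul hw.2.2⟩

theorem inv (hz : IsIntUnit R z) : IsIntUnit R z⁻¹ :=
  ⟨inv_ne_zero hz.1, hz.2.2, (inv_inv z).symm ▸ hz.2.1⟩

theorem div (hz : IsIntUnit R z) (hw : IsIntUnit R w) : IsIntUnit R (z / w) :=
  div_eq_mul_inv z w ▸ hz.mul hw.inv

theorem of_pow {n : ℕ} (hn : 0 < n) (h : IsIntUnit R (z ^ n)) : IsIntUnit R z :=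
  ⟨fun h0 => h.1 (by rw [h0, zero_pow hn.ne']), IsIntegral.of_pow hn h.2.1,
    IsIntegral.of_pow hn (inv_pow z n ▸ h.2.2)⟩

theorem pow (hz : IsIntUnit R z) (n : ℕ) : IsIntUnit R (z ^ n) :=
  ⟨pow_ne_zero n hz.1, hz.2.1.pow n, inv_pow z n ▸ hz.2.2.pow n⟩

theorem of_unit {r : R} (hr : IsUnit r) : IsIntUnit R (algebraMap R L r) := by
  obtain ⟨r, rfl⟩ := hr
  refine ⟨(r.isUnit.map (algebraMap R L)).ne_zero, isIntegral_algebraMap, ?_⟩
  rw [← map_units_inv (algebraMap R L) r]
  exact isIntegral_algebraMap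

end IsIntUnit

section Residue

variable {R S : Type} [CommRing R] [CommRing S] [IsDomain R] [IsLocalRing S] [Algebra R S]

/-- Roots of unity of invertible order are separated by the residue field. -/
theorem dvd_of_residue_pow_eq_one {ζ : R} {e : ℕ} (hζ : IsPrimitiveRoot ζ e)
    (he : IsUnit ((e : ℕ) : S)) {i : ℕ} (h : residue S (algebraMap R S ζ) ^ i = 1) : e ∣ i := by
  by_contra hd
  have h1 : ζ ^ i ≠ 1 := fun h => hd ((hζ.pow_eq_one_iff_dvd i).mp h)
  have h2 : (∑ t ∈ Finset.range e, (ζ ^ i) ^ t) * (ζ ^ i - 1) = 0 := by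
    rw [geom_sum_mul, ← pow_mul, mul_comm i e, pow_mul, hζ.pow_eq_one, one_pow, sub_self]
  have h3 := congrArg (fun r => residue S (algebraMap R S r))
    ((mul_eq_zero.mp h2).resolve_right (sub_ne_zero.mpr h1))
  simp only [map_sum, map_pow, h, one_pow, Finset.sum_const, Finset.card_range, map_zero,
    nsmul_one] at h3
  exact (he.map (residue S)).ne_zero (by rw [map_natCast]; exact h3)

end Residue

variable {R : Type} [CommRing R] [IsDomain R] [IsNoetherianRing R] [IsLocalRing R]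
  [IsIntegrallyClosed R]
  {F : Type} [Field F] [Algebra R F] [IsFractionRing R F]
  {E : Type} [Field E] [Algebra F E] [Algebra R E] [IsScalarTower R F E]

namespace NodeCover

variable (C : NodeCover R F E)

omit [IsIntegrallyClosed R] in
/-- Elements integral over `R` lie in the cover. -/
theorem exists_of_integral {z : E} (hz : IsIntegral R z) : ∃ r : C.ring, (r : E) = z := by
  haveI := C.ufm_ring
  exact IsIntegrallyClosed.isIntegral_iff.mp (hz.tower_top (A := C.ring))

omit [IsIntegrallyClosed R] in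
theorem isUnit_of_isIntUnit {z : E} (hz : IsIntUnit R z) (r : C.ring) (hr : (r : E) = z) :
    IsUnit r := by
  obtain ⟨s, hs⟩ := C.exists_of_integral hz.2.2
  refine IsUnit.of_mul_eq_one s (Subtype.ext ?_)
  rw [MulMemClass.coe_mul, hr, hs, mul_inv_cancel₀ hz.1]
  rfl

omit [IsIntegrallyClosed R] in
theorem isIntUnit_of_isUnit {r : C.ring} (hr : IsUnit r) : IsIntUnit R (r : E) := by
  obtain ⟨s, rfl⟩ := hr
  refine ⟨fun h => s.ne_zero (Subtype.ext h),
    (Algebra.IsIntegral.isIntegral (R := R) (s : C.ring)).map C.ring.val, ?_⟩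
  rw [← eq_inv_of_mul_eq_one_right (a := ((s : C.ring) : E)) (b := (((s⁻¹ : C.ringˣ) : C.ring) : E))
    (congrArg Subtype.val s.mul_inv)]
  exact (Algebra.IsIntegral.isIntegral (R := R) ((s⁻¹ : C.ringˣ) : C.ring)).map C.ring.val

omit [IsIntegrallyClosed R] in
theorem exists_monomial_pow {n : ℕ} (hn : 0 < n) {A : R} (hA : A ≠ 0)
    (hroots : ∀ Q : Ideal R, Q.IsPrime → Q ≠ ⊥ → C.γ ∉ Q →
      HasRootAt R n (algebraMap R F A) Q) :
    ∃ (U g : C.ring) (a b : ℕ), IsUnit U ∧ g ≠ 0 ∧
      algebraMap R C.ring A = U * C.u' ^ a * C.v' ^ b * g ^ n := by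
  haveI := C.ufm_ring
  obtain ⟨a, A₁, hA₁, hAa⟩ := WfDvdMonoid.max_power_factor
    ((map_ne_zero_iff _ C.injective_ring).mpr hA) C.prime_u'.irreducible
  have hA₁0 : A₁ ≠ 0 := fun h => hA₁ (h ▸ dvd_zero _)
  obtain ⟨b, A₂, hA₂, hAb⟩ := WfDvdMonoid.max_power_factor hA₁0 C.prime_v'.irreducible
  have hA₂u : ¬ C.u' ∣ A₂ := fun h => hA₁ (hAb ▸ h.mul_left _)
  have hA₂0 : A₂ ≠ 0 := fun h => hA₂ (h ▸ dvd_zero _)
  obtain ⟨U, g, hU, hg, hUg⟩ := exists_unit_mul_pow hn A₂ hA₂0 fun p k hp h1 h2 => by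
    rcases Nat.eq_zero_or_pos k with rfl | hk
    · exact dvd_zero n
    have hpA : p ∣ A₂ := (dvd_pow_self p hk.ne').trans h1
    have hpu : ¬ p ∣ C.u' := fun h =>
      hA₂u ((hp.associated_of_dvd C.prime_u' h).symm.dvd.trans hpA)
    have hpv : ¬ p ∣ C.v' := fun h =>
      hA₂ ((hp.associated_of_dvd C.prime_v' h).symm.dvd.trans hpA)
    have hQ : (Ideal.span {p}).IsPrime := (Ideal.span_singleton_prime hp.ne_zero).mpr hp
    have hQ0 : (Ideal.span {p}).comap (algebraMap R C.ring) ≠ ⊥ := fun h =>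
      hp.ne_zero (Ideal.span_singleton_eq_bot.mp (Ideal.eq_bot_of_comap_eq_bot h))
    have hγ : C.γ ∉ (Ideal.span {p}).comap (algebraMap R C.ring) := fun h => by
      rw [Ideal.mem_comap, ← C.u'_mul_v', Ideal.mem_span_singleton] at h
      exact (hp.dvd_or_dvd h).elim hpu hpv
    obtain ⟨z, a', b', ha', hb', he⟩ := hroots _ (hQ.comap _) hQ0 hγ
    obtain ⟨m, hm⟩ := h1
    refine dvd_multiplicity_of_root (S := C.ring) (K := E) hn hp
      (A := algebraMap R C.ring A) (m := C.u' ^ a * C.v' ^ b * m) (by rw [hAa, hAb, hm]; ring)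
      (fun h => ?_) (z := algebraMap F E z) (a := algebraMap R C.ring a')
      (b := algebraMap R C.ring b') (fun h => ha' (Ideal.mem_span_singleton.mpr h))
      (fun h => hb' (Ideal.mem_span_singleton.mpr h)) ?_
    · rcases hp.dvd_or_dvd h with h | h
      · rcases hp.dvd_or_dvd h with h | h
        · exact hpu (hp.dvd_of_dvd_pow h)
        · exact hpv (hp.dvd_of_dvd_pow h)
      · exact h2 (by rw [hm, pow_succ]; exact mul_dvd_mul_left _ h)
    · rw [map_mul, ← IsScalarTower.algebraMap_apply R C.ring E,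
        ← IsScalarTower.algebraMap_apply R C.ring E, ← IsScalarTower.algebraMap_apply R C.ring E,
        IsScalarTower.algebraMap_apply R F E b', IsScalarTower.algebraMap_apply R F E a',
        IsScalarTower.algebraMap_apply R F E A, ← map_pow, ← map_mul, he, map_mul]
  exact ⟨U, g, a, b, hU, hg, by rw [hAa, hAb, hUg]; ring⟩

set_option maxHeartbeats 2000000 in
include C in
/-- The structure of a Kummer function at a node. -/
theorem exists_monomial_root {n : ℕ} (hn : 0 < n) {e' Q : ℕ} (heQ : C.e = e' * Q)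
    {ζ : R} (hζ : IsPrimitiveRoot ζ e') (he' : IsUnit (e' : R)) (hQn : Q.Coprime n)
    {A : R} (hA : A ≠ 0)
    (hroots : ∀ Q : Ideal R, Q.IsPrime → Q ≠ ⊥ → C.γ ∉ Q →
      HasRootAt R n (algebraMap R F A) Q) :
    ∃ (U : R) (h : F) (i j : ℕ), IsUnit U ∧
      algebraMap R F (U * C.x ^ i * C.γ ^ j) * h ^ n = algebraMap R F A := by
  classical
  have he'0 : 0 < e' := Nat.pos_of_ne_zero fun h => by simp [h] at heQ; exact C.e_pos.ne' heQ
  have hQ0 : 0 < Q := Nat.pos_of_ne_zero fun h => by simp [h] at heQ; exact C.e_pos.ne' heQ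
  obtain ⟨U, g, a, b, hU, hg, hAE⟩ := C.exists_monomial_pow hn hA hroots
  -- the intermediate field
  let u₁ : E := C.u ^ Q
  have hu₁E : u₁ ^ e' = algebraMap R E C.x := by
    rw [← pow_mul, mul_comm, ← heQ, C.u_pow]
  let E₁ : IntermediateField F E := IntermediateField.adjoin F {u₁}
  let u₁' : E₁ := ⟨u₁, IntermediateField.mem_adjoin_simple_self F u₁⟩
  have hu₁' : u₁' ^ e' = algebraMap F E₁ (algebraMap R F C.x) :=
    Subtype.ext (by push_cast; exact hu₁E.trans (IsScalarTower.algebraMap_apply R F E C.x))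
  have huI : IsIntegral F C.u := IsIntegral.of_pow C.e_pos (by
    rw [C.u_pow, IsScalarTower.algebraMap_apply R F E]; exact isIntegral_algebraMap)
  haveI : FiniteDimensional F E := by
    have := huI.fg_adjoin_singleton
    rw [C.adjoin_u] at this
    exact ⟨this⟩
  have hu₁I : IsIntegral F u₁ := huI.pow Q
  let pb := IntermediateField.adjoin.powerBasis hu₁I
  have hd1 : Module.finrank F E₁ ≤ e' := finrank_le_of_pow he'0 hu₁' pb.adjoin_gen_eq_top
  have hd2 : Module.finrank E₁ E ≤ Q := by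
    refine finrank_le_of_pow hQ0 (u := C.u) (c := u₁') rfl ?_
    refine eq_top_iff.mpr fun z _ => ?_
    have : Algebra.adjoin F {C.u} ≤ (Algebra.adjoin E₁ {C.u}).restrictScalars F :=
      Algebra.adjoin_le (Set.singleton_subset_iff.mpr
        (Algebra.self_mem_adjoin_singleton E₁ C.u))
    exact this (C.adjoin_u ▸ Algebra.mem_top)
  have hdd := Module.finrank_mul_finrank F E₁ E
  rw [C.finrank_eq, heQ] at hdd
  have hdim : Module.finrank F E₁ = e' := by
    have hpos : 0 < Module.finrank E₁ E := Module.finrank_pos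
    nlinarith
  have hdeg2 : Module.finrank E₁ E = Q := by
    rw [hdim] at hdd
    exact Nat.eq_of_mul_eq_mul_left he'0 hdd
  -- norms
  haveI : IsScalarTower R E₁ E := IsScalarTower.of_algebraMap_eq fun r =>
    (IsScalarTower.algebraMap_apply R F E r).trans
      (congrArg (algebraMap E₁ E) (IsScalarTower.algebraMap_apply R F E₁ r).symm)
  let N : E →* E₁ := Algebra.norm E₁
  have hNint : ∀ {z : E}, IsIntUnit R z → IsIntUnit R (N z) := fun {z} hz =>
    ⟨Algebra.norm_ne_zero_iff.mpr hz.1, Algebra.isIntegral_norm _ hz.2.1, by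
      have h1 : N z⁻¹ = (N z)⁻¹ := eq_inv_of_mul_eq_one_left (by
        rw [← map_mul, inv_mul_cancel₀ hz.1, map_one])
      rw [← h1]
      exact Algebra.isIntegral_norm _ hz.2.2⟩
  have hNalg : ∀ z : E₁, N (algebraMap E₁ E z) = z ^ Q := fun z => by
    show Algebra.norm E₁ _ = _
    rw [Algebra.norm_algebraMap, hdeg2]
  have hu₁0 : u₁' ≠ 0 := fun h => by
    have : u₁ = 0 := congrArg Subtype.val h
    have hu0 := eq_zero_of_pow_eq_zero this
    exact C.u'_ne (Subtype.ext hu0)
  have hN0 : N C.u ≠ 0 := Algebra.norm_ne_zero_iff.mpr fun h => C.u'_ne (Subtype.ext h)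
  let W : E₁ := N C.u / u₁'
  have hW : IsIntUnit R W := by
    refine IsIntUnit.of_pow hQ0 ?_
    rw [div_pow, ← map_pow, show C.u ^ Q = algebraMap E₁ E u₁' from rfl, hNalg,
      div_self (pow_ne_zero _ hu₁0)]
    exact ⟨one_ne_zero, isIntegral_one, by rw [inv_one]; exact isIntegral_one⟩
  let G : E₁ := algebraMap R E₁ C.γ ^ Q
  have hUV : N C.u * N C.v = G := by
    rw [← map_mul, C.u_mul_v, IsScalarTower.algebraMap_apply R E₁ E, hNalg]
  set U₂ := N (U : E) * W ^ a / W ^ b
  have hU₂ : IsIntUnit R U₂ :=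
    ((hNint (C.isIntUnit_of_isUnit hU)).mul (hW.pow a)).div (hW.pow b)
  set g₁ := N (g : E)
  have hg₁ : g₁ ≠ 0 := Algebra.norm_ne_zero_iff.mpr fun h => hg (Subtype.ext h)
  set A₁ := algebraMap R E₁ A ^ Q
  have hA₁0 : algebraMap R E₁ A ≠ 0 := fun h => hA (C.injective_E (by
    rw [IsScalarTower.algebraMap_apply R E₁ E, h, map_zero, map_zero]))
  have hGne : G ≠ 0 := pow_ne_zero _ fun h => C.γ_ne (C.injective_E (by
    rw [IsScalarTower.algebraMap_apply R E₁ E, h, map_zero, map_zero]))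
  have key : A₁ * u₁' ^ b = U₂ * g₁ ^ n * u₁' ^ a * G ^ b := by
    have h1 := congrArg (fun z : C.ring => N (z : E)) hAE
    simp only [MulMemClass.coe_mul, SubmonoidClass.coe_pow, map_mul, map_pow] at h1
    rw [show ((algebraMap R C.ring A : C.ring) : E) = algebraMap E₁ E (algebraMap R E₁ A) from
      IsScalarTower.algebraMap_apply R E₁ E A, hNalg] at h1
    rw [show ((C.u' : C.ring) : E) = C.u from rfl, show ((C.v' : C.ring) : E) = C.v from rfl] at h1
    show algebraMap R E₁ A ^ Q * _ = _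
    rw [h1, ← hUV, mul_pow]
    simp only [U₂, W, g₁, div_pow]
    field_simp
  -- the generator of the Galois group
  have hζE : IsPrimitiveRoot (algebraMap R E₁ ζ) e' := hζ.map_of_injective fun x y h =>
    C.injective_E (by
      rw [IsScalarTower.algebraMap_apply R E₁ E, h, ← IsScalarTower.algebraMap_apply R E₁ E])
  set Z := algebraMap R E₁ ζ
  have hgen : pb.gen = u₁' := rfl
  have hmp : minpoly F u₁' = Polynomial.X ^ e' - Polynomial.C (algebraMap R F C.x) := by
    refine (Polynomial.eq_of_monic_of_dvd_of_natDegree_le (minpoly.monic (hgen ▸ pb.isIntegral_gen))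
      (Polynomial.monic_X_pow_sub_C _ he'0.ne') (minpoly.dvd F u₁' (by simp [hu₁'])) ?_).symm
    rw [Polynomial.natDegree_X_pow_sub_C, ← hgen, pb.natDegree_minpoly, ← pb.finrank, hdim]
  let σ : E₁ →ₐ[F] E₁ := pb.lift (Z * u₁') (by
    rw [hgen, hmp]
    simp [mul_pow, hu₁', hζE.pow_eq_one])
  have hσu : σ u₁' = Z * u₁' := pb.lift_gen _ _
  have hσR : ∀ r : R, σ (algebraMap R E₁ r) = algebraMap R E₁ r := fun r => by
    rw [IsScalarTower.algebraMap_apply R F E₁, AlgHom.commutes]
  let σR : E₁ →ₐ[R] E₁ := { σ.toRingHom with commutes' := hσR }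
  have hσint : ∀ {z : E₁}, IsIntUnit R z → IsIntUnit R (σ z) := fun {z} hz =>
    ⟨(map_ne_zero σ).mpr hz.1, hz.2.1.map σR, (map_inv₀ σ z) ▸ hz.2.2.map σR⟩
  -- residues
  have hmem : ∀ z : E₁, IsIntegral R z → ∃ r : C.ring, (r : E) = algebraMap E₁ E z := fun z hz =>
    C.exists_of_integral (hz.map (IsScalarTower.toAlgHom R E₁ E))
  let k := ResidueField C.ring
  let res : E₁ → k := fun z => if hz : IsIntegral R z then residue _ (hmem z hz).choose else 0
  have res_eq : ∀ (z : E₁) (r : C.ring), IsIntegral R z → (r : E) = algebraMap E₁ E z →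
      res z = residue _ r := fun z r hz h => by
    simp only [res, dif_pos hz]
    congr 1
    exact Subtype.ext ((hmem z hz).choose_spec.trans h.symm)
  have res_R : ∀ r : R, res (algebraMap R E₁ r) = residue _ (algebraMap R C.ring r) := fun r =>
    res_eq _ _ isIntegral_algebraMap (IsScalarTower.algebraMap_apply R E₁ E r)
  have res_mul : ∀ {z w : E₁}, IsIntegral R z → IsIntegral R w → res (z * w) = res z * res w :=
    fun {z w} hz hw => by
      obtain ⟨r, hr⟩ := hmem z hz
      obtain ⟨s, hs⟩ := hmem w hw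
      rw [res_eq z r hz hr, res_eq w s hw hs, ← map_mul]
      exact res_eq _ _ (hz.mul hw) (by rw [MulMemClass.coe_mul, hr, hs, map_mul])
  have res_ne : ∀ {z : E₁}, IsIntUnit R z → res z ≠ 0 := fun {z} hz => by
    obtain ⟨r, hr⟩ := hmem z hz.2.1
    rw [res_eq z r hz.2.1 hr]
    refine ((C.isUnit_of_isIntUnit (z := algebraMap E₁ E z) ⟨(map_ne_zero _).mpr hz.1, ?_, ?_⟩ r hr).map
      (residue C.ring)).ne_zero
    · exact hz.2.1.map (IsScalarTower.toAlgHom R E₁ E)
    · exact (map_inv₀ (algebraMap E₁ E) z) ▸ hz.2.2.map (IsScalarTower.toAlgHom R E₁ E)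
  obtain ⟨ν, hν⟩ : ∃ ν : E₁ ≃ₐ[F] E₁, ∀ z, ν z = σ z :=
    ⟨AlgEquiv.ofBijective σ (AlgHom.bijective σ), fun z => rfl⟩
  have res_σ : ∀ z : E₁, IsIntegral R z → res (σ z) = res z := by
    intro z hz
    obtain ⟨r, hr⟩ := hmem z hz
    obtain ⟨c, hc⟩ := C.exists_rep r
    have hw : IsIntegral R (z - algebraMap R E₁ c) := hz.sub isIntegral_algebraMap
    have hσw : IsIntegral R (σ (z - algebraMap R E₁ c)) := hw.map σR
    obtain ⟨s, hs⟩ := hmem _ hσw
    have hrs : ((r - algebraMap R C.ring c : C.ring) : E) =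
        algebraMap E₁ E (z - algebraMap R E₁ c) := by
      rw [map_sub, ← hr, ← IsScalarTower.algebraMap_apply R E₁ E]
      rfl
    have hs0 : residue _ s = 0 := by
      rw [residue_eq_zero_iff]
      by_contra hsu
      obtain ⟨t, ht⟩ := (notMem_maximalIdeal.mp hsu).exists_right_inv
      have hσne : σ (z - algebraMap R E₁ c) ≠ 0 := fun h => hsu (by
        rw [h, map_zero] at hs
        rw [show s = 0 from Subtype.ext hs]
        exact zero_mem _)
      have hint : IsIntegral R (σ (z - algebraMap R E₁ c))⁻¹ := by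
        refine (isIntegral_algHom_iff (IsScalarTower.toAlgHom R E₁ E)
          (algebraMap E₁ E).injective).mp ?_
        rw [IsScalarTower.coe_toAlgHom', map_inv₀, ← hs,
          inv_eq_of_mul_eq_one_right (congrArg Subtype.val ht)]
        exact (Algebra.IsIntegral.isIntegral (R := R) t).map C.ring.val
      have hwu : IsIntUnit R (z - algebraMap R E₁ c) := by
        refine ⟨fun h => hσne (by rw [h, map_zero]), hw, ?_⟩
        let νR : E₁ →ₐ[R] E₁ := { ν.symm.toRingEquiv.toRingHom with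
          commutes' := fun r => ν.injective (by
            show ν (ν.symm (algebraMap R E₁ r)) = ν (algebraMap R E₁ r)
            rw [ν.apply_symm_apply, hν, hσR]) }
        have := hint.map νR
        rw [← hν, ← map_inv₀ ν] at this
        exact (ν.symm_apply_apply (z - algebraMap R E₁ c)⁻¹) ▸ this
      exact (maximalIdeal.isMaximal C.ring).ne_top (Ideal.eq_top_of_isUnit_mem _
        (C.maximalIdeal_eq ▸ hc : r - algebraMap R C.ring c ∈ maximalIdeal C.ring)
        (C.isUnit_of_isIntUnit ⟨(map_ne_zero _).mpr hwu.1,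
          hwu.2.1.map (IsScalarTower.toAlgHom R E₁ E),
          (map_inv₀ (algebraMap E₁ E) _) ▸ hwu.2.2.map (IsScalarTower.toAlgHom R E₁ E)⟩ _ hrs))
    have hσz : IsIntegral R (σ z) := hz.map σR
    have e1 : res (σ z) = residue _ (s + algebraMap R C.ring c) := res_eq _ _ hσz (by
      rw [map_sub, hσR, map_sub, ← IsScalarTower.algebraMap_apply R E₁ E] at hs
      rw [Subalgebra.coe_add, hs]
      exact sub_add_cancel _ _)
    rw [e1, map_add, hs0, zero_add, res_eq z r hz hr, ← sub_eq_zero, ← map_sub,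
      residue_eq_zero_iff, ← neg_sub r (algebraMap R C.ring c), neg_mem_iff, C.maximalIdeal_eq]
    exact hc
  set ξ := residue C.ring (algebraMap R C.ring ζ) with hξ
  have hξe : ξ ^ e' = 1 := by rw [hξ, ← map_pow, ← map_pow, hζ.pow_eq_one, map_one, map_one]
  have hξdvd : ∀ {i : ℕ}, ξ ^ i = 1 → e' ∣ i := fun h =>
    dvd_of_residue_pow_eq_one hζ (by simpa using he'.map (algebraMap R C.ring)) h
  have hZu : IsIntUnit R Z := IsIntUnit.of_unit (hζ.isUnit he'0.ne')
  have hkey' := congrArg σ key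
  simp only [map_mul, map_pow, hσu, mul_pow, A₁, G, hσR] at hkey'
  -- the cocycle
  let c := σ g₁ / g₁
  have hc : IsIntUnit R c := by
    refine IsIntUnit.of_pow hn ?_
    have : c ^ n = Z ^ b / Z ^ a * (U₂ / σ U₂) := by
      have hσU := (hσint hU₂).1
      have hZ0 := hZu.1
      simp only [c, div_pow]
      field_simp
      refine mul_right_cancel₀ (mul_ne_zero (pow_ne_zero a hu₁0) (pow_ne_zero b hGne)) ?_
      simp only [G] at key ⊢
      linear_combination (Z ^ b) * key - hkey'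
    rw [this]
    exact ((hZu.pow b).div (hZu.pow a)).mul (hU₂.div (hσint hU₂))
  have hiter : ∀ i : ℕ, σ^[i] u₁' = Z ^ i * u₁' := by
    intro i
    induction i with
    | zero => simp
    | succ i ih =>
      rw [Function.iterate_succ_apply', ih, map_mul, map_pow, hσu, hσR]
      ring
  have hσid : ∀ z : E₁, σ^[e'] z = z := by
    intro z
    have hh : ∀ w, (σ ^ e') w = σ^[e'] w := fun w => by rw [AlgHom.coe_pow]
    have : σ ^ e' = AlgHom.id F E₁ := pb.algHom_ext (by
      rw [hgen, hh, hiter, hζE.pow_eq_one, one_mul]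
      rfl)
    rw [← hh, this]
    rfl
  have hcyc : ∀ i : ℕ, ∃ P : E₁, IsIntUnit R P ∧ σ^[i] g₁ = P * g₁ ∧ res P = res c ^ i := by
    intro i
    induction i with
    | zero =>
      exact ⟨1, ⟨one_ne_zero, isIntegral_one, by rw [inv_one]; exact isIntegral_one⟩, by simp, by
        rw [pow_zero, ← map_one (algebraMap R E₁), res_R, map_one, map_one]⟩
    | succ i ih =>
      obtain ⟨P, hP, hPg, hPr⟩ := ih
      refine ⟨σ P * c, (hσint hP).mul hc, ?_, ?_⟩
      · rw [Function.iterate_succ_apply', hPg, map_mul, mul_assoc, div_mul_cancel₀ _ hg₁]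
      · rw [res_mul (hσint hP).2.1 hc.2.1, res_σ P hP.2.1, hPr, pow_succ]
  obtain ⟨P, hP, hPg, hPr⟩ := hcyc e'
  rw [hσid] at hPg
  have hP1 : P = 1 := by rwa [eq_comm, mul_eq_right₀ hg₁] at hPg
  rw [hP1, ← map_one (algebraMap R E₁), res_R, map_one, map_one] at hPr
  obtain ⟨j₀, -, hj₀⟩ : ∃ j < e', ξ ^ j = res c := by
    haveI : NeZero e' := ⟨he'0.ne'⟩
    have hprim : IsPrimitiveRoot ξ e' := ⟨hξe, fun l hl => hξdvd hl⟩
    exact hprim.eq_pow_of_pow_eq_one hPr.symm
  set j := j₀ + e' * b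
  have hj : ξ ^ j = res c := by rw [pow_add, pow_mul, hξe, one_pow, mul_one, hj₀]
  let g₂ := g₁ / u₁' ^ j
  have hg₂ : g₂ ≠ 0 := div_ne_zero hg₁ (pow_ne_zero _ hu₁0)
  have hterm : ∀ i : ℕ, ∃ T : E₁, IsIntUnit R T ∧ σ^[i] g₂ = T * g₂ ∧ res T = 1 := by
    intro i
    induction i with
    | zero =>
      exact ⟨1, ⟨one_ne_zero, isIntegral_one, by rw [inv_one]; exact isIntegral_one⟩, by simp, by
        rw [← map_one (algebraMap R E₁), res_R, map_one, map_one]⟩
    | succ i ih =>
      obtain ⟨T, hT, hTg, hTr⟩ := ih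
      refine ⟨σ T * (c / Z ^ j), (hσint hT).mul (hc.div (hZu.pow j)), ?_, ?_⟩
      · rw [Function.iterate_succ_apply', hTg, map_mul, mul_assoc]
        congr 1
        simp only [g₂, c, map_div₀, map_pow, hσu, mul_pow]
        field_simp [hu₁0, hg₁, hZu.1]
      · rw [res_mul (hσint hT).2.1 (hc.div (hZu.pow j)).2.1, res_σ T hT.2.1, hTr, one_mul]
        have h2 : res (c / Z ^ j) * res (Z ^ j) = res c := by
          rw [← res_mul (hc.div (hZu.pow j)).2.1 (hZu.pow j).2.1,
            div_mul_cancel₀ _ (hZu.pow j).1]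
        have h3 : res (Z ^ j) = ξ ^ j := by rw [← map_pow, res_R, map_pow, map_pow]
        rw [h3, hj] at h2
        exact (mul_eq_right₀ (res_ne hc)).mp h2
  choose T hT hTg hTr using hterm
  let z := ∑ i ∈ Finset.range e', T i
  let h := z * g₂
  have hhsum : h = ∑ i ∈ Finset.range e', σ^[i] g₂ := by
    simp only [h, z, Finset.sum_mul, hTg]
  have hzint : IsIntegral R z := IsIntegral.sum _ fun i _ => (hT i).2.1
  have hz : IsIntUnit R z := by
    choose r hr using fun i => hmem (T i) (hT i).2.1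
    have hrz : ((∑ i ∈ Finset.range e', r i : C.ring) : E) = algebraMap E₁ E z := by
      simp only [z, map_sum, AddSubmonoidClass.coe_finsetSum, hr]
    have hu : IsUnit (∑ i ∈ Finset.range e', r i) := by
      rw [← IsLocalRing.residue_ne_zero_iff_isUnit, map_sum,
        Finset.sum_congr rfl fun i _ => (res_eq (T i) (r i) (hT i).2.1 (hr i)).symm.trans (hTr i)]
      simp only [Finset.sum_const, Finset.card_range, nsmul_one]
      have := ((he'.map (algebraMap R C.ring)).map (residue C.ring)).ne_zero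
      rwa [map_natCast, map_natCast] at this
    have := C.isIntUnit_of_isUnit hu
    rw [hrz] at this
    refine ⟨fun h0 => this.1 (by rw [h0, map_zero]), hzint, ?_⟩
    refine (isIntegral_algHom_iff (IsScalarTower.toAlgHom R E₁ E)
      (algebraMap E₁ E).injective).mp ?_
    rw [IsScalarTower.coe_toAlgHom', map_inv₀]
    exact this.2.2
  have hσh : σ h = h := by
    rw [hhsum, map_sum]
    simp only [← Function.iterate_succ_apply']
    refine add_right_cancel (b := g₂) ?_
    have h1 := Finset.sum_range_succ' (fun i => σ^[i] g₂) e'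
    have h2 := Finset.sum_range_succ (fun i => σ^[i] g₂) e'
    simp only [Function.iterate_zero, id_eq] at h1
    rw [← h1, h2, hσid]
  obtain ⟨h₀, hh₀⟩ : ∃ h₀ : F, algebraMap F E₁ h₀ = h := by
    have hrep := (pb.basis.sum_repr h).symm
    simp only [PowerBasis.coe_basis, hgen] at hrep
    have h1 := congrArg σ hrep
    rw [hσh, map_sum] at h1
    simp only [map_smul, map_pow, hσu, mul_pow] at h1
    have hli := Fintype.linearIndependent_iff.mp pb.basis.linearIndependent
    have hzero : ∀ i : Fin pb.dim,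
        algebraMap F E₁ (pb.basis.repr h i) * (Z ^ (i : ℕ) - 1) = 0 := by
      -- `Z` lies in the base field
      have hZF : Z = algebraMap F E₁ (algebraMap R F ζ) := IsScalarTower.algebraMap_apply R F E₁ ζ
      intro i
      have h2 : ∑ i, (pb.basis.repr h i * ((algebraMap R F ζ) ^ (i : ℕ) - 1)) • pb.basis i = 0 := by
        simp only [PowerBasis.coe_basis, hgen, mul_sub, mul_one, sub_smul, Finset.sum_sub_distrib]
        rw [sub_eq_zero]
        refine Eq.trans ?_ (h1.symm.trans hrep)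
        refine Finset.sum_congr rfl fun i _ => ?_
        rw [hZF, ← map_pow, Algebra.smul_def, Algebra.smul_def, map_mul, mul_assoc]
        simp only [map_pow]
        rfl
      have := congrArg (algebraMap F E₁) (hli _ h2 i)
      rwa [map_mul, map_sub, map_pow, map_one, map_zero, ← hZF] at this
    have hdim' : pb.dim = e' := pb.finrank.symm.trans hdim
    let i₀ : Fin pb.dim := ⟨0, hdim' ▸ he'0⟩
    refine ⟨pb.basis.repr h i₀, ?_⟩
    conv_rhs => rw [hrep]
    rw [Finset.sum_eq_single i₀ (fun i _ hi => ?_) (fun h => absurd (Finset.mem_univ _) h)]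
    · simp [i₀, Algebra.smul_def]
      rfl
    · rcases mul_eq_zero.mp (hzero i) with h | h
      · rw [Algebra.smul_def, h, zero_mul]
      · exfalso
        refine hi (Fin.ext ?_)
        have := (hζE.pow_eq_one_iff_dvd i).mp (sub_eq_zero.mp h)
        exact Nat.eq_zero_of_dvd_of_lt this (hdim' ▸ i.2)
  have hh0 : h ≠ 0 := mul_ne_zero hz.1 hg₂
  set U₃ := U₂ / z ^ n
  have hU₃ : IsIntUnit R U₃ := hU₂.div (hz.pow n)
  have key3 : A₁ * u₁' ^ b = U₃ * h ^ n * u₁' ^ (a + n * j) * G ^ b := by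
    rw [key]
    simp only [U₃, h, g₂, mul_pow, div_pow, ← pow_mul, pow_add, mul_comm j n]
    field_simp [hu₁0, hz.1]
  have hkey3' := congrArg σ key3
  simp only [map_mul, map_pow, hσu, mul_pow, A₁, G, hσR, hσh] at hkey3'
  have hrel : Z ^ b * U₃ = σ U₃ * Z ^ (a + n * j) := by
    simp only [A₁, G] at key3
    refine mul_right_cancel₀ (mul_ne_zero (mul_ne_zero (pow_ne_zero n hh0)
      (pow_ne_zero (a + n * j) hu₁0)) (pow_ne_zero b hGne)) ?_
    simp only [G]
    linear_combination hkey3' - (Z ^ b) * key3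
  obtain ⟨t, ht⟩ : ∃ t, a + n * j = b + e' * t := by
    have h1 := congrArg res hrel
    rw [res_mul (hZu.pow b).2.1 hU₃.2.1, res_mul (hσint hU₃).2.1 (hZu.pow _).2.1,
      res_σ U₃ hU₃.2.1, ← map_pow, ← map_pow, res_R, res_R, map_pow, map_pow, map_pow, map_pow,
      mul_comm (res U₃), mul_left_inj' (res_ne hU₃)] at h1
    have hle : b ≤ a + n * j := by
      have : b ≤ j := le_trans (Nat.le_mul_of_pos_left b he'0) (Nat.le_add_left _ _)
      nlinarith
    obtain ⟨d, hd⟩ := Nat.exists_eq_add_of_le hle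
    rw [hd, pow_add] at h1
    have hξ0 : ξ ≠ 0 := fun h => one_ne_zero (by rw [← hξe, h, zero_pow he'0.ne'])
    obtain ⟨t, rfl⟩ := hξdvd ((mul_eq_left₀ (pow_ne_zero b hξ0)).mp h1.symm)
    exact ⟨t, hd⟩
  have key4 : A₁ = U₃ * h ^ n * (algebraMap R E₁ C.x) ^ t * G ^ b := by
    refine mul_right_cancel₀ (pow_ne_zero b hu₁0) ?_
    rw [key3, ht, pow_add, pow_mul, hu₁', ← IsScalarTower.algebraMap_apply R F E₁]
    ring
  let den : F := h₀ ^ n * algebraMap R F C.x ^ t * (algebraMap R F C.γ ^ Q) ^ b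
  have hh₀0 : h₀ ≠ 0 := fun h => hh0 (by rw [← hh₀, h, map_zero])
  have hden : den ≠ 0 := mul_ne_zero (mul_ne_zero (pow_ne_zero _ hh₀0)
    (pow_ne_zero _ ((map_ne_zero_iff _ (IsFractionRing.injective R F)).mpr C.x_ne)))
    (pow_ne_zero _ (pow_ne_zero _ ((map_ne_zero_iff _ (IsFractionRing.injective R F)).mpr C.γ_ne)))
  let V : F := algebraMap R F A ^ Q / den
  have hV : algebraMap F E₁ V = U₃ := by
    refine mul_right_cancel₀ ((map_ne_zero (algebraMap F E₁)).mpr hden) ?_
    rw [← map_mul, div_mul_cancel₀ _ hden]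
    simp only [den, map_mul, map_pow, hh₀, ← IsScalarTower.algebraMap_apply R F E₁]
    simp only [A₁, G] at key4
    linear_combination key4
  obtain ⟨V₀, hV₀⟩ := IsIntegrallyClosed.isIntegral_iff.mp
    ((isIntegral_algHom_iff (IsScalarTower.toAlgHom R F E₁) (algebraMap F E₁).injective).mp
      (by rw [IsScalarTower.coe_toAlgHom', hV]; exact hU₃.2.1) : IsIntegral R V)
  obtain ⟨V₁, hV₁⟩ := IsIntegrallyClosed.isIntegral_iff.mp
    ((isIntegral_algHom_iff (IsScalarTower.toAlgHom R F E₁) (algebraMap F E₁).injective).mp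
      (by rw [IsScalarTower.coe_toAlgHom', map_inv₀, hV]; exact hU₃.2.2) : IsIntegral R V⁻¹)
  have hV0 : V ≠ 0 := fun h => hU₃.1 (by rw [← hV, h, map_zero])
  have hVe : algebraMap R F A ^ Q = V * den := (div_mul_cancel₀ _ hden).symm
  clear_value V
  have hVu : IsUnit V₀ := IsUnit.of_mul_eq_one V₁ (IsFractionRing.injective R F
    (by rw [map_mul, hV₀, hV₁, mul_inv_cancel₀ hV0, map_one]))
  -- remove the exponent `Q`
  obtain ⟨s, t', hst⟩ : ∃ s t' : ℕ, Q * s = 1 + n * t' := by
    rcases (show n = 1 ∨ 1 < n by omega) with rfl | h1n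
    · exact ⟨1, Q - 1, by omega⟩
    obtain ⟨s, -, hs⟩ := Nat.exists_mul_mod_eq_one_of_coprime hQn h1n
    exact ⟨s, Q * s / n, by rw [← hs]; exact (Nat.mod_add_div _ _).symm⟩
  have hA0F : algebraMap R F A ≠ 0 := (map_ne_zero_iff _ (IsFractionRing.injective R F)).mpr hA
  refine ⟨V₀ ^ s, h₀ ^ s / algebraMap R F A ^ t', t * s, Q * b * s, hVu.pow s, ?_⟩
  simp only [map_mul, map_pow, hV₀]
  have h1 : algebraMap R F A ^ (Q * s) = (V * den) ^ s := by rw [pow_mul, hVe]
  rw [hst, pow_add, pow_one] at h1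
  rw [div_pow, ← mul_div_assoc, div_eq_iff (pow_ne_zero _ (pow_ne_zero _ hA0F))]
  simp only [den] at h1
  rw [← pow_mul (algebraMap R F A), mul_comm t' n, h1]
  ring

end NodeCover

end Fermat.Agent.Models
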