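/-
The local form of a Kummer function at nodes and at smooth points, and the roots of `τ f / f`.
-/
import Fermat.Agent.Models.CoreNodeExact

set_option autoImplicit false

noncomputable section

namespace Fermat.Agent.Models

open IsLocalRing
open scoped IntermediateField

/-- Near `Q`, the function is a monomial in `x`, `γ` times a unit and an `n`-th power. -/
def HasFormAt (R : Type) {F : Type} [CommRing R] [Field F] [Algebra R F] (n : ℕ) (x γ : R) (f : F)
    (Q : Ideal R) : Prop :=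
  ∃ (h : F) (a b : R) (i j : ℕ), a ∉ Q ∧ b ∉ Q ∧
    algebraMap R F (b * x ^ i * γ ^ j) * h ^ n = algebraMap R F a * f

/-- An automorphism fixing `x` and moving `γ` by a unit turns the form into a root. -/
theorem HasFormAt.root_map_div {R F : Type} [CommRing R] [Field F] [Algebra R F] {n : ℕ}
    {x γ : R} {f : F} {Q : Ideal R} [Q.IsPrime] (h : HasFormAt R n x γ f Q) (hf : f ≠ 0)
    (hx : algebraMap R F x ≠ 0) (hγ : algebraMap R F γ ≠ 0)
    (hinj : ∀ r ∉ Q, algebraMap R F r ≠ 0) (τ : F →+* F)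
    (hmap : ∀ r : R, ∃ r', τ (algebraMap R F r) = algebraMap R F r' ∧ (r ∉ Q → r' ∉ Q))
    (hτx : τ (algebraMap R F x) = algebraMap R F x)
    (hτγ : ∃ v ∉ Q, τ (algebraMap R F γ) = algebraMap R F γ * algebraMap R F v) :
    HasRootAt R n (τ f / f) Q := by
  obtain ⟨z, a, b, i, j, ha, hb, he⟩ := h
  obtain ⟨a', ha', ha'Q⟩ := hmap a
  obtain ⟨b', hb', hb'Q⟩ := hmap b
  obtain ⟨v, hv, hv'⟩ := hτγ
  have he' := congrArg τ he
  simp only [map_mul, map_pow, ha', hb', hτx, hv'] at he he'
  have hz : z ^ n ≠ 0 := fun h0 => by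
    rw [h0, mul_zero, eq_comm, mul_eq_zero] at he
    exact he.elim (hinj a ha) hf
  refine ⟨τ z / z, b * a', b' * v ^ j * a, ?_, ?_, ?_⟩
  · exact fun h => (Ideal.IsPrime.mem_or_mem ‹_› h).elim hb (ha'Q ha)
  · exact fun h => (Ideal.IsPrime.mem_or_mem ‹_› h).elim
      (fun h => (Ideal.IsPrime.mem_or_mem ‹_› h).elim (hb'Q hb)
        fun h => hv (Ideal.IsPrime.mem_of_pow_mem ‹_› _ h)) ha
  · rw [map_mul, map_mul, map_mul, map_pow, div_pow, ← mul_div_assoc, ← mul_div_assoc,
      div_eq_div_iff hz hf]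
    have hxi : algebraMap R F x ^ i * algebraMap R F γ ^ j ≠ 0 :=
      mul_ne_zero (pow_ne_zero _ hx) (pow_ne_zero _ hγ)
    refine mul_right_cancel₀ hxi ?_
    linear_combination (algebraMap R F a * f) * he' - (algebraMap R F a' * τ f) * he

section Local

variable {R : Type} [CommRing R] [IsDomain R] [IsNoetherianRing R] [IsLocalRing R]
  {F : Type} [Field F] [Algebra R F] [IsFractionRing R F]

/-- A function as a fraction whose numerator has roots wherever it has. -/
theorem exists_numerator {n : ℕ} (hn : 0 < n) {f : F} (hf : f ≠ 0) :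
    ∃ A b : R, A ≠ 0 ∧ b ≠ 0 ∧ algebraMap R F A = algebraMap R F b ^ n * f ∧
      ∀ Q : Ideal R, HasRootAt R n f Q → HasRootAt R n (algebraMap R F A) Q := by
  obtain ⟨a, b, hb, rfl⟩ := IsFractionRing.div_surjective (A := R) (K := F) f
  have hb0 : b ≠ 0 := nonZeroDivisors.ne_zero hb
  have hbF : algebraMap R F b ≠ 0 := (map_ne_zero_iff _ (IsFractionRing.injective R F)).mpr hb0
  obtain ⟨k, rfl⟩ : ∃ k, n = k + 1 := ⟨n - 1, (Nat.sub_add_cancel hn).symm⟩
  have ha0 : a ≠ 0 := by
    rintro rfl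
    simp at hf
  have hA : algebraMap R F (a * b ^ k) =
      algebraMap R F b ^ (k + 1) * (algebraMap R F a / algebraMap R F b) := by
    rw [map_mul, map_pow, pow_succ]
    field_simp
  refine ⟨a * b ^ k, b, mul_ne_zero ha0 (pow_ne_zero _ hb0), hb0, hA, fun Q => ?_⟩
  rintro ⟨z, c, d, hc, hd, he⟩
  refine ⟨z * algebraMap R F b, c, d, hc, hd, ?_⟩
  rw [hA, mul_pow, ← mul_assoc, he]
  ring

/-- The form at a smooth point of the special fibre. -/
theorem hasFormAt_smooth {n : ℕ} (hn : 0 < n) {x γ : R}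
    (hm : maximalIdeal R = Ideal.span {γ, x}) (hγ : γ ≠ 0) (P : Ideal R) [P.IsPrime]
    (hγP : γ ∈ P) (hxP : x ∉ P) {f : F} (hf : f ≠ 0)
    (hroots : ∀ Q : Ideal R, Q.IsPrime → Q ≠ ⊥ → γ ∉ Q → HasRootAt R n f Q) :
    HasFormAt R n x γ f (maximalIdeal R) := by
  haveI := ufm_of_two_generated hm hγ P hγP hxP
  have hγp := prime_of_two_generated hm hγ P hγP hxP
  obtain ⟨A, b, hA, hb, hAf, hAroots⟩ := exists_numerator (R := R) hn hf
  obtain ⟨j, A', hA', hAj⟩ := WfDvdMonoid.max_power_factor hA hγp.irreducible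
  have hA'0 : A' ≠ 0 := fun h => hA' (h ▸ dvd_zero _)
  obtain ⟨u, g, hu, -, hug⟩ := exists_unit_mul_pow hn A' hA'0 fun p k hp h1 h2 => by
    rcases Nat.eq_zero_or_pos k with rfl | hk
    · exact dvd_zero n
    have hγQ : γ ∉ Ideal.span {p} := fun h => by
      have := hp.associated_of_dvd hγp (Ideal.mem_span_singleton.mp h)
      exact hA' (this.symm.dvd.trans ((dvd_pow_self p hk.ne').trans h1))
    obtain ⟨z, a', b', ha', hb', he⟩ := hAroots _ (hroots _
      ((Ideal.span_singleton_prime hp.ne_zero).mpr hp) (by simpa using hp.ne_zero) hγQ)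
    obtain ⟨m, hm'⟩ := h1
    refine dvd_multiplicity_of_root (S := R) (K := F) hn hp (A := A) (m := γ ^ j * m)
      (by rw [hAj, hm']; ring) (fun h => ?_) (z := z) (a := a') (b := b')
      (fun h => ha' (Ideal.mem_span_singleton.mpr h))
      (fun h => hb' (Ideal.mem_span_singleton.mpr h)) (by rw [he, map_mul])
    rcases hp.dvd_or_dvd h with h | h
    · exact hγQ (Ideal.mem_span_singleton.mpr (hp.dvd_of_dvd_pow h))
    · exact h2 (by rw [hm', pow_succ]; exact mul_dvd_mul_left _ h)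
  have hbF : algebraMap R F b ≠ 0 := (map_ne_zero_iff _ (IsFractionRing.injective R F)).mpr hb
  refine ⟨algebraMap R F g / algebraMap R F b, 1, u, 0, j,
    fun h => (maximalIdeal.isMaximal R).ne_top ((Ideal.eq_top_iff_one _).mpr h),
    fun h => (maximalIdeal.isMaximal R).ne_top (Ideal.eq_top_of_isUnit_mem _ h hu), ?_⟩
  rw [hAj, hug] at hAf
  rw [div_pow, ← mul_div_assoc, div_eq_iff (pow_ne_zero _ hbF), pow_zero, mul_one, map_one, one_mul,
    mul_comm f, ← hAf, ← map_pow, ← map_mul]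
  congr 1
  ring

variable [IsIntegrallyClosed R]

/-- The form at a node. -/
theorem hasFormAt_node {n : ℕ} (hn : 0 < n) {x y γ : R} {e : ℕ} (he : 0 < e)
    (hm : maximalIdeal R = Ideal.span {x, y, γ}) (hxy : x * y = γ ^ e) (hx : x ≠ 0)
    (hP : ∃ P : Ideal R, P.IsPrime ∧ x ∈ P ∧ y ∉ P) (hP' : ∃ P : Ideal R, P.IsPrime ∧ y ∈ P ∧ x ∉ P)
    {e' Q : ℕ} (heQ : e = e' * Q) {ζ : R} (hζ : IsPrimitiveRoot ζ e') (he' : IsUnit (e' : R))
    (hQn : Q.Coprime n) {f : F} (hf : f ≠ 0)
    (hroots : ∀ Q : Ideal R, Q.IsPrime → Q ≠ ⊥ → γ ∉ Q → HasRootAt R n f Q) :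
    HasFormAt R n x γ f (maximalIdeal R) := by
  let Ω := AlgebraicClosure F
  have hinjF := IsFractionRing.injective R F
  have hinj : Function.Injective (algebraMap R Ω) := by
    rw [IsScalarTower.algebraMap_eq R F Ω]
    exact (algebraMap F Ω).injective.comp hinjF
  obtain ⟨u, hu⟩ := IsAlgClosed.exists_pow_nat_eq (algebraMap R Ω x) he
  have hu0 : u ≠ 0 := by
    rintro rfl
    rw [zero_pow he.ne'] at hu
    exact (map_ne_zero_iff _ hinj).mpr hx hu.symm
  have huF : IsIntegral F u :=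
    IsIntegral.of_pow he (hu ▸ IsScalarTower.algebraMap_apply R F Ω x ▸ isIntegral_algebraMap)
  let E : IntermediateField F Ω := F⟮u⟯
  let pb := IntermediateField.adjoin.powerBasis huF
  let uE : E := ⟨u, IntermediateField.mem_adjoin_simple_self F u⟩
  have huE : uE ^ e = algebraMap R E x := Subtype.ext (by push_cast; exact hu)
  have hxE : algebraMap R E x ≠ 0 := fun h =>
    (map_ne_zero_iff _ hinj).mpr hx (congrArg Subtype.val h)
  have huE0 : uE ≠ 0 := fun h => hu0 (congrArg Subtype.val h)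
  haveI : IsScalarTower R F E := IsScalarTower.of_algebraMap_eq fun r =>
    Subtype.ext (IsScalarTower.algebraMap_apply R F Ω r)
  let C : NodeCover R F E :=
    { x := x
      y := y
      γ := γ
      e := e
      u := uE
      v := algebraMap R E γ / uE
      e_pos := he
      hm := hm
      hxy := hxy
      x_ne := hx
      u_pow := huE
      v_pow := by rw [div_pow, huE, ← map_pow, ← hxy, map_mul, mul_div_cancel_left₀ _ hxE]
      u_mul_v := mul_div_cancel₀ _ huE0
      adjoin_u := pb.adjoin_gen_eq_top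
      exists_P := hP
      exists_P' := hP' }
  obtain ⟨A, b, hA, hb, hAf, hAroots⟩ := exists_numerator (R := R) hn hf
  obtain ⟨U, z, i, j, hU, hz⟩ := C.exists_monomial_root (n := n) hn (e' := e') (Q := Q) heQ hζ he'
    hQn hA fun Q hQ hQ0 hQγ => hAroots Q (hroots Q hQ hQ0 hQγ)
  have hbF : algebraMap R F b ≠ 0 := (map_ne_zero_iff _ hinjF).mpr hb
  refine ⟨z / algebraMap R F b, 1, U, i, j,
    fun h => (maximalIdeal.isMaximal R).ne_top ((Ideal.eq_top_iff_one _).mpr h),
    fun h => (maximalIdeal.isMaximal R).ne_top (Ideal.eq_top_of_isUnit_mem _ h hU), ?_⟩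
  rw [div_pow, ← mul_div_assoc, div_eq_iff (pow_ne_zero _ hbF), map_one, one_mul, mul_comm f, ← hAf]
  exact hz

end Local

section Global

variable {R : Type} [CommRing R] [IsDomain R] {F : Type} [Field F] [Algebra R F]
  [IsFractionRing R F]

/-- A form in the local ring is a form. -/
theorem HasFormAt.of_localization (m : Ideal R) [m.IsPrime] {L : Type} [CommRing L] [IsLocalRing L]
    [Algebra R L] [IsLocalization.AtPrime L m] [Algebra L F] [IsScalarTower R L F] {n : ℕ} {x γ : R}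
    {f : F} (h : HasFormAt L n (algebraMap R L x) (algebraMap R L γ) f (maximalIdeal L)) :
    HasFormAt R n x γ f m := by
  obtain ⟨z, a, b, i, j, ha, hb, he⟩ := h
  obtain ⟨a₀, s, rfl⟩ := IsLocalization.exists_mk'_eq m.primeCompl a
  obtain ⟨b₀, t, rfl⟩ := IsLocalization.exists_mk'_eq m.primeCompl b
  rw [IsLocalization.AtPrime.mk'_mem_maximal_iff L m] at ha hb
  refine ⟨z, a₀ * t, b₀ * s, i, j, fun h => (Ideal.IsPrime.mem_or_mem ‹_› h).elim ha t.2,
    fun h => (Ideal.IsPrime.mem_or_mem ‹_› h).elim hb s.2, ?_⟩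
  have hsL : algebraMap R F a₀ = algebraMap L F (IsLocalization.mk' L a₀ s) * algebraMap R F s := by
    rw [IsScalarTower.algebraMap_apply R L F s, ← map_mul, IsLocalization.mk'_spec,
      ← IsScalarTower.algebraMap_apply]
  have htL : algebraMap R F b₀ = algebraMap L F (IsLocalization.mk' L b₀ t) * algebraMap R F t := by
    rw [IsScalarTower.algebraMap_apply R L F t, ← map_mul, IsLocalization.mk'_spec,
      ← IsScalarTower.algebraMap_apply]
  simp only [map_mul, map_pow, ← IsScalarTower.algebraMap_apply R L F] at he ⊢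
  rw [hsL, htL]
  linear_combination (algebraMap R F t * algebraMap R F s) * he

/-- Roots along primes pass to the local ring. -/
theorem hasRootAt_localization (m : Ideal R) [m.IsPrime] {L : Type} [CommRing L]
    [Algebra R L] [IsLocalization.AtPrime L m] [Algebra L F] [IsScalarTower R L F] {n : ℕ} {f : F}
    {γ : R} (h : ∀ Q : Ideal R, Q.IsPrime → Q ≠ ⊥ → γ ∉ Q → HasRootAt R n f Q) :
    ∀ Q : Ideal L, Q.IsPrime → Q ≠ ⊥ → algebraMap R L γ ∉ Q → HasRootAt L n f Q := by
  intro Q hQ hQ0 hγ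
  have hc0 : Q.comap (algebraMap R L) ≠ ⊥ := fun h0 => hQ0 (by
    rw [← IsLocalization.map_under m.primeCompl L Q, Ideal.under_def, h0, Ideal.map_bot])
  obtain ⟨z, a, b, ha, hb, he⟩ := h _ (hQ.comap _) hc0 hγ
  refine ⟨z, algebraMap R L a, algebraMap R L b, ha, hb, ?_⟩
  rw [← IsScalarTower.algebraMap_apply, ← IsScalarTower.algebraMap_apply]
  exact he

end Global

end Fermat.Agent.Models
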