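/-
Two automorphisms trivial on the special fibre, applied to a Kummer function with forms at the
points of the special fibre: `(τ - 1) (τ' - 1)` kills its class.
-/
import Fermat.Agent.Models.PointForm
import Fermat.Agent.Models.CoreInvariant

set_option autoImplicit false

noncomputable section

namespace Fermat.Agent.Models

section Alg

variable {R F : Type} [CommRing R] [Field F] [Algebra R F] {n : ℕ}

theorem HasRootAt.mul {f g : F} {Q : Ideal R} [Q.IsPrime] (hf : HasRootAt R n f Q)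
    (hg : HasRootAt R n g Q) : HasRootAt R n (f * g) Q := by
  obtain ⟨x, a, b, ha, hb, he⟩ := hf
  obtain ⟨y, c, d, hc, hd, he'⟩ := hg
  refine ⟨x * y, a * c, b * d, fun h => (Ideal.IsPrime.mem_or_mem ‹_› h).elim ha hc,
    fun h => (Ideal.IsPrime.mem_or_mem ‹_› h).elim hb hd, ?_⟩
  rw [map_mul, map_mul, mul_pow]
  linear_combination (algebraMap R F d * y ^ n) * he + algebraMap R F a * f * he'

theorem HasRootAt.inv {f : F} {Q : Ideal R} (hf : HasRootAt R n f Q) (hf0 : f ≠ 0)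
    (hinj : ∀ r ∉ Q, algebraMap R F r ≠ 0) : HasRootAt R n f⁻¹ Q := by
  obtain ⟨x, a, b, ha, hb, he⟩ := hf
  refine ⟨x⁻¹, b, a, hb, ha, ?_⟩
  have hx : x ^ n ≠ 0 := fun h0 => by
    rw [h0, mul_zero, eq_comm, mul_eq_zero] at he
    exact he.elim (hinj a ha) hf0
  rw [inv_pow]
  field_simp
  linear_combination -he

end Alg

variable {O F : Type} [CommRing O] [IsNoetherianRing O] [Field F] [Algebra O F] {n : ℕ}

/-- The hypothesis on one chart. -/
def HasForms (B : Subalgebra O F) (ϖ : O) (n : ℕ) (τ : F →+* F) (f : F) : Prop :=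
  (∀ P : Ideal B, P.IsPrime → algebraMap O B ϖ ∉ P → HasRootAt B n f P) ∧
  ∀ m : Ideal B, m.IsMaximal → algebraMap O B ϖ ∈ m → HasRootAt B n f m ∨
    ∃ x : B, (x : F) ≠ 0 ∧ τ x = x ∧ HasFormAt B n x (algebraMap O B ϖ) f m

variable {B : Subalgebra O F} {hB : RootClosed B n} {hn : 0 < n}

/-- The quotient `τ f / f` is extendable. -/
theorem HasForms.isExtendable_map_div {ϖ : O} {τ : F →+* F} {f : F} (h : HasForms B ϖ n τ f)
    (hf : f ≠ 0) (hϖ : algebraMap O F ϖ ≠ 0) (hτ : TrivialMod B ϖ τ)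
    (hτϖ : ∃ v : B, IsUnit v ∧ τ (algebraMap O F ϖ) = algebraMap O F ϖ * v) :
    IsExtendable hB hn (τ f / f) := by
  refine isExtendable_of_forall (div_ne_zero ((map_ne_zero τ).mpr hf) hf) fun m hm => ?_
  haveI := hm.isPrime
  obtain ⟨v, hv, hvϖ⟩ := hτϖ
  let τB : B →+* B := (τ.comp B.val.toRingHom).codRestrict B.toSubsemiring fun b => hτ.map_mem b.2
  have hinj : ∀ P : Ideal B, ∀ r ∉ P, algebraMap B F r ≠ 0 := fun P r hr h0 =>
    hr (by rw [show r = 0 from Subtype.ext h0]; exact P.zero_mem)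
  by_cases hmϖ : algebraMap O B ϖ ∈ m
  · have hmap : ∀ r : B, ∃ r', τ (algebraMap B F r) = algebraMap B F r' ∧ (r ∉ m → r' ∉ m) := by
      intro r
      refine ⟨τB r, rfl, fun hr hr' => hr ?_⟩
      obtain ⟨e, he, hee⟩ := hτ r r.2
      have : τB r - r = algebraMap O B ϖ * ⟨e, he⟩ := Subtype.ext (by
        rw [AddSubgroupClass.coe_sub, MulMemClass.coe_mul]
        exact hee.trans (Algebra.smul_def _ _))
      rw [← sub_sub_cancel (τB r) r, this]
      exact sub_mem hr' (m.mul_mem_right _ hmϖ)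
    rcases h.2 m hm hmϖ with hr | ⟨x, hx0, hτx, hform⟩
    · obtain ⟨z, a, b, ha, hb, he⟩ := hr
      obtain ⟨a', ha', ha'm⟩ := hmap a
      obtain ⟨b', hb', hb'm⟩ := hmap b
      have hroot : HasRootAt B n (τ f) m := ⟨τ z, a', b', ha'm ha, hb'm hb, by
        have := congrArg τ he
        rwa [map_mul, map_mul, map_pow, ha', hb'] at this⟩
      rw [div_eq_mul_inv]
      exact hroot.mul (HasRootAt.inv ⟨z, a, b, ha, hb, he⟩ hf (hinj m))
    · exact hform.root_map_div hf hx0 hϖ (hinj m) τ hmap hτx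
        ⟨v, fun hvm => hm.ne_top (Ideal.eq_top_of_isUnit_mem _ hvm hv), hvϖ⟩
  · have hP : algebraMap O B ϖ ∉ m.comap τB := fun hP => hmϖ (by
      have h1 : τB (algebraMap O B ϖ) = algebraMap O B ϖ * v := Subtype.ext hvϖ
      rw [Ideal.mem_comap, h1] at hP
      exact (hm.isPrime.mem_or_mem hP).resolve_right fun hvm =>
        hm.ne_top (Ideal.eq_top_of_isUnit_mem _ hvm hv))
    obtain ⟨z, a, b, ha, hb, he⟩ := h.1 _ (Ideal.IsPrime.comap τB) hP
    have hroot : HasRootAt B n (τ f) m := ⟨τ z, τB a, τB b, ha, hb, by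
      have := congrArg τ he
      rwa [map_mul, map_mul, map_pow] at this⟩
    rw [div_eq_mul_inv]
    exact hroot.mul ((h.1 m hm.isPrime hmϖ).inv hf (hinj m))

/-- `(τ - 1) (τ' - 1)` kills the class of a function with forms on both charts. -/
theorem Charts.exists_root_double (M : Charts O F n) (hn : 0 < n) (ϖ ν : O)
    (hν : (n : O) * ν = 1) (hϖ0 : algebraMap O F ϖ ≠ 0) (hϖ : ¬ ∃ b ∈ M.B₀, ϖ • b = 1)
    (τ τ' : F →+* F) (hw : τ M.w = M.w) (hτ₀ : TrivialMod M.B₀ ϖ τ) (hτ₁ : TrivialMod M.B₁ ϖ τ)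
    (hτ'₀ : TrivialMod M.B₀ ϖ τ') (hτ'₁ : TrivialMod M.B₁ ϖ τ')
    (hτ'ϖ : ∃ v : Oˣ, τ' (algebraMap O F ϖ) = algebraMap O F ϖ * algebraMap O F v)
    {f : F} (hf : f ≠ 0) (h₀ : HasForms M.B₀ ϖ n τ' f) (h₁ : HasForms M.B₁ ϖ n τ' f) :
    ∃ (c : O) (h : F), algebraMap O F c ≠ 0 ∧ h ≠ 0 ∧
      h ^ n = algebraMap O F c * (τ (τ' f / f) / (τ' f / f)) := by
  obtain ⟨v, hv⟩ := hτ'ϖ
  exact M.exists_root_map_div hn (div_ne_zero ((map_ne_zero τ').mpr hf) hf)
    (h₀.isExtendable_map_div hf hϖ0 hτ'₀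
      ⟨algebraMap O M.B₀ v, v.isUnit.map _, hv⟩)
    (h₁.isExtendable_map_div hf hϖ0 hτ'₁
      ⟨algebraMap O M.B₁ v, v.isUnit.map _, hv⟩)
    ϖ ν hν hϖ0 hϖ τ hτ₀ hτ₁ (M.trivialMod_overlap ϖ τ hw hτ₀)

end Fermat.Agent.Models
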