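/-
Charts with smooth points and nodes on the special fibre: reducedness, and the forms of a Kummer
function over a totally ramified extension of the base.
-/
import Fermat.Agent.Models.BaseChange
import Fermat.Agent.Models.DoubleRoot

set_option autoImplicit false
set_option linter.style.haveILetI false
set_option linter.unusedSectionVars false

noncomputable section

namespace Fermat.Agent.Models

open IsLocalRing

section Def

variable {O F : Type} [CommRing O] [Field F] [Algebra O F]

/-- A point where the special fibre is smooth. -/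
def IsSmoothPoint (B : Subalgebra O F) (π : O) (m : Ideal B) : Prop :=
  ∃ (x : B) (P : Ideal B), P.IsPrime ∧ P ≤ m ∧ algebraMap O B π ∈ P ∧ x ∉ P ∧ x ∈ m ∧
    ∀ z ∈ m, ∃ s ∉ m, s * z ∈ Ideal.span {algebraMap O B π, x}

/-- A point where two branches cross with `x * y = π`, up to a unit. -/
def IsNodePoint (B : Subalgebra O F) (π : O) (m : Ideal B) : Prop :=
  ∃ x y u : B, u ∉ m ∧ x * y = algebraMap O B π * u ∧ x ∈ m ∧ y ∈ m ∧
    (∀ z ∈ m, ∃ s ∉ m, s * z ∈ Ideal.span {x, y}) ∧
    (∃ P : Ideal B, P.IsPrime ∧ P ≤ m ∧ x ∈ P ∧ y ∉ P) ∧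
    ∃ P : Ideal B, P.IsPrime ∧ P ≤ m ∧ y ∈ P ∧ x ∉ P

/-- All closed points of the special fibre are smooth points or nodes. -/
def SemiPoints (B : Subalgebra O F) (π : O) : Prop :=
  ∀ m : Ideal B, m.IsMaximal → algebraMap O B π ∈ m → IsSmoothPoint B π m ∨ IsNodePoint B π m

end Def

section Reduced

variable {R : Type} [CommRing R] [IsDomain R] [IsNoetherianRing R]

/-- Two local parameters in the local ring. -/
theorem maximalIdeal_eq_span_pair (m : Ideal R) [m.IsPrime] {x y : R} (hx : x ∈ m) (hy : y ∈ m)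
    (hgen : ∀ z ∈ m, ∃ s ∉ m, s * z ∈ Ideal.span {x, y}) :
    maximalIdeal (Localization.AtPrime m) =
      Ideal.span {algebraMap R _ x, algebraMap R _ y} := by
  refine le_antisymm (fun z hz => ?_) ?_
  · obtain ⟨a, s, rfl⟩ := IsLocalization.exists_mk'_eq m.primeCompl z
    rw [IsLocalization.AtPrime.mk'_mem_maximal_iff (Localization.AtPrime m) m] at hz
    obtain ⟨t, ht, htz⟩ := hgen a hz
    have h1 : algebraMap R (Localization.AtPrime m) (t * a) ∈
        Ideal.span {algebraMap R (Localization.AtPrime m) x, algebraMap R _ y} := by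
      have h2 := Ideal.mem_map_of_mem (algebraMap R (Localization.AtPrime m)) htz
      rwa [Ideal.map_span, Set.image_pair] at h2
    rw [map_mul, Ideal.unit_mul_mem_iff_mem _
      (IsLocalization.map_units _ (⟨t, ht⟩ : m.primeCompl))] at h1
    rwa [← IsLocalization.mk'_spec (Localization.AtPrime m) a s,
      Ideal.mul_unit_mem_iff_mem _ (IsLocalization.map_units _ s)] at h1
  · rw [Ideal.span_le]
    rintro _ (rfl | rfl)
    · exact (IsLocalization.AtPrime.to_map_mem_maximal_iff _ m x).mpr hx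
    · exact (IsLocalization.AtPrime.to_map_mem_maximal_iff _ m y).mpr hy

/-- A prime below the point is a prime of the local ring. -/
theorem exists_prime_localization (m : Ideal R) [m.IsPrime] {P : Ideal R} [P.IsPrime] (hP : P ≤ m)
    {a b : R} (ha : a ∈ P) (hb : b ∉ P) :
    ∃ P' : Ideal (Localization.AtPrime m), P'.IsPrime ∧ algebraMap R _ a ∈ P' ∧
      algebraMap R _ b ∉ P' := by
  have hd : Disjoint (m.primeCompl : Set R) (P : Set R) :=
    Set.disjoint_left.mpr fun z hz hzP => hz (hP hzP)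
  refine ⟨P.map (algebraMap R _),
    IsLocalization.isPrime_of_isPrime_disjoint m.primeCompl (Localization.AtPrime m) P ‹_› hd,
    Ideal.mem_map_of_mem _ ha, fun h => hb ?_⟩
  rw [← IsLocalization.under_map_of_isPrime_disjoint m.primeCompl (Localization.AtPrime m) ‹_› hd]
  exact h

/-- The powers of a product of two primes that are not associated. -/
theorem dvd_of_dvd_pow_pair {x y π : R} (hx : Prime x) (hy : Prime y) (hxy : ¬ x ∣ y)
    (hπ : Associated π (x * y)) {b : R} {k : ℕ} (h : π ∣ b ^ k) : π ∣ b := by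
  rw [hπ.dvd_iff_dvd_left] at h ⊢
  obtain ⟨c, rfl⟩ := hx.dvd_of_dvd_pow ((dvd_mul_right x y).trans h)
  have h1 := hy.dvd_of_dvd_pow ((dvd_mul_left y x).trans h)
  rcases hy.dvd_or_dvd h1 with h2 | h2
  · exact absurd (hy.associated_of_dvd hx h2).symm.dvd hxy
  · exact mul_dvd_mul_left x h2

end Reduced

variable {O F : Type} [CommRing O] [Field F] [Algebra O F]

/-- Smooth points and nodes have reduced fibres. -/
theorem reduced_of_semiPoints {B : Subalgebra O F} [IsNoetherianRing B] {π : O}
    (h : SemiPoints B π) (hπ : algebraMap O F π ≠ 0) {b : F} (hb : b ∈ B) {k : ℕ}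
    (hbk : ∃ c ∈ B, b ^ k = algebraMap O F π * c) : ∃ c ∈ B, b = algebraMap O F π * c := by
  obtain ⟨c, hc, hbc⟩ := hbk
  set πB := algebraMap O B π with hπB
  have hdvd : πB ∣ (⟨b, hb⟩ : B) ^ k := ⟨⟨c, hc⟩, Subtype.ext hbc⟩
  suffices hI : (Ideal.span {πB}).colon ({(⟨b, hb⟩ : B)} : Set B) = ⊤ by
    obtain ⟨d, hd⟩ := Ideal.mem_span_singleton.mp
      (by simpa using Submodule.mem_colon_singleton.mp (hI ▸ Submodule.mem_top : (1 : B) ∈ _))
    exact ⟨d, d.2, congrArg Subtype.val hd⟩
  by_contra hne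
  obtain ⟨m, hm, hle⟩ := Ideal.exists_le_maximal _ hne
  have hπm : πB ∈ m := hle (Submodule.mem_colon_singleton.mpr
    (Ideal.mul_mem_right _ _ (Ideal.mem_span_singleton_self _)))
  let R := Localization.AtPrime m
  haveI : IsNoetherianRing R :=
    IsLocalization.isNoetherianRing m.primeCompl (Localization.AtPrime m) inferInstance
  have hinj : Function.Injective (algebraMap B R) :=
    IsLocalization.injective R m.primeCompl_le_nonZeroDivisors
  have hπ0 : πB ≠ 0 := fun h0 => hπ (congrArg Subtype.val h0)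
  suffices hloc : algebraMap B R πB ∣ algebraMap B R ⟨b, hb⟩ by
    rw [← Ideal.mem_span_singleton, show Ideal.span {algebraMap B R πB} =
      (Ideal.span {πB}).map (algebraMap B R) by rw [Ideal.map_span, Set.image_singleton],
      IsLocalization.algebraMap_mem_map_algebraMap_iff m.primeCompl R] at hloc
    obtain ⟨s, hs, hsb⟩ := hloc
    exact hs (hle (Submodule.mem_colon_singleton.mpr hsb))
  have hk : algebraMap B R πB ∣ algebraMap B R ⟨b, hb⟩ ^ k :=
    (map_pow (algebraMap B R) _ k) ▸ map_dvd _ hdvd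
  rcases h m hm hπm with ⟨x, P, hP, hPm, hπP, hxP, hxm, hgen⟩ |
    ⟨x, y, u, hu, hxy, hxm, hym, hgen, ⟨P, hP, hPm, hxP, hyP⟩, P', hP', hP'm, hyP', hxP'⟩
  · have hR := maximalIdeal_eq_span_pair m hπm hxm hgen
    obtain ⟨Q, hQ, hπQ, hxQ⟩ := exists_prime_localization m hPm hπP hxP
    exact (prime_of_two_generated hR ((map_ne_zero_iff _ hinj).mpr hπ0) Q hπQ hxQ).dvd_of_dvd_pow hk
  · have hR := maximalIdeal_eq_span_pair m hxm hym hgen
    have hxy0 : x * y ≠ 0 := hxy ▸ mul_ne_zero hπ0 fun h0 => hu (h0 ▸ zero_mem m)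
    obtain ⟨Q, hQ, hxQ, hyQ⟩ := exists_prime_localization m hPm hxP hyP
    obtain ⟨Q', hQ', hyQ', hxQ'⟩ := exists_prime_localization m hP'm hyP' hxP'
    have hx := prime_of_two_generated hR ((map_ne_zero_iff _ hinj).mpr (left_ne_zero_of_mul hxy0))
      Q hxQ hyQ
    have hy := prime_of_two_generated (hR.trans (congrArg Ideal.span (Set.pair_comm _ _)))
      ((map_ne_zero_iff _ hinj).mpr (right_ne_zero_of_mul hxy0)) Q' hyQ' hxQ'
    refine dvd_of_dvd_pow_pair hx hy (fun hd => hyQ ?_) ?_ hk
    · obtain ⟨d, hd⟩ := hd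
      rw [hd]
      exact Q.mul_mem_right _ hxQ
    · rw [← map_mul, hxy, map_mul]
      exact associated_mul_unit_right _ _ (IsLocalization.map_units R (⟨u, hu⟩ : m.primeCompl))

section Extend

variable {O' F' : Type} [CommRing O'] [Field F'] [Algebra O O'] [Algebra O' F'] [Algebra F F']
  [Algebra O F'] [IsScalarTower O F F'] [IsScalarTower O O' F'] (X : TotRam O O' F F')

namespace TotRam

variable (B : Subalgebra O F)

/-- The inclusion of a chart in its extension. -/
def incl : B →+* X.extend B :=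
  ((algebraMap F F').comp B.val.toRingHom).codRestrict (X.extend B).toSubsemiring
    fun b => X.map_mem_extend B b.2

theorem incl_injective : Function.Injective (X.incl B) := fun _ _ h =>
  Subtype.ext ((algebraMap F F').injective (congrArg Subtype.val h))

theorem incl_isIntegral : (X.incl B).IsIntegral := by
  letI : Algebra B (X.extend B) := (X.incl B).toAlgebra
  haveI : IsScalarTower B (X.extend B) F' := IsScalarTower.of_algebraMap_eq fun _ => rfl
  intro z
  exact (isIntegral_algHom_iff (IsScalarTower.toAlgHom B (X.extend B) F')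
    Subtype.val_injective).mp (X.isIntegral_extend z.2)

/-- The uniformiser in the chart. -/
theorem algebraMap_ϖ : algebraMap O' (X.extend B) X.ϖ = ⟨X.gen, X.gen_mem_extend B⟩ :=
  Subtype.ext rfl

theorem incl_π : X.incl B (algebraMap O B X.π) =
    ⟨_, X.map_mem_extend B (B.algebraMap_mem X.π)⟩ :=
  Subtype.ext rfl

theorem incl_π_mem (m : Ideal (X.extend B)) (h : algebraMap O' (X.extend B) X.ϖ ∈ m) :
    X.incl B (algebraMap O B X.π) ∈ m := by
  have e : X.incl B (algebraMap O B X.π) = algebraMap O' (X.extend B) X.ϖ ^ X.e *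
      algebraMap O' (X.extend B) ((X.unit⁻¹ : O'ˣ) : O') := by
    rw [algebraMap_ϖ]
    exact Subtype.ext X.gen_mul_unit_inv
  rw [e]
  exact m.mul_mem_right _ (Ideal.pow_mem_of_mem m h _ X.e_pos)

theorem incl_mem_span {x y : B} {z : B} (h : z ∈ Ideal.span {x, y}) :
    z ∈ Ideal.span {x, y, algebraMap O B X.π} :=
  Ideal.span_mono (by rintro _ (rfl | rfl) <;> simp) h

/-- Generators at a point above the closed point. -/
theorem maximalIdeal_extend (m : Ideal (X.extend B)) [m.IsPrime]
    (hm : algebraMap O' (X.extend B) X.ϖ ∈ m) (x y : B) (hx : X.incl B x ∈ m)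
    (hy : X.incl B y ∈ m)
    (hgen : ∀ z ∈ m.comap (X.incl B),
      ∃ s ∉ m.comap (X.incl B), s * z ∈ Ideal.span {x, y, algebraMap O B X.π}) :
    maximalIdeal (Localization.AtPrime m) = Ideal.span {algebraMap _ _ (X.incl B x),
      algebraMap _ _ (X.incl B y), algebraMap _ _ (algebraMap O' (X.extend B) X.ϖ)} := by
  set R := Localization.AtPrime m
  have hπ := X.incl_π_mem B m hm
  refine le_antisymm (fun z hz => ?_) ?_
  · obtain ⟨a, s, rfl⟩ := IsLocalization.exists_mk'_eq m.primeCompl z
    rw [IsLocalization.AtPrime.mk'_mem_maximal_iff R m] at hz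
    obtain ⟨t, ht, hta⟩ := X.maximal_gen m hπ x y (fun z hz => hgen z hz) a hz
    have h1 : algebraMap _ R (t * a) ∈ Ideal.span {algebraMap _ R (X.incl B x),
        algebraMap _ R (X.incl B y), algebraMap _ R (algebraMap O' (X.extend B) X.ϖ)} := by
      have h2 := Ideal.mem_map_of_mem (algebraMap (X.extend B) R) hta
      rw [Ideal.map_span] at h2
      refine (Ideal.span_mono ?_) h2
      rintro _ ⟨v, rfl | rfl | rfl, rfl⟩
      · exact Or.inl rfl
      · exact Or.inr (Or.inl rfl)
      · exact Or.inr (Or.inr (by rw [algebraMap_ϖ]; rfl))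
    rw [map_mul, Ideal.unit_mul_mem_iff_mem _
      (IsLocalization.map_units _ (⟨t, ht⟩ : m.primeCompl))] at h1
    rwa [← IsLocalization.mk'_spec R a s,
      Ideal.mul_unit_mem_iff_mem _ (IsLocalization.map_units _ s)] at h1
  · rw [Ideal.span_le]
    rintro _ (rfl | rfl | rfl)
    · exact (IsLocalization.AtPrime.to_map_mem_maximal_iff _ m _).mpr hx
    · exact (IsLocalization.AtPrime.to_map_mem_maximal_iff _ m _).mpr hy
    · exact (IsLocalization.AtPrime.to_map_mem_maximal_iff _ m _).mpr hm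

/-- A point above the closed point is determined by the point below. -/
theorem eq_of_comap_eq (m m' : Ideal (X.extend B)) [m.IsPrime] [m'.IsPrime]
    (hm : algebraMap O' (X.extend B) X.ϖ ∈ m) (hm' : algebraMap O' (X.extend B) X.ϖ ∈ m')
    (h : m.comap (X.incl B) = m'.comap (X.incl B)) : m = m' := by
  have key : ∀ (p p' : Ideal (X.extend B)), algebraMap O' (X.extend B) X.ϖ ∈ p →
      algebraMap O' (X.extend B) X.ϖ ∈ p' → p.comap (X.incl B) ≤ p'.comap (X.incl B) → p ≤ p' := by
    intro p p' hp hp' hle z hz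
    obtain ⟨b, hb, r, hr, hbr⟩ := X.exists_sub_eq B z.2
    have e : z = X.incl B ⟨b, hb⟩ + algebraMap O' (X.extend B) X.ϖ * ⟨r, hr⟩ := by
      rw [algebraMap_ϖ]
      exact Subtype.ext hbr
    rw [e] at hz ⊢
    exact p'.add_mem (hle ((add_mem_cancel_right (p.mul_mem_right _ hp)).mp hz))
      (p'.mul_mem_right _ hp')
  exact le_antisymm (key m m' hm hm' h.le) (key m' m hm' hm h.ge)

/-- Primes below the point lift to primes below the point above. -/
theorem exists_prime_extend (m : Ideal (X.extend B)) [m.IsPrime]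
    (hm : algebraMap O' (X.extend B) X.ϖ ∈ m) {P : Ideal B} [P.IsPrime]
    (hP : P ≤ m.comap (X.incl B)) {a b : B} (ha : a ∈ P) (hb : b ∉ P) :
    ∃ P' : Ideal (X.extend B), P'.IsPrime ∧ P' ≤ m ∧ X.incl B a ∈ P' ∧ X.incl B b ∉ P' := by
  letI : Algebra B (X.extend B) := (X.incl B).toAlgebra
  haveI : Algebra.IsIntegral B (X.extend B) := ⟨X.incl_isIntegral B⟩
  obtain ⟨P', -, hP', hP'c⟩ := Ideal.exists_ideal_over_prime_of_isIntegral P
    (⊥ : Ideal (X.extend B)) (fun z hz => by
      rw [Ideal.mem_comap, Ideal.mem_bot] at hz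
      rw [show z = 0 from X.incl_injective B (hz.trans (map_zero _).symm)]
      exact zero_mem P)
  haveI := hP'
  obtain ⟨m', hP'm', hm'p, hm'c⟩ := Ideal.exists_ideal_over_prime_of_isIntegral
    (m.comap (X.incl B)) P' (le_of_eq_of_le hP'c hP)
  haveI := hm'p
  have hmm : m' = m := X.eq_of_comap_eq B m' m (by
    rw [algebraMap_ϖ]
    refine X.gen_mem_of_pi m' ?_
    have h1 : algebraMap O B X.π ∈ m.comap (X.incl B) := X.incl_π_mem B m hm
    rw [← hm'c] at h1
    exact h1) hm hm'c
  exact ⟨P', hP', hmm ▸ hP'm', (hP'c.symm ▸ ha : a ∈ P'.comap _),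
    fun h => hb (hP'c ▸ (h : b ∈ P'.comap (algebraMap B (X.extend B))))⟩

theorem isFractionRing_extend [IsFractionRing B F] : IsFractionRing (X.extend B) F' := by
  classical
  haveI : FaithfulSMul (X.extend B) F' :=
    (faithfulSMul_iff_algebraMap_injective _ _).mpr Subtype.val_injective
  refine IsFractionRing.of_field _ _ fun z => ?_
  haveI : FiniteDimensional F F' := FiniteDimensional.of_finrank_pos (by
    rw [X.finrank_eq]; exact X.e_pos)
  have htop := X.linearIndependent.span_eq_top_of_card_eq_finrank' (by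
    rw [Fintype.card_fin, X.finrank_eq])
  obtain ⟨c, hc⟩ := (Submodule.mem_span_range_iff_exists_fun F).mp
    (htop ▸ Submodule.mem_top : z ∈ Submodule.span F _)
  obtain ⟨⟨d, hd⟩, hcd⟩ := IsLocalization.exist_integer_multiples_of_finite (nonZeroDivisors B) c
  choose b hb using hcd
  have hd0 : (d : F) ≠ 0 := fun h => nonZeroDivisors.ne_zero hd (Subtype.ext h)
  refine ⟨⟨∑ i, algebraMap F F' (b i : F) * X.gen ^ (i : ℕ), fun i => (b i : F), fun i => (b i).2,
    rfl⟩, X.incl B d, ?_⟩
  show z = (∑ i, algebraMap F F' (b i : F) * X.gen ^ (i : ℕ)) / algebraMap F F' (d : F)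
  rw [eq_comm, ← hc, div_eq_iff ((map_ne_zero _).mpr hd0), Finset.sum_mul]
  refine Finset.sum_congr rfl fun i _ => ?_
  have e : (b i : F) = (d : F) * c i := by
    have := hb i
    rw [Algebra.smul_def] at this
    exact this
  rw [Algebra.smul_def, e, map_mul]
  ring

end TotRam

/-- A Kummer function has forms on the extended chart. -/
theorem TotRam.hasForms {B : Subalgebra O F} [IsFractionRing B F]
    [IsNoetherianRing (X.extend B)] (hpts : SemiPoints B X.π)
    (hclosed : ∀ x : F', IsIntegral (X.extend B) x → x ∈ X.extend B)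
    {e' Q n : ℕ} (heQ : X.e = e' * Q) {ζ : O'} (hζ : IsPrimitiveRoot ζ e')
    (hinj : Function.Injective (algebraMap O' F')) (he' : IsUnit (e' : O')) (hQn : Q.Coprime n)
    (hn : 0 < n) (τ : F' →+* F') (hτ : ∀ b ∈ B, τ (algebraMap F F' b) = algebraMap F F' b) {f : F'}
    (hf : f ≠ 0)
    (hroots : ∀ P : Ideal (X.extend B), P.IsPrime → P ≠ ⊥ →
      algebraMap O' (X.extend B) X.ϖ ∉ P → HasRootAt (X.extend B) n f P) :
    HasForms (X.extend B) X.ϖ n τ f := by
  classical
  haveI := X.isFractionRing_extend B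
  refine ⟨fun P hP hϖ => ?_, fun m hm hϖ => Or.inr ?_⟩
  · by_cases hP0 : P = ⊥
    · subst hP0
      obtain ⟨a, b, hb, hab⟩ := IsFractionRing.div_surjective (A := X.extend B) (K := F') f
      have hb0 : b ≠ 0 := nonZeroDivisors.ne_zero hb
      refine ⟨1, b, a, by simpa using hb0, ?_, ?_⟩
      · simp only [Ideal.mem_bot]
        rintro rfl
        exact hf (by rw [← hab, map_zero, zero_div])
      · rw [one_pow, mul_one, ← hab,
          mul_div_cancel₀ _ ((map_ne_zero_iff _ (IsFractionRing.injective _ F')).mpr hb0)]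
    · exact hroots P hP hP0 hϖ
  haveI := hm.isPrime
  haveI : IsIntegrallyClosed (X.extend B) :=
    (isIntegrallyClosed_iff F').mpr fun {x} hx => ⟨⟨x, hclosed x hx⟩, rfl⟩
  let R := Localization.AtPrime m
  haveI : IsNoetherianRing R :=
    IsLocalization.isNoetherianRing m.primeCompl (Localization.AtPrime m) inferInstance
  letI : Algebra R F' :=
    IsLocalization.localizationAlgebraOfSubmonoidLe R F' m.primeCompl (nonZeroDivisors (X.extend B))
      m.primeCompl_le_nonZeroDivisors
  haveI : IsScalarTower (X.extend B) R F' :=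
    IsLocalization.localization_isScalarTower_of_submonoid_le R F' m.primeCompl
      (nonZeroDivisors (X.extend B)) m.primeCompl_le_nonZeroDivisors
  haveI : IsFractionRing R F' := IsFractionRing.isFractionRing_of_isDomain_of_isLocalization
    m.primeCompl R F'
  haveI : IsIntegrallyClosed R :=
    isIntegrallyClosed_of_isLocalization R m.primeCompl m.primeCompl_le_nonZeroDivisors
  have hinjR : Function.Injective (algebraMap (X.extend B) R) :=
    IsLocalization.injective R m.primeCompl_le_nonZeroDivisors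
  have hroots' := hasRootAt_localization m (L := R) hroots
  set γ : X.extend B := algebraMap O' (X.extend B) X.ϖ
  have hγ0 : γ ≠ 0 := fun h => X.gen_ne (congrArg Subtype.val h)
  haveI hcm : (m.comap (X.incl B)).IsMaximal :=
    Ideal.isMaximal_comap_of_isIntegral_of_isMaximal' _ (X.incl_isIntegral B) m
  have hfix : ∀ b : B, τ (X.incl B b : F') = (X.incl B b : F') := fun b => hτ b b.2
  rcases hpts _ hcm (X.incl_π_mem B m hϖ) with ⟨x, P, hP, hPm, hπP, hxP, hxm, hgen⟩ |
    ⟨x, y, u, hu, hxy, hxm, hym, hgen, ⟨P, hP, hPm, hxP, hyP⟩, P', hP', hP'm, hyP', hxP'⟩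
  · obtain ⟨Q₁, hQ₁, hQ₁m, hπQ₁, hxQ₁⟩ := X.exists_prime_extend B m hϖ hPm hπP hxP
    obtain ⟨Q₂, hQ₂, hγQ₂, hxQ₂⟩ := exists_prime_localization m hQ₁m
      (a := γ) (b := X.incl B x) (by
        rw [show γ = _ from X.algebraMap_ϖ B]
        exact X.gen_mem_of_pi Q₁ hπQ₁) hxQ₁
    haveI := hQ₂
    have hmR : maximalIdeal R = Ideal.span {algebraMap _ R γ, algebraMap _ R (X.incl B x)} := by
      rw [X.maximalIdeal_extend B m hϖ x x hxm hxm fun z hz => ?_]
      · rw [Set.insert_idem, Set.pair_comm]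
      · obtain ⟨s, hs, hsz⟩ := hgen z hz
        exact ⟨s, hs, Ideal.span_mono (by rintro _ (rfl | rfl) <;> simp) hsz⟩
    have hform := hasFormAt_smooth hn hmR ((map_ne_zero_iff _ hinjR).mpr hγ0) Q₂ hγQ₂ hxQ₂ hf
      hroots'
    exact ⟨X.incl B x, fun h0 => hxP (by
        rw [show x = 0 from X.incl_injective B ((Subtype.ext h0).trans (map_zero _).symm)]
        exact zero_mem P),
      hfix x, HasFormAt.of_localization m hform⟩
  · have hu' : X.incl B u ∉ m := hu
    obtain ⟨v, hv⟩ : IsUnit (algebraMap _ R (X.incl B u)) :=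
      IsLocalization.map_units R (⟨_, hu'⟩ : m.primeCompl)
    -- `x * y' = γ ^ e`
    set c : R := (↑v⁻¹ : R) * algebraMap _ R (algebraMap O' (X.extend B) (X.unit : O'))
    have hc : IsUnit c :=
      v⁻¹.isUnit.mul ((X.unit.isUnit.map _).map _)
    have hxy' : algebraMap _ R (X.incl B x) * (algebraMap _ R (X.incl B y) * c) =
        algebraMap _ R γ ^ X.e := by
      have e1 : γ ^ X.e = X.incl B (algebraMap O B X.π) *
          algebraMap O' (X.extend B) (X.unit : O') := by
        rw [show γ = _ from X.algebraMap_ϖ B]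
        exact Subtype.ext X.gen_pow_e
      rw [← mul_assoc, ← map_mul, ← map_mul (X.incl B), hxy, map_mul, map_mul, ← hv, ← map_pow,
        e1, map_mul]
      simp only [c]
      rw [mul_assoc, Units.mul_inv_cancel_left]
    obtain ⟨Q₁, hQ₁, hQ₁m, hxQ₁, hyQ₁⟩ := X.exists_prime_extend B m hϖ hPm hxP hyP
    obtain ⟨Q₁', hQ₁', hQ₁'m, hyQ₁', hxQ₁'⟩ := X.exists_prime_extend B m hϖ hP'm hyP' hxP'
    obtain ⟨Q₂, hQ₂, hxQ₂, hyQ₂⟩ := exists_prime_localization m hQ₁m hxQ₁ hyQ₁
    obtain ⟨Q₂', hQ₂', hyQ₂', hxQ₂'⟩ := exists_prime_localization m hQ₁'m hyQ₁' hxQ₁'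
    have hmR : maximalIdeal R = Ideal.span {algebraMap _ R (X.incl B x),
        algebraMap _ R (X.incl B y) * c, algebraMap _ R γ} := by
      rw [X.maximalIdeal_extend B m hϖ x y hxm hym fun z hz => ?_]
      · simp only [Ideal.span_insert, Ideal.span_singleton_mul_right_unit hc]
        rfl
      · obtain ⟨s, hs, hsz⟩ := hgen z hz
        exact ⟨s, hs, X.incl_mem_span B hsz⟩
    have hx0 : algebraMap _ R (X.incl B x) ≠ 0 := fun h0 => hxQ₂' (h0 ▸ zero_mem Q₂')
    have hζR : IsPrimitiveRoot (algebraMap _ R (algebraMap O' (X.extend B) ζ)) e' := by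
      refine (hζ.map_of_injective (f := algebraMap O' (X.extend B)) ?_).map_of_injective hinjR
      exact fun a b h => hinj (congrArg Subtype.val h)
    have he'R : IsUnit (e' : R) := by
      have := (he'.map (algebraMap O' (X.extend B))).map (algebraMap (X.extend B) R)
      rwa [map_natCast, map_natCast] at this
    have hform := hasFormAt_node hn (y := algebraMap _ R (X.incl B y) * c) X.e_pos hmR hxy' hx0
      ⟨Q₂, hQ₂, hxQ₂, fun h => hyQ₂ ((Ideal.mul_unit_mem_iff_mem _ hc).mp h)⟩
      ⟨Q₂', hQ₂', Q₂'.mul_mem_right _ hyQ₂', hxQ₂'⟩ heQ hζR he'R hQn hf hroots'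
    exact ⟨X.incl B x, fun h0 => hx0 (by
        rw [show X.incl B x = 0 from Subtype.ext h0, map_zero]),
      hfix x, HasFormAt.of_localization m hform⟩

end Extend

end Fermat.Agent.Models
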