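/-
Branches of a special fibre with smooth points and nodes: parameters along a branch, components as
localisations at their centres, normality of branches, and roots at all points from roots on the
generic fibre and along the components.
-/
import Fermat.Agent.Models.FrobNode
import Fermat.Agent.Models.SemiPoint
import Fermat.Agent.Models.DetectFinite

set_option autoImplicit false
set_option linter.style.haveILetI false

noncomputable section

namespace Fermat.Agent.Models

open IsLocalRing

section Local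

variable {R : Type} [CommRing R] [IsDomain R] [IsNoetherianRing R] [IsLocalRing R]

/-- With two parameters, a prime containing the first one which is not maximal is its span. -/
theorem eq_span_of_ne_maximal {a b : R} (hm : maximalIdeal R = Ideal.span {a, b}) {Q : Ideal R}
    [Q.IsPrime] (haQ : a ∈ Q) (hQ : Q ≠ maximalIdeal R) : Q = Ideal.span {a} := by
  refine le_antisymm (fun z hz => ?_) ((Ideal.span_singleton_le_iff_mem _).mpr haQ)
  by_contra hza
  obtain ⟨k, c, hc, hzk⟩ := exists_pow_mod hm hza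
  have h1 : b ^ k * c ∈ Q := by
    have h2 : b ^ k * c = z - (z - b ^ k * c) := by ring
    rw [h2]
    exact sub_mem hz ((Ideal.span_singleton_le_iff_mem _).mpr haQ hzk)
  rcases (‹Q.IsPrime›).mem_or_mem h1 with h | h
  · refine hQ (le_antisymm (le_maximalIdeal (Ideal.IsPrime.ne_top ‹_›)) ?_)
    rw [hm, Ideal.span_le]
    rintro _ (rfl | rfl)
    · exact haQ
    · exact Ideal.IsPrime.mem_of_pow_mem ‹_› _ h
  · exact Ideal.IsPrime.ne_top ‹_› (Ideal.eq_top_of_isUnit_mem _ h hc)

omit [IsDomain R] [IsNoetherianRing R] in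
/-- Modulo a prime with a principal maximal ideal above it, a root of a fraction is a fraction. -/
theorem exists_sub_mem_of_pow {I : Ideal R} [I.IsPrime] {A S b c d u w : R}
    (hb : b ∈ maximalIdeal R) (hbI : b ∉ I) (hc : IsUnit c) (hd : IsUnit d) (hu : IsUnit u)
    {k j n : ℕ} (hn : 0 < n) (hA : A - b ^ k * c ∈ I) (hS : S - b ^ j * d ∈ I)
    (h : A ^ n * u - w * S ^ n ∈ I) : ∃ C : R, A - S * C ∈ I := by
  let Q := Ideal.Quotient.mk I
  have eA : Q A = Q b ^ k * Q c := by rw [← map_pow, ← map_mul]; exact Ideal.Quotient.eq.mpr hA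
  have eS : Q S = Q b ^ j * Q d := by rw [← map_pow, ← map_mul]; exact Ideal.Quotient.eq.mpr hS
  have erel : Q A ^ n * Q u = Q w * Q S ^ n := by
    simp only [← map_pow, ← map_mul]
    exact Ideal.Quotient.eq.mpr h
  have hQb : Q b ≠ 0 := fun h0 => hbI (Ideal.Quotient.eq_zero_iff_mem.mp h0)
  have hjk : j ≤ k := by
    by_contra hlt
    obtain ⟨e, rfl⟩ := Nat.exists_eq_add_of_lt (not_le.mp hlt)
    have hmul : (k + e + 1) * n = k * n + (e + 1) * n := by ring
    rw [eA, eS, mul_pow, mul_pow, ← pow_mul, ← pow_mul, hmul, pow_add] at erel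
    have h1 : Q (c ^ n * u) = Q (w * d ^ n * b ^ ((e + 1) * n)) := by
      simp only [map_mul, map_pow]
      refine mul_left_cancel₀ (pow_ne_zero (k * n) hQb) ?_
      linear_combination erel
    have h2 : c ^ n * u ∈ maximalIdeal R := by
      have h3 := add_mem (le_maximalIdeal (Ideal.IsPrime.ne_top ‹_›) (Ideal.Quotient.eq.mp h1))
        (Ideal.mul_mem_left _ (w * d ^ n)
          (Ideal.pow_mem_of_mem _ hb ((e + 1) * n) (Nat.mul_pos (Nat.succ_pos e) hn)))
      rwa [sub_add_cancel] at h3
    exact (maximalIdeal.isMaximal R).ne_top (Ideal.eq_top_of_isUnit_mem _ h2 ((hc.pow n).mul hu))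
  obtain ⟨e, rfl⟩ := Nat.exists_eq_add_of_le hjk
  obtain ⟨d', hd'⟩ := hd.exists_right_inv
  refine ⟨b ^ e * c * d', Ideal.Quotient.eq_zero_iff_mem.mp ?_⟩
  have e4 : Q d * Q d' = 1 := by rw [← map_mul, hd', map_one]
  show Q (A - S * (b ^ e * c * d')) = 0
  simp only [map_sub, map_mul, map_pow, eA, eS, pow_add]
  linear_combination -(Q b ^ j * Q b ^ e * Q c) * e4

/-- In a factorial local ring, roots at all principal primes give a root at the closed point. -/
theorem hasRootAt_of_principal [UniqueFactorizationMonoid R] {K : Type} [Field K] [Algebra R K]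
    [IsFractionRing R K] {n : ℕ} (hn : 0 < n) {f : K} (hf : f ≠ 0)
    (h : ∀ p : R, Prime p → HasRootAt R n f (Ideal.span {p})) :
    HasRootAt R n f (maximalIdeal R) := by
  obtain ⟨A, b, hA, hb, hAf, hAroots⟩ := exists_numerator (R := R) hn hf
  obtain ⟨u, g, hu, -, hug⟩ := exists_unit_mul_pow hn A hA fun p k hp h1 h2 => by
    obtain ⟨z, a', b', ha', hb', he⟩ := hAroots _ (h p hp)
    obtain ⟨m, hm⟩ := h1
    exact dvd_multiplicity_of_root (S := R) (K := K) hn hp (A := A) (m := m) hm
      (fun hd => h2 (by rw [hm, pow_succ]; exact mul_dvd_mul_left _ hd)) (z := z) (a := a') (b := b')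
      (fun hd => ha' (Ideal.mem_span_singleton.mpr hd))
      (fun hd => hb' (Ideal.mem_span_singleton.mpr hd)) (by rw [he, map_mul])
  have hbK : algebraMap R K b ≠ 0 := (map_ne_zero_iff _ (IsFractionRing.injective R K)).mpr hb
  refine ⟨algebraMap R K g / algebraMap R K b, 1, u,
    fun h => (maximalIdeal.isMaximal R).ne_top ((Ideal.eq_top_iff_one _).mpr h),
    fun h => (maximalIdeal.isMaximal R).ne_top (Ideal.eq_top_of_isUnit_mem _ h hu), ?_⟩
  rw [hug, map_mul, map_pow] at hAf
  rw [map_one, one_mul, div_pow, ← mul_div_assoc, hAf,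
    mul_div_cancel_left₀ _ (pow_ne_zero _ hbK)]

end Local

section Branch

variable {W F : Type} [CommRing W] [IsDomain W] [IsDiscreteValuationRing W] [Field F] [Algebra W F]
  {ι : Type} {π : W} {P : ι → ValuationSubring F} {B : Subalgebra W F} (hf : ChartFibre B π P)
  (hpts : SemiPoints B π) (hu : ∀ i, algebraMap W F π ∈ (P i).nonunits)
  (hmax : ∀ i, ¬ (center hf i).IsMaximal)

include hf

/-- A prime containing `π` contains a centre. -/
theorem exists_center_le [Fintype ι] [Nonempty ι] {x : Ideal B} (hx : x.IsPrime)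
    (hπx : algebraMap W B π ∈ x) : ∃ i, center hf i ≤ x := by
  have h : Finset.univ.inf (center hf) ≤ x := fun z hz => by
    obtain ⟨e, he, hze⟩ := hf.reduced z z.2 fun i => mem_center.mp
      ((Finset.inf_le (f := center hf) (Finset.mem_univ i) :
        Finset.univ.inf (center hf) ≤ center hf i) hz)
    have hz' : z = algebraMap W B π * ⟨e, he⟩ := Subtype.ext (hze.trans (Algebra.smul_def _ _))
    rw [hz']
    exact x.mul_mem_right _ hπx
  obtain ⟨i, -, hi⟩ := (Ideal.IsPrime.inf_le' hx).mp h
  exact ⟨i, hi⟩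

/-- A non-maximal prime containing `π` is a centre. -/
theorem exists_center_eq [Fintype ι] [Nonempty ι] {Q : Ideal B} [hQ : Q.IsPrime]
    (hπQ : algebraMap W B π ∈ Q) (hne : ¬ Q.IsMaximal) : ∃ i, center hf i = Q := by
  obtain ⟨i, hi⟩ := exists_center_le hf hQ hπQ
  exact ⟨i, by_contra fun h => hne (isMaximal_of_lt hf (lt_of_le_of_ne hi h))⟩

include hpts hu hmax

/-- Parameters at a point along a branch. -/
theorem exists_branch_param {x : Ideal B} (hx : IsPoint π x) {i : ι} (hi : center hf i ≤ x) :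
    ∃ a b : B, a ∈ center hf i ∧ b ∈ x ∧ b ∉ center hf i ∧
      (∀ z ∈ x, ∃ s ∉ x, s * z ∈ Ideal.span {a, b}) ∧
      (∀ z ∈ center hf i, ∃ s ∉ x, s * z ∈ Ideal.span {a}) ∧
      ∃ t ∉ center hf i, t * a ∈ Ideal.span {algebraMap W B π} := by
  haveI := hx.1.isPrime
  haveI := hf.noetherian
  have hne : center hf i ≠ x := fun h => hmax i (h ▸ hx.1)
  have key : ∀ a b : B, a ∈ center hf i → a ∈ x → b ∈ x →
      (∀ z ∈ x, ∃ s ∉ x, s * z ∈ Ideal.span {a, b}) →
      (∃ t, (b ∉ center hf i → t ∉ center hf i) ∧ t * a ∈ Ideal.span {algebraMap W B π}) →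
      ∃ a b : B, a ∈ center hf i ∧ b ∈ x ∧ b ∉ center hf i ∧
        (∀ z ∈ x, ∃ s ∉ x, s * z ∈ Ideal.span {a, b}) ∧
        (∀ z ∈ center hf i, ∃ s ∉ x, s * z ∈ Ideal.span {a}) ∧
        ∃ t ∉ center hf i, t * a ∈ Ideal.span {algebraMap W B π} := by
    intro a b ha hax hbx hgen ⟨t, ht, hta⟩
    have hb : b ∉ center hf i := fun hb => hne (le_antisymm hi fun z hz => by
      obtain ⟨s, hs, hsz⟩ := hgen z hz
      obtain ⟨u, v, huv⟩ := Ideal.mem_span_pair.mp hsz
      refine ((center_isPrime i).mem_or_mem ?_).resolve_left fun h => hs (hi h)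
      rw [← huv]
      exact add_mem (Ideal.mul_mem_left _ _ ha) (Ideal.mul_mem_left _ _ hb))
    refine ⟨a, b, ha, hbx, hb, hgen, fun z hz => ?_, t, ht hb, hta⟩
    let R := Localization.AtPrime x
    haveI : IsNoetherianRing R :=
      IsLocalization.isNoetherianRing x.primeCompl (Localization.AtPrime x) inferInstance
    have hmR := maximalIdeal_eq_span_pair x hax hbx hgen
    have hd : Disjoint (x.primeCompl : Set B) (center hf i : Set B) :=
      Set.disjoint_left.mpr fun w hw hwc => hw (hi hwc)
    haveI := IsLocalization.isPrime_of_isPrime_disjoint x.primeCompl R (center hf i) (center_isPrime i) hd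
    have hQne : (center hf i).map (algebraMap B R) ≠ maximalIdeal R := fun h => hb (by
      have h1 : algebraMap B R b ∈ maximalIdeal R :=
        (IsLocalization.AtPrime.to_map_mem_maximal_iff _ x b).mpr hbx
      rw [← IsLocalization.under_map_of_isPrime_disjoint x.primeCompl R (center_isPrime i) hd]
      exact (h ▸ h1 : algebraMap B R b ∈ (center hf i).map (algebraMap B R)))
    have heq := eq_span_of_ne_maximal hmR (Ideal.mem_map_of_mem (algebraMap B R) ha) hQne
    have h1 : algebraMap B R z ∈ (Ideal.span {a}).map (algebraMap B R) := by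
      rw [Ideal.map_span, Set.image_singleton, ← heq]
      exact Ideal.mem_map_of_mem _ hz
    rw [IsLocalization.algebraMap_mem_map_algebraMap_iff x.primeCompl R] at h1
    exact h1
  rcases hpts x hx.1 hx.2 with ⟨y, -, -, -, -, -, hyx, hgen⟩ |
    ⟨y, z, u, hu', hyz, hyx, hzx, hgen, -, -⟩
  · exact key _ y (mem_center.mpr (hu i)) hx.2 hyx hgen
      ⟨1, fun _ h => (center_isPrime (hf := hf) i).ne_top ((Ideal.eq_top_iff_one _).mpr h),
        by rw [one_mul]; exact Ideal.mem_span_singleton_self _⟩
  · have h : y * z ∈ center hf i := hyz ▸ Ideal.mul_mem_right _ _ (mem_center.mpr (hu i))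
    rcases (center_isPrime i).mem_or_mem h with h | h
    · exact key y z h hyx hzx hgen ⟨z, fun h => h,
        Ideal.mem_span_singleton.mpr ⟨u, by rw [mul_comm, hyz]⟩⟩
    · exact key z y h hzx hyx (fun w hw => by rw [Set.pair_comm]; exact hgen w hw)
        ⟨y, fun h => h, Ideal.mem_span_singleton.mpr ⟨u, hyz⟩⟩

/-- Along a component `π` is a uniformiser. -/
theorem center_gen {i : ι} {z : B} (hz : z ∈ center hf i) :
    ∃ t ∉ center hf i, t * z ∈ Ideal.span {algebraMap W B π} := by
  obtain ⟨x, hx, hi⟩ := exists_point_over hf hu i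
  obtain ⟨a, b, -, -, -, -, hgen, t, ht, hta⟩ := exists_branch_param hf hpts hu hmax hx hi
  obtain ⟨s, hs, hsz⟩ := hgen z hz
  obtain ⟨c, hc⟩ := Ideal.mem_span_singleton.mp hsz
  refine ⟨t * s, (center_isPrime i).mul_notMem ht fun h => hs (hi h), ?_⟩
  rw [mul_assoc, hc, ← mul_assoc]
  exact Ideal.mul_mem_right _ _ hta

variable (hπ0 : algebraMap W F π ≠ 0)

include hπ0

/-- A power of `π` splits off along a component. -/
theorem exists_pow_center (i : ι) {d : B} (hd : d ≠ 0) :
    ∃ (k : ℕ) (d' t : B), d' ∉ center hf i ∧ t ∉ center hf i ∧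
      t * d = algebraMap W B π ^ k * d' := by
  haveI := hf.noetherian
  let R := Localization.AtPrime (center hf i)
  haveI : IsNoetherianRing R :=
    IsLocalization.isNoetherianRing (center hf i).primeCompl (Localization.AtPrime (center hf i))
      inferInstance
  have hinj : Function.Injective (algebraMap B R) :=
    IsLocalization.injective R (center hf i).primeCompl_le_nonZeroDivisors
  have hπB : algebraMap W B π ≠ 0 := fun h => hπ0 (congrArg Subtype.val h)
  have hm : maximalIdeal R = Ideal.span {algebraMap B R (algebraMap W B π)} := by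
    refine le_antisymm (fun z hz => ?_) ?_
    · obtain ⟨a, s, rfl⟩ := IsLocalization.exists_mk'_eq (center hf i).primeCompl z
      rw [IsLocalization.AtPrime.mk'_mem_maximal_iff R (center hf i)] at hz
      obtain ⟨t, ht, hta⟩ := center_gen hf hpts hu hmax hz
      rw [IsLocalization.mk'_eq_mul_mk'_one (S := R)]
      refine Ideal.mul_mem_right _ _ ?_
      rw [← Set.image_singleton, ← Ideal.map_span,
        IsLocalization.algebraMap_mem_map_algebraMap_iff (center hf i).primeCompl R]
      exact ⟨t, ht, hta⟩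
    · rw [Ideal.span_singleton_le_iff_mem]
      exact (IsLocalization.AtPrime.to_map_mem_maximal_iff R (center hf i) _).mpr
        (mem_center.mpr (hu i))
  have hp : Prime (algebraMap B R (algebraMap W B π)) :=
    (Ideal.span_singleton_prime ((map_ne_zero_iff _ hinj).mpr hπB)).mp
      (hm ▸ (maximalIdeal.isMaximal R).isPrime)
  haveI : WfDvdMonoid R := IsNoetherianRing.wfDvdMonoid
  obtain ⟨k, c, hc, hdc⟩ :=
    WfDvdMonoid.max_power_factor ((map_ne_zero_iff _ hinj).mpr hd) hp.irreducible
  obtain ⟨d', t, rfl⟩ := IsLocalization.exists_mk'_eq (center hf i).primeCompl c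
  refine ⟨k, d', t, fun h => hc (Ideal.mem_span_singleton.mp (hm ▸
    (IsLocalization.AtPrime.mk'_mem_maximal_iff R (center hf i) d' t).mpr h)), t.2, hinj ?_⟩
  rw [map_mul, map_mul, map_pow, hdc, mul_left_comm, IsLocalization.mk'_spec']

variable [IsFractionRing B F]

/-- The component is the local ring at its centre. -/
theorem exists_frac {i : ι} {z : F} (hz : z ∈ P i) :
    ∃ a b : B, b ∉ center hf i ∧ z * (b : F) = a := by
  obtain ⟨A, D, hD, rfl⟩ := IsFractionRing.div_surjective (A := B) (K := F) z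
  change (A : F) / (D : F) ∈ P i at hz
  change ∃ a b : B, b ∉ center hf i ∧ (A : F) / (D : F) * (b : F) = a
  have hD0 : (D : F) ≠ 0 := fun h => nonZeroDivisors.ne_zero hD (Subtype.ext h)
  rcases eq_or_ne A 0 with rfl | hA
  · exact ⟨0, 1, fun h => (center_isPrime i).ne_top ((Ideal.eq_top_iff_one _).mpr h),
      by simp⟩
  obtain ⟨k, d', t, hd', ht, hDt⟩ := exists_pow_center hf hpts hu hmax hπ0 i
    (nonZeroDivisors.ne_zero hD)
  obtain ⟨l, a', s, ha', hs, hAs⟩ := exists_pow_center hf hpts hu hmax hπ0 i hA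
  have eD : (t : F) * D = algebraMap W F π ^ k * d' := congrArg Subtype.val hDt
  have eA : (s : F) * A = algebraMap W F π ^ l * a' := congrArg Subtype.val hAs
  have hne : ∀ {b : B}, b ∉ center hf i → (b : F) ≠ 0 := fun hb =>
    (isU_of_notMem_center hb).ne_zero
  have hkl : k ≤ l := by
    by_contra h
    obtain ⟨e, rfl⟩ := Nat.exists_eq_add_of_lt (not_le.mp h)
    have h1 : (A : F) / (D : F) * (algebraMap W F π ^ (e + 1) * (s * d' : B)) = ((a' * t : B) : F) := by
      push_cast
      rw [div_mul_eq_mul_div, div_eq_iff hD0]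
      refine mul_left_cancel₀ (pow_ne_zero l hπ0) ?_
      linear_combination (algebraMap W F π ^ (l + e + 1) * d') * eA -
        (algebraMap W F π ^ l * a') * eD
    refine (isU_of_notMem_center (hf := hf) ((center_isPrime i).mul_notMem ha' ht)).2 ?_
    rw [← h1, rs_mul hz ((P i).mul_mem _ _ (pow_mem ((P i).nonunits_subset (hu i)) _)
      (hf.le i _ (s * d' : B).2)), rs_mul (pow_mem ((P i).nonunits_subset (hu i)) _)
      (hf.le i _ (s * d' : B).2), rs_pow ((P i).nonunits_subset (hu i)),
      rs_eq_zero_of_nonunit (hu i), zero_pow (Nat.succ_ne_zero e), zero_mul, mul_zero]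
  obtain ⟨e, rfl⟩ := Nat.exists_eq_add_of_le hkl
  refine ⟨algebraMap W B π ^ e * (a' * t), s * d', (center_isPrime i).mul_notMem hs hd', ?_⟩
  push_cast
  rw [div_mul_eq_mul_div,
    div_eq_iff hD0]
  refine mul_left_cancel₀ (pow_ne_zero k hπ0) ?_
  linear_combination (algebraMap W F π ^ k * d') * eA -
    (algebraMap W F π ^ (k + e) * a') * eD

/-- Different components have different centres. -/
theorem center_injective (hP : Function.Injective P) : Function.Injective (center hf) := by
  have key : ∀ i j, center hf i = center hf j → P i ≤ P j := fun i j h z hz => by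
    obtain ⟨a, b, hb, he⟩ := exists_frac hf hpts hu hmax hπ0 hz
    have hbU := isU_of_notMem_center (h ▸ hb : b ∉ center hf j)
    have e : z = (a : F) * (b : F)⁻¹ := by
      rw [← he, mul_assoc, mul_inv_cancel₀ hbU.ne_zero, mul_one]
    rw [e]
    exact (P j).mul_mem _ _ (hf.le j _ a.2) hbU.inv.1
  exact fun i j h => hP (le_antisymm (key i j h) (key j i h.symm))

/-- Branches are normal. -/
theorem branchNormal : BranchNormal hf := by
  intro x hx i hi z n hn hz a₀ b₀ hb₀ hrel
  haveI := hx.1.isPrime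
  haveI := hf.noetherian
  obtain ⟨A, S, hS, hzS⟩ := exists_frac hf hpts hu hmax hπ0 hz.1
  have hSU := isU_of_notMem_center hS
  have hA : A ∉ center hf i := fun hA => (hz.mul hSU).2 (hzS ▸ rs_of_mem_center hA)
  -- the relation between numerator and denominator
  have hmem : A ^ n * b₀ - a₀ * S ^ n ∈ center hf i := by
    have hb := isU_of_notMem_center (fun h => hb₀ (hi h) : b₀ ∉ center hf i)
    refine mem_center.mpr ?_
    push_cast
    refine (rs_eq_iff ((P i).mul_mem _ _ (pow_mem (hf.le i _ A.2) n) (hf.le i _ b₀.2))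
      ((P i).mul_mem _ _ (hf.le i _ a₀.2) (pow_mem (hf.le i _ S.2) n))).mp ?_
    rw [rs_mul (pow_mem (hf.le i _ A.2) n) hb.1, rs_mul (hf.le i _ a₀.2) (pow_mem hSU.1 n),
      rs_pow (hf.le i _ A.2), rs_pow hSU.1, ← hzS, ← hrel, rs_pow hz.1, rs_mul hz.1 hSU.1]
    ring
  obtain ⟨a, b, ha, hbx, hb, hgen, hcgen, -⟩ := exists_branch_param hf hpts hu hmax hx hi
  let R := Localization.AtPrime x
  haveI : IsNoetherianRing R :=
    IsLocalization.isNoetherianRing x.primeCompl (Localization.AtPrime x) inferInstance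
  let al := algebraMap B R
  have hmR := maximalIdeal_eq_span_pair x (hi ha) hbx hgen
  set I : Ideal R := Ideal.span {al a}
  have hback : ∀ w : B, al w ∈ I → w ∈ center hf i := fun w hw => by
    rw [show I = (Ideal.span {a}).map al by rw [Ideal.map_span, Set.image_singleton],
      IsLocalization.algebraMap_mem_map_algebraMap_iff x.primeCompl R] at hw
    obtain ⟨s, hs, hsw⟩ := hw
    exact ((center_isPrime i).mem_or_mem ((Ideal.span_singleton_le_iff_mem _).mpr ha hsw)).resolve_left
      fun h => hs (hi h)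
  have hto : ∀ w ∈ center hf i, al w ∈ I := fun w hw => by
    rw [show I = (Ideal.span {a}).map al by rw [Ideal.map_span, Set.image_singleton],
      IsLocalization.algebraMap_mem_map_algebraMap_iff x.primeCompl R]
    exact hcgen w hw
  obtain ⟨k, c, hc, hAk⟩ := exists_pow_mod hmR (fun h => hA (hback A h))
  obtain ⟨j, d, hd, hSj⟩ := exists_pow_mod hmR (fun h => hS (hback S h))
  have hprime : I.IsPrime := by
    have hd : Disjoint (x.primeCompl : Set B) (center hf i : Set B) :=
      Set.disjoint_left.mpr fun w hw hwc => hw (hi hwc)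
    have e : I = (center hf i).map al := le_antisymm
      ((Ideal.span_singleton_le_iff_mem _).mpr (Ideal.mem_map_of_mem _ ha))
      (Ideal.map_le_iff_le_comap.mpr fun w hw => Ideal.mem_comap.mpr (hto w hw))
    exact e ▸ IsLocalization.isPrime_of_isPrime_disjoint x.primeCompl R (center hf i) (center_isPrime i) hd
  haveI := hprime
  have hrelI : al A ^ n * al b₀ - al a₀ * al S ^ n ∈ I := by
    rw [← map_pow, ← map_pow, ← map_mul, ← map_mul, ← map_sub]
    exact hto _ hmem
  obtain ⟨C, hC⟩ := exists_sub_mem_of_pow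
    ((IsLocalization.AtPrime.to_map_mem_maximal_iff R x b).mpr hbx) (fun h => hb (hback b h)) hc hd
    (IsLocalization.map_units R (⟨b₀, hb₀⟩ : x.primeCompl)) hn hAk hSj hrelI
  obtain ⟨c₀, s, hcs⟩ := IsLocalization.exists_mk'_eq x.primeCompl C
  refine ⟨c₀, s, s.2, ?_⟩
  have hm2 : A * s - S * c₀ ∈ center hf i := hback _ (by
    have e3 : al c₀ = C * al (s : B) := by rw [← hcs, IsLocalization.mk'_spec]
    rw [map_sub, map_mul, map_mul, e3, ← mul_assoc, ← sub_mul]
    exact I.mul_mem_right _ hC)
  have hsU := isU_of_notMem_center (fun h => s.2 (hi h) : (s : B) ∉ center hf i)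
  refine mul_right_cancel₀ hSU.2 ?_
  rw [mul_right_comm, ← rs_mul hz.1 hSU.1, hzS, mul_comm (rs (P i) (c₀ : F)),
    ← rs_mul (hf.le i _ A.2) hsU.1, ← rs_mul hSU.1 (hf.le i _ c₀.2),
    rs_eq_iff ((P i).mul_mem _ _ (hf.le i _ A.2) hsU.1) ((P i).mul_mem _ _ hSU.1 (hf.le i _ c₀.2))]
  exact mem_center.mp hm2

/-- Roots on the generic fibre and along the components give roots at all points. -/
theorem hasRootAt_all [Fintype ι] [Nonempty ι] {n : ℕ} (hn : 0 < n) {f : F} (hf0 : f ≠ 0)
    (hT : ∀ i, ∃ T : F, IsU (P i) (T ^ n / f))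
    (hroots : ∀ Q : Ideal B, Q.IsPrime → Q ≠ ⊥ → algebraMap W B π ∉ Q → HasRootAt B n f Q)
    (m : Ideal B) (hm : m.IsMaximal) : HasRootAt B n f m := by
  have hm0 : ∀ i, center hf i ≠ ⊥ := fun i h => hπ0 (congrArg Subtype.val
    (show algebraMap W B π = 0 from Ideal.mem_bot.mp (h ▸ mem_center.mpr (hu i))))
  by_cases hπm : algebraMap W B π ∈ m
  swap
  · refine hroots m hm.isPrime (fun h => ?_) hπm
    let i₀ : ι := Classical.arbitrary ι
    exact hm0 i₀ ((hm.eq_of_le (center_isPrime (hf := hf) i₀).ne_top (h ▸ bot_le)).symm.trans h)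
  haveI := hm.isPrime
  haveI := hf.noetherian
  have hcentre : ∀ i, HasRootAt B n f (center hf i) := fun i => by
    obtain ⟨T, hT⟩ := hT i
    obtain ⟨a, b, hb, hab⟩ := exists_frac hf hpts hu hmax hπ0 hT.1
    refine ⟨T, a, b, fun ha => (hT.mul (isU_of_notMem_center hb)).2 (hab ▸ rs_of_mem_center ha),
      hb, ?_⟩
    show (b : F) * T ^ n = (a : F) * f
    rw [← hab, div_mul_eq_mul_div, div_mul_cancel₀ _ hf0, mul_comm]
  obtain ⟨i, hi⟩ := exists_center_le hf hm.isPrime hπm
  obtain ⟨a, b, ha, hbx, hb, hgen, hcgen, -⟩ :=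
    exists_branch_param hf hpts hu hmax (x := m) ⟨hm, hπm⟩ hi
  let R := Localization.AtPrime m
  haveI : IsNoetherianRing R :=
    IsLocalization.isNoetherianRing m.primeCompl (Localization.AtPrime m) inferInstance
  letI : Algebra R F := IsLocalization.localizationAlgebraOfSubmonoidLe R F m.primeCompl
    (nonZeroDivisors B) m.primeCompl_le_nonZeroDivisors
  haveI : IsScalarTower B R F := IsLocalization.localization_isScalarTower_of_submonoid_le R F
    m.primeCompl (nonZeroDivisors B) m.primeCompl_le_nonZeroDivisors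
  haveI : IsFractionRing R F :=
    IsFractionRing.isFractionRing_of_isDomain_of_isLocalization m.primeCompl R F
  have hinj : Function.Injective (algebraMap B R) :=
    IsLocalization.injective R m.primeCompl_le_nonZeroDivisors
  have hmR := maximalIdeal_eq_span_pair m (hi ha) hbx hgen
  have ha0 : algebraMap B R a ≠ 0 := (map_ne_zero_iff _ hinj).mpr fun h => by
    obtain ⟨s, hs, hsπ⟩ := hcgen (algebraMap W B π) (mem_center.mpr (hu i))
    rw [h, Ideal.mem_span_singleton, zero_dvd_iff, mul_eq_zero] at hsπ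
    exact hsπ.elim (fun h0 => hs (h0 ▸ zero_mem m)) fun h0 => hπ0 (congrArg Subtype.val h0)
  obtain ⟨Q, hQ, haQ, hbQ⟩ := exists_prime_localization m hi ha hb
  haveI := hQ
  haveI := ufm_of_two_generated hmR ha0 Q haQ hbQ
  have hroot : HasRootAt R n f (maximalIdeal R) := hasRootAt_of_principal hn hf0 fun p hp => by
    have hpp : (Ideal.span {p}).IsPrime := (Ideal.span_singleton_prime hp.ne_zero).mpr hp
    set q : Ideal B := (Ideal.span {p}).comap (algebraMap B R)
    have hq0 : q ≠ ⊥ := fun h0 => hp.ne_zero (Ideal.span_singleton_eq_bot.mp (by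
      rw [← IsLocalization.map_under m.primeCompl R (Ideal.span {p}), Ideal.under_def]
      exact (congrArg (Ideal.map (algebraMap B R)) h0).trans Ideal.map_bot))
    have hq : HasRootAt B n f q := by
      by_cases hπq : algebraMap W B π ∈ q
      · haveI : q.IsPrime := Ideal.IsPrime.comap _
        have hnm : ¬ q.IsMaximal := fun hqm => by
          have hle : q ≤ m := fun w hw => (IsLocalization.AtPrime.to_map_mem_maximal_iff R m w).mp
            (le_maximalIdeal hpp.ne_top (Ideal.mem_comap.mp hw))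
          have hqe := hqm.eq_of_le hm.ne_top hle
          have hpa : p ∣ algebraMap B R a :=
            Ideal.mem_span_singleton.mp (show a ∈ q from hqe ▸ hi ha)
          have hpb : p ∣ algebraMap B R b :=
            Ideal.mem_span_singleton.mp (show b ∈ q from hqe ▸ hbx)
          have hap : algebraMap B R a ∣ p :=
            (hp.associated_of_dvd (prime_of_two_generated hmR ha0 Q haQ hbQ) hpa).symm.dvd
          obtain ⟨r, hr⟩ := hap.trans hpb
          exact hbQ (hr ▸ Q.mul_mem_right r haQ)
        obtain ⟨l, hl⟩ := exists_center_eq hf hπq hnm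
        exact hl ▸ hcentre l
      · exact hroots q (Ideal.IsPrime.comap _) hq0 hπq
    obtain ⟨z, c, d, hc, hd, he⟩ := hq
    exact ⟨z, algebraMap B R c, algebraMap B R d, hc, hd, by
      rw [← IsScalarTower.algebraMap_apply, ← IsScalarTower.algebraMap_apply]; exact he⟩
  obtain ⟨z, c, d, hc, hd, he⟩ := hroot
  obtain ⟨c₀, s, rfl⟩ := IsLocalization.exists_mk'_eq m.primeCompl c
  obtain ⟨d₀, s', rfl⟩ := IsLocalization.exists_mk'_eq m.primeCompl d
  rw [IsLocalization.AtPrime.mk'_mem_maximal_iff R m] at hc hd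
  refine ⟨z, c₀ * s', d₀ * s, fun h => (hm.isPrime.mem_or_mem h).elim hc s'.2,
    fun h => (hm.isPrime.mem_or_mem h).elim hd s.2, ?_⟩
  have e : ∀ (r : B) (u : m.primeCompl),
      algebraMap B F r = algebraMap R F (IsLocalization.mk' R r u) * algebraMap B F (u : B) :=
    fun r u => by
      rw [IsScalarTower.algebraMap_apply B R F (u : B), ← map_mul, IsLocalization.mk'_spec,
        ← IsScalarTower.algebraMap_apply]
  rw [map_mul, map_mul, e c₀ s, e d₀ s']
  linear_combination (algebraMap B F (s : B) * algebraMap B F (s' : B)) * he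

end Branch

end Fermat.Agent.Models
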