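/-
A power of a Frobenius automorphism fixes every crossing point of the special fibre.
-/
import Fermat.Agent.Models.FrobNode
import Fermat.Agent.Models.DetectFinite

set_option autoImplicit false
set_option linter.style.haveILetI false
set_option linter.unusedSectionVars false

noncomputable section

namespace Fermat.Agent.Models

open IsLocalRing

variable {O F : Type} [CommRing O] [IsDomain O] [IsDiscreteValuationRing O] [Field F] [Algebra O F]
  {ι : Type} {π : O} {P : ι → ValuationSubring F} {s : F ≃+* F} {Q : ℕ}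

theorem FrobData.pow' (hs : FrobData O P s Q) (k : ℕ) : FrobData O P (s ^ k : RingAut F) (Q ^ k) := by
  induction k with
  | zero =>
    exact ⟨by simp, fun a => ⟨a, by simp, by simp⟩, fun i x => by simp⟩
  | succ k ih =>
    refine ⟨pow_pos hs.pos _, fun a => ?_, fun i x => ?_⟩
    · obtain ⟨a', h1, h2⟩ := hs.const a
      obtain ⟨a'', h3, h4⟩ := ih.const a'
      refine ⟨a'', ?_, by rw [h4, h2, ← pow_mul, ← pow_succ']⟩
      rw [pow_succ]
      show (s ^ k : RingAut F) (s _) = _
      rw [h1, h3]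
    · rw [pow_succ]
      show (s ^ k : RingAut F) (s x) ∈ P i ↔ _
      rw [ih.perm, hs.perm]

variable {B : Subalgebra O F}

theorem pow_mem_of_mem (hsB : ∀ b ∈ B, s b ∈ B) (k : ℕ) : ∀ b ∈ B, (s ^ k : RingAut F) b ∈ B := by
  induction k with
  | zero => intro b hb; simpa using hb
  | succ k ih =>
    intro b hb
    rw [pow_succ]
    show (s ^ k : RingAut F) (s b) ∈ B
    exact ih _ (hsB b hb)

theorem pow_symm_mem_of_mem (hsB : ∀ b ∈ B, s.symm b ∈ B) (k : ℕ) :
    ∀ b ∈ B, (s ^ k : RingAut F).symm b ∈ B := by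
  intro b hb
  show ((s ^ k : RingAut F)⁻¹ : RingAut F) b ∈ B
  rw [← inv_pow]
  exact pow_mem_of_mem (s := (s⁻¹ : RingAut F)) hsB k b hb

/-- Crossing points are fixed by a power. -/
theorem exists_fixing_power [Fintype ι] (hπ : Irreducible π) (hf : ChartFibre B π P)
    (hmax : ∀ i, ¬ (center hf i).IsMaximal)
    (hc : Function.Injective (center hf)) (hs : FrobData O P s Q) (hsB : ∀ b ∈ B, s b ∈ B)
    (hsB' : ∀ b ∈ B, s.symm b ∈ B) :
    ∃ K : ℕ, 0 < K ∧ ∀ k, K ∣ k → ∀ x i j, IsPoint π x → center hf i ≤ x → center hf j ≤ x → i ≠ j →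
      x.comap (frobRestr (pow_mem_of_mem hsB k)) = x := by
  classical
  haveI := hf.noetherian
  set X : Set (Ideal B) :=
    {x | IsPoint π x ∧ ∃ i j, center hf i ≤ x ∧ center hf j ≤ x ∧ i ≠ j}
  have hfin : X.Finite := by
    refine Set.Finite.subset (Set.finite_iUnion fun p : ι × ι =>
      Ideal.finite_minimalPrimes_of_isNoetherianRing B (center hf p.1 ⊔ center hf p.2)) ?_
    rintro x ⟨hx, i, j, hi, hj, hij⟩
    refine Set.mem_iUnion.mpr ⟨(i, j), ?_⟩
    haveI := hx.1.isPrime
    obtain ⟨m, hm, hmx⟩ := Ideal.exists_minimalPrimes_le (sup_le hi hj)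
    haveI := hm.1.1
    have hlt : center hf i < m := lt_of_le_of_ne (le_trans le_sup_left hm.1.2) fun h =>
      not_le_of_ne hf (hmax i) (fun e => hij (hc e).symm) (h ▸ le_trans le_sup_right hm.1.2)
    rw [← (isMaximal_of_lt hf hlt).eq_of_le hx.1.ne_top hmx]
    exact hm
  haveI : Finite X := hfin.to_subtype
  let T : X → X := fun x => ⟨x.1.comap (frobRestr hsB), isPoint_comap_frob hsB hπ hs hsB' x.2.1, by
    obtain ⟨i, j, hi, hj, hij⟩ := x.2.2
    exact ⟨i, j, center_le_comap_frob hsB hs hf hi, center_le_comap_frob hsB hs hf hj, hij⟩⟩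
  have hTinj : Function.Injective T := fun x y h => by
    have hsurj : Function.Surjective (frobRestr hsB) := fun b =>
      ⟨⟨s.symm b, hsB' _ b.2⟩, Subtype.ext (s.apply_symm_apply (b : F))⟩
    exact Subtype.ext (Ideal.comap_injective_of_surjective _ hsurj (congrArg Subtype.val h))
  let e : Equiv.Perm X := Equiv.ofBijective T (Finite.injective_iff_bijective.mp hTinj)
  refine ⟨Nat.card (Equiv.Perm X), Nat.card_pos, fun k hk x i j hx hi hj hij => ?_⟩
  have he : e ^ k = 1 := by
    obtain ⟨c, rfl⟩ := hk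
    rw [pow_mul, pow_card_eq_one', one_pow]
  have key : ∀ (k : ℕ) (x : X), ((e ^ k) x).1 = x.1.comap (frobRestr (pow_mem_of_mem hsB k)) := by
    intro k
    induction k with
    | zero =>
      intro x
      ext b
      rw [Ideal.mem_comap]
      constructor <;> intro h <;> convert h using 1 <;> rfl
    | succ k ih =>
      intro x
      rw [pow_succ', Equiv.Perm.mul_apply]
      show (((e ^ k) x).1).comap (frobRestr hsB) = _
      rw [ih, Ideal.comap_comap]
      rfl
  have h := key k ⟨x, hx, i, j, hi, hj, hij⟩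
  rw [he] at h
  exact h.symm

end Fermat.Agent.Models
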