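/-
Invariants of a finite group at a point where the fibre of an invariant ideal is as short as the
stabiliser allows: the invariant ideal is maximal there.
-/
import Mathlib
import Fermat.Agent.Moduli.Count

set_option autoImplicit false

noncomputable section

namespace Fermat.Agent.Models

open Fermat.Agent.Moduli
open scoped Pointwise

section Generators

variable {A C : Type} [CommRing A] [CommRing C] [IsLocalRing C] [Algebra A C]

/-- If the base surjects onto the residue field, a module of finite length is generated over the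
base by as many elements as its length. -/
theorem exists_fin_span_le_length
    (hsurj : ∀ c : C, ∃ a : A, c - algebraMap A C a ∈ IsLocalRing.maximalIdeal C)
    {N : Type} [AddCommGroup N] [Module C N] (h : IsFiniteLength C N) :
    ∀ [Module A N] [IsScalarTower A C N], ∃ (r : ℕ) (v : Fin r → N),
      (r : ℕ∞) ≤ Module.length C N ∧ Submodule.span A (Set.range v) = ⊤ := by
  induction h with
  | of_subsingleton =>
    intro _ _
    exact ⟨0, Fin.elim0, by simp, Subsingleton.elim _ _⟩
  | @of_simple_quotient M _ _ Q hQ hfin ih =>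
    intro _ _
    obtain ⟨r, v, hr, hv⟩ := ih
    obtain ⟨w, hw⟩ : ∃ w : M, (Submodule.Quotient.mk w : M ⧸ Q) ≠ 0 := by
      haveI := IsSimpleModule.nontrivial C (M ⧸ Q)
      obtain ⟨y, hy⟩ := exists_ne (0 : M ⧸ Q)
      obtain ⟨w, rfl⟩ := Submodule.Quotient.mk_surjective Q y
      exact ⟨w, hy⟩
    refine ⟨r + 1, Fin.cons w fun i => (v i : M), ?_, ?_⟩
    · rw [Module.length_eq_add_of_exact Q.subtype Q.mkQ Subtype.val_injective Q.mkQ_surjective
        (LinearMap.exact_subtype_mkQ Q), Module.length_eq_one (R := C) (M := M ⧸ Q)]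
      push_cast
      exact add_le_add hr le_rfl
    · refine eq_top_iff.mpr fun z _ => ?_
      have hspan := IsSimpleModule.span_singleton_eq_top C hw
      obtain ⟨c, hc⟩ := Submodule.mem_span_singleton.mp
        (hspan ▸ Submodule.mem_top : (Submodule.Quotient.mk z : M ⧸ Q) ∈ C ∙ Submodule.Quotient.mk w)
      obtain ⟨a, ha⟩ := hsurj c
      have hann : (c - algebraMap A C a) • (Submodule.Quotient.mk w : M ⧸ Q) = 0 := by
        have hk : Module.annihilator C (M ⧸ Q) = IsLocalRing.maximalIdeal C :=
          IsLocalRing.eq_maximalIdeal (IsSimpleModule.annihilator_isMaximal)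
        exact Module.mem_annihilator.mp (hk ▸ ha) _
      have hzQ : z - algebraMap A C a • w ∈ Q := by
        rw [← Submodule.Quotient.eq, ← hc, Submodule.Quotient.mk_smul, ← sub_eq_zero, ← sub_smul, hann]
      rw [← sub_add_cancel z (algebraMap A C a • w)]
      refine add_mem ?_ ?_
      · have hm : (⟨_, hzQ⟩ : Q) ∈ Submodule.span A (Set.range v) := hv ▸ Submodule.mem_top
        have := Submodule.mem_map_of_mem (f := Q.subtype.restrictScalars A) hm
        rw [Submodule.map_span, ← Set.range_comp] at this
        refine Submodule.span_mono ?_ this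
        rintro _ ⟨i, rfl⟩
        exact ⟨i.succ, by simp⟩
      · rw [algebraMap_smul]
        exact Submodule.smul_mem _ _ (Submodule.subset_span ⟨0, by simp⟩)

variable {N : Type} [AddCommGroup N] [Module C N] [Module A N] [IsScalarTower A C N]

omit [Algebra A C] in
/-- A power of the maximal ideal kills a module of finite length. -/
theorem exists_pow_smul_top_eq_bot (h : IsFiniteLength C N) :
    ∃ t, IsLocalRing.maximalIdeal C ^ t • (⊤ : Submodule C N) = ⊥ := by
  haveI := (isFiniteLength_iff_isNoetherian_isArtinian.mp h).1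
  haveI := (isFiniteLength_iff_isNoetherian_isArtinian.mp h).2
  obtain ⟨t, ht⟩ := IsArtinian.monotone_stabilizes (R := C) (M := N)
    ⟨fun k => OrderDual.toDual (IsLocalRing.maximalIdeal C ^ k • (⊤ : Submodule C N)),
      fun a b hab => Submodule.smul_mono_left (Ideal.pow_le_pow_right hab)⟩
  refine ⟨t, Submodule.eq_bot_of_le_smul_of_le_jacobson_bot (IsLocalRing.maximalIdeal C) _
    (IsNoetherian.noetherian _) ?_ (by rw [IsLocalRing.jacobson_eq_maximalIdeal ⊥ bot_ne_top])⟩
  have h' := ht (t + 1) (Nat.le_succ t)
  change OrderDual.toDual _ = OrderDual.toDual _ at h'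
  have := OrderDual.toDual.injective h'
  conv_lhs => rw [this, pow_succ', ← smul_eq_mul, Submodule.smul_assoc]

/-- With one fewer generator if the closed point of the base does not kill the module. -/
theorem exists_fin_span_lt_length
    (hsurj : ∀ c : C, ∃ a : A, c - algebraMap A C a ∈ IsLocalRing.maximalIdeal C)
    (h : IsFiniteLength C N) {a : A} (ha : algebraMap A C a ∈ IsLocalRing.maximalIdeal C) {z₀ : N}
    (hz₀ : algebraMap A C a • z₀ ≠ 0) :
    ∃ (r : ℕ) (v : Fin r → N), (r : ℕ∞) < Module.length C N ∧
      Submodule.span A (Set.range v) = ⊤ := by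
  set p := (IsLocalRing.maximalIdeal C).comap (algebraMap A C)
  let JN : Submodule C N := (p.map (algebraMap A C)) • ⊤
  haveI := (isFiniteLength_iff_isNoetherian_isArtinian.mp h).1
  haveI := (isFiniteLength_iff_isNoetherian_isArtinian.mp h).2
  have hlt : Module.length C (N ⧸ JN) < Module.length C N := Submodule.length_quotient_lt JN
    fun h0 => hz₀ ((Submodule.eq_bot_iff _).mp h0 _
      (Submodule.smul_mem_smul (Ideal.mem_map_of_mem _ ha) Submodule.mem_top))
  obtain ⟨r, v, hr, hv⟩ := exists_fin_span_le_length (A := A) (N := N ⧸ JN) hsurj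
    (h.of_surjective (f := JN.mkQ) JN.mkQ_surjective)
  choose v' hv' using fun i => Submodule.Quotient.mk_surjective JN (v i)
  refine ⟨r, v', lt_of_le_of_lt hr hlt, ?_⟩
  set S := Submodule.span A (Set.range v')
  have hJ : JN.restrictScalars A ≤ p • (⊤ : Submodule A N) := by
    intro x hx
    have hx' : x ∈ (p.map (algebraMap A C)) • (⊤ : Submodule C N) := hx
    refine Submodule.smul_induction_on (p := fun x => x ∈ p • (⊤ : Submodule A N)) hx'
      (fun c hc y _ => ?_) fun x y hx hy => add_mem hx hy
    induction hc using Submodule.span_induction generalizing y with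
    | mem c hc =>
      obtain ⟨b, hb, rfl⟩ := hc
      rw [algebraMap_smul]
      exact Submodule.smul_mem_smul hb Submodule.mem_top
    | zero => rw [zero_smul]; exact zero_mem _
    | add c d _ _ ihc ihd => rw [add_smul]; exact add_mem (ihc y Submodule.mem_top) (ihd y Submodule.mem_top)
    | smul c d _ ih => rw [smul_eq_mul, mul_comm, mul_smul]; exact ih (c • y) Submodule.mem_top
  have h1 : S ⊔ p • (⊤ : Submodule A N) = ⊤ := by
    refine eq_top_iff.mpr fun x _ => ?_
    have hm : (Submodule.Quotient.mk x : N ⧸ JN) ∈ Submodule.span A (Set.range v) :=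
      hv ▸ Submodule.mem_top
    rw [show Set.range v = (JN.mkQ.restrictScalars A) '' Set.range v' by
      rw [← Set.range_comp]; exact congrArg Set.range (funext fun i => (hv' i).symm),
      ← Submodule.map_span] at hm
    obtain ⟨s, hs, hsx⟩ := hm
    rw [← add_sub_cancel s x]
    refine Submodule.add_mem_sup hs (hJ ?_)
    exact (Submodule.Quotient.eq JN).mp hsx.symm
  have hk : ∀ k : ℕ, S ⊔ p ^ k • (⊤ : Submodule A N) = ⊤ := by
    intro k
    induction k with
    | zero => rw [pow_zero, Ideal.one_eq_top, Submodule.top_smul, sup_top_eq]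
    | succ k ih =>
      refine eq_top_iff.mpr (ih.ge.trans (sup_le le_sup_left ?_))
      conv_lhs => rw [← h1]
      rw [Submodule.smul_sup, ← Submodule.smul_assoc, smul_eq_mul, ← pow_succ]
      exact sup_le_sup Submodule.smul_le_right le_rfl
  obtain ⟨t, ht⟩ := exists_pow_smul_top_eq_bot h
  refine eq_top_iff.mpr ((hk t).ge.trans (sup_le le_rfl ?_))
  intro x hx
  have : x ∈ IsLocalRing.maximalIdeal C ^ t • (⊤ : Submodule C N) := by
    refine Submodule.smul_induction_on hx (fun b hb y _ => ?_) fun x y => Submodule.add_mem _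
    rw [← algebraMap_smul C b y]
    refine Submodule.smul_mem_smul ?_ Submodule.mem_top
    have hb' := Ideal.mem_map_of_mem (algebraMap A C) hb
    rw [Ideal.map_pow] at hb'
    exact Ideal.pow_right_mono Ideal.map_comap_le t hb'
  rw [ht, Submodule.mem_bot] at this
  rw [this]
  exact zero_mem _

end Generators

section Descent

variable {H A B : Type} [Group H] [Finite H] [CommRing A] [CommRing B] [IsDomain B]
  [MulSemiringAction H B] [Algebra A B] [SMulCommClass H A B] [FaithfulSMul H B] [FaithfulSMul A B]
  [Module.Finite A B] [Algebra.IsInvariant A B H]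

/-- A family spanning `B` near a point has at least as many members as the group, and is
independent if it has exactly as many. -/
theorem card_le_of_span {ι : Type} [Fintype ι] (w : ι → B) {u : A} (hu : u ≠ 0)
    (hw : ∀ b : B, u • b ∈ Submodule.span A (Set.range w)) :
    Nat.card H ≤ Fintype.card ι ∧ (Fintype.card ι ≤ Nat.card H →
      ∀ α : ι → A, ∑ j, α j • w j = 0 → α = 0) := by
  classical
  haveI := Fintype.ofFinite H
  let F := FractionRing B
  let f := algebraMap B F
  have hf : Function.Injective f := IsFractionRing.injective B F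
  let χ : H → (B →* F) := fun g => f.toMonoidHom.comp (MulSemiringAction.toRingHom H B g).toMonoidHom
  have hχ : Function.Injective χ := fun g g' h => FaithfulSMul.eq_of_smul_eq_smul (α := B)
    fun b => hf (DFunLike.congr_fun h b)
  have hli : LinearIndependent F fun g : H => (χ g : B → F) :=
    (linearIndependent_monoidHom B F).comp χ hχ
  have hrows : LinearIndependent F fun g : H => fun j => χ g (w j) := by
    rw [Fintype.linearIndependent_iff] at hli ⊢
    intro c hc
    refine hli c (funext fun b => ?_)
    obtain ⟨α, hα⟩ := (Submodule.mem_span_range_iff_exists_fun A).mp (hw b)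
    have h1 : ∑ g, c g * χ g (u • b) = 0 := by
      rw [← hα]
      have hg : ∀ g, χ g (∑ j, α j • w j) = ∑ j, f (algebraMap A B (α j)) * χ g (w j) := fun g => by
        show f (g • ∑ j, α j • w j) = _
        rw [Finset.smul_sum, map_sum]
        refine Finset.sum_congr rfl fun j _ => ?_
        rw [smul_comm g (α j) (w j), Algebra.smul_def, map_mul]
        rfl
      simp only [hg, Finset.mul_sum]
      rw [Finset.sum_comm]
      refine Finset.sum_eq_zero fun j _ => ?_
      have h2 := congrFun hc j
      simp only [Finset.sum_apply, Pi.smul_apply, smul_eq_mul, Pi.zero_apply] at h2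
      calc ∑ g, c g * (f (algebraMap A B (α j)) * χ g (w j))
          = f (algebraMap A B (α j)) * ∑ g, c g * χ g (w j) := by
            rw [Finset.mul_sum]; exact Finset.sum_congr rfl fun g _ => by ring
        _ = 0 := by rw [h2, mul_zero]
    have hu' : ∀ g, χ g (u • b) = f (algebraMap A B u) * χ g b := fun g => by
      show f (g • u • b) = _
      rw [smul_comm g u b, Algebra.smul_def, map_mul]
      rfl
    simp only [hu', mul_left_comm (c _), ← Finset.mul_sum] at h1
    have hfu : f (algebraMap A B u) ≠ 0 := (map_ne_zero_iff _ hf).mpr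
      ((map_ne_zero_iff _ (FaithfulSMul.algebraMap_injective A B)).mpr hu)
    simpa using (mul_eq_zero.mp h1).resolve_left hfu
  have hcard := hrows.fintype_card_le_finrank
  rw [Module.finrank_fintype_fun_eq_card, ← Nat.card_eq_fintype_card] at hcard
  refine ⟨hcard, fun hle α hα => ?_⟩
  have htop := hrows.span_eq_top_of_card_eq_finrank' (by
    rw [Module.finrank_fintype_fun_eq_card, ← Nat.card_eq_fintype_card]; omega)
  let φ : (ι → F) →ₗ[F] F := ∑ j, f (algebraMap A B (α j)) • LinearMap.proj j
  have hφ : φ = 0 := LinearMap.ext_on_range htop fun g => by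
    have h1 := congrArg (fun b => f (g • b)) hα
    simp only [Finset.smul_sum, smul_zero, map_zero, map_sum] at h1
    rw [LinearMap.zero_apply, ← h1]
    simp only [φ, LinearMap.sum_apply, LinearMap.smul_apply, LinearMap.proj_apply,
      smul_eq_mul]
    refine Finset.sum_congr rfl fun j _ => ?_
    rw [smul_comm g (α j) (w j), Algebra.smul_def, map_mul]
    rfl
  funext j
  have h1 := LinearMap.congr_fun hφ (Pi.single j 1)
  simp only [φ, LinearMap.sum_apply, LinearMap.smul_apply, LinearMap.proj_apply,
    smul_eq_mul, LinearMap.zero_apply, Pi.single_apply, mul_ite, mul_one, mul_zero,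
    Finset.sum_ite_eq', Finset.mem_univ, if_true] at h1
  exact FaithfulSMul.algebraMap_injective A B (hf (by rw [h1, Pi.zero_apply, map_zero, map_zero]))

variable (H) in
/-- If the fibre of an invariant ideal at `m` has length at most the order of the stabiliser, the
ideal is the maximal ideal of the invariants there. -/
theorem exists_mul_mem_of_qlen_le (m : Ideal B) [hm : m.IsMaximal]
    (hres : ∀ b : B, ∃ a : A, b - algebraMap A B a ∈ m) (I : Ideal A)
    (hIm : ∀ a ∈ I, algebraMap A B a ∈ m) (C : Type) [CommRing C] [Algebra B C]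
    [IsLocalization.AtPrime C m]
    (hlen : qlen ((I.map (algebraMap A B)).map (algebraMap B C)) ≤
      Nat.card (MulAction.stabilizer H m)) {a : A} (ha : algebraMap A B a ∈ m) :
    ∃ s : A, algebraMap A B s ∉ m ∧ s * a ∈ I := by
  classical
  haveI : IsLocalRing C := IsLocalization.AtPrime.isLocalRing C m
  letI : Algebra A C := ((algebraMap B C).comp (algebraMap A B)).toAlgebra
  haveI : IsScalarTower A B C := IsScalarTower.of_algebraMap_eq fun _ => rfl
  set J := I.map (algebraMap A B) with hJdef
  set JC := J.map (algebraMap B C) with hJC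
  set p := m.comap (algebraMap A B) with hp
  haveI : Algebra.IsIntegral A B := Algebra.IsIntegral.of_finite A B
  have hmC : ∀ b : B, algebraMap B C b ∈ IsLocalRing.maximalIdeal C ↔ b ∈ m := fun b =>
    IsLocalization.AtPrime.to_map_mem_maximal_iff C m b
  -- the base surjects onto the residue field
  have hsurj : ∀ c : C, ∃ a : A, c - algebraMap A C a ∈ IsLocalRing.maximalIdeal C := by
    intro c
    obtain ⟨b, ⟨v, hv⟩, rfl⟩ := IsLocalization.exists_mk'_eq m.primeCompl c
    obtain ⟨v', r, hr, hvr⟩ := Ideal.IsMaximal.exists_inv hm hv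
    obtain ⟨a₀, ha₀⟩ := hres (b * v')
    refine ⟨a₀, (Ideal.unit_mul_mem_iff_mem _
      (IsLocalization.map_units C (⟨v, hv⟩ : m.primeCompl))).mp ?_⟩
    rw [mul_sub, mul_comm _ (IsLocalization.mk' C b _), IsLocalization.mk'_spec,
      IsScalarTower.algebraMap_apply A B C, ← map_mul, ← map_sub, hmC]
    rw [show b - v * algebraMap A B a₀ = b * r + v * (b * v' - algebraMap A B a₀) by
      linear_combination b * (hvr.symm)]
    exact add_mem (m.mul_mem_left _ hr) (m.mul_mem_left _ ha₀)
  have hfin : IsFiniteLength C (C ⧸ JC) :=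
    Module.length_ne_top_iff.mp (ne_top_of_le_ne_top (ENat.coe_ne_top _) hlen)
  -- generators near `m`
  have hgen : ∃ (r : ℕ) (c : Fin r → B), r ≤ Nat.card (MulAction.stabilizer H m) ∧
      (∀ b : B, ∃ α : Fin r → A, b - ∑ i, α i • c i ∈ saturation J m) ∧
      ((∃ a₁ : A, algebraMap A B a₁ ∈ m ∧ algebraMap A B a₁ ∉ saturation J m) →
        r < Nat.card (MulAction.stabilizer H m)) := by
    have hsat : ∀ b : B, algebraMap B C b ∈ JC ↔ b ∈ saturation J m := fun b => by
      rw [hJC, IsLocalization.algebraMap_mem_map_algebraMap_iff m.primeCompl]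
      exact ⟨fun ⟨u, hu, h⟩ => ⟨u, hu, h⟩, fun ⟨u, hu, h⟩ => ⟨u, hu, h⟩⟩
    obtain ⟨t, ht⟩ : ∃ t, IsLocalRing.maximalIdeal C ^ t ≤ JC := by
      obtain ⟨t, ht⟩ := exists_pow_smul_top_eq_bot hfin
      refine ⟨t, fun c hc => ?_⟩
      have h1 := Submodule.smul_mem_smul hc
        (Submodule.mem_top : (Submodule.Quotient.mk 1 : C ⧸ JC) ∈ (⊤ : Submodule C (C ⧸ JC)))
      rwa [ht, Submodule.mem_bot, ← Submodule.Quotient.mk_smul, Submodule.Quotient.mk_eq_zero,
        smul_eq_mul, mul_one] at h1
    -- lift classes of `C / JC` to `B`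
    have hlift : ∀ y : C ⧸ JC, ∃ b : B, Submodule.Quotient.mk (algebraMap B C b) = y := by
      intro y
      obtain ⟨c, rfl⟩ := Submodule.Quotient.mk_surjective _ y
      obtain ⟨b, ⟨v, hv⟩, rfl⟩ := IsLocalization.exists_mk'_eq m.primeCompl c
      obtain ⟨v', hv'⟩ : ∃ v', v * v' - 1 ∈ m ^ t := by
        obtain ⟨v', r, hr, hvr⟩ := Ideal.IsMaximal.exists_inv hm hv
        have h1 : (1 - r ^ t) ∈ Ideal.span {v} := by
          rw [Ideal.mem_span_singleton]
          refine dvd_trans ⟨v', ?_⟩ (sub_dvd_pow_sub_pow 1 r t |>.trans (by rw [one_pow]))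
          linear_combination -hvr
        obtain ⟨w, hw⟩ := Ideal.mem_span_singleton.mp h1
        exact ⟨w, by rw [← hw, sub_sub_cancel_left]; exact neg_mem (Ideal.pow_mem_pow hr t)⟩
      refine ⟨b * v', ?_⟩
      rw [Submodule.Quotient.eq]
      refine (Ideal.unit_mul_mem_iff_mem _
        (IsLocalization.map_units C (⟨v, hv⟩ : m.primeCompl))).mp ?_
      rw [mul_sub, mul_comm _ (IsLocalization.mk' C b _), IsLocalization.mk'_spec, ← map_mul,
        ← map_sub, show v * (b * v') - b = b * (v * v' - 1) by ring, map_mul]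
      refine Ideal.mul_mem_left _ _ (ht ?_)
      have := Ideal.mem_map_of_mem (algebraMap B C) hv'
      rw [Ideal.map_pow, IsLocalization.AtPrime.map_eq_maximalIdeal m C] at this
      exact this
    have main : ∀ (r : ℕ) (v : Fin r → C ⧸ JC), Submodule.span A (Set.range v) = ⊤ →
        ∃ c : Fin r → B, ∀ b : B, ∃ α : Fin r → A, b - ∑ i, α i • c i ∈ saturation J m := by
      intro r v hv
      choose c hc using fun i => hlift (v i)
      refine ⟨c, fun b => ?_⟩
      obtain ⟨α, hα⟩ := (Submodule.mem_span_range_iff_exists_fun A).mp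
        (hv ▸ Submodule.mem_top :
          (Submodule.Quotient.mk (algebraMap B C b) : C ⧸ JC) ∈ Submodule.span A (Set.range v))
      refine ⟨α, (hsat _).mp ?_⟩
      rw [map_sub, map_sum, ← Submodule.Quotient.eq, ← hα]
      simp only [← Submodule.mkQ_apply, map_sum]
      refine Finset.sum_congr rfl fun i _ => ?_
      rw [← hc, Submodule.mkQ_apply, ← Submodule.Quotient.mk_smul, Algebra.smul_def,
        Algebra.smul_def, map_mul, ← IsScalarTower.algebraMap_apply A B C]
    by_cases hstrict : ∃ a₁ : A, algebraMap A B a₁ ∈ m ∧ algebraMap A B a₁ ∉ saturation J m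
    · obtain ⟨a₁, ha₁, hns⟩ := hstrict
      obtain ⟨r, v, hr, hv⟩ := exists_fin_span_lt_length (A := A) hsurj hfin
        ((hmC _).mpr ha₁ : algebraMap A C a₁ ∈ IsLocalRing.maximalIdeal C)
        (z₀ := Submodule.Quotient.mk 1) (by
          rw [← Submodule.Quotient.mk_smul, Ne, Submodule.Quotient.mk_eq_zero, smul_eq_mul, mul_one]
          exact fun h => hns ((hsat _).mp h))
      obtain ⟨c, hc⟩ := main r v hv
      have hlt : r < Nat.card (MulAction.stabilizer H m) := by
        exact_mod_cast lt_of_lt_of_le hr hlen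
      exact ⟨r, c, hlt.le, hc, fun _ => hlt⟩
    · obtain ⟨r, v, hr, hv⟩ := exists_fin_span_le_length (A := A) hsurj hfin
      obtain ⟨c, hc⟩ := main r v hv
      exact ⟨r, c, by exact_mod_cast hr.trans hlen, hc, fun h => absurd h hstrict⟩
  obtain ⟨r, c, hr, hc, hstrict⟩ := hgen
  -- the orbit
  let O := MulAction.orbit H m
  haveI : Finite O := (Set.finite_range fun g : H => g • m).to_subtype
  letI : Fintype O := Fintype.ofFinite O
  choose g hg using fun n : O => n.2
  replace hg : ∀ n : O, g n • m = (n : Ideal B) := hg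
  haveI hmax : ∀ n : O, (n : Ideal B).IsMaximal := fun n => hg n ▸ isMaximal_smul (g n) m
  have hJinv : ∀ (h : H) b, b ∈ J → h • b ∈ J := by
    intro h b hb
    induction hb using Submodule.span_induction with
    | mem b hb =>
      obtain ⟨a', ha', rfl⟩ := hb
      rw [show h • algebraMap A B a' = algebraMap A B a' by
        rw [Algebra.algebraMap_eq_smul_one, smul_comm, smul_one]]
      exact Ideal.mem_map_of_mem _ ha'
    | zero => rw [smul_zero]; exact zero_mem _
    | add b b' _ _ ih ih' => rw [smul_add]; exact add_mem ih ih'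
    | smul c b _ ih => rw [smul_eq_mul, smul_mul']; exact Ideal.mul_mem_left _ _ ih
  have hsatn : ∀ (n : O) (b : B),
      g n • b ∈ saturation J (n : Ideal B) ↔ b ∈ saturation J m := fun n b => by
    haveI : (g n • m).IsPrime := (isMaximal_smul (g n) m).isPrime
    simp only [← hg n]
    exact saturation_smul J hJinv (g n) m b
  have hgA : ∀ (h : H) (a' : A), h • algebraMap A B a' = algebraMap A B a' := fun h a' => by
    rw [Algebra.algebraMap_eq_smul_one, smul_comm, smul_one]
  -- a prime over `p` is in the orbit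
  have hcolon : ∀ z : B, (∀ n : O, z ∈ saturation J (n : Ideal B)) →
      ∃ s : A, s ∉ p ∧ s • z ∈ J := by
    intro z hz
    let I' : Ideal B := J.colon ({z} : Set B)
    by_contra hcon
    push Not at hcon
    have hle : I'.comap (algebraMap A B) ≤ p := fun s hs => by
      by_contra hsp
      exact hcon s hsp (by
        rw [Algebra.smul_def]
        exact Submodule.mem_colon_singleton.mp hs)
    obtain ⟨P, hIP, hP, hPc⟩ := Ideal.exists_ideal_over_prime_of_isIntegral (S := B) p I' hle
    obtain ⟨h, hh⟩ := Algebra.IsInvariant.exists_smul_of_under_eq A B H m P hPc.symm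
    obtain ⟨u, hu, huz⟩ := hz ⟨P, h, hh.symm⟩
    exact hu (hIP (Submodule.mem_colon_singleton.mpr huz))
  obtain ⟨t, ht⟩ : ∃ t, m ^ t ≤ saturation J m := by
    obtain ⟨t, ht⟩ := exists_pow_smul_top_eq_bot hfin
    refine ⟨t, fun b hb => ?_⟩
    have h1 : algebraMap B C b ∈ JC := by
      have h2 : algebraMap B C b • (Submodule.Quotient.mk 1 : C ⧸ JC) ∈
          IsLocalRing.maximalIdeal C ^ t • (⊤ : Submodule C (C ⧸ JC)) := by
        refine Submodule.smul_mem_smul ?_ Submodule.mem_top
        have := Ideal.mem_map_of_mem (algebraMap B C) hb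
        rwa [Ideal.map_pow, IsLocalization.AtPrime.map_eq_maximalIdeal m C] at this
      rwa [ht, Submodule.mem_bot, ← Submodule.Quotient.mk_smul, Submodule.Quotient.mk_eq_zero,
        smul_eq_mul, mul_one] at h2
    obtain ⟨u, hu, hub⟩ := (IsLocalization.algebraMap_mem_map_algebraMap_iff m.primeCompl C J b).mp h1
    exact ⟨u, hu, hub⟩
  have hpow : ∀ (n : O) (z : B), z ∈ (n : Ideal B) ^ t → z ∈ saturation J (n : Ideal B) := by
    intro n z hz
    rw [← smul_inv_smul (g n) z, hsatn n]
    refine ht ?_
    have hn : m = (n : Ideal B).map (MulSemiringAction.toRingHom H B (g n)⁻¹) := by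
      rw [← hg n]
      show m = (g n)⁻¹ • g n • m
      rw [inv_smul_smul]
    have := Ideal.mem_map_of_mem (MulSemiringAction.toRingHom H B (g n)⁻¹) hz
    rwa [Ideal.map_pow, ← hn] at this
  have hcop : Pairwise fun i j : O => IsCoprime ((i : Ideal B) ^ t) ((j : Ideal B) ^ t) :=
    fun i j hij => IsCoprime.pow (Ideal.isCoprime_iff_sup_eq.mpr
      ((hmax i).coprime_of_ne (hmax j) fun e => hij (Subtype.ext e)))
  choose e he using fun n : O => Ideal.exists_forall_sub_mem_ideal hcop
    (fun n' => if n' = n then (1 : B) else 0)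
  let w : O × Fin r → B := fun q => e q.1 * (g q.1 • c q.2)
  -- they span near `p`, modulo `J`
  have hspan : ∀ b : B, ∃ s : A, s ∉ p ∧ ∃ z ∈ J, s • b - z ∈ Submodule.span A (Set.range w) := by
    intro b
    choose α hα using fun n : O => hc ((g n)⁻¹ • b)
    let T : O → B := fun n => ∑ i, α n i • (g n • c i)
    have hT : ∀ n : O, b - T n ∈ saturation J (n : Ideal B) := fun (n : O) => by
      have h1 := (hsatn n _).mpr (hα n)
      rw [smul_sub, smul_inv_smul, Finset.smul_sum] at h1
      simp only [smul_comm (g n)] at h1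
      exact h1
    have hall : ∀ n : O, b - ∑ n', e n' * T n' ∈ saturation J (n : Ideal B) := by
      intro n
      rw [← Finset.add_sum_erase _ _ (Finset.mem_univ n)]
      have h1 : e n - 1 ∈ (n : Ideal B) ^ t := by simpa using he n n
      have h2 : ∀ n' ∈ Finset.univ.erase n, e n' * T n' ∈ saturation J (n : Ideal B) := by
        intro n' hn'
        refine Ideal.mul_mem_right _ _ (hpow n _ ?_)
        simpa [(Finset.mem_erase.mp hn').1.symm] using he n' n
      rw [show b - (e n * T n + ∑ n' ∈ Finset.univ.erase n, e n' * T n') =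
        (b - T n) - (e n - 1) * T n - ∑ n' ∈ Finset.univ.erase n, e n' * T n' by ring]
      exact sub_mem (sub_mem (hT n) (Ideal.mul_mem_right _ _ (hpow n _ h1)))
        (Ideal.sum_mem _ h2)
    obtain ⟨s, hs, hsz⟩ := hcolon _ hall
    refine ⟨s, hs, _, hsz, ?_⟩
    rw [smul_sub, sub_sub_cancel]
    refine Submodule.smul_mem _ s (Submodule.sum_mem _ fun n _ => ?_)
    rw [Finset.mul_sum]
    refine Submodule.sum_mem _ fun i _ => ?_
    rw [mul_smul_comm]
    exact Submodule.smul_mem _ _ (Submodule.subset_span ⟨(n, i), rfl⟩)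
  -- a single denominator, then Cayley–Hamilton
  obtain ⟨u, hu, huw⟩ : ∃ u : A, u ∉ p ∧ ∀ b : B, u • b ∈ Submodule.span A (Set.range w) := by
    obtain ⟨gs, hgs⟩ := Module.Finite.fg_top (R := A) (M := B)
    choose s hs z hz hsz using hspan
    set W := Submodule.span A (Set.range w)
    let s₀ := ∏ b ∈ gs, s b
    have hs₀ : s₀ ∉ p := fun h => by
      obtain ⟨b, hb, h'⟩ := Ideal.IsPrime.prod_mem_iff.mp h
      exact hs b h'
    have hIp : I ≤ p := hIm
    have hJI : J.restrictScalars A = I • (⊤ : Submodule A B) := (Ideal.smul_top_eq_map I).symm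
    have hrange : LinearMap.range (algebraMap A (Module.End A (B ⧸ W)) s₀) ≤ p • ⊤ := by
      rintro _ ⟨y, rfl⟩
      obtain ⟨b, rfl⟩ := Submodule.Quotient.mk_surjective W y
      rw [Module.algebraMap_end_apply]
      have hb : b ∈ Submodule.span A (gs : Set B) := hgs ▸ Submodule.mem_top
      induction hb using Submodule.span_induction with
      | mem b hb =>
        rw [show s₀ = (∏ x ∈ gs.erase b, s x) * s b from
          (Finset.prod_erase_mul gs s hb).symm, mul_smul]
        refine Submodule.smul_mem _ _ ?_
        rw [← Submodule.Quotient.mk_smul, show (Submodule.Quotient.mk (s b • b) : B ⧸ W) =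
          Submodule.Quotient.mk (z b) from (Submodule.Quotient.eq W).mpr (hsz b)]
        have hz' : z b ∈ I • (⊤ : Submodule A B) := hJI ▸ hz b
        have := Submodule.mem_map_of_mem (f := W.mkQ) hz'
        rw [Submodule.map_smul''] at this
        exact Submodule.smul_mono hIp le_top this
      | zero => simp
      | add x y _ _ ihx ihy => rw [Submodule.Quotient.mk_add, smul_add]; exact add_mem ihx ihy
      | smul a' x _ ih =>
        rw [Submodule.Quotient.mk_smul, smul_comm]
        exact Submodule.smul_mem _ _ ih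
    obtain ⟨P, hP1, -, hP2, hP3⟩ :=
      LinearMap.exists_monic_and_coeff_mem_pow_and_aeval_eq_zero_of_range_le_smul A _ p hrange
    refine ⟨P.eval s₀, fun h => hs₀ (Ideal.IsPrime.mem_of_pow_mem inferInstance P.natDegree ?_),
      fun b => ?_⟩
    · rw [Polynomial.eval_eq_sum_range, Finset.sum_range_succ, hP1.coeff_natDegree, one_mul,
        Ideal.add_mem_iff_right] at h
      · exact h
      · refine Ideal.sum_mem _ fun k hk => Ideal.mul_mem_right _ _ ?_
        exact Ideal.pow_le_self (by have := Finset.mem_range.mp hk; omega) (hP2 k)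
    · rw [Polynomial.aeval_algebraMap_apply_eq_algebraMap_eval] at hP3
      have := LinearMap.congr_fun hP3 (Submodule.Quotient.mk b)
      rwa [Module.algebraMap_end_apply, ← Submodule.Quotient.mk_smul, LinearMap.zero_apply,
        Submodule.Quotient.mk_eq_zero] at this
  have hu0 : u ≠ 0 := fun h => hu (h ▸ zero_mem p)
  obtain ⟨hge, hindep⟩ := card_le_of_span (H := H) w hu0 huw
  have hcardO : Fintype.card O * Nat.card (MulAction.stabilizer H m) = Nat.card H := by
    rw [← Nat.card_eq_fintype_card, ← Nat.card_prod]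
    exact Nat.card_congr (MulAction.orbitProdStabilizerEquivGroup H m)
  rw [Fintype.card_prod, Fintype.card_fin] at hge hindep
  have hOpos : 0 < Fintype.card O :=
    Fintype.card_pos_iff.mpr ⟨⟨m, MulAction.mem_orbit_self m⟩⟩
  -- the point of the base kills the fibre
  have hker : ∀ a₁ : A, algebraMap A B a₁ ∈ m → algebraMap A B a₁ ∈ saturation J m := by
    intro a₁ ha₁
    by_contra hns
    have := Nat.mul_lt_mul_of_pos_left (hstrict ⟨a₁, ha₁, hns⟩) hOpos
    omega
  have hindep' := hindep ((Nat.mul_le_mul_left _ hr).trans hcardO.le)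
  obtain ⟨s, hs, hsa⟩ := hcolon (algebraMap A B a) fun n => by
    rw [← hgA (g n) a, hsatn n]
    exact hker a ha
  obtain ⟨γ, hγ⟩ := (Submodule.mem_span_range_iff_exists_fun A).mp (huw 1)
  obtain ⟨j, hj⟩ : ∃ j, γ j ∉ p := by
    by_contra hall
    push Not at hall
    refine hu ?_
    rw [hp, Ideal.mem_comap, Algebra.algebraMap_eq_smul_one, ← hγ]
    refine Ideal.sum_mem _ fun j _ => ?_
    rw [Algebra.smul_def]
    exact Ideal.mul_mem_right _ _ (hall j)
  have hmemI : u • (s • algebraMap A B a) ∈ I • Submodule.span A (Set.range w) := by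
    have h1 : s • algebraMap A B a ∈ I • (⊤ : Submodule A B) := by
      rw [Ideal.smul_top_eq_map]
      exact hsa
    refine Submodule.smul_induction_on h1 (fun a' ha' b _ => ?_) fun x y hx hy => ?_
    · rw [smul_comm u a' b]
      exact Submodule.smul_mem_smul ha' (huw b)
    · rw [smul_add]; exact add_mem hx hy
  obtain ⟨β, hβ, hβw⟩ := (Submodule.mem_ideal_smul_span_iff_exists_sum I w _).mp hmemI
  have hkey : (fun j => u * (β j) - u * s * a * γ j) = 0 := hindep' _ (by
    simp only [sub_smul, mul_smul, Finset.sum_sub_distrib, ← Finset.smul_sum, hγ]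
    rw [show ∑ j, β j • w j = u • s • algebraMap A B a by
      rw [← hβw, Finsupp.sum_fintype _ _ (fun i => zero_smul A (w i))]]
    rw [Algebra.algebraMap_eq_smul_one, sub_eq_zero]
    simp only [← mul_smul]
    congr 1
    ring)
  refine ⟨γ j * (u * s), fun h => ?_, ?_⟩
  · rw [map_mul, map_mul] at h
    rcases hm.isPrime.mem_or_mem h with h | h
    · exact hj h
    · exact (hm.isPrime.mem_or_mem h).elim hu hs
  · have h1 : u * β j = u * s * a * γ j := sub_eq_zero.mp (congrFun hkey j)
    rw [show γ j * (u * s) * a = u * β j by rw [h1]; ring]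
    exact I.mul_mem_left u (hβ j)

end Descent

end Fermat.Agent.Models
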