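/-
Points of one chart off the zeros of its coordinate are points of the other chart: smooth points and
nodes pass between the charts.
-/
import Fermat.Agent.Models.SemiPoint

set_option autoImplicit false
set_option linter.style.haveILetI false
set_option linter.unusedSectionVars false

noncomputable section

namespace Fermat.Agent.Models

variable {W F : Type} [CommRing W] [Field F] [Algebra W F] {B B' : Subalgebra W F} {w u : F}

theorem pow_mul_mem_mono (hu : u ∈ B) {b : F} {E E' : ℕ} (h : E ≤ E') (hb : u ^ E * b ∈ B) :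
    u ^ E' * b ∈ B := by
  obtain ⟨d, rfl⟩ := Nat.exists_eq_add_of_le h
  rw [pow_add, mul_comm (u ^ E), mul_assoc]
  exact mul_mem (pow_mem hu d) hb

theorem pow_mul_mem_ideal (hu : u ∈ B) (m : Ideal B) {b : F} {E E' : ℕ} (h : E ≤ E')
    (hb : u ^ E * b ∈ B) (hm : (⟨_, hb⟩ : B) ∈ m) :
    (⟨_, pow_mul_mem_mono hu h hb⟩ : B) ∈ m := by
  have e : (⟨_, pow_mul_mem_mono hu h hb⟩ : B) = ⟨u, hu⟩ ^ (E' - E) * ⟨_, hb⟩ := Subtype.ext (by
    rw [MulMemClass.coe_mul, SubmonoidClass.coe_pow, ← mul_assoc, ← pow_add,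
      Nat.sub_add_cancel h])
  rw [e]
  exact m.mul_mem_left _ hm

/-- The ideal of the other chart given by an ideal, with `u` inverted. -/
def transIdeal (hu : u ∈ B) (hB'B : ∀ b ∈ B', ∃ E : ℕ, u ^ E * b ∈ B) (m : Ideal B) : Ideal B' where
  carrier := {b | ∃ (E : ℕ) (h : u ^ E * (b : F) ∈ B), (⟨_, h⟩ : B) ∈ m}
  zero_mem' := ⟨0, by simp, by
    have e : (⟨u ^ 0 * ((0 : B') : F), by simp⟩ : B) = 0 := Subtype.ext (by simp)
    rw [e]; exact m.zero_mem⟩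
  add_mem' := by
    rintro a b ⟨E, h, hm⟩ ⟨E', h', hm'⟩
    have h1 := pow_mul_mem_ideal hu m (Nat.le_add_right E E') h hm
    have h2 := pow_mul_mem_ideal hu m (Nat.le_add_left E' E) h' hm'
    have e : u ^ (E + E') * ((a + b : B') : F) = u ^ (E + E') * (a : F) + u ^ (E + E') * (b : F) := by
      rw [AddMemClass.coe_add, mul_add]
    refine ⟨E + E', e ▸ add_mem (pow_mul_mem_mono hu (Nat.le_add_right E E') h)
      (pow_mul_mem_mono hu (Nat.le_add_left E' E) h'), ?_⟩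
    convert m.add_mem h1 h2 using 1
    exact Subtype.ext e
  smul_mem' := by
    rintro c b ⟨E, h, hm⟩
    obtain ⟨E', h'⟩ := hB'B c c.2
    have e : u ^ (E' + E) * ((c • b : B') : F) = (u ^ E' * (c : F)) * (u ^ E * (b : F)) := by
      rw [smul_eq_mul, MulMemClass.coe_mul, pow_add]; ring
    refine ⟨E' + E, e ▸ mul_mem h' h, ?_⟩
    convert m.mul_mem_left ⟨_, h'⟩ hm using 1
    exact Subtype.ext e

variable {hu : u ∈ B} {hB'B : ∀ b ∈ B', ∃ E : ℕ, u ^ E * b ∈ B} {m : Ideal B}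

theorem mem_transIdeal {b : B'} :
    b ∈ transIdeal hu hB'B m ↔ ∃ (E : ℕ) (h : u ^ E * (b : F) ∈ B), (⟨_, h⟩ : B) ∈ m := Iff.rfl

variable [hm : m.IsPrime] (hum : (⟨u, hu⟩ : B) ∉ m)

include hum in
theorem mem_transIdeal_iff_of_mem {b : B'} {E : ℕ} (h : u ^ E * (b : F) ∈ B) :
    b ∈ transIdeal hu hB'B m ↔ (⟨_, h⟩ : B) ∈ m := by
  refine ⟨fun ⟨E', h', hm'⟩ => ?_, fun h' => ⟨E, h, h'⟩⟩
  have e : (⟨u, hu⟩ : B) ^ E' * ⟨_, h⟩ = ⟨u, hu⟩ ^ E * ⟨_, h'⟩ :=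
    Subtype.ext (by simp only [MulMemClass.coe_mul, SubmonoidClass.coe_pow]; ring)
  have h1 : (⟨u, hu⟩ : B) ^ E' * ⟨_, h⟩ ∈ m := e ▸ m.mul_mem_left _ hm'
  exact (hm.mem_or_mem h1).resolve_left fun h2 => hum (hm.mem_of_pow_mem _ h2)

include hum in
theorem isPrime_transIdeal : (transIdeal hu hB'B m).IsPrime := by
  refine ⟨fun htop => ?_, fun {a b} hab => ?_⟩
  · obtain ⟨E, h, h1⟩ := mem_transIdeal.1 ((Ideal.eq_top_iff_one _).1 htop)
    have e : (⟨_, h⟩ : B) = ⟨u, hu⟩ ^ E := Subtype.ext (by simp)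
    exact hum (hm.mem_of_pow_mem _ (e ▸ h1))
  · obtain ⟨E, h⟩ := hB'B a a.2
    obtain ⟨E', h'⟩ := hB'B b b.2
    have e : u ^ (E + E') * ((a * b : B') : F) = (u ^ E * (a : F)) * (u ^ E' * (b : F)) := by
      rw [MulMemClass.coe_mul, pow_add]; ring
    have h1 := (mem_transIdeal_iff_of_mem hum (E := E + E') (e ▸ mul_mem h h')).1 hab
    have e' : (⟨_, e ▸ mul_mem h h'⟩ : B) = ⟨_, h⟩ * ⟨_, h'⟩ := Subtype.ext e
    exact (hm.mem_or_mem (e' ▸ h1)).imp (fun h2 => ⟨E, h, h2⟩) fun h2 => ⟨E', h', h2⟩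

include hum in
theorem isMaximal_transIdeal [m.IsMaximal] (hw : w ∈ B') (hwu : w * u = 1)
    (hBB' : ∀ b ∈ B, ∃ E : ℕ, w ^ E * b ∈ B')
    (hc : ∃ c : W, (⟨u, hu⟩ : B) - algebraMap W B c ∈ m) : (transIdeal hu hB'B m).IsMaximal := by
  rw [Ideal.isMaximal_iff]
  refine ⟨fun h1 => (isPrime_transIdeal hum).ne_top ((Ideal.eq_top_iff_one _).2 h1),
    fun J b hle hb hbJ => ?_⟩
  obtain ⟨c, hc⟩ := hc
  obtain ⟨E, hβ⟩ := hB'B b b.2
  have hβm : (⟨_, hβ⟩ : B) ∉ m := fun h => hb ⟨E, hβ, h⟩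
  obtain ⟨γ, r, hr, hγ⟩ := Ideal.IsMaximal.exists_inv ‹m.IsMaximal› hβm
  obtain ⟨E', hγ'⟩ := hBB' γ γ.2
  set d : B' := algebraMap W B' (c ^ (E + E')) * ⟨_, hγ'⟩
  have hd : b * d - 1 ∈ transIdeal hu hB'B m := by
    have e : u ^ (E + E') * ((b * d - 1 : B') : F) =
        ((algebraMap W B c ^ (E + E') * γ * ⟨_, hβ⟩ - ⟨u, hu⟩ ^ (E + E') : B) : F) := by
      simp only [d, AddSubgroupClass.coe_sub, MulMemClass.coe_mul, OneMemClass.coe_one,
        SubmonoidClass.coe_pow, Subalgebra.coe_algebraMap, map_pow]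
      have h1 : w ^ E' * u ^ E' = 1 := by rw [← mul_pow, hwu, one_pow]
      rw [mul_sub, mul_one, pow_add u]
      linear_combination (u ^ E * (b : F) * algebraMap W F c ^ (E + E') * (γ : F)) * h1
    refine ⟨E + E', e.symm ▸ SetLike.coe_mem _, ?_⟩
    have h2 : (⟨u ^ (E + E') * ((b * d - 1 : B') : F), e.symm ▸ SetLike.coe_mem _⟩ : B) =
        algebraMap W B c ^ (E + E') * γ * ⟨_, hβ⟩ - ⟨u, hu⟩ ^ (E + E') := Subtype.ext e
    rw [h2]
    have h3 : algebraMap W B c ^ (E + E') - (⟨u, hu⟩ : B) ^ (E + E') ∈ m :=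
      Ideal.mem_of_dvd _ (sub_dvd_pow_sub_pow _ _ _) (by rw [← neg_sub]; exact neg_mem hc)
    rw [show algebraMap W B c ^ (E + E') * γ * ⟨_, hβ⟩ - (⟨u, hu⟩ : B) ^ (E + E') =
      (algebraMap W B c ^ (E + E') - ⟨u, hu⟩ ^ (E + E')) - algebraMap W B c ^ (E + E') * r from by
        linear_combination algebraMap W B c ^ (E + E') * hγ]
    exact sub_mem h3 (m.mul_mem_left _ hr)
  have h4 := sub_mem (J.mul_mem_right d hbJ) (hle hd)
  rwa [sub_sub_cancel] at h4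

variable (hw : w ∈ B') (hwu : w * u = 1) (hBB' : ∀ b ∈ B, ∃ E : ℕ, w ^ E * b ∈ B')

include hum hwu in
/-- The transfer of an element of the local ideal. -/
theorem mem_transIdeal_of_mem {z : B} (hz : z ∈ m) {E : ℕ} (h : w ^ E * (z : F) ∈ B') :
    (⟨_, h⟩ : B') ∈ transIdeal hu hB'B m := by
  have e : u ^ E * (w ^ E * (z : F)) = z := by
    rw [← mul_assoc, ← mul_pow, mul_comm u, hwu, one_pow, one_mul]
  refine ⟨E, by rw [e]; exact z.2, ?_⟩
  convert hz using 1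
  exact Subtype.ext e

include hum hwu in
/-- Two parameters on one chart give two on the other. -/
theorem transfer_generators {x y : B'}
    (hgen : ∀ z ∈ transIdeal hu hB'B m, ∃ s ∉ transIdeal hu hB'B m, s * z ∈ Ideal.span {x, y})
    {Ex Ey : ℕ} (hx : u ^ Ex * (x : F) ∈ B) (hy : u ^ Ey * (y : F) ∈ B)
    (hBB' : ∀ b ∈ B, ∃ E : ℕ, w ^ E * b ∈ B') :
    ∀ z ∈ m, ∃ s ∉ m, s * z ∈ Ideal.span {(⟨_, hx⟩ : B), ⟨_, hy⟩} := by
  intro z hz
  obtain ⟨E, hE⟩ := hBB' z z.2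
  obtain ⟨s, hs, hsz⟩ := hgen _ (mem_transIdeal_of_mem hum hwu hz hE)
  obtain ⟨a, b, hab⟩ := Ideal.mem_span_pair.1 hsz
  obtain ⟨Ea, ha⟩ := hB'B a a.2
  obtain ⟨Eb, hb⟩ := hB'B b b.2
  obtain ⟨Es, hs'⟩ := hB'B s s.2
  set N := Es + Ea + Eb + Ex + Ey
  refine ⟨⟨_, pow_mul_mem_mono hu (show Es ≤ N by omega) hs'⟩, fun h => hs ⟨_, _, h⟩, ?_⟩
  refine Ideal.mem_span_pair.2 ⟨⟨u, hu⟩ ^ (N + E - Ex - Ea) * ⟨_, ha⟩,
    ⟨u, hu⟩ ^ (N + E - Ey - Eb) * ⟨_, hb⟩, Subtype.ext ?_⟩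
  simp only [AddMemClass.coe_add, MulMemClass.coe_mul, SubmonoidClass.coe_pow]
  have e := congrArg (fun t : B' => u ^ (N + E) * (t : F)) hab
  simp only [AddMemClass.coe_add, MulMemClass.coe_mul] at e
  have h1 : u ^ (N + E - Ex - Ea) * u ^ Ea * u ^ Ex = u ^ (N + E) := by
    rw [← pow_add, ← pow_add]; congr 1; omega
  have h2 : u ^ (N + E - Ey - Eb) * u ^ Eb * u ^ Ey = u ^ (N + E) := by
    rw [← pow_add, ← pow_add]; congr 1; omega
  have h3 : u ^ (N + E) * w ^ E = u ^ N := by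
    rw [pow_add, mul_assoc, ← mul_pow, mul_comm u, hwu, one_pow, mul_one]
  linear_combination e + ((s : F) * (z : F)) * h3 + ((a : F) * (x : F)) * h1 +
    ((b : F) * (y : F)) * h2

include hum hwu hw in
/-- A branch through the point passes to the other chart. -/
theorem transfer_branch {a b : B'} {P : Ideal B'} (hP : P.IsPrime)
    (hPm : P ≤ transIdeal hu hB'B m) (ha : a ∈ P) (hb : b ∉ P)
    (hBB' : ∀ b ∈ B, ∃ E : ℕ, w ^ E * b ∈ B') {Ea Eb : ℕ} (ha' : u ^ Ea * (a : F) ∈ B)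
    (hb' : u ^ Eb * (b : F) ∈ B) :
    ∃ Q : Ideal B, Q.IsPrime ∧ Q ≤ m ∧ (⟨_, ha'⟩ : B) ∈ Q ∧ (⟨_, hb'⟩ : B) ∉ Q := by
  have hwn : (⟨w, hw⟩ : B') ∉ transIdeal hu hB'B m := by
    rintro ⟨E, h, hE⟩
    have h1 := pow_mul_mem_ideal hu m E.le_succ h hE
    have e : (⟨_, pow_mul_mem_mono hu E.le_succ h⟩ : B) = ⟨u, hu⟩ ^ E := Subtype.ext (by
      show u ^ E.succ * w = u ^ E
      rw [pow_succ, mul_assoc, mul_comm u w, hwu, mul_one])
    exact hum (hm.mem_of_pow_mem _ (e ▸ h1))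
  have hwP : (⟨w, hw⟩ : B') ∉ P := fun h => hwn (hPm h)
  haveI := hP
  refine ⟨transIdeal hw hBB' P, isPrime_transIdeal hwP, ?_, ?_, ?_⟩
  · rintro z ⟨E, h, hz⟩
    obtain ⟨E', h', hz'⟩ := hPm hz
    have e : (⟨u, hu⟩ : B) ^ E * ⟨_, h'⟩ = ⟨u, hu⟩ ^ E' * z := Subtype.ext (by
      simp only [MulMemClass.coe_mul, SubmonoidClass.coe_pow]
      have : w ^ E * u ^ E = 1 := by rw [← mul_pow, hwu, one_pow]
      linear_combination (u ^ E' * (z : F)) * this)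
    have h1 : (⟨u, hu⟩ : B) ^ E' * z ∈ m := e ▸ m.mul_mem_left _ hz'
    exact (hm.mem_or_mem h1).resolve_left fun h2 => hum (hm.mem_of_pow_mem _ h2)
  · refine ⟨Ea, ?_, ?_⟩
    · show w ^ Ea * (u ^ Ea * (a : F)) ∈ B'
      rw [← mul_assoc, ← mul_pow, hwu, one_pow, one_mul]
      exact a.2
    · convert ha using 1
      exact Subtype.ext (by
        show w ^ Ea * (u ^ Ea * (a : F)) = a
        rw [← mul_assoc, ← mul_pow, hwu, one_pow, one_mul])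
  · intro h
    have hmem : w ^ Eb * (u ^ Eb * (b : F)) ∈ B' := by
      rw [← mul_assoc, ← mul_pow, hwu, one_pow, one_mul]; exact b.2
    refine hb ?_
    have h1 := (mem_transIdeal_iff_of_mem hwP (b := (⟨_, hb'⟩ : B)) hmem).1 h
    convert h1 using 1
    exact Subtype.ext (by
      show (b : F) = w ^ Eb * (u ^ Eb * (b : F))
      rw [← mul_assoc, ← mul_pow, hwu, one_pow, one_mul])

include hum hw hwu hBB' in
/-- Smooth points and nodes pass between the charts. -/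
theorem semiPoint_transfer {π : W}
    (hpt : IsSmoothPoint B' π (transIdeal hu hB'B m) ∨ IsNodePoint B' π (transIdeal hu hB'B m)) :
    IsSmoothPoint B π m ∨ IsNodePoint B π m := by
  rcases hpt with ⟨x, P, hP, hPm, hπ, hxP, hx, hgen⟩ | ⟨x, y, u₀, hu₀, hxy, hx, hy, hgen, h1, h2⟩
  · obtain ⟨Ex, hx', hxm⟩ := hx
    have h0 : u ^ 0 * ((algebraMap W B' π : B') : F) ∈ B := by
      rw [pow_zero, one_mul, Subalgebra.coe_algebraMap]
      exact B.algebraMap_mem π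
    have e : (⟨_, h0⟩ : B) = algebraMap W B π := Subtype.ext (by
      show u ^ 0 * algebraMap W F π = algebraMap W F π
      rw [pow_zero, one_mul])
    obtain ⟨Q, hQ, hQm, hπQ, hxQ⟩ := transfer_branch hum hw hwu hP hPm hπ hxP hBB' h0 hx'
    refine Or.inl ⟨_, Q, hQ, hQm, e ▸ hπQ, hxQ, hxm, fun z hz => ?_⟩
    obtain ⟨s, hs, hsz⟩ := transfer_generators hum hwu hgen h0 hx' hBB' z hz
    exact ⟨s, hs, e ▸ hsz⟩
  · obtain ⟨Ex, hx', hxm⟩ := hx
    obtain ⟨Ey, hy', hym⟩ := hy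
    obtain ⟨Eu, hu'⟩ := hB'B u₀ u₀.2
    have hle : Ey ≤ Ey + Eu := Nat.le_add_right _ _
    have hy'' := pow_mul_mem_mono hu hle hy'
    have hu'' := pow_mul_mem_mono hu (show Eu ≤ Ex + (Ey + Eu) by omega) hu'
    refine Or.inr ⟨⟨_, hx'⟩, ⟨_, hy''⟩, ⟨_, hu''⟩, fun h => hu₀ ⟨_, _, h⟩, Subtype.ext ?_, hxm,
      pow_mul_mem_ideal hu m hle hy' hym, transfer_generators hum hwu hgen hx' hy'' hBB', ?_, ?_⟩
    · have h := congrArg (fun t : B' => (t : F)) hxy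
      simp only [MulMemClass.coe_mul, Subalgebra.coe_algebraMap] at h
      simp only [MulMemClass.coe_mul, Subalgebra.coe_algebraMap]
      linear_combination (u ^ (Ex + (Ey + Eu))) * h
    · obtain ⟨P, hP, hPm, hxP, hyP⟩ := h1
      exact transfer_branch hum hw hwu hP hPm hxP hyP hBB' hx' hy''
    · obtain ⟨P, hP, hPm, hyP, hxP⟩ := h2
      exact transfer_branch hum hw hwu hP hPm hyP hxP hBB' hy'' hx'

end Fermat.Agent.Models
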