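/-
Charts with smooth points and nodes and exactly two components: the branches at the points, and
monomials at the nodes.
-/
import Fermat.Agent.Models.SemiBranch

set_option autoImplicit false
set_option linter.style.haveILetI false
set_option linter.unusedSectionVars false

noncomputable section

namespace Fermat.Agent.Models

open IsLocalRing

variable {W F : Type} [CommRing W] [IsDomain W] [IsDiscreteValuationRing W] [Field F] [Algebra W F]
  {π : W} {P : Bool → ValuationSubring F} {B : Subalgebra W F} (hf : ChartFibre B π P)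
  (hpts : SemiPoints B π) (hu : ∀ i, algebraMap W F π ∈ (P i).nonunits)
  (hmax : ∀ i, ¬ (center hf i).IsMaximal) (hπ0 : algebraMap W F π ≠ 0)
  (hc : Function.Injective (center hf))

/-- A crossing with `x` along `P true` and `y` along `P false`. -/
structure IsNodeTwo (hf : ChartFibre B π P) (m : Ideal B) (x y u : B) : Prop where
  centre : ∀ i, center hf i ≤ m
  u_notMem : u ∉ m
  mul_eq : x * y = algebraMap W B π * u
  x_mem : x ∈ m
  y_mem : y ∈ m
  x_true : x ∈ center hf true
  x_false : x ∉ center hf false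
  y_false : y ∈ center hf false
  y_true : y ∉ center hf true
  gen : ∀ z ∈ m, ∃ s ∉ m, s * z ∈ Ideal.span {x, y}

/-- A point on the component `i` only. -/
structure IsSmoothTwo (hf : ChartFibre B π P) (i : Bool) (m : Ideal B) : Prop where
  centre : center hf i ≤ m
  other : ¬ center hf (!i) ≤ m
  param : ∃ x : B, x ∈ m ∧ x ∉ center hf i ∧
    ∀ z ∈ m, ∃ s ∉ m, s * z ∈ Ideal.span {algebraMap W B π, x}

include hf hu hc hπ0 hmax hpts in
/-- The two kinds of points. -/
theorem semiTwo_cases {m : Ideal B} (hm : m.IsMaximal) (hπm : algebraMap W B π ∈ m) :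
    (∃ i, IsSmoothTwo hf i m) ∨ ∃ x y u, IsNodeTwo hf m x y u := by
  haveI := hm.isPrime
  haveI := hf.noetherian
  have hnot : ∀ {Q : Ideal B}, Q.IsPrime → Q ≤ m → Q ≠ m → ¬ Q.IsMaximal := fun hQ hle hne hQm =>
    hne (hQm.eq_of_le hm.ne_top hle)
  rcases hpts m hm hπm with ⟨x, Q, hQ, hQm, hπQ, hxQ, hxm, hgen⟩ |
    ⟨x, y, u, hu', hxy, hxm, hym, hgen, ⟨Q, hQ, hQm, hxQ, hyQ⟩, Q', hQ', hQ'm, hyQ', hxQ'⟩
  · left
    haveI := hQ
    obtain ⟨i, hi⟩ := exists_center_eq hf hπQ (hnot hQ hQm fun h => hxQ (h ▸ hxm))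
    refine ⟨i, hi ▸ hQm, fun hle => ?_, x, hxm, hi ▸ hxQ, hgen⟩
    let R := Localization.AtPrime m
    haveI : IsNoetherianRing R :=
      IsLocalization.isNoetherianRing m.primeCompl (Localization.AtPrime m) inferInstance
    have hmR := maximalIdeal_eq_span_pair m hπm hxm hgen
    have key : ∀ j, center hf j ≤ m →
        (center hf j).map (algebraMap B R) = Ideal.span {algebraMap B R (algebraMap W B π)} := by
      intro j hj
      have hd : Disjoint (m.primeCompl : Set B) (center hf j : Set B) :=
        Set.disjoint_left.mpr fun w hw hwc => hw (hj hwc)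
      haveI := IsLocalization.isPrime_of_isPrime_disjoint m.primeCompl R (center hf j)
        (center_isPrime j) hd
      refine eq_span_of_ne_maximal hmR (Ideal.mem_map_of_mem _ (mem_center.mpr (hu j))) fun h => ?_
      refine hmax j ?_
      rw [← IsLocalization.under_map_of_isPrime_disjoint m.primeCompl R (center_isPrime j) hd, h]
      first
      | rwa [IsLocalization.AtPrime.comap_maximalIdeal R m]
      | (rw [← Ideal.under_def, IsLocalization.AtPrime.under_maximalIdeal R m]; exact hm)
    have hdj : ∀ j, center hf j ≤ m → Disjoint (m.primeCompl : Set B) (center hf j : Set B) :=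
      fun j hj => Set.disjoint_left.mpr fun w hw hwc => hw (hj hwc)
    have heq : center hf i = center hf (!i) := by
      rw [← IsLocalization.under_map_of_isPrime_disjoint m.primeCompl R (center_isPrime i)
        (hdj i (hi ▸ hQm)), key i (hi ▸ hQm), ← key (!i) hle,
        IsLocalization.under_map_of_isPrime_disjoint m.primeCompl R (center_isPrime (!i))
          (hdj _ hle)]
    exact absurd (hc heq) (by simp)
  · right
    haveI := hQ
    haveI := hQ'
    have hπQ : ∀ {S : Ideal B}, S.IsPrime → S ≤ m → (x ∈ S ∨ y ∈ S) → algebraMap W B π ∈ S := by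
      intro S hS hSm h
      have : algebraMap W B π * u ∈ S := hxy ▸ h.elim (S.mul_mem_right _) (S.mul_mem_left _)
      exact (hS.mem_or_mem this).resolve_right fun h => hu' (hSm h)
    obtain ⟨i, hi⟩ := exists_center_eq hf (hπQ hQ hQm (Or.inl hxQ))
      (hnot hQ hQm fun h => hyQ (h ▸ hym))
    obtain ⟨j, hj⟩ := exists_center_eq hf (hπQ hQ' hQ'm (Or.inr hyQ'))
      (hnot hQ' hQ'm fun h => hxQ' (h ▸ hxm))
    subst hi hj
    cases i <;> cases j
    · exact absurd hyQ' hyQ
    · refine ⟨y, x, u, fun k => ?_, hu', (mul_comm y x).trans hxy, hym, hxm, hyQ', hyQ, hxQ, hxQ',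
        fun z hz => by rw [Set.pair_comm]; exact hgen z hz⟩
      cases k <;> assumption
    · refine ⟨x, y, u, fun k => ?_, hu', hxy, hxm, hym, hxQ, hxQ', hyQ', hyQ, hgen⟩
      cases k <;> assumption
    · exact absurd hyQ' hyQ

set_option synthInstance.maxHeartbeats 200000 in
/-- Two functions with product a power of `π` are monomials at a node. -/
theorem IsNodeTwo.monomial {m : Ideal B} [m.IsPrime] {x y u : B} (h : IsNodeTwo hf m x y u)
    (hπ0 : algebraMap W F π ≠ 0) {a b : B} {N : ℕ}
    (hab : a * b = algebraMap W B π ^ N)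
    (ha : IsU (P true) (a : F)) (hb : IsU (P false) (b : F)) :
    ∃ c d : B, c ∉ m ∧ d ∉ m ∧ c * a = d * y ^ N := by
  haveI := hf.noetherian
  have hπB : algebraMap W B π ≠ 0 := fun e => hπ0 (congrArg Subtype.val e)
  let R := Localization.AtPrime m
  haveI : IsNoetherianRing R :=
    IsLocalization.isNoetherianRing m.primeCompl (Localization.AtPrime m) inferInstance
  have hinj : Function.Injective (algebraMap B R) :=
    IsLocalization.injective R m.primeCompl_le_nonZeroDivisors
  have hxy0 : x * y ≠ 0 := h.mul_eq ▸ mul_ne_zero hπB fun h0 => h.u_notMem (h0 ▸ zero_mem m)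
  have hR := maximalIdeal_eq_span_pair m h.x_mem h.y_mem h.gen
  obtain ⟨Q, hQ, hxQ, hyQ⟩ := exists_prime_localization m (h.centre true) h.x_true h.y_true
  obtain ⟨Q', hQ', hyQ', hxQ'⟩ := exists_prime_localization m (h.centre false) h.y_false h.x_false
  have hx := prime_of_two_generated hR ((map_ne_zero_iff _ hinj).mpr (left_ne_zero_of_mul hxy0))
    Q hxQ hyQ
  have hy := prime_of_two_generated (hR.trans (congrArg Ideal.span (Set.pair_comm _ _)))
    ((map_ne_zero_iff _ hinj).mpr (right_ne_zero_of_mul hxy0)) Q' hyQ' hxQ'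
  haveI : UniqueFactorizationMonoid R :=
    ufm_of_two_generated hR ((map_ne_zero_iff _ hinj).mpr (left_ne_zero_of_mul hxy0)) Q hxQ hyQ
  have hu : IsUnit (algebraMap B R u) :=
    IsLocalization.map_units R (⟨u, h.u_notMem⟩ : m.primeCompl)
  have hd : algebraMap B R a ∣ algebraMap B R x ^ N * algebraMap B R y ^ N := by
    refine ⟨algebraMap B R b * algebraMap B R u ^ N, ?_⟩
    simp only [← map_pow, ← map_mul]
    congr 1
    rw [← mul_pow, h.mul_eq, ← mul_assoc, hab, mul_pow]
  obtain ⟨a₁, a₂, ha₁, ha₂, hae⟩ :=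
    DecompositionMonoid.primal (α := R) (algebraMap B R a) hd
  obtain ⟨i, -, hi⟩ := (dvd_prime_pow hx N).mp ha₁
  obtain ⟨k, -, hk⟩ := (dvd_prime_pow hy N).mp ha₂
  obtain ⟨w, hw⟩ : Associated (algebraMap B R x ^ i * algebraMap B R y ^ k) (algebraMap B R a) := by
    rw [hae]; exact (hi.mul_mul hk).symm
  obtain ⟨d₀, s, hds⟩ := IsLocalization.exists_mk'_eq m.primeCompl (w : R)
  have hd₀ : d₀ ∉ m := fun hm' => by
    have h1 := (IsLocalization.AtPrime.mk'_mem_maximal_iff R m d₀ s).mpr hm'
    rw [hds] at h1
    exact (maximalIdeal.isMaximal R).ne_top (Ideal.eq_top_of_isUnit_mem _ h1 w.isUnit)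
  have e : (s : B) * a = d₀ * (x ^ i * y ^ k) := hinj (by
    rw [map_mul, map_mul, ← hw, ← hds, ← IsLocalization.mk'_spec R d₀ s, map_mul, map_pow, map_pow]
    ring)
  have hsU : ∀ j, IsU (P j) ((s : B) : F) := fun j =>
    isU_of_notMem_center fun h' => s.2 (h.centre j h')
  have hdU : ∀ j, IsU (P j) (d₀ : F) := fun j =>
    isU_of_notMem_center fun h' => hd₀ (h.centre j h')
  have eF : ((s : B) : F) * (a : F) = (d₀ : F) * ((x : F) ^ i * (y : F) ^ k) := congrArg Subtype.val e
  -- no power of `x`
  have hi0 : i = 0 := by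
    by_contra hi0
    refine ((hsU true).mul ha).2 ?_
    rw [eF]
    refine rs_eq_zero_of_nonunit ?_
    obtain ⟨i', rfl⟩ := Nat.exists_eq_succ_of_ne_zero hi0
    rw [ValuationSubring.mem_nonunits_iff, map_mul, map_mul, map_pow, map_pow, pow_succ]
    have hle : ∀ b : B, (P true).valuation (b : F) ≤ 1 := fun b =>
      (ValuationSubring.valuation_le_one_iff _ _).mpr (hf.le true b b.2)
    have hxv : (P true).valuation (x : F) < 1 := (P true).mem_nonunits_iff.mp (mem_center.mp h.x_true)
    exact (mul_le_of_le_one_left' (hle d₀)).trans_lt ((mul_le_of_le_one_right'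
      (pow_le_one₀ zero_le' (hle y))).trans_lt
        ((mul_le_of_le_one_left' (pow_le_one₀ zero_le' (hle x))).trans_lt hxv))
  subst hi0
  refine ⟨s, d₀, s.2, hd₀, ?_⟩
  rw [e, pow_zero, one_mul]
  congr 1
  -- the exponent of `y`
  have habF : (a : F) * (b : F) = algebraMap W F π ^ N := by
    have := congrArg Subtype.val hab
    simpa using this
  have hxyF : (x : F) * (y : F) = algebraMap W F π * (u : F) := by
    have := congrArg Subtype.val h.mul_eq
    simpa using this
  have hval : ∀ {z : F}, IsU (P false) z → (P false).valuation z = 1 := fun {z} hz => by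
    obtain ⟨h0, h1, h2⟩ := isU_iff.mp hz
    refine le_antisymm ((ValuationSubring.valuation_le_one_iff _ _).mpr h1) ?_
    have h3 := (ValuationSubring.valuation_le_one_iff _ _).mpr h2
    rw [map_inv₀] at h3
    exact (inv_le_one₀ (zero_lt_iff.mpr ((_root_.map_ne_zero _).mpr h0))).mp h3
  have hxv := hval (isU_of_notMem_center h.x_false)
  have huv := hval (isU_of_notMem_center fun h' => h.u_notMem (h.centre false h'))
  set p := (P false).valuation (algebraMap W F π)
  have hp0 : p ≠ 0 := (_root_.map_ne_zero _).mpr hπ0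
  have hp1 : p < 1 := (P false).mem_nonunits_iff.mp (by
    have := mem_center.mp h.y_false
    rw [ValuationSubring.mem_nonunits_iff] at this ⊢
    have e1 := congrArg (P false).valuation hxyF
    rw [map_mul, map_mul, hxv, huv, one_mul, mul_one] at e1
    exact e1 ▸ this)
  have hyv : (P false).valuation (y : F) = p := by
    have e1 := congrArg (P false).valuation hxyF
    rwa [map_mul, map_mul, hxv, huv, one_mul, mul_one] at e1
  have hav : (P false).valuation (a : F) = p ^ N := by
    have e1 := congrArg (P false).valuation habF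
    rwa [map_mul, hval hb, mul_one, map_pow] at e1
  have e2 := congrArg (P false).valuation eF
  rw [map_mul, map_mul, hval (hsU false), hval (hdU false), one_mul, one_mul, pow_zero, one_mul,
    map_pow, hyv, hav] at e2
  rcases lt_trichotomy N k with hlt | heq | hgt
  · exact absurd e2 (pow_lt_pow_right_of_lt_one₀ (zero_lt_iff.mpr hp0) hp1 hlt).ne'
  · rw [heq]
  · exact absurd e2 (pow_lt_pow_right_of_lt_one₀ (zero_lt_iff.mpr hp0) hp1 hgt).ne

end Fermat.Agent.Models
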