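/-
Roots at all points of a chart are inherited by products of conjugates: if the embeddings `κ i`
are integral over the embedding `ι` on the chart, roots of `f` give roots of the element under
`∏ i, κ i f`.
-/
import Fermat.Agent.Models.CoreBasic
import Fermat.Agent.Models.CoreExtend
import Mathlib

set_option autoImplicit false
set_option linter.style.haveILetI false
set_option linter.unusedSectionVars false

noncomputable section

namespace Fermat.Agent.Models

variable {O F : Type} [CommRing O] [Field F] [Algebra O F] {B : Subalgebra O F} {n : ℕ}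

/-- Roots at finitely many closed points are given by one section off all of them. -/
theorem exists_semilocal_root (hB : RootClosed B n) (hn : 0 < n) {f : F} (hf : f ≠ 0)
    {T : Set (Ideal B)} (hT : T.Finite) (hmax : ∀ Q ∈ T, Q.IsMaximal)
    (hroots : ∀ Q ∈ T, HasRootAt B n f Q) :
    ∃ (X : F) (u : B), (∀ Q ∈ T, u ∉ Q) ∧ X ^ n = (u : F) * f := by
  classical
  obtain ⟨k, rfl⟩ : ∃ k, n = k + 1 := ⟨n - 1, (Nat.sub_add_cancel hn).symm⟩
  haveI : Fintype T := hT.fintype
  have hloc : ∀ I : T, ∃ x y : F, x ∈ rootModule hB hn f ∧ y ∈ rootModule hB hn f⁻¹ ∧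
      ∀ p : B, (p : F) = x * y → p ∉ (I : Ideal B) := by
    intro I
    haveI := hmax _ I.2
    obtain ⟨h, a, b, ha, hb, he⟩ := hroots _ I.2
    change (b : F) * h ^ (k + 1) = (a : F) * f at he
    have hh : h ≠ 0 := by
      rintro rfl
      rw [zero_pow k.succ_ne_zero, mul_zero, eq_comm, mul_eq_zero] at he
      exact ha (by rw [show a = 0 from Subtype.ext (he.resolve_right hf)]; exact zero_mem _)
    refine ⟨b * h, a * h⁻¹, ?_, ?_, fun p hp hpI => ?_⟩
    · rw [mem_rootModule, show ((b : F) * h) ^ (k + 1) / f = (b : F) ^ k * (a : F) by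
        rw [div_eq_iff hf, mul_assoc, ← he]; ring]
      exact mul_mem (pow_mem b.2 k) a.2
    · rw [mem_rootModule, show ((a : F) * h⁻¹) ^ (k + 1) / f⁻¹ = (a : F) ^ k * (b : F) by
        rw [mul_pow, inv_pow, div_inv_eq_mul, pow_succ (a : F) k]
        field_simp
        linear_combination -((a : F) ^ k) * he]
      exact mul_mem (pow_mem a.2 k) b.2
    · rw [show p = b * a from Subtype.ext (by rw [hp, MulMemClass.coe_mul]; field_simp)] at hpI
      exact (Ideal.IsPrime.mem_or_mem inferInstance hpI).elim hb ha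
  choose x y hx hy hxy using hloc
  have hcop : Pairwise fun i j : T => IsCoprime (i : Ideal B) (j : Ideal B) := fun i j hij =>
    Ideal.isCoprime_iff_sup_eq.mpr
      ((hmax _ i.2).coprime_of_ne (hmax _ j.2) fun e => hij (Subtype.ext e))
  choose e he using fun I : T => Ideal.exists_forall_sub_mem_ideal hcop
    (fun J => if J = I then (1 : B) else 0)
  set X := ∑ I : T, (e I : F) * x I
  set Y := ∑ I : T, (e I : F) * y I
  have hX : X ∈ rootModule hB hn f := sum_mem fun I _ => mul_left_mem (e I).2 (hx I)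
  have hY : Y ∈ rootModule hB hn f⁻¹ := sum_mem fun I _ => mul_left_mem (e I).2 (hy I)
  have hP : X * Y ∈ B := mul_mem_of_inv hf hX hY
  have hPI : ∀ I : T, (⟨X * Y, hP⟩ : B) ∉ (I : Ideal B) := by
    intro I hPm
    let z : T → T → B := fun I₁ I₂ => ⟨x I₁ * y I₂, mul_mem_of_inv hf (hx I₁) (hy I₂)⟩
    have hsum : (⟨X * Y, hP⟩ : B) = ∑ I₁ : T, ∑ I₂ : T, e I₁ * e I₂ * z I₁ I₂ := Subtype.ext (by
      simp only [X, Y, z, AddSubmonoidClass.coe_finsetSum, MulMemClass.coe_mul, Finset.sum_mul]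
      simp only [Finset.mul_sum]
      exact Finset.sum_congr rfl fun _ _ => Finset.sum_congr rfl fun _ _ => by ring)
    have hne : ∀ I₁, I₁ ≠ I → e I₁ ∈ (I : Ideal B) := fun I₁ h => by
      simpa [Ne.symm h] using he I₁ I
    have hself : e I - 1 ∈ (I : Ideal B) := by simpa using he I I
    refine hxy I (z I I) rfl ((Ideal.Quotient.eq_zero_iff_mem).mp ?_)
    have h0 : Ideal.Quotient.mk (I : Ideal B) (⟨X * Y, hP⟩ : B) = 0 :=
      Ideal.Quotient.eq_zero_iff_mem.mpr hPm
    rw [hsum, map_sum, Finset.sum_eq_single I (fun I₁ _ h => ?_)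
        (fun h => absurd (Finset.mem_univ _) h),
      map_sum, Finset.sum_eq_single I (fun I₂ _ h => ?_) (fun h => absurd (Finset.mem_univ _) h),
      map_mul, map_mul, (Ideal.Quotient.eq (I := (I : Ideal B))).mpr hself, map_one, one_mul,
      one_mul] at h0
    · exact h0
    · exact Ideal.Quotient.eq_zero_iff_mem.mpr
        (Ideal.mul_mem_right _ _ (Ideal.mul_mem_left _ _ (hne I₂ h)))
    · exact Ideal.Quotient.eq_zero_iff_mem.mpr (Ideal.sum_mem _ fun I₂ _ =>
        Ideal.mul_mem_right _ _ (Ideal.mul_mem_right _ _ (hne I₁ h)))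
  let u : B := ⟨X ^ (k + 1) / f, hX⟩
  let v : B := ⟨Y ^ (k + 1) / f⁻¹, hY⟩
  have huv : u * v = (⟨X * Y, hP⟩ : B) ^ (k + 1) := Subtype.ext (by
    rw [MulMemClass.coe_mul, SubmonoidClass.coe_pow, mul_pow]
    show X ^ (k + 1) / f * (Y ^ (k + 1) / f⁻¹) = _
    field_simp)
  refine ⟨X, u, fun Q hQ huQ => hPI ⟨Q, hQ⟩ ?_, (div_mul_cancel₀ _ hf).symm⟩
  exact (hmax Q hQ).isPrime.mem_of_pow_mem (k + 1) (huv ▸ Q.mul_mem_right v huQ)

variable {L I : Type} [Field L] [Algebra O L] [Fintype I] {ι : F →ₐ[O] L} {κ : I → F →ₐ[O] L}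

/-- Roots of `f` at all points give roots of the transfer of `f` at every closed point. -/
theorem hasRootAt_transfer_of_integral (hn : 0 < n) (hclosed : ∀ x : F, IsIntegral B x → x ∈ B)
    (hfrac : IsFractionRing B F) (hfg : B.FG)
    (hint : ∀ i, ∀ b ∈ B, ((ι.comp B.val : B →ₐ[O] L) : B →+* L).IsIntegralElem (κ i b))
    (hprod : ∀ b ∈ B, ∃ z : F, ι z = ∏ i, κ i b)
    {f g : F} (hf : f ≠ 0) (hg : ι g = ∏ i, κ i f)
    (hroots : ∀ Q : Ideal B, Q.IsMaximal → HasRootAt B n f Q) {m : Ideal B} (hm : m.IsMaximal) :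
    HasRootAt B n g m := by
  classical
  haveI := hm
  letI : Algebra B L := ((ι.comp B.val : B →ₐ[O] L) : B →+* L).toAlgebra
  haveI : IsScalarTower O B L := IsScalarTower.of_algebraMap_eq fun c =>
    ((ι.comp B.val).commutes c).symm
  have halg : ∀ b : B, algebraMap B L b = ι (b : F) := fun _ => rfl
  obtain ⟨s, hs⟩ := hfg
  have hsB : ∀ x ∈ s, x ∈ B := fun x hx => hs ▸ Algebra.subset_adjoin hx
  let G : Set L := ⋃ i, (fun x => κ i x) '' (s : Set F)
  have hGfin : G.Finite := Set.finite_iUnion fun i => s.finite_toSet.image _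
  have hGint : ∀ x ∈ G, IsIntegral B x := by
    intro x hx
    obtain ⟨i, z, hz, rfl⟩ := Set.mem_iUnion.mp hx
    exact hint i z (hsB z hz)
  set S := Algebra.adjoin B G with hS
  haveI : Module.Finite B S :=
    Module.Finite.iff_fg.mpr (fg_adjoin_of_finite hGfin hGint)
  haveI : Algebra.IsIntegral B S := Algebra.IsIntegral.of_finite B S
  have hκS : ∀ i, ∀ b : B, κ i (b : F) ∈ S := by
    intro i b
    have hle : Algebra.adjoin O (s : Set F) ≤ (S.restrictScalars O).comap (κ i) :=
      Algebra.adjoin_le fun x hx =>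
        Algebra.subset_adjoin (Set.mem_iUnion.mpr ⟨i, x, hx, rfl⟩)
    exact hle ((SetLike.ext_iff.mp hs (b : F)).mpr b.2)
  let κS : I → B →+* S := fun i =>
    (((κ i).comp B.val : B →ₐ[O] L) : B →+* L).codRestrict S.toSubring (hκS i)
  -- the finitely many closed points
  haveI : Finite (m.primesOver S) := (Algebra.QuasiFinite.finite_primesOver m).to_subtype
  have hne : ∀ z : I × m.primesOver S, ∃ Q : Ideal B, Q.IsMaximal ∧
      (z.2 : Ideal S).comap (κS z.1) ≤ Q := fun z =>
    Ideal.exists_le_maximal _ (by haveI := z.2.2.1; exact Ideal.IsPrime.ne_top inferInstance)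
  choose Q hQmax hQle using hne
  obtain ⟨X, u, hu, hXu⟩ := exists_semilocal_root (rootClosed_of_isIntegral hn hclosed) hn hf
    (T := Set.range Q) (Set.finite_range Q) (by rintro _ ⟨z, rfl⟩; exact hQmax z)
    (by rintro _ ⟨z, rfl⟩; exact hroots _ (hQmax z))
  -- products
  have hP : ∀ x : F, ∃ z : F, ι z = ∏ i, κ i x := fun x => by
    obtain ⟨a, b, -, rfl⟩ := IsFractionRing.div_surjective (A := B) (K := F) x
    obtain ⟨za, hza⟩ := hprod _ a.2
    obtain ⟨zb, hzb⟩ := hprod _ b.2
    exact ⟨za / zb, by simp [hza, hzb, Finset.prod_div_distrib]⟩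
  obtain ⟨h, hh⟩ := hP X
  obtain ⟨a, ha⟩ := hP (u : F)
  have haB : a ∈ B := by
    refine hclosed a ?_
    have : IsIntegral B (ι a) := by
      rw [ha]
      exact IsIntegral.prod _ fun i _ => hint i _ u.2
    exact (isIntegral_algHom_iff (R := B)
      ({ (ι : F →+* L) with commutes' := fun _ => rfl } : F →ₐ[B] L) ι.toRingHom.injective).mp this
  refine ⟨h, ⟨a, haB⟩, 1, fun ham => ?_, fun h1 => hm.ne_top ((Ideal.eq_top_iff_one _).mpr h1), ?_⟩
  · obtain ⟨M', -, hM', hM'm⟩ := Ideal.exists_ideal_over_prime_of_isIntegral m (⊥ : Ideal S) (by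
      intro z hz
      rw [Ideal.mem_comap, Ideal.mem_bot] at hz
      have : ι (z : F) = 0 := congrArg Subtype.val hz
      rw [map_eq_zero] at this
      rw [show z = 0 from Subtype.ext this]
      exact zero_mem m)
    haveI := hM'
    have hmem : (∏ i, κS i u) ∈ M' := by
      have h1 : algebraMap B S ⟨a, haB⟩ ∈ M' := by
        rw [← hM'm] at ham; exact ham
      convert h1 using 1
      refine Subtype.ext ?_
      rw [SubmonoidClass.coe_finsetProd]
      exact ha.symm
    obtain ⟨i, -, hi⟩ := (Ideal.IsPrime.prod_mem_iff (hp := hM')).mp hmem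
    exact hu _ ⟨(i, ⟨M', hM', ⟨hM'm.symm⟩⟩), rfl⟩ (hQle _ hi)
  · rw [map_one, one_mul]
    refine ι.toRingHom.injective ?_
    show ι (h ^ n) = ι (a * g)
    rw [map_pow, map_mul, hh, ha, hg, ← Finset.prod_pow, ← Finset.prod_mul_distrib]
    exact Finset.prod_congr rfl fun i _ => by rw [← map_pow, hXu, map_mul]

end Fermat.Agent.Models
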