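/-
A global root, up to a bounded exponent and a constant, of a function which has roots everywhere and
targets on the components with common values at the crossing points.
-/
import Fermat.Agent.Models.FrobNode

set_option autoImplicit false

noncomputable section

namespace Fermat.Agent.Models

open IsLocalRing

variable {O F : Type} [CommRing O] [IsDomain O] [IsDiscreteValuationRing O] [Field F] [Algebra O F]
  {ι : Type} {π : O} {P : ι → ValuationSubring F}

/-- At `x` the targets `T` have a common value after division by a local root of `g`. -/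
def CommonValueAt {B : Subalgebra O F} (hf : ChartFibre B π P) (n : ℕ) (g : F) (T : ι → F)
    (x : Ideal B) : Prop :=
  ∃ (S : F) (v c : ResidueField O), S ≠ 0 ∧ v ≠ 0 ∧ HasValue x (g / S ^ n) v ∧
    ∀ l, center hf l ≤ x → ∃ Y : F, HasValue x Y c ∧ IsU (P l) (T l / S) ∧
      rs (P l) Y = rs (P l) (T l / S)

variable [Fintype ι] [Nonempty ι]

set_option maxHeartbeats 1000000 in
/-- A function with roots at all points and targets with common values at the crossing points is a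
power up to a constant and a bounded exponent. -/
theorem exists_targets_root (M : Model O F) (hπ : Irreducible π)
    (hinj : Function.Injective (algebraMap O F)) (q : ℕ) (hq : q.Prime)
    (hqπ : (q : O) ∈ maximalIdeal O) (hf₀ : ChartFibre M.B₀ π P) (hf₁ : ChartFibre M.B₁ π P)
    (hu : ∀ i, algebraMap O F π ∈ (P i).nonunits)
    (hN₀ : BranchNormal hf₀) (hN₁ : BranchNormal hf₁)
    (hc₀ : Function.Injective (center hf₀)) (hc₁ : Function.Injective (center hf₁)) :
    ∃ L : ℕ, ∀ (n : ℕ), 0 < n → IsUnit (n : O) → ∀ g : F, g ≠ 0 →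
      (∀ m : Ideal M.B₀, m.IsMaximal → HasRootAt M.B₀ n g m) →
      (∀ m : Ideal M.B₁, m.IsMaximal → HasRootAt M.B₁ n g m) →
      ∀ T : ι → F, (∀ i, IsU (P i) (T i ^ n / g) ∧ rs (P i) (T i ^ n / g) = 1) →
      (∀ x i j, IsPoint π x → center hf₀ i ≤ x → center hf₀ j ≤ x → i ≠ j →
        CommonValueAt hf₀ n g T x) →
      (∀ x i j, IsPoint π x → center hf₁ i ≤ x → center hf₁ j ≤ x → i ≠ j →
        CommonValueAt hf₁ n g T x) →
      ∃ (c : O) (h : F), algebraMap O F c ≠ 0 ∧ h ≠ 0 ∧ h ^ n = algebraMap O F c * g ^ (q ^ L) := by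
  classical
  let Bc : Bool → Subalgebra O F := fun t => bif t then M.B₁ else M.B₀
  have hf : ∀ t, ChartFibre (Bc t) π P := fun t => by cases t <;> assumption
  have hcl : ∀ t, ∀ x : F, IsIntegral (Bc t) x → x ∈ Bc t := fun t => by
    cases t
    · exact M.closed₀
    · exact M.closed₁
  have hN : ∀ t, BranchNormal (hf t) := fun t => by cases t <;> assumption
  have hcinj : ∀ t, Function.Injective (center (hf t)) := fun t => by cases t <;> assumption
  have hmem : ∀ (i : ι) (a : O), algebraMap O F a ∈ P i := algebraMap_mem_component (hf false)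
  choose Lc hLc using fun t => exists_conductor_exponent (hf t)
  set L := Finset.univ.sup Lc
  refine ⟨L, fun n hn hnO g hg0 h₀ h₁ T hT hX₀ hX₁ => ?_⟩
  have hX : ∀ t x i j, IsPoint π x → center (hf t) i ≤ x → center (hf t) j ≤ x → i ≠ j →
      CommonValueAt (hf t) n g T x := fun t => by cases t <;> assumption
  have hroots : ∀ (t : Bool) (m : Ideal (Bc t)), m.IsMaximal → HasRootAt (Bc t) n g m := fun t => by
    cases t <;> assumption
  have hB : ∀ t, RootClosed (Bc t) n := fun t => rootClosed_of_isIntegral hn (hcl t)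
  set QL := q ^ L with hQL
  have hT'' : ∀ i, IsU (P i) ((T i ^ QL) ^ n / g ^ QL) ∧
      rs (P i) ((T i ^ QL) ^ n / g ^ QL) = 1 := fun i => by
    have h := (hT i).1.pow QL
    have h' := rs_pow (hT i).1.1 QL
    rw [(hT i).2, one_pow] at h'
    rw [div_pow, ← pow_mul, mul_comm n QL, pow_mul] at h h'
    exact ⟨h, h'⟩
  have hqU : ∀ i, (q : F) ∈ (P i).nonunits := fun i => by
    rw [hπ.maximalIdeal_eq, Ideal.mem_span_singleton] at hqπ
    obtain ⟨e, he⟩ := hqπ
    rw [← map_natCast (algebraMap O F), he, map_mul]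
    refine (rs_eq_zero ((P i).mul_mem _ _ (hmem i π) (hmem i e))).mp ?_
    rw [rs_mul (hmem i π) (hmem i e), rs_eq_zero_of_nonunit (hu i), zero_mul]
  -- common values at all points
  have hall : ∀ t x, IsPoint π x → CommonValueAt (hf t) n g T x := fun t x hx => by
    by_cases hex : ∃ i j, center (hf t) i ≤ x ∧ center (hf t) j ≤ x ∧ i ≠ j
    · obtain ⟨i, j, hi, hj, hij⟩ := hex
      exact hX t x i j hx hi hj hij
    obtain ⟨S, hS, v, hv, hgv⟩ := exists_local_root hn hπ (hf t) hx hg0 (hroots t x hx.1)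
    by_cases hone : ∃ i, center (hf t) i ≤ x
    · obtain ⟨i, hi⟩ := hone
      obtain ⟨c, -, y, hy, hzU, hyz⟩ :=
        exists_branch_value (hf t) hπ (hN t) hn hx hi (hT i) hv hgv
      refine ⟨S, v, c, hS, hv, hgv, fun l hl => ?_⟩
      obtain rfl : l = i := by
        by_contra hne
        exact hex ⟨l, i, hl, hi, hne⟩
      exact ⟨y, hy, hzU, hyz⟩
    · exact ⟨S, v, 0, hS, hv, hgv, fun l hl => absurd ⟨l, hl⟩ hone⟩
  -- the glued roots
  have hroot : ∀ t, ∃ s₀ ∈ rootModule (hB t) hn (g ^ QL),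
      (∀ i, s₀ / T i ^ QL ∈ P i ∧ rs (P i) (s₀ / T i ^ QL) = 1) ∧
        ∃ a ∈ Bc t, s₀ ^ n / g ^ QL = 1 + π • a := by
    intro t
    refine exists_glued_root (hB t) hn (hf t) hu hT'' fun x hx => ?_
    obtain ⟨S, v, c, hS0, hv, hgv, hY⟩ := hall t x hx
    obtain ⟨a₀, b₀, c₁, hb₀, he₀, hc₁, hm₀⟩ := hgv
    have ha₀ : a₀ ∉ x := HasValue.notMem hπ hx hb₀ hm₀ (hc₁ ▸ hv)
    have hroot₁ : (a₀ : F) * S ∈ rootModule (hB t) hn g := by
      rw [mem_rootModule]
      obtain ⟨m, rfl⟩ : ∃ m, n = m + 1 := ⟨n - 1, (Nat.sub_add_cancel hn).symm⟩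
      have e : ((a₀ : F) * S) ^ (m + 1) / g = (a₀ : F) ^ m * b₀ := by
        rw [div_eq_iff hg0, mul_pow, pow_succ (a₀ : F) m, ← he₀]
        field_simp
      rw [e]
      exact mul_mem (pow_mem a₀.2 m) b₀.2
    choose Y0 hY0 hzU hYz using hY
    let Y : ι → F := fun i => if h : center (hf t) i ≤ x then Y0 i h else 1
    obtain ⟨rr, bb, hbb, hrr⟩ := exists_local_lift hπ (hf t) hq hqU (L := Lc t) (N := L) (hLc t)
      ((Finset.le_sup (Finset.mem_univ t)).trans (Nat.lt_pow_self hq.one_lt).le) hx (y := Y) (c := c)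
      (fun i hi => by simp only [Y, dif_pos hi]; exact hY0 i hi)
      (fun i j _ hij _ => by rw [hcinj t hij])
    refine ⟨((a₀ : F) * S) ^ QL * (rr : F), ?_, a₀ ^ QL * bb, hx.1.isPrime.mul_notMem
      (fun h => ha₀ (hx.1.isPrime.mem_of_pow_mem _ h)) hbb, fun i hi => ?_⟩
    · rw [mul_comm _ (rr : F)]
      exact mul_left_mem rr.2 (pow_mem_rootModule hroot₁ QL)
    obtain ⟨hYi, hYr⟩ := hrr i hi
    simp only [Y, dif_pos hi] at hYi hYr
    have hzi := hzU i hi
    have hA := (hf t).le i a₀ a₀.2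
    have hR := (hf t).le i rr rr.2
    have hY0' : rs (P i) (Y0 i hi) ≠ 0 := hYz i hi ▸ hzi.2
    have e : ((a₀ : F) * S) ^ QL * (rr : F) / T i ^ QL =
        (a₀ : F) ^ QL * (rr : F) * ((T i / S) ^ QL)⁻¹ := by
      generalize T i = Ti
      rw [div_pow, inv_div, mul_pow]; ring
    push_cast
    rw [e, rs_mul ((P i).mul_mem _ _ (pow_mem hA _) hR) (hzi.pow QL).inv.1, (hzi.pow QL).rs_inv,
      rs_pow hzi.1, ← hYz i hi, rs_mul (pow_mem hA _) hR, hYr, ← hQL, rs_pow hYi,
      rs_mul (pow_mem hA _) ((hf t).le i bb bb.2)]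
    field_simp
  obtain ⟨s₀, hs₀', hsT₀, hu₀⟩ := hroot false
  obtain ⟨s₁, hs₁', hsT₁, hu₁⟩ := hroot true
  have hgD : g ^ QL ≠ 0 := pow_ne_zero _ hg0
  let C := M.toCharts hn
  have hext : IsExtendable C.root₀ hn (g ^ QL) :=
    isExtendable_of_forall hgD fun m hm =>
      @HasRootAt.pow _ _ _ _ _ n g m hm.isPrime (h₀ m hm) QL
  have hs01 : ∃ e ∈ rootModule C.root₀₁ hn (g ^ QL), s₀ - s₁ = π • e := by
    obtain ⟨k, x, y, hx, hy, hxy⟩ := hext
    have hd' : s₀ - s₁ ∈ rootModule C.root₀₁ hn (g ^ QL) :=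
      sub_mem (C.sec₀_le hn _ hs₀') (C.sec₁_le hn _ hs₁')
    have hpart : ∀ a, ∃ b ∈ M.B₀₁, (s₀ - s₁) * y a = π • b := fun a => by
      have hm : (s₀ - s₁) * y a ∈ M.B₀₁ :=
        mul_mem_of_inv (hB := C.root₀₁) (hn := hn) hgD hd'
          (rootModule_mono (hB' := C.root₀₁) C.le₀ (hy a))
      obtain ⟨E, hE⟩ := M.loc₀ _ hm
      obtain ⟨e, he, hee⟩ := hf₀.reduced _ hE fun i => by
        have hTi := hT'' i
        have hyT : y a * T i ^ QL ∈ P i := by
          refine mem_of_pow_mem hn ?_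
          have h1 : (y a * T i ^ QL) ^ n =
              (y a ^ n / (g ^ QL)⁻¹) * ((T i ^ QL) ^ n / g ^ QL) := by
            rw [mul_pow, div_inv_eq_mul]
            field_simp
          rw [h1]
          exact (P i).mul_mem _ _ (hf₀.le i _ (hy a)) hTi.1.1
        have hT0 : T i ^ QL ≠ 0 := fun h => hTi.1.ne_zero (by rw [h, zero_pow hn.ne', zero_div])
        have hw := hf₀.le i _ M.w_mem
        have h2 : M.w ^ E * ((s₀ - s₁) * y a) =
            (M.w ^ E * (y a * T i ^ QL)) * (s₀ / T i ^ QL - s₁ / T i ^ QL) := by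
          field_simp
        rw [h2]
        have hm1 := (P i).mul_mem _ _ (pow_mem hw E) hyT
        have hm2 : s₀ / T i ^ QL - s₁ / T i ^ QL ∈ P i := sub_mem (hsT₀ i).1 (hsT₁ i).1
        refine (rs_eq_zero ((P i).mul_mem _ _ hm1 hm2)).mp ?_
        rw [rs_mul hm1 hm2, rs_sub (hsT₀ i).1 (hsT₁ i).1, (hsT₀ i).2, (hsT₁ i).2, sub_self,
          mul_zero]
      refine ⟨M.w⁻¹ ^ E * e, mul_mem (pow_mem (M.le₁ M.w_inv_mem) E) (M.le₀ he), ?_⟩
      rw [← mul_smul_comm, ← hee, ← mul_assoc, ← mul_pow, inv_mul_cancel₀ M.w_ne, one_pow, one_mul]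
    choose b hb hbe using hpart
    refine ⟨∑ a, b a * x a, sum_mem fun a _ => mul_left_mem (hb a) (C.sec₀_le hn _ (hx a)), ?_⟩
    calc s₀ - s₁ = ∑ a, (s₀ - s₁) * y a * x a := by
          conv_lhs => rw [← mul_one (s₀ - s₁), ← hxy, Finset.mul_sum]
          exact Finset.sum_congr rfl fun a _ => by ring
      _ = π • ∑ a, b a * x a := by
          rw [Finset.smul_sum]
          exact Finset.sum_congr rfl fun a _ => by rw [hbe a, smul_mul_assoc]
  obtain ⟨ν, hν⟩ := hnO.exists_right_inv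
  have hπ0 : algebraMap O F π ≠ 0 := (map_ne_zero_iff _ hinj).mpr hπ.ne_zero
  refine C.exists_root hn hgD hext π ν hν hπ0 ?_ hs₀' hs₁' hu₀ hu₁ hs01
  rintro ⟨b, hb, hbe⟩
  obtain ⟨i⟩ := ‹Nonempty ι›
  have h1 := congrArg (rs (P i)) hbe
  rw [Algebra.smul_def, rs_mul (hmem i π) (hf₀.le i b hb), rs_eq_zero_of_nonunit (hu i), zero_mul,
    rs_one] at h1
  exact zero_ne_one h1

end Fermat.Agent.Models
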